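import Mathlib
import Fermat.Prelude.Def_HeckeGalois_EichlerShimura
import Fermat.Prelude.Def_FLTPrelim_Modularity

/-!
# The Eichler–Shimura package (interface between geometry and the Galois-representation glue)

`Fermat.Agent.ES.ESData M p V` is the list of properties of a finite `p`-torsion abelian group `V`
(e.g. `J₀(M)[p](ℚ̄)`) with an action of `G_ℚ` and of the Hecke polynomial ring
`ModularCurve.HeckeAlg = ℤ[T_ℓ : ℓ prime]` that the construction of the mod-`p` Galois
representation of a weight-2 eigenform of level `M` consumes (S29, S30, S42):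

* `frob`  : Eichler–Shimura relation `τ² − T_ℓ τ + ℓ = 0` on `V` for every Frobenius `τ` at every
            place over every prime `ℓ ∤ M p`;
* `unram` : inertia at places over `ℓ ∤ M p` acts trivially;
* `supp`  : for every normalized eigenform `g` of level `M` and every maximal ideal `𝔪 ∋ p` of `ℤ̄`,
            some nonzero `v ∈ V` is killed by every Hecke polynomial `t` in the good variables
            (`ℓ ∤ M p`) whose value at the eigensystem of `g` lies in `𝔪`.

`Fermat.Agent.ES.ESPkg M p` : such a `V` exists.  Any construction is allowed.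
-/

set_option autoImplicit false

namespace Fermat.Agent.ES

open ModularCurve

/-- the absolute Galois group of `ℚ` -/
abbrev GQ : Type := AlgebraicClosure ℚ ≃ₐ[ℚ] AlgebraicClosure ℚ

/-- the ring of algebraic integers inside `ℂ` -/
abbrev Zbar : Type := integralClosure ℤ ℂ

/-- the good Hecke variables at level `M` and residue characteristic `p` -/
def goodPrimes (M p : ℕ) : Set Nat.Primes := {ℓ | ¬ (ℓ : ℕ) ∣ M * p}

/-- the value of a Hecke polynomial on the system of `q`-coefficients of `g` -/
noncomputable def heckeValue {M : ℕ} (g : CuspForm (CongruenceSubgroup.Gamma0 M) 2)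
    (t : HeckeAlg) : ℂ :=
  MvPolynomial.aeval (fun ℓ : Nat.Primes => ModularFormClass.qCoeff g ℓ) t

/-- The Eichler–Shimura data on a `G_ℚ × Hecke`-module `V`. -/
structure ESData (M p : ℕ) (V : Type) [AddCommGroup V] [Module HeckeAlg V]
    [DistribMulAction GQ V] : Prop where
  /-- `V` is finite -/
  finite : Finite V
  /-- `V` is killed by `p` -/
  p_torsion : ∀ v : V, p • v = 0
  /-- Galois and Hecke commute -/
  smul_comm : ∀ (σ : GQ) (t : HeckeAlg) (v : V), σ • t • v = t • σ • v
  /-- every vector is fixed by an open subgroup -/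
  finite_level : ∀ v : V, ∃ E : IntermediateField ℚ (AlgebraicClosure ℚ),
    FiniteDimensional ℚ E ∧ ∀ σ : GQ, (∀ x ∈ E, σ x = x) → σ • v = v
  /-- Eichler–Shimura relation -/
  frob : ∀ ℓ : ℕ, (hℓ : ℓ.Prime) → ¬ ℓ ∣ M * p →
    ∀ A : ValuationSubring (AlgebraicClosure ℚ), A.LiesOverPrime ℓ →
      ∀ τ : GQ, A.IsFrobeniusAt τ ℓ →
        ∀ v : V, τ • τ • v - heckeGen ⟨ℓ, hℓ⟩ • (τ • v) + ℓ • v = 0
  /-- unramified outside `M p` -/
  unram : ∀ ℓ : ℕ, ℓ.Prime → ¬ ℓ ∣ M * p →
    ∀ A : ValuationSubring (AlgebraicClosure ℚ), A.LiesOverPrime ℓ →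
      ∀ σ ∈ A.inertiaSubgroupIn ℚ, ∀ v : V, σ • v = v
  /-- every eigensystem mod `𝔪` occurs in `V` -/
  supp : ∀ g : CuspForm (CongruenceSubgroup.Gamma0 M) 2, g.IsNormalizedEigenform →
    ∀ 𝔪 : Ideal Zbar, 𝔪.IsMaximal → (p : Zbar) ∈ 𝔪 →
      ∃ v : V, v ≠ 0 ∧ ∀ t ∈ MvPolynomial.supported ℤ (goodPrimes M p),
        (∃ z ∈ 𝔪, (z : ℂ) = heckeValue g t) → t • v = 0

/-- The Eichler–Shimura package exists at level `M` and residue characteristic `p`. -/
def ESPkg (M p : ℕ) : Prop :=
  ∃ (V : Type) (_ : AddCommGroup V) (_ : Module HeckeAlg V) (_ : DistribMulAction GQ V),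
    ESData M p V

end Fermat.Agent.ES
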