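import Mathlib
import Fermat.Agent.ES.Package

/-!
# The Eichler–Shimura package, `p`-adic form

`Fermat.Agent.ES.ESDataInf M p J`: the same list of properties as `ESData`, for a (big) abelian group
`J` with Galois and Hecke action (e.g. `J₀(M)(ℚ̄)`), all clauses being about the `p`-power torsion of
`J`.  It is the prelude's `ModularCurve.EichlerShimuraDataReduced` plus finiteness, divisibility and
finite level.  Consumers: S30/S31/S35 (all `n`), and S29/S42 through `n = 1`
(`V := J[p]`, see `ESPkg`).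
-/

set_option autoImplicit false

namespace Fermat.Agent.ES

open ModularCurve

/-- `x` is killed by a power of `p` -/
def IsPPowerTorsion (p : ℕ) {J : Type*} [AddCommGroup J] (x : J) : Prop := ∃ n : ℕ, p ^ n • x = 0

/-- The Eichler–Shimura data on a `G_ℚ × Hecke`-module `J`, `p`-adic form. -/
structure ESDataInf (M p : ℕ) (J : Type) [AddCommGroup J] [Module HeckeAlg J]
    [DistribMulAction GQ J] : Prop where
  /-- `J[pⁿ]` is finite -/
  finite : ∀ n : ℕ, {x : J | p ^ n • x = 0}.Finite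
  /-- the `p`-power torsion is `p`-divisible -/
  divisible : ∀ x : J, IsPPowerTorsion p x → ∃ y : J, IsPPowerTorsion p y ∧ p • y = x
  /-- Galois and Hecke commute -/
  smul_comm : ∀ (σ : GQ) (t : HeckeAlg) (x : J), σ • t • x = t • σ • x
  /-- every `p`-power torsion element is fixed by an open subgroup -/
  finite_level : ∀ x : J, IsPPowerTorsion p x →
    ∃ E : IntermediateField ℚ (AlgebraicClosure ℚ),
      FiniteDimensional ℚ E ∧ ∀ σ : GQ, (∀ a ∈ E, σ a = a) → σ • x = x
  /-- Eichler–Shimura relation -/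
  frob : ∀ ℓ : ℕ, (hℓ : ℓ.Prime) → ¬ ℓ ∣ M * p →
    ∀ A : ValuationSubring (AlgebraicClosure ℚ), A.LiesOverPrime ℓ →
      ∀ τ : GQ, A.IsFrobeniusAt τ ℓ →
        ∀ x : J, IsPPowerTorsion p x → τ • τ • x - heckeGen ⟨ℓ, hℓ⟩ • (τ • x) + ℓ • x = 0
  /-- unramified outside `M p` -/
  unram : ∀ ℓ : ℕ, ℓ.Prime → ¬ ℓ ∣ M * p →
    ∀ A : ValuationSubring (AlgebraicClosure ℚ), A.LiesOverPrime ℓ →
      ∀ σ ∈ A.inertiaSubgroupIn ℚ, ∀ x : J, IsPPowerTorsion p x → σ • x = x
  /-- every eigensystem mod `𝔪` occurs in `J[p]` -/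
  supp : ∀ g : CuspForm (CongruenceSubgroup.Gamma0 M) 2, g.IsNormalizedEigenform →
    ∀ 𝔪 : Ideal Zbar, 𝔪.IsMaximal → (p : Zbar) ∈ 𝔪 →
      ∃ v : J, v ≠ 0 ∧ p • v = 0 ∧ ∀ t ∈ MvPolynomial.supported ℤ (goodPrimes M p),
        (∃ z ∈ 𝔪, (z : ℂ) = heckeValue g t) → t • v = 0

/-- The `p`-adic Eichler–Shimura package exists at level `M`. -/
def ESPkgInf (M p : ℕ) : Prop :=
  ∃ (J : Type) (_ : AddCommGroup J) (_ : Module HeckeAlg J) (_ : DistribMulAction GQ J),
    ESDataInf M p J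

/-- bridge (to be proved in `Fermat/Agent/ES/Bridge.lean`): the `p`-adic package gives the
mod-`p` package, with `V := J[p]`. -/
def StmtBridge : Prop := ∀ M p : ℕ, ESPkgInf M p → ESPkg M p

end Fermat.Agent.ES
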