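import Mathlib
import Fermat.Agent.ES.PackageInf
import Fermat.Prelude.Def_ModularCurve_HeckeModule

/-!
# ESpkg: the concrete instance `J = J₀(M)(ℚ̄)` (prelude `ModularCurve.JZero M`)

* Galois action: the prelude instance (action on Laurent coefficients, then on places/divisors).
* Hecke action: `T_ℓ` = prelude `heckeOperatorBar M ℓ` for the GOOD primes `ℓ ∤ M p`, and `0` for
  the bad primes (`ESDataInf` only constrains the good variables).  The module structure
  `goodHeckeModule M p` is the genuine one as soon as the good operators commute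
  (`GoodHeckeCommute M p`), exactly as the prelude does for `heckeModuleBar`.

The statements `StmtXxx M p` are the clauses of `ESDataInf M p (JZero M)`; pieces G1 (finite,
divisible, smul_comm, finite_level, supp) and G2 (frob, unram) prove them in separate files.
-/

set_option autoImplicit false

noncomputable section

namespace Fermat.Agent.ES

open ModularCurve AlgebraicCurve

variable (M p : ℕ) [NeZero M]

open Classical in
/-- `T_ℓ` on `J₀(M)(ℚ̄)` for a good prime, `0` for a bad prime. -/
def goodHecke (ℓ : Nat.Primes) : Module.End ℤ (JZero M) :=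
  if (ℓ : ℕ) ∣ M * p then 0 else heckeOperatorBar M ℓ

theorem goodHecke_of_good {ℓ : Nat.Primes} (h : ¬ (ℓ : ℕ) ∣ M * p) :
    goodHecke M p ℓ = heckeOperatorBar M ℓ := by
  classical
  rw [goodHecke, if_neg h]

theorem goodHecke_of_bad {ℓ : Nat.Primes} (h : (ℓ : ℕ) ∣ M * p) :
    goodHecke M p ℓ = 0 := by
  classical
  rw [goodHecke, if_pos h]

/-- the good Hecke operators commute -/
def GoodHeckeCommute : Prop :=
  ∀ ℓ ℓ' : Nat.Primes, goodHecke M p ℓ * goodHecke M p ℓ' = goodHecke M p ℓ' * goodHecke M p ℓ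

variable {M p}

theorem isMulCommutative_adjoin_goodHecke (h : GoodHeckeCommute M p) :
    IsMulCommutative (Algebra.adjoin ℤ (Set.range (goodHecke M p))) :=
  Algebra.isMulCommutative_adjoin ℤ (by
    rintro _ ⟨ℓ, rfl⟩ _ ⟨ℓ', rfl⟩
    exact h ℓ ℓ')

open scoped IsMulCommutative in
/-- evaluation of Hecke polynomials at the good operators (into the commutative subalgebra) -/
def goodHeckeEvalAux (h : GoodHeckeCommute M p) :
    HeckeAlg →ₐ[ℤ] (Algebra.adjoin ℤ (Set.range (goodHecke M p)) :
      Subalgebra ℤ (Module.End ℤ (JZero M))) :=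
  haveI := isMulCommutative_adjoin_goodHecke h
  MvPolynomial.aeval fun ℓ =>
    (⟨goodHecke M p ℓ, Algebra.subset_adjoin (Set.mem_range_self ℓ)⟩ :
      Algebra.adjoin ℤ (Set.range (goodHecke M p)))

/-- evaluation of Hecke polynomials at the good operators -/
def goodHeckeEval (h : GoodHeckeCommute M p) : HeckeAlg →+* Module.End ℤ (JZero M) :=
  ((Algebra.adjoin ℤ (Set.range (goodHecke M p))).val.comp (goodHeckeEvalAux h)).toRingHom

open scoped IsMulCommutative in
theorem goodHeckeEval_heckeGen (h : GoodHeckeCommute M p) (ℓ : Nat.Primes) :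
    goodHeckeEval h (heckeGen ℓ) = goodHecke M p ℓ := by
  have := isMulCommutative_adjoin_goodHecke h
  show ((goodHeckeEvalAux h (heckeGen ℓ) : Algebra.adjoin ℤ (Set.range (goodHecke M p))) :
    Module.End ℤ (JZero M)) = _
  have : goodHeckeEvalAux h (heckeGen ℓ) =
      ⟨goodHecke M p ℓ, Algebra.subset_adjoin (Set.mem_range_self ℓ)⟩ :=
    MvPolynomial.aeval_X _ ℓ
  rw [this]

variable (M p)

open Classical in
/-- The Hecke module structure on `J₀(M)(ℚ̄)` used by the ES package (good primes only). -/
@[implicit_reducible]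
def goodHeckeModule : Module HeckeAlg (JZero M) :=
  if h : GoodHeckeCommute M p then Module.compHom (JZero M) (goodHeckeEval h)
  else Module.compHom (JZero M) (MvPolynomial.eval₂Hom (Int.castRingHom ℤ) (0 : Nat.Primes → ℤ))

variable {M p}

theorem goodHeckeModule_smul_def (h : GoodHeckeCommute M p) (t : HeckeAlg) (x : JZero M) :
    (letI := goodHeckeModule M p; t • x) = goodHeckeEval h t x := by
  have e : goodHeckeModule M p = Module.compHom (JZero M) (goodHeckeEval h) := dif_pos h
  rw [e]
  rfl

theorem goodHeckeModule_heckeGen_smul (h : GoodHeckeCommute M p) (ℓ : Nat.Primes)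
    (x : JZero M) : (letI := goodHeckeModule M p; heckeGen ℓ • x) = goodHecke M p ℓ x := by
  rw [goodHeckeModule_smul_def h, goodHeckeEval_heckeGen]

variable (M p)

/-! ## The clauses, as statements about `J₀(M)(ℚ̄)` -/

/-- G1: `J[pⁿ]` is finite. -/
def StmtFinite : Prop := ∀ n : ℕ, {x : JZero M | p ^ n • x = 0}.Finite

/-- G1: the `p`-power torsion is `p`-divisible. -/
def StmtDivisible : Prop :=
  ∀ x : JZero M, IsPPowerTorsion p x → ∃ y : JZero M, IsPPowerTorsion p y ∧ p • y = x

/-- G1: Galois commutes with the good Hecke operators. -/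
def StmtGaloisHecke : Prop :=
  ∀ (σ : GQ) (ℓ : Nat.Primes) (x : JZero M), σ • goodHecke M p ℓ x = goodHecke M p ℓ (σ • x)

/-- G1: every `p`-power torsion class is fixed by an open subgroup. -/
def StmtFiniteLevel : Prop :=
  ∀ x : JZero M, IsPPowerTorsion p x →
    ∃ E : IntermediateField ℚ (AlgebraicClosure ℚ),
      FiniteDimensional ℚ E ∧ ∀ σ : GQ, (∀ a ∈ E, σ a = a) → σ • x = x

/-- G2: Eichler–Shimura relation on `p`-power torsion, in terms of the operator `T_ℓ`. -/
def StmtFrob : Prop :=
  ∀ ℓ : ℕ, (hℓ : ℓ.Prime) → ¬ ℓ ∣ M * p →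
    ∀ A : ValuationSubring (AlgebraicClosure ℚ), A.LiesOverPrime ℓ →
      ∀ τ : GQ, A.IsFrobeniusAt τ ℓ →
        ∀ x : JZero M, IsPPowerTorsion p x →
          τ • τ • x - heckeOperatorBar M ⟨ℓ, hℓ⟩ (τ • x) + ℓ • x = 0

/-- G2: inertia at places over good primes acts trivially on `p`-power torsion. -/
def StmtUnram : Prop :=
  ∀ ℓ : ℕ, ℓ.Prime → ¬ ℓ ∣ M * p →
    ∀ A : ValuationSubring (AlgebraicClosure ℚ), A.LiesOverPrime ℓ →
      ∀ σ ∈ A.inertiaSubgroupIn ℚ, ∀ x : JZero M, IsPPowerTorsion p x → σ • x = x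

/-- G1: every eigensystem mod `𝔪` occurs in `J[p]` (needs the module structure, hence stated
with `goodHeckeModule`). -/
def StmtSupp : Prop :=
  letI := goodHeckeModule M p
  ∀ g : CuspForm (CongruenceSubgroup.Gamma0 M) 2, g.IsNormalizedEigenform →
    ∀ 𝔪 : Ideal Zbar, 𝔪.IsMaximal → (p : Zbar) ∈ 𝔪 →
      ∃ v : JZero M, v ≠ 0 ∧ p • v = 0 ∧ ∀ t ∈ MvPolynomial.supported ℤ (goodPrimes M p),
        (∃ z ∈ 𝔪, (z : ℂ) = heckeValue g t) → t • v = 0


/-! ## Assembly -/

variable {M p}

/-- an endomorphism commuting with `σ` -/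
theorem goodHeckeEval_galois (h : GoodHeckeCommute M p) (hG : StmtGaloisHecke M p)
    (σ : GQ) (t : HeckeAlg) (x : JZero M) :
    σ • goodHeckeEval h t x = goodHeckeEval h t (σ • x) := by
  induction t using MvPolynomial.induction_on generalizing x with
  | C a =>
      have : goodHeckeEval h (MvPolynomial.C a) = (a : Module.End ℤ (JZero M)) := by
        rw [← MvPolynomial.algebraMap_eq, eq_intCast, map_intCast]
      rw [this, Module.End.intCast_apply, Module.End.intCast_apply]
      exact map_zsmul (DistribSMul.toAddMonoidHom (JZero M) σ) a x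
  | add s t hs ht =>
      rw [map_add, LinearMap.add_apply, LinearMap.add_apply, smul_add, hs, ht]
  | mul_X s ℓ hs =>
      rw [map_mul, Module.End.mul_apply, Module.End.mul_apply, hs]
      congr 1
      have := goodHeckeEval_heckeGen h ℓ
      rw [heckeGen] at this
      rw [this]
      exact hG σ ℓ x

/-- The `p`-adic Eichler–Shimura package from the clauses about `J₀(M)(ℚ̄)`. -/
theorem esDataInf_of_stmts (hc : GoodHeckeCommute M p)
    (hfin : StmtFinite M p) (hdiv : StmtDivisible M p) (hG : StmtGaloisHecke M p)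
    (hlev : StmtFiniteLevel M p) (hfrob : StmtFrob M p) (hunr : StmtUnram M p)
    (hsupp : StmtSupp M p) :
    letI := goodHeckeModule M p
    ESDataInf M p (JZero M) := by
  letI := goodHeckeModule M p
  refine
    { finite := hfin
      divisible := hdiv
      smul_comm := ?_
      finite_level := hlev
      frob := ?_
      unram := hunr
      supp := hsupp }
  · intro σ t x
    rw [goodHeckeModule_smul_def hc, goodHeckeModule_smul_def hc]
    exact goodHeckeEval_galois hc hG σ t x
  · intro ℓ hℓ hgood A hA τ hτ x hx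
    have h1 := hfrob ℓ hℓ hgood A hA τ hτ x hx
    rw [goodHeckeModule_heckeGen_smul hc, goodHecke_of_good M p (ℓ := ⟨ℓ, hℓ⟩) hgood]
    exact h1

theorem esPkgInf_of_stmts (hc : GoodHeckeCommute M p)
    (hfin : StmtFinite M p) (hdiv : StmtDivisible M p) (hG : StmtGaloisHecke M p)
    (hlev : StmtFiniteLevel M p) (hfrob : StmtFrob M p) (hunr : StmtUnram M p)
    (hsupp : StmtSupp M p) : ESPkgInf M p :=
  ⟨JZero M, inferInstance, goodHeckeModule M p, inferInstance,
    esDataInf_of_stmts hc hfin hdiv hG hlev hfrob hunr hsupp⟩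

end Fermat.Agent.ES
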