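import Fermat.Prelude.Def_AlgebraicCurve_Correspondence
import Fermat.Agent.S24.PrincipalDegree

/-!
# ESpkg, piece (H), part (c), generic half: finiteness along a homomorphism

For `K`-algebra homomorphism `φ : F →ₐ[K] F'` of function fields of one variable, `F'` is a
finite `F`-module along `φ` as soon as `F'` is finite over `K(φ y)` for some `y : F`; this is
the case when `y` is transcendental and `F'` is finite over `K(x')` for a transcendental `x'`.
-/

set_option autoImplicit false

noncomputable section

open AlgebraicCurve IntermediateField

namespace Fermat.Agent.ES.H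

open Fermat.Agent.S24

variable {K F F' : Type*} [Field K] [Field F] [Field F'] [Algebra K F] [Algebra K F']

/-- Elements of `K(φ y)` are in the image of `φ`. -/
theorem exists_apply_eq_of_mem_adjoin (φ : F →ₐ[K] F') (y : F) {c : F'} (hc : c ∈ K⟮φ y⟯) :
    ∃ c' : F, φ c' = c := by
  have hle : K⟮φ y⟯ ≤ φ.fieldRange := by
    rw [IntermediateField.adjoin_le_iff]
    rintro _ rfl
    exact ⟨y, rfl⟩
  exact hle hc

/-- `F'` is finite along `φ` if it is finite over `K(φ y)`. -/
theorem finiteAlong_of_finiteDimensional_adjoin (φ : F →ₐ[K] F') (y : F)
    [FiniteDimensional K⟮φ y⟯ F'] : FiniteAlong K φ := by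
  let _ := algebraAlong φ
  show Module.Finite F F'
  obtain ⟨s, hs⟩ := (Module.finite_def (R := K⟮φ y⟯) (M := F')).mp inferInstance
  refine Module.finite_def.mpr ⟨s, ?_⟩
  have key : ∀ z : F', z ∈ Submodule.span K⟮φ y⟯ (s : Set F') →
      z ∈ Submodule.span F (s : Set F') := by
    intro z hz
    induction hz using Submodule.span_induction with
    | mem x hx => exact Submodule.subset_span hx
    | zero => exact zero_mem _
    | add x y _ _ hx hy => exact add_mem hx hy
    | smul c x _ hx =>
      obtain ⟨c', hc'⟩ := exists_apply_eq_of_mem_adjoin φ y c.2
      have h : c • x = c' • x := by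
        show (c : F') * x = φ c' * x
        rw [hc']
      rw [h]
      exact Submodule.smul_mem _ _ hx
  rw [eq_top_iff]
  intro z _
  exact key z (hs ▸ Submodule.mem_top)

/-- The image of a transcendental element under a `K`-algebra homomorphism of fields is
transcendental. -/
theorem transcendental_apply (φ : F →ₐ[K] F') {y : F} (hy : Transcendental K y) :
    Transcendental K (φ y) := fun h =>
  hy ((isAlgebraic_algHom_iff φ φ.toRingHom.injective).mp h)

/-- `F'` is finite along any `K`-homomorphism from a field containing a transcendental, if `F'`
is a function field of one variable. -/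
theorem finiteAlong_of_transcendental (φ : F →ₐ[K] F') (x' : F') (hx' : Transcendental K x')
    [FiniteDimensional K⟮x'⟯ F'] (y : F) (hy : Transcendental K y) : FiniteAlong K φ := by
  have : FiniteDimensional K⟮φ y⟯ F' :=
    pd_finiteDimensional_adjoin_of_transcendental x' hx' (φ y) (transcendental_apply φ hy)
  exact finiteAlong_of_finiteDimensional_adjoin φ y

/-- Integrality along `φ` from finiteness along `φ`. -/
theorem isIntegral_of_finiteAlong (φ : F →ₐ[K] F') (h : FiniteAlong K φ) :
    φ.toRingHom.IsIntegral := by
  let _ := algebraAlong φ
  have : Module.Finite F F' := h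
  exact (Algebra.IsIntegral.of_finite F F').isIntegral

end Fermat.Agent.ES.H
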