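import Fermat.Agent.S24.Places
import Fermat.Agent.S24.PrincipalDegree
import Fermat.Agent.S24.Residue
import Fermat.Agent.S24.Transc

/-!
# ESpkg, piece (H), part (a): principal divisors

For a function field `F` of one variable over an algebraically closed field `K` of characteristic
zero (`F` finite over `K(x)`, `x` transcendental), every nonzero `f ∈ F` has a divisor, of
degree `0`: `AlgebraicCurve.HasPrincipalDivisors K F`.
-/

set_option autoImplicit false

noncomputable section

open AlgebraicCurve IntermediateField

namespace Fermat.Agent.ES.H

open Fermat.Agent.S24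

variable {K F : Type*} [Field K] [Field F] [Algebra K F]

/-- Every place of a function field over an algebraically closed field has degree one. -/
theorem place_deg_eq_one [IsAlgClosed K] (x : F) (hx : Transcendental K x)
    [FiniteDimensional K⟮x⟯ F] (v : Place K F) : v.deg = 1 :=
  deg_eq_one x hx (Algebra.IsAlgebraic.of_finite _ _) v

/-- The divisor of a nonzero function exists (finitely many zeros and poles). -/
theorem exists_divisor_of_ne_zero [IsAlgClosed K] [CharZero K] (x : F) (hx : Transcendental K x)
    [FiniteDimensional K⟮x⟯ F] (g : F) (hg : g ≠ 0) :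
    ∃ D : Divisor K F, ∀ v : Place K F, D v = v.ord g := by
  classical
  by_cases hgt : Transcendental K g
  · have hfd : FiniteDimensional K⟮g⟯ F := pd_finiteDimensional_adjoin_of_transcendental x hx g hgt
    have hgt' : Transcendental K g⁻¹ := pd_transcendental_inv hgt
    have hfd' : FiniteDimensional K⟮g⁻¹⟯ F :=
      pd_finiteDimensional_adjoin_of_transcendental x hx g⁻¹ hgt'
    obtain ⟨V₁, hV₁, -⟩ := sum_ord_eq_finrank g hgt
    obtain ⟨V₂, hV₂, -⟩ := sum_ord_eq_finrank g⁻¹ hgt'
    refine ⟨Finsupp.onFinset (V₁ ∪ V₂) (fun v => v.ord g) ?_, fun v => rfl⟩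
    intro v hv
    rw [Finset.mem_union, hV₁, hV₂, Place.ord_inv]
    rcases lt_or_gt_of_ne hv with h | h
    · right; omega
    · left; exact h
  · have halg : IsAlgebraic K g := not_not.mp hgt
    obtain ⟨c, rfl⟩ := mem_range_algebraMap_of_isAlgebraic halg
    exact ⟨0, fun v => by simp [PlaceAux.ord_algebraMap]⟩

/-- Function fields of one variable over an algebraically closed field of characteristic zero
have principal divisors. -/
theorem hasPrincipalDivisors_of_transcendental [IsAlgClosed K] [CharZero K] (x : F)
    (hx : Transcendental K x) [FiniteDimensional K⟮x⟯ F] : HasPrincipalDivisors K F where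
  exists_divisor g hg := by
    obtain ⟨D, hD⟩ := exists_divisor_of_ne_zero x hx g hg
    refine ⟨D, hD, ?_⟩
    exact degree_principal_eq_zero x hx (fun v => place_deg_eq_one x hx v)
      (fun y hy hfy => by have := hfy; exact sum_ord_eq_finrank y hy) g hg D hD

end Fermat.Agent.ES.H
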