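import Fermat.Prelude.Def_ModularCurve_HeckeOperatorTotal
import Fermat.Agent.S24.RealizationExists
import Fermat.Agent.ES.HPrincipal
import Fermat.Agent.ES.HFinite

/-!
# ESpkg, piece (H), parts (a) and (c) for the modular function fields

* `finiteDimensional_adjoin_jF N` : `FF N` is finite over `ℚ̄(j)`;
* `hasPrincipalDivisors_FF N` : `HasPrincipalDivisors ℚ̄ (FF N)`;
* `finiteAlong_heckeAlphaBar`, `finiteAlong_heckeBetaBar` : both degeneracy maps
  `FF N → FF (N ℓ)` are finite;
* `heckeAlphaBarIntegral`, `heckeBetaBarIntegral` : and integral.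
-/

set_option autoImplicit false

noncomputable section

open AlgebraicCurve ModularCurve IntermediateField

namespace Fermat.Agent.ES.H

open Fermat.Agent.S24

/-- The function field of `X₀(N)` over `ℚ̄` is finite over `ℚ̄(j)`. -/
theorem finiteDimensional_adjoin_jF (N : ℕ) [NeZero N] : FiniteDimensional Kb⟮jF N⟯ (FF N) := by
  obtain ⟨R⟩ := exists_realization N
  have := R.finite_range
  exact finiteDimensional_adjoin_of_fixed R.φ R.act (jF N) R.fixed

/-- The function field of `X₀(N)` over `ℚ̄` has principal divisors. -/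
theorem hasPrincipalDivisors_FF (N : ℕ) [NeZero N] : HasPrincipalDivisors Kb (FF N) :=
  haveI := finiteDimensional_adjoin_jF N
  hasPrincipalDivisors_of_transcendental (jF N) (transcendental_jF N)

/-- Every place of the function field of `X₀(N)` over `ℚ̄` has residue field `ℚ̄`. -/
theorem residue_bijective_FF (N : ℕ) [NeZero N] (v : Place Kb (FF N)) :
    Function.Bijective (algebraMap Kb v.ResidueField) :=
  haveI := finiteDimensional_adjoin_jF N
  algebraMap_residueField_bijective (jF N) (transcendental_jF N)
    (Algebra.IsAlgebraic.of_finite _ _) v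

variable (N ℓ : ℕ) [NeZero N] [NeZero ℓ]

/-- The degeneracy map `α` is finite. -/
theorem finiteAlong_heckeAlphaBar : FiniteAlong Kb (heckeAlphaBar Kb N ℓ) :=
  haveI := finiteDimensional_adjoin_jF (N * ℓ)
  finiteAlong_of_transcendental (heckeAlphaBar Kb N ℓ) (jF (N * ℓ)) (transcendental_jF (N * ℓ))
    (jF N) (transcendental_jF N)

/-- The degeneracy map `β` is finite. -/
theorem finiteAlong_heckeBetaBar : FiniteAlong Kb (heckeBetaBar Kb N ℓ) :=
  haveI := finiteDimensional_adjoin_jF (N * ℓ)
  finiteAlong_of_transcendental (heckeBetaBar Kb N ℓ) (jF (N * ℓ)) (transcendental_jF (N * ℓ))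
    (jF N) (transcendental_jF N)

/-- The degeneracy map `α` is integral. -/
theorem heckeAlphaBarIntegral : HeckeAlphaBarIntegral Kb N ℓ :=
  isIntegral_of_finiteAlong _ (finiteAlong_heckeAlphaBar N ℓ)

/-- The degeneracy map `β` is integral. -/
theorem heckeBetaBarIntegral : HeckeBetaBarIntegral Kb N ℓ :=
  isIntegral_of_finiteAlong _ (finiteAlong_heckeBetaBar N ℓ)

end Fermat.Agent.ES.H
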