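import Fermat.Agent.S24.PlaceBasic
import Fermat.Prelude.Def_AlgebraicCurve_Repartitions

/-!
# ES shared input (R), generic part (ES-R1): Riemann's inequality by transfer

`K` a field, `F/K` a field with the prelude's places; all residue fields equal to `K`
(`Function.Bijective (algebraMap K v.ResidueField)`), principal divisors of degree `0`
(`HasPrincipalDivisors`).  Then

* `rr_eq_bot_of_degree_neg`   : `deg D < 0 → L(D) = ⊥`;
* `rr_finite`                 : `L(D)` is finite-dimensional;
* `rr_finrank_le_of_le`       : `A ≤ B → dim L(B) ≤ dim L(A) + (deg B − deg A)`;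
* `rr_finrank_eq_of_principal`: `dim L(D) = dim L(D − div z)`;
* `riemann_transfer`          : if for every `m` there is a divisor `B` with `m ≤ deg B` and
  `deg B + 1 − g ≤ dim L(B)`, then `deg A + 1 − g ≤ dim L(A)` for EVERY divisor `A`.

(Stichtenoth, *Algebraic function fields and codes*, 1.4.8 and 1.4.14.)
-/

set_option autoImplicit false

open AlgebraicCurve Module

namespace Fermat.Agent.ES.R

open Fermat.Agent.S24

variable {K F : Type*} [Field K] [Field F] [Algebra K F]

/-! ### Degrees -/

theorem place_deg_eq_one (v : Place K F)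
    (hres : Function.Bijective (algebraMap K v.ResidueField)) : v.deg = 1 := by
  unfold Place.deg
  have e : K ≃ₗ[K] v.ResidueField :=
    LinearEquiv.ofBijective (Algebra.linearMap K v.ResidueField) hres
  rw [← e.finrank_eq, Module.finrank_self]

theorem degree_eq_sum (D : Divisor K F) :
    Divisor.degree D = D.sum fun v n => n * (v.deg : ℤ) := by
  simp [Divisor.degree, Finsupp.liftAddHom_apply, Finsupp.sum]

theorem degree_nonneg {D : Divisor K F} (h : 0 ≤ D) : 0 ≤ Divisor.degree D := by
  rw [degree_eq_sum]
  refine Finsupp.sum_nonneg fun v _ => ?_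
  have : 0 ≤ D v := by simpa using Finsupp.le_def.mp h v
  positivity

theorem degree_mono {A B : Divisor K F} (h : A ≤ B) :
    Divisor.degree A ≤ Divisor.degree B := by
  have h1 : 0 ≤ B - A := sub_nonneg.mpr h
  have h2 := degree_nonneg h1
  rw [map_sub] at h2
  linarith

/-! ### The residue trick -/

theorem exists_sub_smul_ord_gt (v : Place K F)
    (hres : Function.Bijective (algebraMap K v.ResidueField)) {f g : F} (hf : f ≠ 0)
    (hg : g ≠ 0) (h : v.ord f = v.ord g) :
    ∃ c : K, f - c • g = 0 ∨ v.ord g < v.ord (f - c • g) := by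
  set u : F := f * g⁻¹ with hu
  have hu0 : u ≠ 0 := mul_ne_zero hf (inv_ne_zero hg)
  have hordu : v.ord u = 0 := by
    rw [hu, v.ord_mul hf (inv_ne_zero hg), v.ord_inv, h]; ring
  have humem : u ∈ v.toValuationSubring := PlaceAux.mem_of_ord_nonneg v hordu.ge
  obtain ⟨c, hc⟩ := hres.2 (IsLocalRing.residue v.toValuationSubring ⟨u, humem⟩)
  refine ⟨c, ?_⟩
  have hfg : f - c • g = g * (u - algebraMap K F c) := by
    rw [hu, Algebra.smul_def]; field_simp
  by_cases h0 : u - algebraMap K F c = 0
  · left; rw [hfg, h0, mul_zero]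
  · right
    rw [hfg, v.ord_mul hg h0]
    have hmem : (⟨u, humem⟩ : v.toValuationSubring) - algebraMap K v.toValuationSubring c ∈
        IsLocalRing.maximalIdeal v.toValuationSubring := by
      rw [← Ideal.Quotient.eq_zero_iff_mem]
      have h1 : algebraMap K v.ResidueField c =
          IsLocalRing.residue v.toValuationSubring (algebraMap K v.toValuationSubring c) := rfl
      rw [h1] at hc
      rw [map_sub]
      exact sub_eq_zero.mpr hc.symm
    have hpos : 0 < v.ord (u - algebraMap K F c) := by
      rw [PlaceAux.ord_pos_iff_mem_nonunits v h0,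
        ValuationSubring.mem_nonunits_iff_exists_mem_maximalIdeal]
      exact ⟨v.toValuationSubring.sub_mem humem (v.algebraMap_mem' c), hmem⟩
    linarith

/-! ### `L(D + v)` versus `L(D)` -/

theorem rr_mono {D D' : Divisor K F} (h : D ≤ D') :
    riemannRochSpace D ≤ riemannRochSpace D' := fun f hf => by
  rw [mem_riemannRochSpace_iff] at hf ⊢
  intro v
  rcases hf v with h0 | h1
  · exact Or.inl h0
  · right
    have := Finsupp.le_def.mp h v
    linarith

theorem rr_add_single_le (D : Divisor K F) (v : Place K F)
    (hres : Function.Bijective (algebraMap K v.ResidueField)) :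
    ∃ g : F, riemannRochSpace (D + Finsupp.single v 1) ≤
      riemannRochSpace D ⊔ Submodule.span K {g} := by
  classical
  by_cases hle : riemannRochSpace (D + Finsupp.single v 1) ≤ riemannRochSpace D
  · exact ⟨0, hle.trans le_sup_left⟩
  obtain ⟨g, hg1, hg2⟩ := SetLike.not_le_iff_exists.mp hle
  refine ⟨g, fun f hf => ?_⟩
  -- elements of `L(D+v)` not in `L(D)` have `ord_v = -D v - 1`
  have key : ∀ x : F, x ∈ riemannRochSpace (D + Finsupp.single v 1) →
      x ∉ riemannRochSpace D → x ≠ 0 ∧ v.ord x = -D v - 1 := by
    intro x hx1 hx2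
    have hx0 : x ≠ 0 := fun h0 => hx2 (h0 ▸ Submodule.zero_mem _)
    refine ⟨hx0, ?_⟩
    rw [mem_riemannRochSpace_iff] at hx1 hx2
    have hv := (hx1 v).resolve_left hx0
    simp only [Finsupp.coe_add, Pi.add_apply, Finsupp.single_eq_same] at hv
    by_contra hne
    apply hx2
    intro w
    right
    by_cases hw : w = v
    · subst hw; omega
    · have hw' := (hx1 w).resolve_left hx0
      simp only [Finsupp.coe_add, Pi.add_apply] at hw'
      rw [Finsupp.single_eq_of_ne (Ne.symm (Ne.symm hw)), add_zero] at hw'
      exact hw'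
  by_cases hfD : f ∈ riemannRochSpace D
  · exact Submodule.mem_sup_left hfD
  obtain ⟨hf0, hfo⟩ := key f hf hfD
  obtain ⟨hg0, hgo⟩ := key g hg1 hg2
  obtain ⟨c, hc⟩ := exists_sub_smul_ord_gt v hres hf0 hg0 (hfo.trans hgo.symm)
  have hmem : f - c • g ∈ riemannRochSpace D := by
    rcases hc with hc | hc
    · rw [hc]; exact Submodule.zero_mem _
    · have hx1 : f - c • g ∈ riemannRochSpace (D + Finsupp.single v 1) :=
        Submodule.sub_mem _ hf (Submodule.smul_mem _ c hg1)
      by_contra hx2
      have := (key _ hx1 hx2).2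
      omega
  have : f = (f - c • g) + c • g := by ring
  rw [this]
  exact Submodule.add_mem_sup hmem
    (Submodule.smul_mem _ c (Submodule.mem_span_singleton_self g))

/-! ### Negative degree -/

theorem rr_eq_bot_of_degree_neg [HasPrincipalDivisors K F] {D : Divisor K F}
    (hD : Divisor.degree D < 0) : riemannRochSpace D = ⊥ := by
  rw [eq_bot_iff]
  intro f hf
  rw [Submodule.mem_bot]
  by_contra hf0
  obtain ⟨Z, hZ, hZdeg⟩ := HasPrincipalDivisors.exists_divisor (K := K) f hf0
  rw [mem_riemannRochSpace_iff] at hf
  have hnn : 0 ≤ Z + D := by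
    rw [Finsupp.le_def]
    intro v
    have := (hf v).resolve_left hf0
    simp only [Finsupp.coe_zero, Pi.zero_apply, Finsupp.coe_add, Pi.add_apply, hZ v]
    linarith
  have := degree_nonneg hnn
  rw [map_add, hZdeg] at this
  linarith

/-! ### Finite-dimensionality -/

theorem rr_finite_aux [HasPrincipalDivisors K F] (v₀ : Place K F)
    (hres : ∀ v : Place K F, Function.Bijective (algebraMap K v.ResidueField)) :
    ∀ (n : ℕ) (D : Divisor K F), Divisor.degree D < n →
      Module.Finite K ↥(riemannRochSpace D) := by
  intro n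
  induction n with
  | zero =>
    intro D hD
    rw [rr_eq_bot_of_degree_neg (by simpa using hD)]
    infer_instance
  | succ n ih =>
    intro D hD
    set D' : Divisor K F := D - Finsupp.single v₀ 1 with hD'
    have hdeg : Divisor.degree D' < n := by
      rw [hD', map_sub, Divisor.degree_single, place_deg_eq_one v₀ (hres v₀)]
      push_cast at hD ⊢
      linarith
    have := ih D' hdeg
    obtain ⟨g, hg⟩ := rr_add_single_le D' v₀ (hres v₀)
    have hDD : D' + Finsupp.single v₀ 1 = D := by rw [hD']; abel
    rw [hDD] at hg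
    exact Submodule.finiteDimensional_of_le hg

theorem rr_finite [HasPrincipalDivisors K F] (v₀ : Place K F)
    (hres : ∀ v : Place K F, Function.Bijective (algebraMap K v.ResidueField))
    (D : Divisor K F) : Module.Finite K ↥(riemannRochSpace D) := by
  obtain ⟨n, hn⟩ : ∃ n : ℕ, Divisor.degree D < n :=
    ⟨(Divisor.degree D).toNat + 1, by push_cast; have := Int.self_le_toNat (Divisor.degree D); omega⟩
  exact rr_finite_aux v₀ hres n D hn

/-! ### `dim L(B) ≤ dim L(A) + deg (B − A)` -/

theorem rr_finrank_add_single_le [HasPrincipalDivisors K F]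
    (hres : ∀ v : Place K F, Function.Bijective (algebraMap K v.ResidueField))
    (D : Divisor K F) (v : Place K F) :
    finrank K ↥(riemannRochSpace (D + Finsupp.single v 1)) ≤
      finrank K ↥(riemannRochSpace D) + 1 := by
  have := rr_finite v hres D
  obtain ⟨g, hg⟩ := rr_add_single_le D v (hres v)
  calc finrank K ↥(riemannRochSpace (D + Finsupp.single v 1))
      ≤ finrank K ↥(riemannRochSpace D ⊔ Submodule.span K {g}) := Submodule.finrank_mono hg
    _ ≤ finrank K ↥(riemannRochSpace D) + finrank K ↥(Submodule.span K {g}) :=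
        Submodule.finrank_add_le_finrank_add_finrank _ _
    _ ≤ finrank K ↥(riemannRochSpace D) + 1 := by
        have h1 : finrank K ↥(Submodule.span K {g}) ≤ 1 := by
          rcases eq_or_ne g 0 with rfl | hg0
          · rw [Submodule.span_zero_singleton, finrank_bot]; exact Nat.zero_le _
          · exact (finrank_span_singleton hg0).le
        omega

theorem rr_finrank_le_of_le [HasPrincipalDivisors K F]
    (hres : ∀ v : Place K F, Function.Bijective (algebraMap K v.ResidueField)) :
    ∀ (n : ℕ) (A B : Divisor K F), A ≤ B → Divisor.degree B - Divisor.degree A ≤ n →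
      (finrank K ↥(riemannRochSpace B) : ℤ) ≤
        finrank K ↥(riemannRochSpace A) + (Divisor.degree B - Divisor.degree A) := by
  intro n
  induction n with
  | zero =>
    intro A B hAB hdeg
    by_cases hEq : A = B
    · subst hEq; simp
    exfalso
    obtain ⟨v, hv⟩ : ∃ v, A v < B v := by
      by_contra hcon
      exact hEq (le_antisymm hAB (Finsupp.le_def.mpr fun w =>
        not_lt.mp fun hw => hcon ⟨w, hw⟩))
    have h1 : A ≤ B - Finsupp.single v 1 := by
      rw [Finsupp.le_def]
      intro w
      by_cases hw : w = v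
      · subst hw; simp; omega
      · have := Finsupp.le_def.mp hAB w
        simp [Finsupp.single_eq_of_ne (Ne.symm (Ne.symm hw)), this]
    have h2 := degree_mono h1
    rw [map_sub, Divisor.degree_single, place_deg_eq_one v (hres v)] at h2
    push_cast at h2 hdeg
    linarith
  | succ n ih =>
    intro A B hAB hdeg
    by_cases hEq : A = B
    · subst hEq; simp
    obtain ⟨v, hv⟩ : ∃ v, A v < B v := by
      by_contra hcon
      exact hEq (le_antisymm hAB (Finsupp.le_def.mpr fun w =>
        not_lt.mp fun hw => hcon ⟨w, hw⟩))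
    set B' : Divisor K F := B - Finsupp.single v 1 with hB'
    have h1 : A ≤ B' := by
      rw [Finsupp.le_def]
      intro w
      by_cases hw : w = v
      · subst hw; simp [hB']; omega
      · have := Finsupp.le_def.mp hAB w
        simp [hB', Finsupp.single_eq_of_ne (Ne.symm (Ne.symm hw)), this]
    have hdB : Divisor.degree B' = Divisor.degree B - 1 := by
      rw [hB', map_sub, Divisor.degree_single, place_deg_eq_one v (hres v)]; simp
    have h3 := ih A B' h1 (by rw [hdB]; push_cast at hdeg; linarith)
    have h4 := rr_finrank_add_single_le hres B' v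
    have hBB : B' + Finsupp.single v 1 = B := by rw [hB']; abel
    rw [hBB] at h4
    rw [hdB] at h3
    have h5 : (finrank K ↥(riemannRochSpace B) : ℤ) ≤
        finrank K ↥(riemannRochSpace B') + 1 := by exact_mod_cast h4
    linarith

theorem rr_finrank_le [HasPrincipalDivisors K F]
    (hres : ∀ v : Place K F, Function.Bijective (algebraMap K v.ResidueField))
    {A B : Divisor K F} (hAB : A ≤ B) :
    (finrank K ↥(riemannRochSpace B) : ℤ) ≤
      finrank K ↥(riemannRochSpace A) + (Divisor.degree B - Divisor.degree A) := by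
  have h0 := degree_mono hAB
  refine rr_finrank_le_of_le hres (Divisor.degree B - Divisor.degree A).toNat A B hAB ?_
  exact Int.self_le_toNat _

/-! ### Multiplication by a function -/

theorem rr_finrank_eq_of_principal {D D' : Divisor K F} {z : F} (hz : z ≠ 0)
    (h : ∀ v : Place K F, D' v = D v - v.ord z) :
    finrank K ↥(riemannRochSpace D') = finrank K ↥(riemannRochSpace D) := by
  let e : F ≃ₗ[K] F := LinearEquiv.ofLinearMap (LinearMap.mulLeft K z) (LinearMap.mulLeft K z⁻¹)
    (by ext x; simp [hz]) (by ext x; simp [hz])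
  have hmap : riemannRochSpace D' = (riemannRochSpace D).map (e : F →ₗ[K] F) := by
    ext y
    rw [Submodule.mem_map]
    constructor
    · intro hy
      refine ⟨z⁻¹ * y, ?_, by simp [e, hz]⟩
      rw [mem_riemannRochSpace_iff] at hy ⊢
      intro v
      rcases eq_or_ne y 0 with rfl | hy0
      · left; simp
      right
      have := (hy v).resolve_left hy0
      rw [v.ord_mul (inv_ne_zero hz) hy0, v.ord_inv, h v] at *
      linarith
    · rintro ⟨x, hx, rfl⟩
      rw [mem_riemannRochSpace_iff] at hx ⊢
      intro v
      rcases eq_or_ne x 0 with rfl | hx0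
      · left; simp
      right
      have := (hx v).resolve_left hx0
      show -D' v ≤ v.ord (z * x)
      rw [v.ord_mul hz hx0, h v]
      linarith
  rw [hmap]
  exact LinearEquiv.finrank_map_eq e _

/-! ### Riemann's inequality by transfer -/

/-- **Riemann's inequality, transfer form.**  If there are divisors `B` of arbitrarily large degree
with `deg B + 1 − g ≤ dim L(B)`, then `deg A + 1 − g ≤ dim L(A)` for every divisor `A`. -/
theorem riemann_transfer [HasPrincipalDivisors K F]
    (hres : ∀ v : Place K F, Function.Bijective (algebraMap K v.ResidueField)) (g : ℤ)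
    (hB : ∀ m : ℤ, ∃ B : Divisor K F, m ≤ Divisor.degree B ∧
      Divisor.degree B + 1 - g ≤ (finrank K ↥(riemannRochSpace B) : ℤ))
    (A : Divisor K F) :
    Divisor.degree A + 1 - g ≤ (finrank K ↥(riemannRochSpace A) : ℤ) := by
  classical
  -- the positive part of `A`
  set A₁ : Divisor K F := A ⊔ 0 with hA₁
  have hAA₁ : A ≤ A₁ := le_sup_left
  have h0A₁ : 0 ≤ A₁ := le_sup_right
  have h1 := rr_finrank_le hres hAA₁
  obtain ⟨B, hBdeg, hBdim⟩ := hB (Divisor.degree A₁ + g)
  -- a nonzero function in `L(B − A₁)`
  have hBA : B - A₁ ≤ B := sub_le_self B h0A₁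
  have h2 := rr_finrank_le hres hBA
  rw [map_sub] at h2
  have hpos : 0 < finrank K ↥(riemannRochSpace (B - A₁)) := by
    have : (0 : ℤ) < finrank K ↥(riemannRochSpace (B - A₁)) := by linarith
    exact_mod_cast this
  have := Module.nontrivial_of_finrank_pos hpos
  obtain ⟨⟨z, hzmem⟩, hz0'⟩ := exists_ne (0 : ↥(riemannRochSpace (B - A₁)))
  have hz0 : z ≠ 0 := fun h => hz0' (Subtype.ext h)
  obtain ⟨Z, hZ, hZdeg⟩ := HasPrincipalDivisors.exists_divisor (K := K) z hz0
  set D : Divisor K F := A₁ - Z with hD
  have hDB : D ≤ B := by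
    rw [Finsupp.le_def]
    intro v
    rw [mem_riemannRochSpace_iff] at hzmem
    have := (hzmem v).resolve_left hz0
    simp only [hD, Finsupp.coe_sub, Pi.sub_apply, hZ v] at this ⊢
    linarith
  have hDdeg : Divisor.degree D = Divisor.degree A₁ := by
    rw [hD, map_sub, hZdeg, sub_zero]
  have hDdim : finrank K ↥(riemannRochSpace D) = finrank K ↥(riemannRochSpace A₁) :=
    rr_finrank_eq_of_principal hz0 (fun v => by simp [hD, hZ v])
  have h3 := rr_finrank_le hres hDB
  rw [hDdim, hDdeg] at h3
  linarith

end Fermat.Agent.ES.R
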