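import Fermat.Agent.S20.Assemble
import Fermat.Agent.S20.ExistsNondeg
import Fermat.Agent.S20.Glue0
import Fermat.Agent.S20.MIso
import Fermat.Agent.S20.SIso
import Fermat.Agent.S20.MinH
import Fermat.Agent.S20.LevelOneLocal
import Fermat.Agent.S20.Count
import Fermat.Agent.S20.CuspCramer
import Fermat.Agent.S20.CuspCount
import Fermat.Agent.S20.CuspDescent

/-!
# ES shared input (R), piece R2b: `dim S_{12 L}(Γ₀(N)) + dim S₂(Γ₀(N)) = L ψ − κ + 1`

From the good frame of S20 (`M_l(Γ₀(N)) ≅ ⊕ M_{l-kᵢ}(1)`, `S_l(Γ₀(N)) ≅ ⊕ S_{l+kᵢ}(1)`,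
`dim M_l = dim S_l + κ`), for all large `L`:

  `finrank S_{12 L}(Γ₀(N)) + finrank S_2(Γ₀(N)) = L · card (Q N) − numCusps N + 1`.
-/

set_option autoImplicit false

open CongruenceSubgroup UpperHalfPlane ModularForm
open scoped MatrixGroups Manifold

namespace Fermat.Agent.ES.R

open Fermat.Agent.S20

/-- The pointwise identity behind the count. -/
theorem count_pointwise_twelve (k L : ℤ) (hk0 : 0 ≤ k) (hk : Even k) (hkl : k + 4 ≤ 12 * L) :
    count_m (2 + k - 12) = L - count_m (12 * L - k) + count_m (0 - k) := by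
  obtain ⟨t, r, ht, hr0, hr6, rfl⟩ : ∃ t r : ℤ, 0 ≤ t ∧ 0 ≤ r ∧ r < 6 ∧ k = 12 * t + 2 * r := by
    obtain ⟨j, rfl⟩ := hk
    exact ⟨j / 6, j % 6, by omega, by omega, by omega, by omega⟩
  rw [count_m_A t r ht hr0 hr6, count_m_C t r ht hr0 hr6, count_m_M1 t r L ht hr0 hr6 hkl]
  interval_cases r <;> (split_ifs <;> omega)

/-- **R2b.** For all large `L`:
`dim S_{12L}(Γ₀(N)) + dim S₂(Γ₀(N)) = L · [SL₂(ℤ) : Γ₀(N)] − (number of cusps) + 1`. -/
theorem finrank_cusp_twelve (N : ℕ) [NeZero N] :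
    ∃ L₀ : ℕ, ∀ L : ℕ, L₀ ≤ L →
      (Module.finrank ℂ (CuspForm (G0 N) (12 * (L : ℤ))) : ℤ)
        + Module.finrank ℂ (CuspForm (G0 N) 2)
        = (L : ℤ) * Fintype.card (Q N) - numCusps N + 1 := by
  obtain ⟨Φ, hnd, hH, hC⟩ := exists_good_frame (fun Φ : Frame N => Φ.GoodOnH) Frame.CuspGood
    (exists_nondeg N) (fun Φ h hb => minH_of_local levelOne_local Φ h hb)
    (fun Φ h hb => cusp_descent Φ h hb)
  have hB : ∀ {l : ℤ} (F : ModularForm (G0 N) l) (i : Q N),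
      IsBoundedAtImInfty (fun z => ∑ q, cj F q z * (Φ.A z)⁻¹ q i) :=
    fun F i => cramer_bounded Φ hH hC F i
  have hZ := fun q i => disc_mul_inv_zero Φ hH hC q i
  have hMl := fun l => finrank_M Φ hH (fun {l} F i => hB F i) l
  have hSl := fun l => finrank_S Φ hH hZ l
  have hnn := fun i => Φ.wt_nonneg hnd i
  have hev := fun i => Φ.wt_even hnd i
  obtain ⟨B, hBd⟩ : ∃ B : ℕ, ∀ i, Φ.wt i + 4 ≤ 12 * (B : ℤ) := by
    refine ⟨(∑ i, |Φ.wt i|).toNat + 1, fun i => ?_⟩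
    have h1 : Φ.wt i ≤ ∑ j, |Φ.wt j| :=
      (le_abs_self _).trans (Finset.single_le_sum (f := fun j => |Φ.wt j|)
        (fun j _ => abs_nonneg _) (Finset.mem_univ i))
    have h2 : (0 : ℤ) ≤ ∑ j, |Φ.wt j| := Finset.sum_nonneg fun j _ => abs_nonneg _
    have h3 : (((∑ j, |Φ.wt j|).toNat : ℕ) : ℤ) = ∑ j, |Φ.wt j| := Int.toNat_of_nonneg h2
    push_cast
    rw [h3]
    linarith
  refine ⟨B, fun L hL => ?_⟩
  have hLi : ∀ i, Φ.wt i + 4 ≤ 12 * (L : ℤ) := fun i => by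
    have := hBd i
    have hL' : (B : ℤ) ≤ L := by exact_mod_cast hL
    linarith
  have hl_even : Even (12 * (L : ℤ)) := ⟨6 * L, by ring⟩
  have h4 := cusp_count Φ hH hC (fun F i => hB F i) (12 * (L : ℤ)) hLi hl_even
  have h0 : ∑ i, Module.finrank ℂ (ModularForm 𝒮ℒ (0 - Φ.wt i)) = 1 := by
    rw [← hMl 0, finrank_M_zero]
  have hS2 := hSl 2
  have hM12 := hMl (12 * (L : ℤ))
  -- cast everything to `ℤ` and use the pointwise identity
  have e1 : (Module.finrank ℂ (CuspForm (G0 N) 2) : ℤ) = ∑ i, count_m (2 + Φ.wt i - 12) := by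
    rw [hS2]
    push_cast
    exact Finset.sum_congr rfl fun i _ => count_finrank_S _ (by
      obtain ⟨a, ha⟩ := hev i
      exact ⟨1 + a, by rw [ha]; ring⟩)
  have e2 : (Module.finrank ℂ (ModularForm (G0 N) (12 * (L : ℤ))) : ℤ)
      = ∑ i, count_m (12 * (L : ℤ) - Φ.wt i) := by
    rw [hM12]
    push_cast
    exact Finset.sum_congr rfl fun i _ => count_finrank_M _ (hl_even.sub (hev i))
  have e3 : (1 : ℤ) = ∑ i, count_m (0 - Φ.wt i) := by
    have : ((∑ i, Module.finrank ℂ (ModularForm 𝒮ℒ (0 - Φ.wt i)) : ℕ) : ℤ) = 1 := by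
      rw [h0]; rfl
    rw [← this]
    push_cast
    exact Finset.sum_congr rfl fun i _ => count_finrank_M _ (by
      obtain ⟨a, ha⟩ := hev i
      exact ⟨-a, by rw [ha]; ring⟩)
  have e4 : ∑ i, count_m (2 + Φ.wt i - 12)
      = (L : ℤ) * Fintype.card (Q N) - ∑ i, count_m (12 * (L : ℤ) - Φ.wt i)
        + ∑ i, count_m (0 - Φ.wt i) := by
    rw [Finset.sum_congr rfl fun i _ =>
      count_pointwise_twelve (Φ.wt i) L (hnn i) (hev i) (hLi i)]
    rw [Finset.sum_add_distrib, Finset.sum_sub_distrib, Finset.sum_const, Finset.card_univ]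
    simp [mul_comm]
  have h4' : (Module.finrank ℂ (ModularForm (G0 N) (12 * (L : ℤ))) : ℤ)
      = Module.finrank ℂ (CuspForm (G0 N) (12 * (L : ℤ))) + numCusps N := by
    exact_mod_cast h4
  rw [e1, e4, ← e2, ← e3, h4']
  ring

end Fermat.Agent.ES.R
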