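import Mathlib
import Fermat.Prelude.Def_ModularCurve_X0ModL

/-!
# ESpkg-G1, piece A6-inj: descent of `p`-th roots and linear disjointness for Laurent series

`K ⊆ L` fields of characteristic `0`, `ι = algebraMap K L`, `coeffMap ι : K((q)) → L((q))`.

* `exists_coeffMap_eq_of_pow_eq`: `K` algebraically closed, `w ∈ L((q))`, `w ^ p = coeffMap ι u`
  (`p ≠ 0`) ⇒ `w = coeffMap ι w'` with `w' ^ p = u`.
* `mem_laurentBaseChange_of_coeffMap_mem`: `coeffMap ι x ∈ laurentBaseChange L F₀` ⇒
  `x ∈ laurentBaseChange K F₀`   (`K_L ∩ K((q)) = K_K`).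
* `exists_root_mem_laurentBaseChange`: the two combined (injectivity of `V_K → V_L`).
-/

set_option autoImplicit false

noncomputable section

namespace Fermat.Agent.ES.DescentInj

open ModularCurve

section PowerSeriesStep

variable {K L : Type*} [Field K] [Field L]

open PowerSeries in
/-- derivative commutes with coefficient maps. -/
theorem derivative_map (ι : K →+* L) (U : PowerSeries K) :
    PowerSeries.derivative L (U.map ι) = (PowerSeries.derivative K U).map ι := by
  ext k
  simp [PowerSeries.coeff_derivative, PowerSeries.coeff_map]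

open PowerSeries in
/-- The logarithmic-derivative identity `p U W' = U' W` for `W ^ p = U`. -/
theorem smul_mul_derivative_of_pow_eq {p : ℕ} (hp : p ≠ 0) (U W : PowerSeries L) (h : W ^ p = U) :
    (p : L) • (U * PowerSeries.derivative L W) = PowerSeries.derivative L U * W := by
  subst h
  rw [PowerSeries.derivative_pow, Algebra.smul_def, map_natCast]
  obtain ⟨m, rfl⟩ := Nat.exists_eq_succ_of_ne_zero hp
  simp only [Nat.succ_sub_one, Nat.succ_eq_add_one]
  ring

open PowerSeries in
/-- If `W ^ p = ι U` in `L⟦X⟧` with `U 0 ≠ 0` and `W 0 ∈ ι K`, then all coefficients of `W` are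
in `ι K` (characteristic `0`). -/
theorem coeff_mem_fieldRange_of_pow_eq [CharZero L] (ι : K →+* L) {p : ℕ} (hp : p ≠ 0)
    (U : PowerSeries K) (W : PowerSeries L) (hU : PowerSeries.constantCoeff U ≠ 0)
    (hW0 : PowerSeries.constantCoeff W ∈ ι.fieldRange) (h : W ^ p = U.map ι) :
    ∀ k, PowerSeries.coeff k W ∈ ι.fieldRange := by
  intro k
  induction k using Nat.strong_induction_on with
  | _ k ih =>
    rcases Nat.eq_zero_or_pos k with rfl | hk
    · simpa using hW0
    obtain ⟨k, rfl⟩ := Nat.exists_eq_succ_of_ne_zero hk.ne'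
    have E := smul_mul_derivative_of_pow_eq hp (U.map ι) W h
    rw [derivative_map] at E
    have E' := congrArg (PowerSeries.coeff k) E
    rw [PowerSeries.coeff_smul, PowerSeries.coeff_mul, PowerSeries.coeff_mul] at E'
    have hR : ∑ x ∈ Finset.HasAntidiagonal.antidiagonal k,
        PowerSeries.coeff x.1 ((PowerSeries.derivative K U).map ι) * PowerSeries.coeff x.2 W
          ∈ ι.fieldRange := by
      refine Subfield.sum_mem _ fun x hx => ?_
      refine Subfield.mul_mem _ ?_ (ih _ ?_)
      · rw [PowerSeries.coeff_map]; exact ⟨_, rfl⟩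
      · have := Finset.HasAntidiagonal.mem_antidiagonal.1 hx; omega
    rw [← Finset.add_sum_erase _ _ (show (0, k) ∈ Finset.HasAntidiagonal.antidiagonal k from
      Finset.HasAntidiagonal.mem_antidiagonal.2 (zero_add k))] at E'
    have hrest : ∑ x ∈ (Finset.HasAntidiagonal.antidiagonal k).erase (0, k),
        PowerSeries.coeff x.1 (U.map ι) * PowerSeries.coeff x.2 (PowerSeries.derivative L W)
          ∈ ι.fieldRange := by
      refine Subfield.sum_mem _ fun x hx => ?_
      have hx' := Finset.mem_erase.1 hx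
      have hmem := Finset.HasAntidiagonal.mem_antidiagonal.1 hx'.2
      have hlt : x.2 < k := by
        rcases x with ⟨i, j⟩
        simp only [ne_eq, Prod.mk.injEq, not_and] at hx'
        simp only at hmem
        by_contra hcon
        have hj : j = k := by omega
        have hi : i = 0 := by omega
        exact hx'.1 hi hj
      refine Subfield.mul_mem _ ?_ ?_
      · rw [PowerSeries.coeff_map]; exact ⟨_, rfl⟩
      · rw [PowerSeries.coeff_derivative]
        exact Subfield.mul_mem _ (ih _ (by omega)) (by exact_mod_cast natCast_mem ι.fieldRange (x.2 + 1))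
    set R := ∑ x ∈ Finset.HasAntidiagonal.antidiagonal k,
        PowerSeries.coeff x.1 ((PowerSeries.derivative K U).map ι) * PowerSeries.coeff x.2 W
    set rest := ∑ x ∈ (Finset.HasAntidiagonal.antidiagonal k).erase (0, k),
        PowerSeries.coeff x.1 (U.map ι) * PowerSeries.coeff x.2 (PowerSeries.derivative L W)
    simp only [PowerSeries.coeff_map, PowerSeries.coeff_derivative,
      PowerSeries.coeff_zero_eq_constantCoeff_apply] at E'
    have hp' : (p : L) ≠ 0 := Nat.cast_ne_zero.2 hp
    have hc : ι (PowerSeries.constantCoeff U) ≠ 0 := (map_ne_zero ι).2 hU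
    have hk1 : ((k : L) + 1) ≠ 0 := by exact_mod_cast Nat.succ_ne_zero k
    have hsolve : PowerSeries.coeff (k + 1) W
        = (R / (p : L) - rest) / (ι (PowerSeries.constantCoeff U) * ((k : L) + 1)) := by
      field_simp
      linear_combination E'
    rw [hsolve]
    refine Subfield.div_mem _ (Subfield.sub_mem _ (Subfield.div_mem _ hR (natCast_mem _ p)) hrest)
      (Subfield.mul_mem _ ⟨_, rfl⟩ ?_)
    exact_mod_cast natCast_mem ι.fieldRange (k + 1)

end PowerSeriesStep

section LaurentRoot

variable {K L : Type*} [Field K] [Field L]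

theorem coeffMap_inj (ι : K →+* L) : Function.Injective (coeffMap ι) :=
  (coeffMap ι).injective

theorem order_coeffMap (ι : K →+* L) (u : LaurentSeries K) :
    (coeffMap ι u).order = u.order := by
  by_cases hu : u = 0
  · subst hu; simp
  have hu' : coeffMap ι u ≠ 0 := fun h => hu (coeffMap_inj ι (by rw [h, map_zero]))
  refine le_antisymm ?_ ?_
  · refine HahnSeries.order_le_of_coeff_ne_zero ?_
    rw [coeffMap_coeff]
    exact (map_ne_zero ι).2 (mt HahnSeries.coeff_order_eq_zero.1 hu)
  · refine HahnSeries.order_le_of_coeff_ne_zero ?_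
    have := mt HahnSeries.coeff_order_eq_zero.1 hu'
    rw [coeffMap_coeff] at this
    exact fun h => this (by rw [h, map_zero])

theorem powerSeriesPart_coeffMap (ι : K →+* L) (u : LaurentSeries K) :
    (coeffMap ι u).powerSeriesPart = u.powerSeriesPart.map ι := by
  ext k
  rw [LaurentSeries.powerSeriesPart_coeff, PowerSeries.coeff_map,
    LaurentSeries.powerSeriesPart_coeff, order_coeffMap, coeffMap_coeff]

theorem order_pow' (w : LaurentSeries L) (p : ℕ) : (w ^ p).order = p • w.order := by
  induction p with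
  | zero => simp
  | succ n ih =>
    by_cases hw : w = 0
    · subst hw; simp
    rw [pow_succ, HahnSeries.order_mul (pow_ne_zero _ hw) hw, ih, succ_nsmul]

theorem powerSeriesPart_pow (w : LaurentSeries L) (p : ℕ) :
    (w ^ p).powerSeriesPart = w.powerSeriesPart ^ p := by
  apply HahnSeries.ofPowerSeries_injective (Γ := ℤ)
  have h1 := LaurentSeries.single_order_mul_powerSeriesPart (w ^ p)
  have h2 := LaurentSeries.single_order_mul_powerSeriesPart w
  have h3 : (HahnSeries.single (w ^ p).order (1 : L) : LaurentSeries L)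
      * HahnSeries.ofPowerSeries ℤ L (w.powerSeriesPart ^ p) = w ^ p := by
    conv_rhs => rw [← h2]
    rw [mul_pow, HahnSeries.single_pow, one_pow, order_pow', map_pow]
  have hne : (HahnSeries.single (w ^ p).order (1 : L) : LaurentSeries L) ≠ 0 :=
    HahnSeries.single_ne_zero one_ne_zero
  exact mul_left_cancel₀ hne (h1.trans h3.symm)

/-- **Descent of `p`-th roots.** `K` algebraically closed, `L ⊇ K` of characteristic `0`:
a `p`-th root in `L((q))` of a series with coefficients in `K` has coefficients in `K`. -/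
theorem exists_coeffMap_eq_of_pow_eq [CharZero L] [IsAlgClosed K] (ι : K →+* L) {p : ℕ}
    (hp : p ≠ 0) (u : LaurentSeries K) (w : LaurentSeries L) (h : w ^ p = coeffMap ι u) :
    ∃ w' : LaurentSeries K, coeffMap ι w' = w ∧ w' ^ p = u := by
  suffices hex : ∃ w' : LaurentSeries K, coeffMap ι w' = w by
    obtain ⟨w', hw'⟩ := hex
    refine ⟨w', hw', coeffMap_inj ι ?_⟩
    rw [map_pow, hw', h]
  by_cases hw : w = 0
  · exact ⟨0, by rw [hw, map_zero]⟩
  have hu : u ≠ 0 := by
    rintro rfl
    rw [map_zero] at h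
    exact hw (pow_eq_zero_iff hp |>.1 h)
  have hPS : w.powerSeriesPart ^ p = u.powerSeriesPart.map ι := by
    rw [← powerSeriesPart_pow, h, powerSeriesPart_coeffMap]
  have hU0 : PowerSeries.constantCoeff u.powerSeriesPart ≠ 0 := by
    rw [← PowerSeries.coeff_zero_eq_constantCoeff_apply, LaurentSeries.powerSeriesPart_coeff]
    simpa using mt HahnSeries.coeff_order_eq_zero.1 hu
  have hW0 : PowerSeries.constantCoeff w.powerSeriesPart ∈ ι.fieldRange := by
    have hroot : (Polynomial.map ι (Polynomial.X ^ p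
        - Polynomial.C (PowerSeries.constantCoeff u.powerSeriesPart))).IsRoot
          (PowerSeries.constantCoeff w.powerSeriesPart) := by
      have := congrArg PowerSeries.constantCoeff hPS
      rw [map_pow, ← PowerSeries.coeff_zero_eq_constantCoeff_apply
        (φ := (PowerSeries.map ι) u.powerSeriesPart), PowerSeries.coeff_map,
        PowerSeries.coeff_zero_eq_constantCoeff_apply] at this
      rw [Polynomial.IsRoot, Polynomial.eval_map, Polynomial.eval₂_sub, Polynomial.eval₂_pow,
        Polynomial.eval₂_X, Polynomial.eval₂_C, this, sub_self]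
    have hne : (Polynomial.X ^ p
        - Polynomial.C (PowerSeries.constantCoeff u.powerSeriesPart) : Polynomial K) ≠ 0 :=
      Polynomial.X_pow_sub_C_ne_zero (Nat.pos_of_ne_zero hp) _
    exact (IsAlgClosed.splits _).mem_range_of_isRoot hne hroot
  have hall := coeff_mem_fieldRange_of_pow_eq ι hp u.powerSeriesPart w.powerSeriesPart hU0 hW0 hPS
  choose c hc using hall
  refine ⟨HahnSeries.single w.order (1 : K) * HahnSeries.ofPowerSeries ℤ K (PowerSeries.mk c), ?_⟩
  rw [map_mul, coeffMap_single, map_one, coeffMap_ofPowerSeries]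
  have : (PowerSeries.mk c).map ι = w.powerSeriesPart := by
    ext k
    rw [PowerSeries.coeff_map, PowerSeries.coeff_mk, hc]
  rw [this, LaurentSeries.single_order_mul_powerSeriesPart]

end LaurentRoot

section LinearDisjoint

variable {K L : Type*} [Field K] [Field L] [Algebra K L]
variable {I : Type*} (b : Module.Basis I K L)

theorem coeffMap_C (k : K) :
    coeffMap (algebraMap K L) (HahnSeries.C k) = HahnSeries.C (algebraMap K L k) := by
  rw [HahnSeries.C_apply, coeffMap_single, HahnSeries.C_apply]

theorem coeff_C_mul (l : L) (z : LaurentSeries L) (n : ℤ) :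
    (HahnSeries.C l * z).coeff n = l * z.coeff n := by
  rw [HahnSeries.C_mul_eq_smul, HahnSeries.coeff_smul, smul_eq_mul]

theorem C_mem_subalgebra (A : Subalgebra K (LaurentSeries K)) (k : K) :
    (HahnSeries.C k : LaurentSeries K) ∈ A := by
  rw [← LaurentSeries.algebraMap_apply]
  exact A.algebraMap_mem k

/-- `Σ_t C(b_t) * ι(c_t)`. -/
def decSum (c : I →₀ LaurentSeries K) : LaurentSeries L :=
  c.sum fun t g => HahnSeries.C (b t) * coeffMap (algebraMap K L) g

theorem decSum_zero : decSum b 0 = 0 := Finsupp.sum_zero_index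

theorem decSum_add (c c' : I →₀ LaurentSeries K) :
    decSum b (c + c') = decSum b c + decSum b c' :=
  Finsupp.sum_add_index' (fun t => by simp) (fun t g g' => by simp [mul_add])

theorem decSum_sub (c c' : I →₀ LaurentSeries K) :
    decSum b (c - c') = decSum b c - decSum b c' :=
  Finsupp.sum_sub_index (fun t g g' => by simp [mul_sub])

theorem decSum_coeff (c : I →₀ LaurentSeries K) (n : ℤ) :
    (decSum b c).coeff n = ∑ t ∈ c.support, (c t).coeff n • b t := by
  classical
  unfold decSum
  rw [Finsupp.sum]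
  have hadd : ∀ (s : Finset I) (f : I → LaurentSeries L),
      (∑ t ∈ s, f t).coeff n = ∑ t ∈ s, (f t).coeff n := by
    intro s f
    induction s using Finset.induction_on with
    | empty => simp
    | insert a s ha ih => rw [Finset.sum_insert ha, Finset.sum_insert ha, HahnSeries.coeff_add, ih]
  rw [hadd]
  refine Finset.sum_congr rfl fun t _ => ?_
  rw [coeff_C_mul, coeffMap_coeff, Algebra.smul_def, mul_comm]

theorem decSum_eq_zero {c : I →₀ LaurentSeries K} (h : decSum b c = 0) : c = 0 := by
  ext t n
  have hn := decSum_coeff b c n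
  rw [h, HahnSeries.coeff_zero] at hn
  have := linearIndependent_iff'.1 b.linearIndependent c.support (fun t => (c t).coeff n) hn.symm
  by_cases ht : t ∈ c.support
  · simpa using this t ht
  · simp [Finsupp.notMem_support_iff.1 ht]

/-- The additive monoid of series `Σ_t C(b_t) * ι(c_t)` with all `c_t ∈ A`. -/
def decSet (A : Subalgebra K (LaurentSeries K)) : AddSubmonoid (LaurentSeries L) where
  carrier := {P | ∃ c : I →₀ LaurentSeries K, (∀ t, c t ∈ A) ∧ P = decSum b c}
  zero_mem' := ⟨0, fun t => by simp, (decSum_zero b).symm⟩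
  add_mem' := by
    rintro _ _ ⟨c, hc, rfl⟩ ⟨c', hc', rfl⟩
    exact ⟨c + c', fun t => by simpa using add_mem (hc t) (hc' t), (decSum_add b c c').symm⟩

theorem C_mul_coeffMap_mem_decSet (A : Subalgebra K (LaurentSeries K)) (l : L)
    {g : LaurentSeries K} (hg : g ∈ A) :
    HahnSeries.C l * coeffMap (algebraMap K L) g ∈ decSet b A := by
  refine ⟨(b.repr l).mapRange (fun k => HahnSeries.C k * g) (by simp), fun t => ?_, ?_⟩
  · rw [Finsupp.mapRange_apply]
    exact A.mul_mem (C_mem_subalgebra A _) hg
  · unfold decSum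
    rw [Finsupp.sum_mapRange_index (fun t => by simp)]
    conv_lhs => rw [← b.linearCombination_repr l, Finsupp.linearCombination_apply,
      Finsupp.sum, map_sum, Finset.sum_mul]
    rw [Finsupp.sum]
    refine Finset.sum_congr rfl fun t _ => ?_
    rw [map_mul, coeffMap_C, ← mul_assoc, ← map_mul, Algebra.smul_def, mul_comm (b t)]

theorem mul_mem_decSet (A : Subalgebra K (LaurentSeries K)) {P Q : LaurentSeries L}
    (hP : P ∈ decSet b A) (hQ : Q ∈ decSet b A) : P * Q ∈ decSet b A := by
  obtain ⟨c, hc, rfl⟩ := hP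
  obtain ⟨c', hc', rfl⟩ := hQ
  unfold decSum
  rw [Finsupp.sum, Finsupp.sum, Finset.sum_mul_sum]
  refine AddSubmonoid.sum_mem _ fun t _ => AddSubmonoid.sum_mem _ fun t' _ => ?_
  have : HahnSeries.C (b t) * coeffMap (algebraMap K L) (c t)
      * (HahnSeries.C (b t') * coeffMap (algebraMap K L) (c' t'))
      = HahnSeries.C (b t * b t') * coeffMap (algebraMap K L) (c t * c' t') := by
    rw [map_mul, map_mul]; ring
  rw [this]
  exact C_mul_coeffMap_mem_decSet b A _ (A.mul_mem (hc t) (hc' t'))

theorem mem_decSet_of_mem_adjoin (A : Subalgebra K (LaurentSeries K)) {P : LaurentSeries L}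
    (hP : P ∈ Algebra.adjoin L (⇑(coeffMap (algebraMap K L)) '' (A : Set (LaurentSeries K)))) :
    P ∈ decSet b A := by
  induction hP using Algebra.adjoin_induction with
  | mem x hx =>
    obtain ⟨g, hg, rfl⟩ := hx
    simpa using C_mul_coeffMap_mem_decSet b A 1 hg
  | algebraMap l =>
    rw [LaurentSeries.algebraMap_apply]
    simpa using C_mul_coeffMap_mem_decSet b A l A.one_mem
  | add x y _ _ hx hy => exact add_mem hx hy
  | mul x y _ _ hx hy => exact mul_mem_decSet b A hx hy

/-- **Linear disjointness** of `K((q))` and `L` over `K` inside `L((q))`, fraction form. -/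
theorem exists_mul_eq_of_coeffMap_mul_eq (A : Subalgebra K (LaurentSeries K))
    {x : LaurentSeries K} {P Q : LaurentSeries L}
    (hP : P ∈ Algebra.adjoin L (⇑(coeffMap (algebraMap K L)) '' (A : Set (LaurentSeries K))))
    (hQ : Q ∈ Algebra.adjoin L (⇑(coeffMap (algebraMap K L)) '' (A : Set (LaurentSeries K))))
    (hQ0 : Q ≠ 0) (h : coeffMap (algebraMap K L) x * Q = P) :
    ∃ P' ∈ A, ∃ Q' ∈ A, Q' ≠ 0 ∧ x * Q' = P' := by
  set b := Module.Basis.ofVectorSpace K L
  obtain ⟨cP, hcP, rfl⟩ := mem_decSet_of_mem_adjoin b A hP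
  obtain ⟨cQ, hcQ, rfl⟩ := mem_decSet_of_mem_adjoin b A hQ
  have hx : coeffMap (algebraMap K L) x * decSum b cQ
      = decSum b (cQ.mapRange (fun g => x * g) (mul_zero x)) := by
    unfold decSum
    rw [Finsupp.sum_mapRange_index (fun t => by simp), Finsupp.mul_sum]
    refine Finsupp.sum_congr fun t _ => ?_
    rw [map_mul]; ring
  rw [hx] at h
  have h0 : decSum b (cQ.mapRange (fun g => x * g) (mul_zero x) - cP) = 0 := by
    rw [decSum_sub, h, sub_self]
  have heq := sub_eq_zero.1 (decSum_eq_zero b h0)
  have hne : cQ ≠ 0 := by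
    rintro rfl
    exact hQ0 (decSum_zero b)
  obtain ⟨t, ht⟩ := Finsupp.ne_iff.1 hne
  refine ⟨cP t, hcP t, cQ t, hcQ t, by simpa using ht, ?_⟩
  rw [← heq, Finsupp.mapRange_apply]

end LinearDisjoint

section BaseChange

variable {K L : Type*} [Field K] [Field L] [Algebra K L] [Algebra ℚ K] [Algebra ℚ L]

theorem coeffMap_coeffEmb_eq (x : LaurentSeries ℚ) :
    coeffMap (algebraMap K L) (coeffEmb K x) = coeffEmb L x := by
  rw [coeffEmb, coeffEmb, coeffMap_coeffMap]
  exact coeffMap_congr (Subsingleton.elim _ _) x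

/-- The easy direction: `coeffMap` maps `K_K` into `K_L`. -/
theorem coeffMap_mem_laurentBaseChange_of_mem (F₀ : IntermediateField ℚ (LaurentSeries ℚ))
    {x : LaurentSeries K} (hx : x ∈ laurentBaseChange K F₀) :
    coeffMap (algebraMap K L) x ∈ laurentBaseChange L F₀ := by
  rw [mem_laurentBaseChange_iff] at hx
  induction hx using Subfield.closure_induction with
  | mem y hy =>
      rcases hy with ⟨a, rfl⟩ | ⟨z, hz, rfl⟩
      · rw [LaurentSeries.algebraMap_apply, coeffMap_C, ← LaurentSeries.algebraMap_apply]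
        exact (laurentBaseChange L F₀).algebraMap_mem _
      · rw [coeffMap_coeffEmb_eq]
        exact coeffEmb_mem_laurentBaseChange L hz
  | one => simp
  | add x y _ _ hx hy => simpa using add_mem hx hy
  | neg x _ hx => simpa using neg_mem hx
  | inv x _ hx => simpa using inv_mem hx
  | mul x y _ _ hx hy => simpa using mul_mem hx hy

/-- **`K_L ∩ K((q)) = K_K`**: a series with coefficients in `K` that lies in the base change to
`L` of `F₀` already lies in the base change to `K`. -/
theorem mem_laurentBaseChange_of_coeffMap_mem (F₀ : IntermediateField ℚ (LaurentSeries ℚ))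
    {x : LaurentSeries K} (h : coeffMap (algebraMap K L) x ∈ laurentBaseChange L F₀) :
    x ∈ laurentBaseChange K F₀ := by
  obtain ⟨r, hr, s, hs, hxrs⟩ := IntermediateField.mem_adjoin_iff_div.1 h
  by_cases hs0 : s = 0
  · rw [hs0, div_zero] at hxrs
    have : x = 0 := coeffMap_inj _ (by rw [hxrs, map_zero])
    rw [this]; exact zero_mem _
  set A := Algebra.adjoin K (⇑(coeffEmb K) '' (F₀ : Set (LaurentSeries ℚ)))
  have hle : Algebra.adjoin L (⇑(coeffEmb L) '' (F₀ : Set (LaurentSeries ℚ)))
      ≤ Algebra.adjoin L (⇑(coeffMap (algebraMap K L)) '' (A : Set (LaurentSeries K))) := by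
    refine Algebra.adjoin_mono ?_
    rintro _ ⟨f, hf, rfl⟩
    exact ⟨coeffEmb K f, Algebra.subset_adjoin ⟨f, hf, rfl⟩, coeffMap_coeffEmb_eq f⟩
  have hmul : coeffMap (algebraMap K L) x * s = r := by rw [hxrs, div_mul_cancel₀ _ hs0]
  obtain ⟨P', hP', Q', hQ', hQ0, hPQ⟩ :=
    exists_mul_eq_of_coeffMap_mul_eq A (hle hr) (hle hs) hs0 hmul
  exact IntermediateField.mem_adjoin_iff_div.2
    ⟨P', hP', Q', hQ', by rw [← hPQ, mul_div_cancel_right₀ _ hQ0]⟩

theorem coeffMap_mem_laurentBaseChange_iff (F₀ : IntermediateField ℚ (LaurentSeries ℚ))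
    {x : LaurentSeries K} :
    coeffMap (algebraMap K L) x ∈ laurentBaseChange L F₀ ↔ x ∈ laurentBaseChange K F₀ :=
  ⟨mem_laurentBaseChange_of_coeffMap_mem F₀, coeffMap_mem_laurentBaseChange_of_mem F₀⟩

/-- **A6-inj.** `K` algebraically closed of characteristic `0`, `K ⊆ L`: if `u ∈ K((q))` has a
`p`-th root `w` in `K_L = laurentBaseChange L F₀`, then `w` comes from a `p`-th root of `u` in
`K_K = laurentBaseChange K F₀`.  (Injectivity of `K_K^× / p → K_L^× / p`.) -/
theorem exists_root_mem_laurentBaseChange [CharZero L] [IsAlgClosed K]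
    (F₀ : IntermediateField ℚ (LaurentSeries ℚ)) {p : ℕ} (hp : p ≠ 0)
    {u : LaurentSeries K} {w : LaurentSeries L} (hw : w ∈ laurentBaseChange L F₀)
    (h : w ^ p = coeffMap (algebraMap K L) u) :
    ∃ w' ∈ laurentBaseChange K F₀, coeffMap (algebraMap K L) w' = w ∧ w' ^ p = u := by
  obtain ⟨w', hw', hpow⟩ := exists_coeffMap_eq_of_pow_eq (algebraMap K L) hp u w h
  exact ⟨w', mem_laurentBaseChange_of_coeffMap_mem F₀ (by rw [hw']; exact hw), hw', hpow⟩

end BaseChange

end Fermat.Agent.ES.DescentInj
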