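import Fermat.Agent.ES.RiemannNorm
import Fermat.Agent.ES.DescentInj
import Fermat.Agent.ES.RC.UnitField
import Fermat.Agent.S24.AnalyticDefs
import Fermat.Agent.S24.Defs

/-!
# ES shared input (R), piece R2c: rationalisation and descent to `ℚ̄`

* `retract_relation` : a relation `y^d + ∑_j (∑_i C(c j i) J^i) y^(d-j) = 0` in `L((q))` between
  series with coefficients in `K ⊆ L` holds with coefficients `π (c j i) ∈ K` for any `K`-linear
  retraction `π : L → K` (linear disjointness of `L` and `K((q))` over `K`, in the simplest form).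
* `fullC_le_laurentBaseChange` : `ℂ(j(q^d) : d ∣ N) ≤ laurentBaseChange ℂ (ℚ(j(q^d)))`.
* `cusp_rational_relation` : for a cusp form `G` of weight `12 m` on `Γ₀(N)` with integral
  `q`-expansion the series `x = G(q)/Δ(q)^m ∈ ℚ̄((q))` lies in `F = modularFunctionFieldBar N`
  and satisfies `x^d + ∑_{j=1}^d (∑_{i < m j} C(a j i) j^i) x^(d-j) = 0` with `a j i ∈ ℚ̄`.
-/

set_option autoImplicit false

noncomputable section

namespace Fermat.Agent.ES.R

open ModularCurve

/-! ### The retraction trick -/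

section Retract

variable {K L : Type*} [Field K] [Field L] [Algebra K L]

theorem retract_key (π : L →ₗ[K] K) (c : L) (a : LaurentSeries K) (n : ℤ) :
    π ((HahnSeries.C c * coeffMap (algebraMap K L) a).coeff n) =
      (HahnSeries.C (π c) * a).coeff n := by
  rw [HahnSeries.C_mul_eq_smul, HahnSeries.C_mul_eq_smul, HahnSeries.coeff_smul,
    HahnSeries.coeff_smul, coeffMap_coeff, smul_eq_mul, smul_eq_mul, mul_comm c,
    ← Algebra.smul_def, map_smul, smul_eq_mul, mul_comm]

theorem retract_relation (π : L →ₗ[K] K) (hπ : π 1 = 1) (d m : ℕ) (c : ℕ → ℕ → L)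
    (J x : LaurentSeries K)
    (h : coeffMap (algebraMap K L) x ^ d + ∑ j ∈ Finset.Icc 1 d,
      (∑ i ∈ Finset.range (m * j), HahnSeries.C (c j i) * coeffMap (algebraMap K L) J ^ i) *
        coeffMap (algebraMap K L) x ^ (d - j) = 0) :
    x ^ d + ∑ j ∈ Finset.Icc 1 d,
      (∑ i ∈ Finset.range (m * j), HahnSeries.C (π (c j i)) * J ^ i) * x ^ (d - j) = 0 := by
  -- normal form of the hypothesis
  have h1 : HahnSeries.C (1 : L) * coeffMap (algebraMap K L) (x ^ d) + ∑ j ∈ Finset.Icc 1 d,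
      ∑ i ∈ Finset.range (m * j),
        HahnSeries.C (c j i) * coeffMap (algebraMap K L) (J ^ i * x ^ (d - j)) = 0 := by
    rw [← h, map_one, one_mul, map_pow]
    congr 1
    refine Finset.sum_congr rfl fun j _ => ?_
    rw [Finset.sum_mul]
    refine Finset.sum_congr rfl fun i _ => ?_
    rw [map_mul, map_pow, map_pow, mul_assoc]
  -- normal form of the goal
  have h2 : x ^ d + ∑ j ∈ Finset.Icc 1 d,
      (∑ i ∈ Finset.range (m * j), HahnSeries.C (π (c j i)) * J ^ i) * x ^ (d - j) =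
      HahnSeries.C (π 1) * x ^ d + ∑ j ∈ Finset.Icc 1 d, ∑ i ∈ Finset.range (m * j),
        HahnSeries.C (π (c j i)) * (J ^ i * x ^ (d - j)) := by
    rw [hπ, map_one, one_mul]
    congr 1
    refine Finset.sum_congr rfl fun j _ => ?_
    rw [Finset.sum_mul]
    refine Finset.sum_congr rfl fun i _ => ?_
    rw [mul_assoc]
  rw [h2]
  ext n
  have h3 := congrArg (fun z : LaurentSeries L => π (z.coeff n)) h1
  simp only [HahnSeries.coeff_add, HahnSeries.coeff_sum, HahnSeries.coeff_zero, map_add, map_sum,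
    map_zero, retract_key] at h3
  simp only [HahnSeries.coeff_add, HahnSeries.coeff_sum, HahnSeries.coeff_zero]
  exact h3

end Retract

/-! ### `K_ℂ` inside the base change -/

theorem coeffEmb_qExpand_jq (K : Type*) [Field K] [Algebra ℚ K] (d : ℕ) [NeZero d] :
    coeffEmb K (qExpand ℚ d jq) = qExpand K d (jqModC K) := by
  rw [coeffEmb, coeffMap_qExpand, ← jqModC_rat, coeffMap_jqModC]

theorem fullC_le_laurentBaseChange (K : Type*) [Field K] [Algebra ℚ K] (N : ℕ) [NeZero N] :
    modularFunctionFieldFullC K N ≤ laurentBaseChange K (modularFunctionFieldFull N) := by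
  rw [modularFunctionFieldFullC, IntermediateField.adjoin_le_iff]
  rintro x ⟨d, hd0, hd, rfl⟩
  rw [← coeffEmb_qExpand_jq K d]
  exact coeffEmb_mem_laurentBaseChange K (jqd_mem_full N hd)

/-! ### Cusp forms with integral `q`-expansion -/

open UpperHalfPlane ModularForm
open Fermat.Agent.S23 Fermat.Agent.S24 Fermat.Agent.S28 Fermat.Agent.ES.RC
open scoped MatrixGroups ModularForm Manifold

attribute [local instance] Fermat.Agent.S24.algKbC

local notation "Δ" => ModularForm.discriminant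

/-- a `ℚ̄`-linear retraction of `ℚ̄ → ℂ`. -/
theorem exists_retraction : ∃ π : ℂ →ₗ[Kb] Kb, π 1 = 1 := by
  obtain ⟨π, hπ⟩ := LinearMap.exists_leftInverse_of_injective (Algebra.linearMap Kb ℂ)
    (LinearMap.ker_eq_bot.mpr (algebraMap Kb ℂ).injective)
  refine ⟨π, ?_⟩
  have := LinearMap.congr_fun hπ 1
  simpa using this

/-- The series `G(q) / Δ(q)^m` over `ℚ̄` attached to an integral `q`-expansion. -/
def ratSeries (m : ℕ) (z : ℕ → ℤ) : LaurentSeries Kb :=
  HahnSeries.ofPowerSeries ℤ Kb (PowerSeries.mk fun n => ((z n : ℤ) : Kb)) * (deltaS Kb ^ m)⁻¹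

variable {N : ℕ} [NeZero N]

theorem coeffMap_ratSeries (m : ℕ) (F : CuspForm (G0 N) (12 * (m : ℤ))) (z : ℕ → ℤ)
    (hz : ∀ n, (qExpansion 1 F).coeff n = (z n : ℂ)) :
    coeffMap (algebraMap Kb ℂ) (ratSeries m z) = laurentOf (fun τ => F τ / Δ τ ^ m) := by
  have hHPB : IsHPB (fun τ => (fun τ => F τ / Δ τ ^ m) τ * Δ τ ^ m) := by
    have h1 : (fun τ => (fun τ => F τ / Δ τ ^ m) τ * Δ τ ^ m) = ⇑F := by
      funext τ
      simp only
      rw [div_mul_cancel₀ _ (pow_ne_zero m (discriminant_ne_zero τ))]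
    rw [h1]
    exact (IsCF.isMF (⟨F, rfl⟩ : IsCF (G0 N) (12 * (m : ℤ)) ⇑F)).isHPB
  rw [laurentOf_eq hHPB]
  have h1 : (fun τ => (fun τ => F τ / Δ τ ^ m) τ * Δ τ ^ m) = ⇑F := by
    funext τ
    simp only
    rw [div_mul_cancel₀ _ (pow_ne_zero m (discriminant_ne_zero τ))]
  rw [h1, ratSeries, map_mul, map_inv₀, map_pow, coeffMap_deltaS, deltaS_complex,
    coeffMap_ofPowerSeries]
  congr 2
  ext n
  rw [PowerSeries.coeff_map, PowerSeries.coeff_mk, hz n]
  simp

/-- **R2c.**  For a cusp form `F` of weight `12 m` (`m ≥ 1`) on `Γ₀(N)` with integral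
`q`-expansion, `x = F(q)/Δ(q)^m ∈ ℚ̄((q))` lies in the function field `F_N` over `ℚ̄` and satisfies
the norm relation with coefficients in `ℚ̄`. -/
theorem cusp_rational_relation (m : ℕ) (hm : 1 ≤ m) (F : CuspForm (G0 N) (12 * (m : ℤ)))
    (z : ℕ → ℤ) (hz : ∀ n, (qExpansion 1 F).coeff n = (z n : ℂ)) :
    ratSeries m z ∈ ModularCurve.modularFunctionFieldBar N ∧
    ∃ a : ℕ → ℕ → Kb,
      ratSeries m z ^ cosetCard N + ∑ j ∈ Finset.Icc 1 (cosetCard N),
        (∑ i ∈ Finset.range (m * j), HahnSeries.C (a j i) * jqModC Kb ^ i) *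
          ratSeries m z ^ (cosetCard N - j) = 0 := by
  have hx := coeffMap_ratSeries m F z hz
  constructor
  · apply Fermat.Agent.ES.DescentInj.mem_laurentBaseChange_of_coeffMap_mem (K := Kb) (L := ℂ)
    rw [hx]
    exact fullC_le_laurentBaseChange ℂ N
      (rc_laurentOf_mem_full N (isModFun_div (IsCF.isMF ⟨F, rfl⟩)))
  · obtain ⟨c, hc⟩ := cusp_laurent_relation m hm F
    obtain ⟨π, hπ⟩ := exists_retraction
    refine ⟨fun j i => π (c j i), ?_⟩
    refine retract_relation π hπ (cosetCard N) m c (jqModC Kb) (ratSeries m z) ?_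
    rw [hx, coeffMap_jqModC]
    exact hc

end Fermat.Agent.ES.R
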