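import Fermat.Agent.ES.RiemannGeneric
import Fermat.Agent.ES.RiemannCount
import Fermat.Agent.ES.RiemannRat
import Fermat.Agent.ES.RiemannVal
import Fermat.Agent.ES.HModular
import Fermat.Agent.S24.RealizationExists
import Fermat.Agent.S24.PreFinal
import Fermat.Agent.S23.Main
import Fermat.Agent.S23.FinDim
import Fermat.Agent.S20.Glue
import Fermat.Agent.ES.M.Plan

/-!
# ES shared input (R): Riemann's inequality for the function field of `X₀(N)` over `ℚ̄`

`riemann_inequality` : for every divisor `A` of `F = ℚ̄(j(q^d) : d ∣ N)`,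

  `deg A + 1 − g ≤ dim_ℚ̄ L(A)`,     `g = dim_ℂ S₂(Γ₀(N))` (`= genusFormula N` by S20).

Route (no Riemann–Roch): `G ↦ G/Δ^m` maps the cusp forms of weight `12 m` with integral
`q`-expansion (S23) into `L(m·(j)_∞ − Σ_{cusps} c)`; `dim S_{12 m} = m ψ − κ + 1 − g` (S20);
`deg (m·(j)_∞ − Σ c) = m ψ − κ` (S24); then the generic transfer `riemann_transfer`.
-/

set_option autoImplicit false

noncomputable section

namespace Fermat.Agent.ES.R

open AlgebraicCurve ModularCurve IntermediateField WithZero Module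
open UpperHalfPlane ModularForm
open Fermat.Agent.S23 Fermat.Agent.S24 Fermat.Agent.S28
open scoped MatrixGroups

attribute [local instance] Fermat.Agent.S24.algKbC

variable {N : ℕ} [NeZero N]

/-! ### The divisor `m·(j)_∞ − Σ_{cusps} c` -/

/-- `A_m = Σ_{v ∈ S} (m · ord_v(j⁻¹) − 1) · v`. -/
def cuspDivisor (N : ℕ) [NeZero N] (S : Finset (Place Kb (FF N))) (m : ℕ) : Divisor Kb (FF N) :=
  ∑ v ∈ S, Finsupp.single v ((m : ℤ) * v.ord (jF N)⁻¹ - 1)

theorem cuspDivisor_apply_of_mem (S : Finset (Place Kb (FF N))) (m : ℕ) {w : Place Kb (FF N)}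
    (hw : w ∈ S) : cuspDivisor N S m w = (m : ℤ) * w.ord (jF N)⁻¹ - 1 := by
  classical
  rw [cuspDivisor, Finsupp.finsetSum_apply]
  simp only [Finsupp.single_apply]
  rw [Finset.sum_ite_eq' S w, if_pos hw]

theorem cuspDivisor_apply_of_notMem (S : Finset (Place Kb (FF N))) (m : ℕ)
    {w : Place Kb (FF N)} (hw : w ∉ S) : cuspDivisor N S m w = 0 := by
  classical
  rw [cuspDivisor, Finsupp.finsetSum_apply]
  simp only [Finsupp.single_apply]
  rw [Finset.sum_ite_eq' S w, if_neg hw]

theorem degree_cuspDivisor (S : Finset (Place Kb (FF N))) (m : ℕ) :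
    Divisor.degree (cuspDivisor N S m) = (m : ℤ) * ∑ v ∈ S, v.ord (jF N)⁻¹ - S.card := by
  rw [cuspDivisor, map_sum]
  simp only [Divisor.degree_single, place_deg_eq_one _ (Fermat.Agent.ES.H.residue_bijective_FF N _),
    Nat.cast_one, mul_one]
  rw [Finset.sum_sub_distrib, Finset.mul_sum]
  simp

/-! ### From cusp forms to functions -/

theorem jF_coe (N : ℕ) [NeZero N] : ((jF N : FF N) : LaurentSeries Kb) = jqModC Kb := by
  show jBar = _
  rw [jBar, coeffEmb, ← jqModC_rat, coeffMap_jqModC]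

theorem jF_ne_zero (N : ℕ) [NeZero N] : jF N ≠ 0 := fun h =>
  (transcendental_jF N) (h ▸ isAlgebraic_zero)

/-- The norm relation inside the function field. -/
theorem ratSeries_rel (m : ℕ) (hm : 1 ≤ m) (F : CuspForm (G0 N) (12 * (m : ℤ)))
    (z : ℕ → ℤ) (hz : ∀ n, (qExpansion 1 F).coeff n = (z n : ℂ))
    (x : FF N) (hx : (x : LaurentSeries Kb) = ratSeries m z) :
    ∃ a : ℕ → ℕ → Kb,
      x ^ cosetCard N + ∑ j ∈ Finset.Icc 1 (cosetCard N),
        (∑ i ∈ Finset.range (m * j), a j i • jF N ^ i) * x ^ (cosetCard N - j) = 0 := by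
  obtain ⟨a, ha⟩ := (cusp_rational_relation m hm F z hz).2
  refine ⟨a, ?_⟩
  set φ : FF N →+* LaurentSeries Kb :=
    (ModularCurve.modularFunctionFieldBar N).toSubfield.subtype with hφd
  have hφ : ∀ y : FF N, φ y = (y : LaurentSeries Kb) := fun _ => rfl
  have hinj : Function.Injective φ := Subtype.val_injective
  apply hinj
  rw [map_zero, ← ha, map_add, map_pow, map_sum, hφ x, hx]
  congr 1
  refine Finset.sum_congr rfl fun j _ => ?_
  rw [map_mul, map_sum, map_pow, hφ x, hx]
  congr 1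
  refine Finset.sum_congr rfl fun i _ => ?_
  rw [Algebra.smul_def, map_mul, map_pow, hφ (jF N), jF_coe]
  congr 1
  rw [← LaurentSeries.algebraMap_apply]
  rfl

/-- **Pole bounds**: `x = F(q)/Δ(q)^m ∈ L(m·(j)_∞ − Σ_{cusps} c)`. -/
theorem ratSeries_mem_rr (m : ℕ) (hm : 1 ≤ m) (F : CuspForm (G0 N) (12 * (m : ℤ)))
    (z : ℕ → ℤ) (hz : ∀ n, (qExpansion 1 F).coeff n = (z n : ℂ))
    (x : FF N) (hx : (x : LaurentSeries Kb) = ratSeries m z)
    (S : Finset (Place Kb (FF N))) (hS : ∀ v, v ∈ S ↔ 0 < v.ord (jF N)⁻¹) :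
    x ∈ riemannRochSpace (cuspDivisor N S m) := by
  obtain ⟨a, ha⟩ := ratSeries_rel m hm F z hz x hx
  intro v
  have hJ0 := jF_ne_zero N
  have hvalJ : v.adicValuation (jF N) = exp (v.ord (jF N)⁻¹) := by
    rw [v.adicValuation_eq_exp_neg_ord hJ0, v.ord_inv]
  by_cases hv : v ∈ S
  · rw [cuspDivisor_apply_of_mem S m hv]
    have hpos := (hS v).mp hv
    have h1 : 1 < v.adicValuation (jF N) := by
      rw [hvalJ, ← exp_zero, exp_lt_exp]; exact hpos
    refine (val_le_of_rel v (cosetCard N) m a (jF N) x ha h1).trans (le_of_eq ?_)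
    rw [hvalJ, ← exp_nsmul, ← exp_add]
    congr 1
    rw [nsmul_eq_mul]
    ring
  · rw [cuspDivisor_apply_of_notMem S m hv, exp_zero]
    have hle : ¬ 0 < v.ord (jF N)⁻¹ := fun h => hv ((hS v).mpr h)
    have h1 : v.adicValuation (jF N) ≤ 1 := by
      rw [hvalJ, ← exp_zero, exp_le_exp]; omega
    exact val_le_one_of_rel v (cosetCard N) m a (jF N) x ha h1

/-! ### The dimension bound -/

local notation "Δ" => ModularForm.discriminant

/-- `F ↦ F / Δ ^ m` as a linear map into the algebra of functions meromorphic at `i∞`. -/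
def divDelta (N : ℕ) [NeZero N] (m : ℕ) : CuspForm (G0 N) (12 * (m : ℤ)) →ₗ[ℂ] merInf where
  toFun F := ⟨fun τ => F τ / Δ τ ^ m,
    (isModFun_div (N := N) (IsCF.isMF ⟨F, rfl⟩)).isMerInf⟩
  map_add' F G := by
    apply Subtype.ext
    funext τ
    simp [add_div]
  map_smul' c F := by
    apply Subtype.ext
    funext τ
    simp [mul_div_assoc]

theorem divDelta_injective (N : ℕ) [NeZero N] (m : ℕ) : Function.Injective (divDelta N m) := by
  rw [← LinearMap.ker_eq_bot, LinearMap.ker_eq_bot']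
  intro F hF
  ext τ
  have h := congrFun (congrArg Subtype.val hF) τ
  simp only [divDelta, LinearMap.coe_mk, AddHom.coe_mk] at h
  have hΔ : Δ τ ^ m ≠ 0 := pow_ne_zero m (discriminant_ne_zero τ)
  have h0 : F τ / Δ τ ^ m = 0 := h
  rw [div_eq_zero_iff] at h0
  simpa using h0.resolve_right hΔ

theorem laurentExp_divDelta (m : ℕ) (F : CuspForm (G0 N) (12 * (m : ℤ))) :
    laurentExp (divDelta N m F) = laurentOf (fun τ => F τ / Δ τ ^ m) :=
  laurentExp_apply _

set_option synthInstance.maxHeartbeats 400000 in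
set_option maxHeartbeats 1000000 in
open Fermat.Agent.ES.H in
/-- `dim_ℂ S_{12 m}(Γ₀(N)) ≤ dim_ℚ̄ L(m·(j)_∞ − Σ_{cusps} c)`. -/
theorem finrank_le_finrank_rr (m : ℕ) (hm : 1 ≤ m) (S : Finset (Place Kb (FF N)))
    (hS : ∀ v, v ∈ S ↔ 0 < v.ord (jF N)⁻¹) (v₀ : Place Kb (FF N)) :
    finrank ℂ (CuspForm (G0 N) (12 * (m : ℤ))) ≤
      finrank Kb ↥(riemannRochSpace (cuspDivisor N S m)) := by
  classical
  haveI : FiniteDimensional ℂ (CuspForm (G0 N) (12 * (m : ℤ))) := cuspForm_finiteDimensional N _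
  haveI := hasPrincipalDivisors_FF N
  haveI : Module.Finite Kb ↥(riemannRochSpace (cuspDivisor N S m)) :=
    rr_finite v₀ (residue_bijective_FF N) _
  -- integral forms span
  set Sint : Set (CuspForm (G0 N) (12 * (m : ℤ))) :=
    {f | ∀ n : ℕ, ∃ z : ℤ, ModularFormClass.qCoeff f n = (z : ℂ)} with hSint
  have hspan : Submodule.span ℂ Sint = ⊤ := by
    have h := Fermat.Agent.S23.hasIntegralStructure N (12 * (m : ℤ))
    unfold CuspForm.HasIntegralStructure CuspForm.intLattice at h
    rw [Submodule.span_span_of_tower] at h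
    exact h
  obtain ⟨b, hbS, hbspan, hbli⟩ := exists_linearIndependent ℂ Sint
  have hbtop : ⊤ ≤ Submodule.span ℂ (Set.range (Subtype.val : b → _)) := by
    rw [Subtype.range_coe, hbspan, hspan]
  let B := Module.Basis.mk hbli hbtop
  haveI : Fintype b := FiniteDimensional.fintypeBasisIndex B
  rw [Module.finrank_eq_card_basis B]
  -- the family
  choose z hz using fun f : b => hbS f.2
  have hz' : ∀ (f : b) n,
      (qExpansion 1 ((f : CuspForm (G0 N) (12 * (m : ℤ))) : ℍ → ℂ)).coeff n = (z f n : ℂ) :=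
    fun f n => hz f n
  have hmem : ∀ f : b, ratSeries m (z f) ∈ ModularCurve.modularFunctionFieldBar N := fun f =>
    (cusp_rational_relation m hm f.1 (z f) (hz' f)).1
  let X : b → FF N := fun f => ⟨ratSeries m (z f), hmem f⟩
  have hXrr : ∀ f, X f ∈ riemannRochSpace (cuspDivisor N S m) := fun f =>
    ratSeries_mem_rr m hm f.1 (z f) (hz' f) (X f) rfl S hS
  let X' : b → ↥(riemannRochSpace (cuspDivisor N S m)) := fun f => ⟨X f, hXrr f⟩
  have hli : LinearIndependent Kb X' := by
    rw [linearIndependent_iff']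
    intro s g hg i hi
    set φ : FF N →+* LaurentSeries Kb :=
      (ModularCurve.modularFunctionFieldBar N).toSubfield.subtype with hφd
    have e : ∀ f : b, φ ((g f • X' f : ↥(riemannRochSpace (cuspDivisor N S m))) : FF N) =
        HahnSeries.C (g f) * ratSeries m (z f) := by
      intro f
      have h0 : ((g f • X' f : ↥(riemannRochSpace (cuspDivisor N S m))) : FF N) =
          algebraMap Kb (FF N) (g f) * X f := Algebra.smul_def (g f) (X f)
      rw [h0, map_mul]
      congr 1
      rw [← LaurentSeries.algebraMap_apply]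
      rfl
    have h1 : ∑ f ∈ s, HahnSeries.C (g f) * ratSeries m (z f) = 0 := by
      have h0 := congrArg (fun y : ↥(riemannRochSpace (cuspDivisor N S m)) => φ (y : FF N)) hg
      simp only [Submodule.coe_sum, map_sum, Submodule.coe_zero, map_zero] at h0
      rw [← h0]
      exact Finset.sum_congr rfl fun f _ => (e f).symm
    have h2 : ∑ f ∈ s, HahnSeries.C (algebraMap Kb ℂ (g f)) *
        laurentExp (divDelta N m f.1) = 0 := by
      have h0 := congrArg (coeffMap (algebraMap Kb ℂ)) h1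
      rw [map_sum, map_zero] at h0
      rw [← h0]
      refine Finset.sum_congr rfl fun f _ => ?_
      rw [map_mul, Fermat.Agent.ES.DescentInj.coeffMap_C, coeffMap_ratSeries m f.1 (z f) (hz' f),
        laurentExp_divDelta]
    have h3 : laurentExp (divDelta N m (∑ f ∈ s, algebraMap Kb ℂ (g f) • (f : CuspForm (G0 N)
        (12 * (m : ℤ))))) = 0 := by
      rw [map_sum, map_sum, ← h2]
      refine Finset.sum_congr rfl fun f _ => ?_
      rw [map_smul, Algebra.smul_def, map_mul, AlgHom.commutes, LaurentSeries.algebraMap_apply]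
    have h4 : ∑ f ∈ s, algebraMap Kb ℂ (g f) • (f : CuspForm (G0 N) (12 * (m : ℤ))) = 0 := by
      apply divDelta_injective N m
      apply laurentExp_injective
      rw [h3, map_zero, map_zero]
    have h5 := linearIndependent_iff'.1 hbli s (fun f => algebraMap Kb ℂ (g f)) h4 i hi
    exact (algebraMap Kb ℂ).injective (by rw [h5, map_zero])
  exact hli.fintype_card_le_finrank

/-! ### Riemann's inequality -/

open Fermat.Agent.ES.H Fermat.Agent.S20 in
/-- **(R) Riemann's inequality** for the function field `F = ℚ̄(j(q^d) : d ∣ N)` of `X₀(N)`: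
`deg A + 1 − g ≤ dim L(A)` for every divisor `A`, with `g = dim_ℂ S₂(Γ₀(N))`. -/
theorem riemann_inequality (N : ℕ) [NeZero N] (A : Divisor Kb (FF N)) :
    Divisor.degree A + 1 - (finrank ℂ (CuspForm (CongruenceSubgroup.Gamma0 N) 2) : ℤ) ≤
      (finrank Kb ↥(riemannRochSpace A) : ℤ) := by
  classical
  haveI := hasPrincipalDivisors_FF N
  obtain ⟨R⟩ := exists_realization N
  haveI := finiteDimensional_adjoin_jF N
  obtain ⟨hcard, S, hS, hsum⟩ := card_places_of_loc N R (jF N)⁻¹ (transcendental_jF_inv N)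
    (jF_inv_mem_adjoin N) (jF_mem_adjoin_inv N) ModularGroup.T R.loc_inf
  -- the number of cusps
  have hScard : S.card = numCusps N := by
    rw [numCusps_eq_card_orbits, ← hcard, ← Nat.card_eq_finsetCard]
    exact Nat.card_congr (Equiv.subtypeEquivRight hS)
  -- the index
  have hψ : Nat.card (SL(2, ℤ) ⧸ CongruenceSubgroup.Gamma0 N) = Fintype.card (Q N) := by
    rw [Nat.card_congr (equivQ N), Nat.card_eq_fintype_card]
  have hψpos : (1 : ℤ) ≤ Fintype.card (Q N) := by
    have : 0 < Fintype.card (Q N) := Fintype.card_pos_iff.mpr ⟨q0 N⟩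
    exact_mod_cast this
  rw [hψ] at hsum
  -- a place
  obtain ⟨v₀, -⟩ : ∃ v, v ∈ S := by
    by_contra hcon
    have hempty : S = ∅ := Finset.eq_empty_of_forall_notMem fun v hv => hcon ⟨v, hv⟩
    rw [hempty, Finset.sum_empty] at hsum
    omega
  obtain ⟨L₀, hL₀⟩ := finrank_cusp_twelve N
  refine riemann_transfer (residue_bijective_FF N) _ (fun M => ?_) A
  set m : ℕ := max (max L₀ 1) (M.toNat + numCusps N) with hm
  have hm1 : 1 ≤ m := le_trans (le_max_right L₀ 1) (le_max_left _ _)
  have hmL : L₀ ≤ m := le_trans (le_max_left L₀ 1) (le_max_left _ _)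
  have hmM : M + numCusps N ≤ m := by
    have h1 : M.toNat + numCusps N ≤ m := le_max_right _ _
    have h2 : M ≤ M.toNat := Int.self_le_toNat M
    have h3 : ((M.toNat + numCusps N : ℕ) : ℤ) ≤ m := by exact_mod_cast h1
    push_cast at h3
    linarith
  have hdeg : Divisor.degree (cuspDivisor N S m) = (m : ℤ) * Fintype.card (Q N) - numCusps N := by
    rw [degree_cuspDivisor, hsum, hScard]
  refine ⟨cuspDivisor N S m, ?_, ?_⟩
  · rw [hdeg]
    have : (m : ℤ) * 1 ≤ (m : ℤ) * Fintype.card (Q N) :=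
      mul_le_mul_of_nonneg_left hψpos (Int.natCast_nonneg m)
    linarith
  · have h1 := hL₀ m hmL
    have h2 := finrank_le_finrank_rr m hm1 S hS v₀
    have h2' : (finrank ℂ (CuspForm (Fermat.Agent.S23.G0 N) (12 * (m : ℤ))) : ℤ) ≤
        finrank Kb ↥(riemannRochSpace (cuspDivisor N S m)) := by exact_mod_cast h2
    have h3 : (finrank ℂ (CuspForm (CongruenceSubgroup.Gamma0 N) 2) : ℤ) =
        finrank ℂ (CuspForm (Fermat.Agent.S20.G0 N) 2) := rfl
    rw [hdeg, h3]
    have h4 : (finrank ℂ (CuspForm (Fermat.Agent.S23.G0 N) (12 * (m : ℤ))) : ℤ) =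
        finrank ℂ (CuspForm (Fermat.Agent.S20.G0 N) (12 * (m : ℤ))) := rfl
    rw [h4] at h2'
    linarith

/-- The input `StmtR` of route 2 (`Fermat/Agent/ES/M/Plan.lean`). -/
theorem stmtR (N : ℕ) [NeZero N] : Fermat.Agent.ES.M.StmtR N :=
  fun D => riemann_inequality N D

/-- All levels. -/
theorem stmtRAll : Fermat.Agent.ES.M.StmtRAll := fun N _ => stmtR N

end Fermat.Agent.ES.R
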