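import Mathlib
import Fermat.Prelude.Def_ModularCurve_LaurentCoeff
import Fermat.Prelude.Def_ModularCurve_X0
import Fermat.Prelude.Thm_ModularCurve_coeffMap_qExpand
import Fermat.Prelude.Def_EllipticCurve_FrobeniusTrace
import Fermat.Prelude.Def_FLTPrelim_Ramification

/-!
# Kronecker's congruence on Laurent series (piece KRON of the Eichler–Shimura package)

`L` a field, `A` a valuation subring of `L` over the prime `ℓ`, `τ` a Frobenius element at `A`,
`ζ` an `ℓ`-th root of unity of `L`.  For `f : LaurentSeries L`: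

* `KronInt A f`     : all coefficients of `f` lie in `A`;
* `KronPrim A f`    : moreover some coefficient is a unit of `A`;
* `KronCongr A f g` : `f ≡ g` coefficientwise modulo the maximal ideal of `A`;
* `kronRot c f`     : `f(c q)` (a ring homomorphism);
* `kronNorm ℓ ζ f`  : `∏_{b<ℓ} f(ζ^b q^{1/ℓ})`  (`qExpand_kronNorm_field`);
* `kronHecke ℓ ζ f` : `f(q^ℓ) · ∏_{b<ℓ} f(ζ^b q^{1/ℓ})`, the multiplicative Hecke operator `T_ℓ`.

Main results: `kronNorm_congr` (K2), `kron_qExpand_congr` (K3), `kronHecke_congr` (K4),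
`kron_inertia_congr` (K5), `kronHecke_frob_congr` + `kronPrim_frob_rhs` (K6), and the algebra of
`kronNorm`, `kronHecke` (K1: `kronHecke_mul`, `coeffMap_kronHecke_algEquiv`,
`kronHecke_eq_of_isPrimitiveRoot`, `KronInt.kronHecke`).
-/

set_option autoImplicit false

noncomputable section

namespace Fermat.Agent.ES

open ModularCurve HahnSeries

/-! ## 1. The rotation `f(q) ↦ f(c q)` -/

section Rot

variable {R S : Type*} [CommRing R] [CommRing S]

/-- The series `f(c q)`: coefficient `n` is `c ^ n * a_n`. -/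
def kronRotFun (c : Rˣ) (f : LaurentSeries R) : LaurentSeries R where
  coeff n := ((c ^ n : Rˣ) : R) * f.coeff n
  isPWO_support' := f.isPWO_support.mono (by
    intro n hn
    simp only [Function.mem_support, ne_eq] at hn ⊢
    intro h
    exact hn (by rw [h, mul_zero]))

@[simp]
theorem kronRotFun_coeff (c : Rˣ) (f : LaurentSeries R) (n : ℤ) :
    (kronRotFun c f).coeff n = ((c ^ n : Rˣ) : R) * f.coeff n := rfl

theorem kronRotFun_support (c : Rˣ) (f : LaurentSeries R) :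
    (kronRotFun c f).support = f.support := by
  ext n
  simp only [HahnSeries.mem_support, kronRotFun_coeff, ne_eq]
  rw [Units.mul_right_eq_zero]

theorem kronRotFun_mul (c : Rˣ) (f g : LaurentSeries R) :
    kronRotFun c (f * g) = kronRotFun c f * kronRotFun c g := by
  ext n
  rw [kronRotFun_coeff, HahnSeries.coeff_mul, HahnSeries.coeff_mul, Finset.mul_sum]
  have hs : Finset.antidiagonal (kronRotFun c f).isPWO_support
      (kronRotFun c g).isPWO_support n
      = Finset.antidiagonal f.isPWO_support g.isPWO_support n := by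
    ext ij
    simp only [Finset.mem_antidiagonal, kronRotFun_support]
  rw [hs]
  refine Finset.sum_congr rfl fun ij hij => ?_
  have hn : ij.1 + ij.2 = n := (Finset.mem_antidiagonal.1 hij).2.2
  rw [kronRotFun_coeff, kronRotFun_coeff, ← hn, zpow_add, Units.val_mul]
  ring

/-- The rotation `f(q) ↦ f(c q)` as a ring homomorphism. -/
def kronRot (c : Rˣ) : LaurentSeries R →+* LaurentSeries R where
  toFun := kronRotFun c
  map_zero' := by
    ext n
    simp
  map_one' := by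
    ext n
    rw [kronRotFun_coeff, HahnSeries.coeff_one]
    split_ifs with h
    · subst h
      simp
    · simp
  map_add' f g := by
    ext n
    simp [mul_add]
  map_mul' := kronRotFun_mul c

@[simp]
theorem kronRot_coeff (c : Rˣ) (f : LaurentSeries R) (n : ℤ) :
    (kronRot c f).coeff n = ((c ^ n : Rˣ) : R) * f.coeff n := rfl

@[simp]
theorem kronRot_one (f : LaurentSeries R) : kronRot (1 : Rˣ) f = f := by
  ext n
  simp

theorem kronRot_kronRot (c d : Rˣ) (f : LaurentSeries R) :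
    kronRot c (kronRot d f) = kronRot (c * d) f := by
  ext n
  simp only [kronRot_coeff, mul_zpow, Units.val_mul]
  ring

/-- naturality of the rotation in the coefficient ring -/
theorem coeffMap_kronRot (φ : R →+* S) (c : Rˣ) (f : LaurentSeries R) :
    coeffMap φ (kronRot c f) = kronRot (Units.map (φ : R →* S) c) (coeffMap φ f) := by
  ext n
  simp only [coeffMap_coeff, kronRot_coeff, map_mul]
  congr 1
  rw [← map_zpow]
  rfl

theorem qExpand_kronRot_pow (N : ℕ) [NeZero N] (c : Rˣ) (f : LaurentSeries R) :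
    kronRot c (qExpand R N f) = qExpand R N (kronRot (c ^ N) f) := by
  ext n
  by_cases hn : (N : ℤ) ∣ n
  · obtain ⟨m, rfl⟩ := hn
    rw [kronRot_coeff, qExpand_coeff_mul, qExpand_coeff_mul, kronRot_coeff, zpow_mul,
      zpow_natCast]
  · rw [kronRot_coeff, qExpand_coeff_of_not_dvd N _ hn, qExpand_coeff_of_not_dvd N _ hn,
      mul_zero]

end Rot

/-! ## 2. Compression `q^N ↦ q`, the product over the rotations, and the norm -/

section Compress

variable {R S : Type*} [CommRing R] [CommRing S]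

theorem kron_bddBelow_compress (N : ℕ) [NeZero N] (f : LaurentSeries R) :
    BddBelow (Function.support fun n : ℤ => f.coeff ((N : ℤ) * n)) := by
  refine ⟨min f.order 0, fun n hn => ?_⟩
  by_contra hlt
  rw [not_le, lt_min_iff] at hlt
  apply hn
  apply HahnSeries.coeff_eq_zero_of_lt_order
  have hN : (1 : ℤ) ≤ (N : ℤ) := by
    exact_mod_cast Nat.one_le_iff_ne_zero.2 (NeZero.ne N)
  nlinarith [hlt.1, hlt.2]

/-- `kronCompress N f` has `n`-th coefficient `f.coeff (N * n)`; a left inverse of `qExpand`. -/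
def kronCompress (N : ℕ) [NeZero N] (f : LaurentSeries R) : LaurentSeries R :=
  HahnSeries.ofSuppBddBelow (fun n : ℤ => f.coeff ((N : ℤ) * n)) (kron_bddBelow_compress N f)

@[simp]
theorem kronCompress_coeff (N : ℕ) [NeZero N] (f : LaurentSeries R) (n : ℤ) :
    (kronCompress N f).coeff n = f.coeff ((N : ℤ) * n) := rfl

@[simp]
theorem kronCompress_qExpand (N : ℕ) [NeZero N] (f : LaurentSeries R) :
    kronCompress N (qExpand R N f) = f := by
  ext n
  rw [kronCompress_coeff, qExpand_coeff_mul]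

theorem qExpand_kronCompress (N : ℕ) [NeZero N] (f : LaurentSeries R)
    (h : ∀ n : ℤ, ¬ (N : ℤ) ∣ n → f.coeff n = 0) :
    qExpand R N (kronCompress N f) = f := by
  ext n
  by_cases hn : (N : ℤ) ∣ n
  · obtain ⟨m, rfl⟩ := hn
    rw [qExpand_coeff_mul, kronCompress_coeff]
  · rw [qExpand_coeff_of_not_dvd N _ hn, h n hn]

theorem coeffMap_kronCompress (φ : R →+* S) (N : ℕ) [NeZero N] (f : LaurentSeries R) :
    coeffMap φ (kronCompress N f) = kronCompress N (coeffMap φ f) := by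
  ext n
  simp

/-- `∏_{b < ℓ} f(ζ^b q)` -/
def kronRotProd (ℓ : ℕ) (ζ : Rˣ) (f : LaurentSeries R) : LaurentSeries R :=
  ∏ b ∈ Finset.range ℓ, kronRot (ζ ^ b) f

theorem kronRotProd_one_right (ℓ : ℕ) (ζ : Rˣ) : kronRotProd ℓ ζ (1 : LaurentSeries R) = 1 := by
  simp [kronRotProd]

theorem kronRotProd_mul (ℓ : ℕ) (ζ : Rˣ) (f g : LaurentSeries R) :
    kronRotProd ℓ ζ (f * g) = kronRotProd ℓ ζ f * kronRotProd ℓ ζ g := by
  simp [kronRotProd, Finset.prod_mul_distrib]

theorem kronRotProd_one_left (ℓ : ℕ) (f : LaurentSeries R) :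
    kronRotProd ℓ (1 : Rˣ) f = f ^ ℓ := by
  simp [kronRotProd]

theorem coeffMap_kronRotProd (φ : R →+* S) (ℓ : ℕ) (ζ : Rˣ) (f : LaurentSeries R) :
    coeffMap φ (kronRotProd ℓ ζ f)
      = kronRotProd ℓ (Units.map (φ : R →* S) ζ) (coeffMap φ f) := by
  simp only [kronRotProd, map_prod, coeffMap_kronRot, map_pow]

theorem kronRot_kronRotProd (ℓ : ℕ) (ζ : Rˣ) (hζ : ζ ^ ℓ = 1) (f : LaurentSeries R) :
    kronRot ζ (kronRotProd ℓ ζ f) = kronRotProd ℓ ζ f := by
  rcases ℓ with _ | m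
  · simp [kronRotProd]
  · have h1 : kronRot ζ (kronRotProd (m + 1) ζ f)
        = ∏ b ∈ Finset.range (m + 1), kronRot (ζ ^ (b + 1)) f := by
      simp only [kronRotProd, map_prod, kronRot_kronRot]
      refine Finset.prod_congr rfl fun b _ => ?_
      rw [pow_succ']
    rw [h1, Finset.prod_range_succ, hζ]
    simp only [kronRotProd]
    rw [Finset.prod_range_succ', pow_zero]

/-- the coefficients of `∏_b f(ζ^b q)` vanish outside the multiples of `ℓ` -/
theorem kronRotProd_coeff_of_not_dvd [IsDomain R] (ℓ : ℕ) (ζ : Rˣ) (hζ : IsPrimitiveRoot ζ ℓ)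
    (f : LaurentSeries R) {n : ℤ} (hn : ¬ (ℓ : ℤ) ∣ n) : (kronRotProd ℓ ζ f).coeff n = 0 := by
  have h1 := congrArg (fun g : LaurentSeries R => g.coeff n)
    (kronRot_kronRotProd ℓ ζ hζ.pow_eq_one f)
  simp only [kronRot_coeff] at h1
  have h2 : (((ζ ^ n : Rˣ) : R) - 1) * (kronRotProd ℓ ζ f).coeff n = 0 := by
    rw [sub_mul, h1, one_mul, sub_self]
  rcases mul_eq_zero.1 h2 with h3 | h3
  · exfalso
    apply hn
    rw [← hζ.zpow_eq_one_iff_dvd]
    apply Units.ext
    rw [Units.val_one]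
    exact sub_eq_zero.1 h3
  · exact h3

/-- The norm `f ↦ ∏_{b<ℓ} f(ζ^b q^{1/ℓ})`. -/
def kronNorm (ℓ : ℕ) [NeZero ℓ] (ζ : Rˣ) (f : LaurentSeries R) : LaurentSeries R :=
  kronCompress ℓ (kronRotProd ℓ ζ f)

theorem qExpand_kronNorm [IsDomain R] (ℓ : ℕ) [NeZero ℓ] (ζ : Rˣ) (hζ : IsPrimitiveRoot ζ ℓ)
    (f : LaurentSeries R) : qExpand R ℓ (kronNorm ℓ ζ f) = kronRotProd ℓ ζ f :=
  qExpand_kronCompress ℓ _ fun _ hn => kronRotProd_coeff_of_not_dvd ℓ ζ hζ f hn

theorem kronNorm_unique (ℓ : ℕ) [NeZero ℓ] (ζ : Rˣ)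
    (f g : LaurentSeries R) (h : qExpand R ℓ g = kronRotProd ℓ ζ f) : kronNorm ℓ ζ f = g := by
  rw [kronNorm, ← h, kronCompress_qExpand]

theorem kronNorm_one (ℓ : ℕ) [NeZero ℓ] (ζ : Rˣ) :
    kronNorm ℓ ζ (1 : LaurentSeries R) = 1 :=
  kronNorm_unique ℓ ζ _ _ (by rw [map_one, kronRotProd_one_right])

theorem kronNorm_mul [IsDomain R] (ℓ : ℕ) [NeZero ℓ] (ζ : Rˣ) (hζ : IsPrimitiveRoot ζ ℓ)
    (f g : LaurentSeries R) : kronNorm ℓ ζ (f * g) = kronNorm ℓ ζ f * kronNorm ℓ ζ g :=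
  kronNorm_unique ℓ ζ _ _ (by
    rw [map_mul, qExpand_kronNorm ℓ ζ hζ, qExpand_kronNorm ℓ ζ hζ, kronRotProd_mul])

theorem kron_pow_mod (ℓ : ℕ) (ζ : Rˣ) (hζ : ζ ^ ℓ = 1) (m : ℕ) : ζ ^ (m % ℓ) = ζ ^ m := by
  conv_rhs => rw [← Nat.div_add_mod m ℓ, _root_.pow_add, pow_mul, hζ, one_pow, one_mul]

/-- replacing `ζ` by `ζ ^ a` with `a` prime to `ℓ` permutes the factors -/
theorem kronRotProd_pow_left (ℓ : ℕ) (ζ : Rˣ) (hζ : ζ ^ ℓ = 1) (a : ℕ) (ha : a.Coprime ℓ)
    (f : LaurentSeries R) : kronRotProd ℓ (ζ ^ a) f = kronRotProd ℓ ζ f := by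
  have hinj : Set.InjOn (fun b : ℕ => (a * b) % ℓ) (Finset.range ℓ : Set ℕ) := by
    intro b hb b' hb' h
    have hb1 : b < ℓ := Finset.mem_range.1 hb
    have hb2 : b' < ℓ := Finset.mem_range.1 hb'
    have h1 : a * b ≡ a * b' [MOD ℓ] := h
    have h2 : b ≡ b' [MOD ℓ] :=
      Nat.ModEq.cancel_left_of_coprime (by rw [Nat.gcd_comm]; exact ha) h1
    exact Nat.ModEq.eq_of_lt_of_lt h2 hb1 hb2
  have himg : (Finset.range ℓ).image (fun b : ℕ => (a * b) % ℓ) = Finset.range ℓ := by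
    apply Finset.eq_of_subset_of_card_le
    · intro c hc
      obtain ⟨b, hb, rfl⟩ := Finset.mem_image.1 hc
      have hℓ : 0 < ℓ := lt_of_le_of_lt (Nat.zero_le _) (Finset.mem_range.1 hb)
      exact Finset.mem_range.2 (Nat.mod_lt _ hℓ)
    · rw [Finset.card_image_of_injOn hinj]
  have h1 : kronRotProd ℓ ζ f
      = ∏ c ∈ (Finset.range ℓ).image (fun b : ℕ => (a * b) % ℓ), kronRot (ζ ^ c) f := by
    rw [himg, kronRotProd]
  rw [h1, Finset.prod_image hinj, kronRotProd]
  refine Finset.prod_congr rfl fun b _ => ?_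
  rw [kron_pow_mod ℓ ζ hζ, pow_mul]

/-- `∏_b f(ζ^b q)` does not depend on the primitive `ℓ`-th root of unity `ζ` -/
theorem kronRotProd_eq_of_isPrimitiveRoot [IsDomain R] (ℓ : ℕ) [NeZero ℓ] (ζ ζ' : Rˣ)
    (hζ : IsPrimitiveRoot ζ ℓ) (hζ' : IsPrimitiveRoot ζ' ℓ) (f : LaurentSeries R) :
    kronRotProd ℓ ζ' f = kronRotProd ℓ ζ f := by
  have h1 : IsPrimitiveRoot (ζ : R) ℓ := IsPrimitiveRoot.coe_units_iff.2 hζ
  have h2 : ((ζ' : Rˣ) : R) ^ ℓ = 1 := by
    rw [← Units.val_pow_eq_pow_val, hζ'.pow_eq_one, Units.val_one]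
  obtain ⟨i, _, hi⟩ := h1.eq_pow_of_pow_eq_one h2
  have h3 : ζ' = ζ ^ i := by
    apply Units.ext
    rw [Units.val_pow_eq_pow_val, hi]
  have h4 : i.Coprime ℓ := by
    rw [← hζ.pow_iff_coprime (Nat.pos_of_ne_zero (NeZero.ne ℓ)), ← h3]
    exact hζ'
  rw [h3]
  exact kronRotProd_pow_left ℓ ζ hζ.pow_eq_one i h4 f

theorem kronNorm_eq_of_isPrimitiveRoot [IsDomain R] (ℓ : ℕ) [NeZero ℓ] (ζ ζ' : Rˣ)
    (hζ : IsPrimitiveRoot ζ ℓ) (hζ' : IsPrimitiveRoot ζ' ℓ) (f : LaurentSeries R) :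
    kronNorm ℓ ζ' f = kronNorm ℓ ζ f := by
  rw [kronNorm, kronNorm, kronRotProd_eq_of_isPrimitiveRoot ℓ ζ ζ' hζ hζ']

theorem coeffMap_kronNorm (φ : R →+* S) (ℓ : ℕ) [NeZero ℓ] (ζ : Rˣ) (f : LaurentSeries R) :
    coeffMap φ (kronNorm ℓ ζ f) = kronNorm ℓ (Units.map (φ : R →* S) ζ) (coeffMap φ f) := by
  rw [kronNorm, coeffMap_kronCompress, coeffMap_kronRotProd, kronNorm]

end Compress

/-! ## 3. Frobenius on Laurent series in characteristic `ℓ` -/

section Frobenius

variable {k : Type*} [CommRing k] (ℓ : ℕ) [NeZero ℓ] [ExpChar k ℓ]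

theorem kron_powerSeries_pow (G : PowerSeries k) (n : ℕ) :
    PowerSeries.coeff n (G ^ ℓ)
      = if ℓ ∣ n then frobenius k ℓ (PowerSeries.coeff (n / ℓ) G) else 0 := by
  have h := MvPowerSeries.map_frobenius_expand (σ := Unit) ℓ (NeZero.ne ℓ) (f := G)
  have h2 : G ^ ℓ = PowerSeries.map (frobenius k ℓ) (PowerSeries.expand ℓ (NeZero.ne ℓ) G) :=
    h.symm
  rw [h2, PowerSeries.coeff_map, PowerSeries.coeff_expand]
  split_ifs
  · rfl
  · simp

theorem kron_ofPowerSeries_pow (G : PowerSeries k) :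
    (HahnSeries.ofPowerSeries ℤ k G) ^ ℓ
      = qExpand k ℓ (coeffMap (frobenius k ℓ) (HahnSeries.ofPowerSeries ℤ k G)) := by
  rw [← map_pow]
  ext m
  have hℓ : (0 : ℤ) < (ℓ : ℤ) := by exact_mod_cast Nat.pos_of_ne_zero (NeZero.ne ℓ)
  by_cases hm : (ℓ : ℤ) ∣ m
  · obtain ⟨m', rfl⟩ := hm
    rw [qExpand_coeff_mul, coeffMap_coeff]
    rcases lt_or_ge m' 0 with h0 | h0
    · have h1 : (ℓ : ℤ) * m' < 0 := mul_neg_of_pos_of_neg hℓ h0
      rw [show HahnSeries.ofPowerSeries ℤ k (G ^ ℓ) = ((G ^ ℓ : PowerSeries k) : LaurentSeries k)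
        from rfl, show HahnSeries.ofPowerSeries ℤ k G = ((G : PowerSeries k) : LaurentSeries k)
        from rfl, PowerSeries.coeff_coe, PowerSeries.coeff_coe, if_pos h1, if_pos h0, map_zero]
    · obtain ⟨n, rfl⟩ := Int.eq_ofNat_of_zero_le h0
      rw [show (ℓ : ℤ) * (n : ℤ) = ((ℓ * n : ℕ) : ℤ) by push_cast; ring,
        HahnSeries.ofPowerSeries_apply_coeff, HahnSeries.ofPowerSeries_apply_coeff,
        kron_powerSeries_pow, if_pos (dvd_mul_right ℓ n),
        Nat.mul_div_cancel_left n (Nat.pos_of_ne_zero (NeZero.ne ℓ))]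
  · rw [qExpand_coeff_of_not_dvd ℓ _ hm]
    rcases lt_or_ge m 0 with h0 | h0
    · rw [show HahnSeries.ofPowerSeries ℤ k (G ^ ℓ) = ((G ^ ℓ : PowerSeries k) : LaurentSeries k)
        from rfl, PowerSeries.coeff_coe, if_pos h0]
    · obtain ⟨n, rfl⟩ := Int.eq_ofNat_of_zero_le h0
      rw [HahnSeries.ofPowerSeries_apply_coeff, kron_powerSeries_pow, if_neg]
      intro hdvd
      exact hm (by exact_mod_cast hdvd)

/-- In characteristic `ℓ`: `F(q)^ℓ = F^{(ℓ)}(q^ℓ)`. -/
theorem kron_frobenius_pow (F : LaurentSeries k) :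
    F ^ ℓ = qExpand k ℓ (coeffMap (frobenius k ℓ) F) := by
  conv_lhs => rw [← LaurentSeries.single_order_mul_powerSeriesPart F]
  conv_rhs => rw [← LaurentSeries.single_order_mul_powerSeriesPart F]
  rw [mul_pow, map_mul, map_mul, HahnSeries.single_pow, one_pow, coeffMap_single, qExpand_single,
    map_one (frobenius k ℓ), nsmul_eq_mul]
  congr 1
  exact kron_ofPowerSeries_pow ℓ _

/-- the norm for `ζ = 1` in characteristic `ℓ` is the Frobenius twist -/
theorem kronNorm_one_left (F : LaurentSeries k) :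
    kronNorm ℓ (1 : kˣ) F = coeffMap (frobenius k ℓ) F := by
  rw [kronNorm, kronRotProd_one_left, kron_frobenius_pow, kronCompress_qExpand]

end Frobenius

/-! ## 4. Integrality and congruences modulo the maximal ideal of a valuation subring -/

section Valuation

variable {L : Type*} [Field L] (A : ValuationSubring L)

/-- all coefficients lie in the valuation subring `A` -/
def KronInt (f : LaurentSeries L) : Prop := ∀ n : ℤ, f.coeff n ∈ A

/-- coefficientwise congruence modulo the maximal ideal of `A` -/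
def KronCongr (f g : LaurentSeries L) : Prop := ∀ n : ℤ, f.coeff n - g.coeff n ∈ A.nonunits

/-- integral with at least one unit coefficient (Gauss norm `1`) -/
def KronPrim (f : LaurentSeries L) : Prop := KronInt A f ∧ ∃ n : ℤ, f.coeff n ∉ A.nonunits

/-- series over `A` as series over `L` -/
abbrev kronIncl : LaurentSeries A →+* LaurentSeries L := coeffMap A.subtype

/-- reduction of series over `A` modulo the maximal ideal -/
abbrev kronRed : LaurentSeries A →+* LaurentSeries (IsLocalRing.ResidueField A) :=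
  coeffMap (IsLocalRing.residue A)

variable {A}

theorem kronIncl_injective : Function.Injective (kronIncl A) := by
  intro F G h
  ext n
  have := congrArg (fun g : LaurentSeries L => g.coeff n) h
  exact this

theorem kronInt_kronIncl (F : LaurentSeries A) : KronInt A (kronIncl A F) :=
  fun n => (F.coeff n).2

/-- an integral series comes from a series over `A` -/
theorem KronInt.exists_lift {f : LaurentSeries L} (hf : KronInt A f) :
    ∃ F : LaurentSeries A, kronIncl A F = f := by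
  refine ⟨⟨fun n => ⟨f.coeff n, hf n⟩, f.isPWO_support.mono ?_⟩, ?_⟩
  · intro n hn
    simp only [Function.mem_support, ne_eq] at hn
    simp only [HahnSeries.mem_support, ne_eq]
    intro h
    apply hn
    exact Subtype.ext h
  · ext n
    rfl

theorem kronInt_iff {f : LaurentSeries L} : KronInt A f ↔ ∃ F : LaurentSeries A, kronIncl A F = f :=
  ⟨fun h => h.exists_lift, fun ⟨F, hF⟩ => hF ▸ kronInt_kronIncl F⟩

theorem kronCongr_kronIncl_iff (F G : LaurentSeries A) :
    KronCongr A (kronIncl A F) (kronIncl A G) ↔ kronRed A F = kronRed A G := by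
  constructor
  · intro h
    ext n
    have h1 := h n
    have h2 : ((F.coeff n - G.coeff n : A) : L) ∈ A.nonunits := h1
    rw [ValuationSubring.coe_mem_nonunits_iff, ← IsLocalRing.residue_eq_zero_iff, map_sub,
      sub_eq_zero] at h2
    exact h2
  · intro h n
    have h1 := congrArg (fun g : LaurentSeries (IsLocalRing.ResidueField A) => g.coeff n) h
    simp only [coeffMap_coeff] at h1
    have h2 : ((F.coeff n - G.coeff n : A) : L) ∈ A.nonunits := by
      rw [ValuationSubring.coe_mem_nonunits_iff, ← IsLocalRing.residue_eq_zero_iff, map_sub,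
        sub_eq_zero]
      exact h1
    exact h2

theorem kronPrim_kronIncl_iff (F : LaurentSeries A) :
    KronPrim A (kronIncl A F) ↔ kronRed A F ≠ 0 := by
  constructor
  · rintro ⟨_, n, hn⟩ h
    apply hn
    have h1 := congrArg (fun g : LaurentSeries (IsLocalRing.ResidueField A) => g.coeff n) h
    simp only [coeffMap_coeff, HahnSeries.coeff_zero] at h1
    have h2 : ((F.coeff n : A) : L) ∈ A.nonunits := by
      rw [ValuationSubring.coe_mem_nonunits_iff, ← IsLocalRing.residue_eq_zero_iff]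
      exact h1
    exact h2
  · intro h
    refine ⟨kronInt_kronIncl F, ?_⟩
    by_contra hcon
    simp only [not_exists, not_not] at hcon
    apply h
    ext n
    have h2 : ((F.coeff n : A) : L) ∈ A.nonunits := hcon n
    rw [ValuationSubring.coe_mem_nonunits_iff, ← IsLocalRing.residue_eq_zero_iff] at h2
    simpa using h2

theorem KronCongr.refl (f : LaurentSeries L) : KronCongr A f f := fun n => by
  rw [sub_self]
  exact A.nonunits.zero_mem

theorem KronCongr.symm {f g : LaurentSeries L} (h : KronCongr A f g) : KronCongr A g f := fun n => by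
  have h1 := h n
  rw [ValuationSubring.mem_nonunits_iff] at h1 ⊢
  rwa [← neg_sub, Valuation.map_neg]

theorem KronCongr.trans {f g h : LaurentSeries L} (h1 : KronCongr A f g) (h2 : KronCongr A g h) :
    KronCongr A f h := fun n => by
  have h3 := h1 n
  have h4 := h2 n
  rw [ValuationSubring.mem_nonunits_iff] at h3 h4 ⊢
  have : f.coeff n - h.coeff n = (f.coeff n - g.coeff n) + (g.coeff n - h.coeff n) := by ring
  rw [this]
  exact Valuation.map_add_lt _ h3 h4

theorem KronCongr.of_eq {f g : LaurentSeries L} (h : f = g) : KronCongr A f g :=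
  h ▸ KronCongr.refl f

theorem KronInt.mul {f g : LaurentSeries L} (hf : KronInt A f) (hg : KronInt A g) :
    KronInt A (f * g) := by
  obtain ⟨F, rfl⟩ := hf.exists_lift
  obtain ⟨G, rfl⟩ := hg.exists_lift
  rw [← map_mul]
  exact kronInt_kronIncl _

theorem KronInt.one : KronInt A (1 : LaurentSeries L) := by
  rw [← map_one (kronIncl A)]
  exact kronInt_kronIncl _

theorem KronInt.pow {f : LaurentSeries L} (hf : KronInt A f) (n : ℕ) : KronInt A (f ^ n) := by
  obtain ⟨F, rfl⟩ := hf.exists_lift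
  rw [← map_pow]
  exact kronInt_kronIncl _

theorem KronInt.qExpand {f : LaurentSeries L} (hf : KronInt A f) (N : ℕ) [NeZero N] :
    KronInt A (qExpand L N f) := by
  obtain ⟨F, rfl⟩ := hf.exists_lift
  rw [← coeffMap_qExpand]
  exact kronInt_kronIncl _

/-- congruences of integral series can be multiplied -/
theorem KronCongr.mul {f f' g g' : LaurentSeries L} (hf : KronInt A f) (hf' : KronInt A f')
    (hg : KronInt A g) (hg' : KronInt A g') (h1 : KronCongr A f f') (h2 : KronCongr A g g') :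
    KronCongr A (f * g) (f' * g') := by
  obtain ⟨F, rfl⟩ := hf.exists_lift
  obtain ⟨F', rfl⟩ := hf'.exists_lift
  obtain ⟨G, rfl⟩ := hg.exists_lift
  obtain ⟨G', rfl⟩ := hg'.exists_lift
  rw [kronCongr_kronIncl_iff] at h1 h2
  rw [← map_mul, ← map_mul, kronCongr_kronIncl_iff, map_mul, map_mul, h1, h2]

/-- Gauss' lemma: products of primitive series are primitive -/
theorem KronPrim.mul {f g : LaurentSeries L} (hf : KronPrim A f) (hg : KronPrim A g) :
    KronPrim A (f * g) := by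
  obtain ⟨F, rfl⟩ := hf.1.exists_lift
  obtain ⟨G, rfl⟩ := hg.1.exists_lift
  rw [kronPrim_kronIncl_iff] at hf hg
  rw [← map_mul, kronPrim_kronIncl_iff, map_mul]
  exact mul_ne_zero hf hg

theorem KronPrim.pow {f : LaurentSeries L} (hf : KronPrim A f) (n : ℕ) : KronPrim A (f ^ n) := by
  obtain ⟨F, rfl⟩ := hf.1.exists_lift
  rw [kronPrim_kronIncl_iff] at hf
  rw [← map_pow, kronPrim_kronIncl_iff, map_pow]
  exact pow_ne_zero n hf

/-- a series congruent to a primitive series is primitive -/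
theorem KronPrim.of_congr {f g : LaurentSeries L} (hf : KronPrim A f) (hg : KronInt A g)
    (h : KronCongr A f g) : KronPrim A g := by
  obtain ⟨F, rfl⟩ := hf.1.exists_lift
  obtain ⟨G, rfl⟩ := hg.exists_lift
  rw [kronCongr_kronIncl_iff] at h
  rw [kronPrim_kronIncl_iff] at hf ⊢
  rwa [← h]

end Valuation

/-! ## 5. The decomposition group acting on series over `A`; Frobenius and inertia -/

section Galois

variable {K L : Type*} [Field K] [Field L] [Algebra K L] {A : ValuationSubring L}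

/-- an element of the decomposition group as a ring endomorphism of `A` -/
def kronDecompHom (σ : L ≃ₐ[K] L) (hσ : σ ∈ A.decompositionSubgroup K) : A →+* A :=
  MulSemiringAction.toRingHom (A.decompositionSubgroup K) A ⟨σ, hσ⟩

theorem kronDecompHom_coe (σ : L ≃ₐ[K] L) (hσ : σ ∈ A.decompositionSubgroup K) (a : A) :
    ((kronDecompHom σ hσ a : A) : L) = σ a := rfl

theorem kronIncl_coeffMap_kronDecompHom (σ : L ≃ₐ[K] L) (hσ : σ ∈ A.decompositionSubgroup K)
    (F : LaurentSeries A) :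
    kronIncl A (coeffMap (kronDecompHom σ hσ) F) = coeffMap (σ : L →+* L) (kronIncl A F) := by
  ext n
  rfl

theorem KronInt.coeffMap_of_mem_decomposition {f : LaurentSeries L} (hf : KronInt A f)
    (σ : L ≃ₐ[K] L) (hσ : σ ∈ A.decompositionSubgroup K) :
    KronInt A (coeffMap (σ : L →+* L) f) := by
  obtain ⟨F, rfl⟩ := hf.exists_lift
  rw [← kronIncl_coeffMap_kronDecompHom σ hσ]
  exact kronInt_kronIncl _

theorem kron_residue_frobenius {ℓ : ℕ} (τ : L ≃ₐ[K] L) (hτ : A.IsFrobeniusAt τ ℓ) (a : A) :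
    IsLocalRing.residue A (kronDecompHom τ hτ.mem_decompositionSubgroup a)
      = (IsLocalRing.residue A a) ^ ℓ := by
  have h1 := hτ.smul_residue_eq (IsLocalRing.residue A a)
  rw [← IsLocalRing.ResidueField.residue_smul] at h1
  exact h1

theorem kron_mem_decomposition_of_mem_inertia {σ : L ≃ₐ[K] L} (hσ : σ ∈ A.inertiaSubgroupIn K) :
    σ ∈ A.decompositionSubgroup K := by
  obtain ⟨τ, _, rfl⟩ := hσ
  exact τ.2

theorem kron_residue_inertia {σ : L ≃ₐ[K] L} (hσ : σ ∈ A.inertiaSubgroupIn K) (a : A) :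
    IsLocalRing.residue A (kronDecompHom σ (kron_mem_decomposition_of_mem_inertia hσ) a)
      = IsLocalRing.residue A a := by
  obtain ⟨τ, hτ, rfl⟩ := hσ
  have h1 : MulSemiringAction.toRingAut (A.decompositionSubgroup K) (IsLocalRing.ResidueField A) τ
      = 1 := hτ
  have h2 : τ • (IsLocalRing.residue A a) = IsLocalRing.residue A a := by
    have := congrArg (fun f : RingAut (IsLocalRing.ResidueField A) =>
      f (IsLocalRing.residue A a)) h1
    simpa using this
  rw [← IsLocalRing.ResidueField.residue_smul] at h2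
  exact h2

/-- the residue field of a valuation subring over `ℓ` has characteristic `ℓ` -/
theorem kron_charP_residueField {ℓ : ℕ} (hℓ : ℓ.Prime) (hA : A.LiesOverPrime ℓ) :
    CharP (IsLocalRing.ResidueField A) ℓ := by
  rw [CharP.charP_iff_prime_eq_zero hℓ]
  have h1 : (((ℓ : A) : A) : L) ∈ A.nonunits := by
    have : (((ℓ : A) : A) : L) = (ℓ : L) := by simp
    rw [this]
    exact hA
  rw [ValuationSubring.coe_mem_nonunits_iff, ← IsLocalRing.residue_eq_zero_iff, map_natCast] at h1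
  exact h1

/-- a root of unity of `L` is a unit of every valuation subring -/
theorem kron_exists_unit_lift (A : ValuationSubring L) {ℓ : ℕ} (hℓ : ℓ ≠ 0) (ζ : Lˣ)
    (hζ : ζ ^ ℓ = 1) : ∃ ζA : Aˣ, Units.map (A.subtype : A →* L) ζA = ζ := by
  have h1 : A.valuation (ζ : L) ^ ℓ = 1 := by
    rw [← map_pow, ← Units.val_pow_eq_pow_val, hζ, Units.val_one, map_one]
  have h2 : A.valuation (ζ : L) = 1 := (pow_eq_one_iff.1 h1).resolve_right hℓ
  have h3 : ζ ∈ A.unitGroup := (A.mem_unitGroup_iff ζ).2 h2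
  refine ⟨A.unitGroupMulEquiv ⟨ζ, h3⟩, ?_⟩
  apply Units.ext
  rfl

end Galois

/-! ## 6. Kronecker's congruence -/

section Main

variable {K L : Type*} [Field K] [Field L] [Algebra K L] {A : ValuationSubring L}
variable {ℓ : ℕ} [NeZero ℓ]

theorem kron_symm_mem_decomposition {τ : L ≃ₐ[K] L} (hτ : τ ∈ A.decompositionSubgroup K) :
    τ.symm ∈ A.decompositionSubgroup K :=
  (A.decompositionSubgroup K).inv_mem hτ

/-- `ρ(τF)(q^ℓ) = ρ(F)^ℓ` for a Frobenius element `τ` -/
theorem kron_qExpand_red_frob (hℓ : ℓ.Prime) (hA : A.LiesOverPrime ℓ) (τ : L ≃ₐ[K] L)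
    (hτ : A.IsFrobeniusAt τ ℓ) (F : LaurentSeries A) :
    qExpand (IsLocalRing.ResidueField A) ℓ
        (kronRed A (coeffMap (kronDecompHom τ hτ.mem_decompositionSubgroup) F))
      = (kronRed A F) ^ ℓ := by
  have : Fact ℓ.Prime := ⟨hℓ⟩
  have : CharP (IsLocalRing.ResidueField A) ℓ := kron_charP_residueField hℓ hA
  rw [kron_frobenius_pow ℓ]
  congr 1
  ext n
  simp only [coeffMap_coeff, kron_residue_frobenius τ hτ, frobenius_def]

/-- the reduction of a root of unity of order dividing `ℓ` is `1` -/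
theorem kron_unit_red_eq_one (hℓ : ℓ.Prime) (hA : A.LiesOverPrime ℓ) (ζA : Aˣ)
    (hζ : ζA ^ ℓ = 1) : Units.map (IsLocalRing.residue A : A →* IsLocalRing.ResidueField A) ζA = 1 := by
  have : Fact ℓ.Prime := ⟨hℓ⟩
  have : CharP (IsLocalRing.ResidueField A) ℓ := kron_charP_residueField hℓ hA
  apply Units.ext
  rw [Units.val_one, Units.coe_map]
  have h1 : (IsLocalRing.residue A (ζA : A)) ^ ℓ = 1 := by
    rw [← map_pow, ← Units.val_pow_eq_pow_val, hζ, Units.val_one, map_one]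
  have h2 : (IsLocalRing.residue A (ζA : A) - 1) ^ ℓ = 0 := by
    rw [sub_pow_char, h1, one_pow, sub_self]
  exact sub_eq_zero.1 (pow_eq_zero_iff (NeZero.ne ℓ) |>.1 h2)

theorem kronRed_kronNorm (hℓ : ℓ.Prime) (hA : A.LiesOverPrime ℓ) (ζA : Aˣ) (hζ : ζA ^ ℓ = 1)
    (F : LaurentSeries A) :
    kronRed A (kronNorm ℓ ζA F) = kronCompress ℓ ((kronRed A F) ^ ℓ) := by
  rw [kronRed, coeffMap_kronNorm, kron_unit_red_eq_one hℓ hA ζA hζ, kronNorm,
    kronRotProd_one_left]

/-- **K2 over `A`.** -/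
theorem kronRed_kronNorm_eq (hℓ : ℓ.Prime) (hA : A.LiesOverPrime ℓ) (ζA : Aˣ) (hζ : ζA ^ ℓ = 1)
    (τ : L ≃ₐ[K] L) (hτ : A.IsFrobeniusAt τ ℓ) (F : LaurentSeries A) :
    kronRed A (kronNorm ℓ ζA F)
      = kronRed A (coeffMap (kronDecompHom τ hτ.mem_decompositionSubgroup) F) := by
  rw [kronRed_kronNorm hℓ hA ζA hζ, ← kron_qExpand_red_frob hℓ hA τ hτ, kronCompress_qExpand]

/-- **K3 over `A`.** -/
theorem kronRed_qExpand_eq (hℓ : ℓ.Prime) (hA : A.LiesOverPrime ℓ)
    (τ : L ≃ₐ[K] L) (hτ : A.IsFrobeniusAt τ ℓ) (F : LaurentSeries A) :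
    kronRed A (qExpand A ℓ F)
      = (kronRed A (coeffMap (kronDecompHom τ.symm
          (kron_symm_mem_decomposition hτ.mem_decompositionSubgroup)) F)) ^ ℓ := by
  rw [← kron_qExpand_red_frob hℓ hA τ hτ, kronRed, coeffMap_qExpand]
  congr 2
  ext n
  simp only [coeffMap_coeff, kronDecompHom_coe, AlgEquiv.apply_symm_apply]

/-- **K2 (Kronecker, first factor).** For a Frobenius element `τ` at `A` over `ℓ`:
`∏_{b<ℓ} f(ζ^b q^{1/ℓ}) ≡ (τ f)(q)` modulo the maximal ideal of `A`. -/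
theorem kronNorm_congr (hℓ : ℓ.Prime) (hA : A.LiesOverPrime ℓ) (ζ : Lˣ) (hζ : ζ ^ ℓ = 1)
    (τ : L ≃ₐ[K] L) (hτ : A.IsFrobeniusAt τ ℓ) {f : LaurentSeries L} (hf : KronInt A f) :
    KronCongr A (kronNorm ℓ ζ f) (coeffMap (τ : L →+* L) f) := by
  obtain ⟨F, rfl⟩ := hf.exists_lift
  obtain ⟨ζA, rfl⟩ := kron_exists_unit_lift A (NeZero.ne ℓ) ζ hζ
  have hζA : ζA ^ ℓ = 1 := by
    apply Units.map_injective (f := (A.subtype : A →* L)) Subtype.val_injective
    rw [map_pow, hζ, map_one]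
  rw [← kronIncl_coeffMap_kronDecompHom τ hτ.mem_decompositionSubgroup]
  have h1 : kronNorm ℓ (Units.map (A.subtype : A →* L) ζA) (kronIncl A F)
      = kronIncl A (kronNorm ℓ ζA F) := (coeffMap_kronNorm A.subtype ℓ ζA F).symm
  rw [h1, kronCongr_kronIncl_iff]
  exact kronRed_kronNorm_eq hℓ hA ζA hζA τ hτ F

theorem KronInt.kronNorm (ζ : Lˣ) (hζ : ζ ^ ℓ = 1) {f : LaurentSeries L} (hf : KronInt A f) :
    KronInt A (kronNorm ℓ ζ f) := by
  obtain ⟨F, rfl⟩ := hf.exists_lift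
  obtain ⟨ζA, rfl⟩ := kron_exists_unit_lift A (NeZero.ne ℓ) ζ hζ
  have h1 : Fermat.Agent.ES.kronNorm ℓ (Units.map (A.subtype : A →* L) ζA) (kronIncl A F)
      = kronIncl A (Fermat.Agent.ES.kronNorm ℓ ζA F) := (coeffMap_kronNorm A.subtype ℓ ζA F).symm
  rw [h1]
  exact kronInt_kronIncl _

/-- **K3 (Kronecker, second factor).** `f(q^ℓ) ≡ ((τ⁻¹ f)(q))^ℓ` modulo the maximal ideal. -/
theorem kron_qExpand_congr (hℓ : ℓ.Prime) (hA : A.LiesOverPrime ℓ)
    (τ : L ≃ₐ[K] L) (hτ : A.IsFrobeniusAt τ ℓ) {f : LaurentSeries L} (hf : KronInt A f) :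
    KronCongr A (qExpand L ℓ f) ((coeffMap ((τ.symm : L ≃ₐ[K] L) : L →+* L) f) ^ ℓ) := by
  obtain ⟨F, rfl⟩ := hf.exists_lift
  rw [← kronIncl_coeffMap_kronDecompHom τ.symm
    (kron_symm_mem_decomposition hτ.mem_decompositionSubgroup), ← map_pow]
  have h1 : qExpand L ℓ (kronIncl A F) = kronIncl A (qExpand A ℓ F) :=
    (coeffMap_qExpand A.subtype ℓ F).symm
  rw [h1, kronCongr_kronIncl_iff, map_pow]
  exact kronRed_qExpand_eq hℓ hA τ hτ F

/-- The multiplicative Hecke operator on `q`-expansions: `f(q^ℓ) · ∏_{b<ℓ} f(ζ^b q^{1/ℓ})`. -/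
def kronHecke (ℓ : ℕ) [NeZero ℓ] (ζ : Lˣ) (f : LaurentSeries L) : LaurentSeries L :=
  qExpand L ℓ f * kronNorm ℓ ζ f

theorem KronInt.kronHecke (ζ : Lˣ) (hζ : ζ ^ ℓ = 1) {f : LaurentSeries L} (hf : KronInt A f) :
    KronInt A (kronHecke ℓ ζ f) :=
  (hf.qExpand ℓ).mul (hf.kronNorm ζ hζ)

/-- **K4 (Kronecker's congruence `T_ℓ ≡ Ver + Frob`).**
`f(q^ℓ) · ∏_{b<ℓ} f(ζ^b q^{1/ℓ}) ≡ (τ⁻¹ f)^ℓ · τ f` modulo the maximal ideal of `A`. -/
theorem kronHecke_congr (hℓ : ℓ.Prime) (hA : A.LiesOverPrime ℓ) (ζ : Lˣ) (hζ : ζ ^ ℓ = 1)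
    (τ : L ≃ₐ[K] L) (hτ : A.IsFrobeniusAt τ ℓ) {f : LaurentSeries L} (hf : KronInt A f) :
    KronCongr A (kronHecke ℓ ζ f)
      ((coeffMap ((τ.symm : L ≃ₐ[K] L) : L →+* L) f) ^ ℓ * coeffMap (τ : L →+* L) f) :=
  KronCongr.mul (hf.qExpand ℓ)
    ((hf.coeffMap_of_mem_decomposition τ.symm
      (kron_symm_mem_decomposition hτ.mem_decompositionSubgroup)).pow ℓ)
    (hf.kronNorm ζ hζ) (hf.coeffMap_of_mem_decomposition τ hτ.mem_decompositionSubgroup)
    (kron_qExpand_congr hℓ hA τ hτ hf) (kronNorm_congr hℓ hA ζ hζ τ hτ hf)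

/-- **K5 (inertia).** Inertia acts trivially modulo the maximal ideal. -/
theorem kron_inertia_congr {σ : L ≃ₐ[K] L} (hσ : σ ∈ A.inertiaSubgroupIn K)
    {f : LaurentSeries L} (hf : KronInt A f) :
    KronCongr A (coeffMap (σ : L →+* L) f) f := by
  obtain ⟨F, rfl⟩ := hf.exists_lift
  rw [← kronIncl_coeffMap_kronDecompHom σ (kron_mem_decomposition_of_mem_inertia hσ),
    kronCongr_kronIncl_iff]
  ext n
  simp only [coeffMap_coeff, kron_residue_inertia hσ]

theorem kron_coeffMap_symm_coeffMap (τ : L ≃ₐ[K] L) (f : LaurentSeries L) :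
    coeffMap ((τ.symm : L ≃ₐ[K] L) : L →+* L) (coeffMap (τ : L →+* L) f) = f := by
  ext n
  simp only [coeffMap_coeff]
  exact τ.symm_apply_apply _

/-- **K6 (Eichler–Shimura on `q`-expansions, multiplicative form).**
`T_ℓ(τ f) ≡ f^ℓ · τ² f` modulo the maximal ideal of `A`, for every Frobenius element `τ` at `A`. -/
theorem kronHecke_frob_congr (hℓ : ℓ.Prime) (hA : A.LiesOverPrime ℓ) (ζ : Lˣ) (hζ : ζ ^ ℓ = 1)
    (τ : L ≃ₐ[K] L) (hτ : A.IsFrobeniusAt τ ℓ) {f : LaurentSeries L} (hf : KronInt A f) :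
    KronCongr A (kronHecke ℓ ζ (coeffMap (τ : L →+* L) f))
      (f ^ ℓ * coeffMap (τ : L →+* L) (coeffMap (τ : L →+* L) f)) := by
  have h := kronHecke_congr hℓ hA ζ hζ τ hτ
    (hf.coeffMap_of_mem_decomposition τ hτ.mem_decompositionSubgroup)
  rwa [kron_coeffMap_symm_coeffMap] at h

theorem KronPrim.coeffMap_of_mem_decomposition {f : LaurentSeries L} (hf : KronPrim A f)
    (σ : L ≃ₐ[K] L) (hσ : σ ∈ A.decompositionSubgroup K) :
    KronPrim A (coeffMap (σ : L →+* L) f) := by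
  refine ⟨hf.1.coeffMap_of_mem_decomposition σ hσ, ?_⟩
  obtain ⟨n, hn⟩ := hf.2
  refine ⟨n, fun h => hn ?_⟩
  have h1 := hf.1 n
  have h2 : ((kronDecompHom σ hσ ⟨f.coeff n, h1⟩ : A) : L) ∈ A.nonunits := h
  rw [ValuationSubring.coe_mem_nonunits_iff] at h2
  have h3 : (⟨f.coeff n, h1⟩ : A) ∈ IsLocalRing.maximalIdeal A := by
    by_contra hu
    have hu' : IsUnit (⟨f.coeff n, h1⟩ : A) := by
      by_contra hnu
      exact hu ((IsLocalRing.mem_maximalIdeal _).2 hnu)
    exact (IsLocalRing.mem_maximalIdeal _).1 h2 (hu'.map (kronDecompHom σ hσ))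
  exact ValuationSubring.coe_mem_nonunits_iff.2 h3

omit [NeZero ℓ] in
/-- the right-hand side of K6 is primitive when `f` is: so K6 says `T_ℓ(τ f)/(f^ℓ·τ²f) ≡ 1`. -/
theorem kronPrim_frob_rhs (τ : L ≃ₐ[K] L) (hτ : A.IsFrobeniusAt τ ℓ) {f : LaurentSeries L}
    (hf : KronPrim A f) :
    KronPrim A (f ^ ℓ * coeffMap (τ : L →+* L) (coeffMap (τ : L →+* L) f)) :=
  (hf.pow ℓ).mul ((hf.coeffMap_of_mem_decomposition τ hτ.mem_decompositionSubgroup
    ).coeffMap_of_mem_decomposition τ hτ.mem_decompositionSubgroup)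

theorem kronPrim_kronHecke_frob (hℓ : ℓ.Prime) (hA : A.LiesOverPrime ℓ) (ζ : Lˣ) (hζ : ζ ^ ℓ = 1)
    (τ : L ≃ₐ[K] L) (hτ : A.IsFrobeniusAt τ ℓ) {f : LaurentSeries L} (hf : KronPrim A f) :
    KronPrim A (kronHecke ℓ ζ (coeffMap (τ : L →+* L) f)) :=
  (kronPrim_frob_rhs τ hτ hf).of_congr
    ((hf.1.coeffMap_of_mem_decomposition τ hτ.mem_decompositionSubgroup).kronHecke ζ hζ)
    (kronHecke_frob_congr hℓ hA ζ hζ τ hτ hf.1).symm

/-! ### K1: algebraic properties of the norm and of the multiplicative Hecke operator -/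

theorem kronHecke_one (ζ : Lˣ) : kronHecke ℓ ζ (1 : LaurentSeries L) = 1 := by
  rw [kronHecke, map_one, kronNorm_one, mul_one]

theorem kronHecke_mul (ζ : Lˣ) (hζ : IsPrimitiveRoot ζ ℓ) (f g : LaurentSeries L) :
    kronHecke ℓ ζ (f * g) = kronHecke ℓ ζ f * kronHecke ℓ ζ g := by
  rw [kronHecke, kronHecke, kronHecke, map_mul, kronNorm_mul ℓ ζ hζ]
  ring

theorem kronHecke_eq_of_isPrimitiveRoot (ζ ζ' : Lˣ) (hζ : IsPrimitiveRoot ζ ℓ)
    (hζ' : IsPrimitiveRoot ζ' ℓ) (f : LaurentSeries L) : kronHecke ℓ ζ' f = kronHecke ℓ ζ f := by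
  rw [kronHecke, kronHecke, kronNorm_eq_of_isPrimitiveRoot ℓ ζ ζ' hζ hζ']

/-- the norm commutes with the Galois action on the coefficients -/
theorem coeffMap_kronNorm_algEquiv (ζ : Lˣ) (hζ : IsPrimitiveRoot ζ ℓ) (σ : L ≃ₐ[K] L)
    (f : LaurentSeries L) :
    coeffMap (σ : L →+* L) (kronNorm ℓ ζ f) = kronNorm ℓ ζ (coeffMap (σ : L →+* L) f) := by
  rw [coeffMap_kronNorm]
  refine kronNorm_eq_of_isPrimitiveRoot ℓ ζ _ hζ ?_ _
  exact hζ.map_of_injective (Units.map_injective (f := ((σ : L →+* L) : L →* L)) σ.injective)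

/-- the multiplicative Hecke operator commutes with the Galois action on the coefficients -/
theorem coeffMap_kronHecke_algEquiv (ζ : Lˣ) (hζ : IsPrimitiveRoot ζ ℓ) (σ : L ≃ₐ[K] L)
    (f : LaurentSeries L) :
    coeffMap (σ : L →+* L) (kronHecke ℓ ζ f) = kronHecke ℓ ζ (coeffMap (σ : L →+* L) f) := by
  rw [kronHecke, kronHecke, map_mul, coeffMap_kronNorm_algEquiv ζ hζ, coeffMap_qExpand]

/-- the defining property of the norm: `(N f)(q^ℓ) = ∏_{b<ℓ} f(ζ^b q)` -/
theorem qExpand_kronNorm_field (ζ : Lˣ) (hζ : IsPrimitiveRoot ζ ℓ) (f : LaurentSeries L) :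
    qExpand L ℓ (kronNorm ℓ ζ f) = ∏ b ∈ Finset.range ℓ, kronRot (ζ ^ b) f :=
  qExpand_kronNorm ℓ ζ hζ f

end Main

end Fermat.Agent.ES
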