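import Mathlib
import Fermat.Agent.ES.Package

/-!
# The Eichler–Shimura package from NON-COMMUTING Hecke operators (word form)

`ESData M p V` asks for a module structure over the commutative polynomial ring
`HeckeAlg = ℤ[T_ℓ]`, so the Hecke operators have to commute on `V`.  This file removes that
obligation: it is enough to have additive endomorphisms `T ℓ` (`ℓ ∤ M p`) of a finite `p`-torsion
group `V` with Galois action, commuting with Galois, satisfying `frob`/`unram`, and such that the
support clause holds for all WORDS in the `T ℓ` (`FreeAlgebra ℤ (goodPrimes M p)`).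

The package is then realised on the largest Hecke-stable subgroup `V₀ ⊆ V` on which the operators
commute; the support vector lies in `V₀` because every commutator word has value `0 ∈ 𝔪`.

* `ESWords M p V T` : the word form of the package.
* `esPkg_of_esWords : ESWords M p V T → ESPkg M p`.
* `ESTorsWords M p J T` / `esPkg_of_esTorsWords` : the same with all clauses stated on the
  `p`-torsion of a big group `J` (e.g. `J₀(M)(ℚ̄)`), operators `T : Nat.Primes → J →+ J`.
-/

set_option autoImplicit false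
set_option linter.style.haveILetI false
set_option linter.unusedSectionVars false

noncomputable section

namespace Fermat.Agent.ES

open ModularCurve

/-- the value of a word in the good Hecke variables on the `q`-coefficients of `g` -/
def wordValue {M : ℕ} (p : ℕ) (g : CuspForm (CongruenceSubgroup.Gamma0 M) 2) :
    FreeAlgebra ℤ (goodPrimes M p) →ₐ[ℤ] ℂ :=
  FreeAlgebra.lift ℤ (fun ℓ : goodPrimes M p => ModularFormClass.qCoeff g ((ℓ : Nat.Primes) : ℕ))

/-- The Eichler–Shimura data, word form: no commutativity of the Hecke operators is required. -/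
structure ESWords (M p : ℕ) (V : Type) [AddCommGroup V] [DistribMulAction GQ V]
    (T : goodPrimes M p → Module.End ℤ V) : Prop where
  /-- `V` is finite -/
  finite : Finite V
  /-- `V` is killed by `p` -/
  p_torsion : ∀ v : V, p • v = 0
  /-- Galois commutes with the good Hecke operators -/
  galois_comm : ∀ (σ : GQ) (ℓ : goodPrimes M p) (v : V), σ • T ℓ v = T ℓ (σ • v)
  /-- every vector is fixed by an open subgroup -/
  finite_level : ∀ v : V, ∃ E : IntermediateField ℚ (AlgebraicClosure ℚ),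
    FiniteDimensional ℚ E ∧ ∀ σ : GQ, (∀ x ∈ E, σ x = x) → σ • v = v
  /-- Eichler–Shimura relation -/
  frob : ∀ ℓ : ℕ, (hℓ : ℓ.Prime) → (hg : ¬ ℓ ∣ M * p) →
    ∀ A : ValuationSubring (AlgebraicClosure ℚ), A.LiesOverPrime ℓ →
      ∀ τ : GQ, A.IsFrobeniusAt τ ℓ →
        ∀ v : V, τ • τ • v - T ⟨⟨ℓ, hℓ⟩, hg⟩ (τ • v) + ℓ • v = 0
  /-- unramified outside `M p` -/
  unram : ∀ ℓ : ℕ, ℓ.Prime → ¬ ℓ ∣ M * p →
    ∀ A : ValuationSubring (AlgebraicClosure ℚ), A.LiesOverPrime ℓ →
      ∀ σ ∈ A.inertiaSubgroupIn ℚ, ∀ v : V, σ • v = v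
  /-- every eigensystem mod `𝔪` occurs in `V`, for all words -/
  supp : ∀ g : CuspForm (CongruenceSubgroup.Gamma0 M) 2, g.IsNormalizedEigenform →
    ∀ 𝔪 : Ideal Zbar, 𝔪.IsMaximal → (p : Zbar) ∈ 𝔪 →
      ∃ v : V, v ≠ 0 ∧ ∀ w : FreeAlgebra ℤ (goodPrimes M p),
        (∃ z ∈ 𝔪, (z : ℂ) = wordValue p g w) → FreeAlgebra.lift ℤ T w v = 0

/-! ## A module structure from a commuting family -/

section Family

variable {V : Type} [AddCommGroup V] (f : Nat.Primes → Module.End ℤ V)

theorem isMulCommutative_adjoin_family (hf : ∀ ℓ ℓ', f ℓ * f ℓ' = f ℓ' * f ℓ) :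
    IsMulCommutative (Algebra.adjoin ℤ (Set.range f)) :=
  Algebra.isMulCommutative_adjoin ℤ (by
    rintro _ ⟨ℓ, rfl⟩ _ ⟨ℓ', rfl⟩
    exact hf ℓ ℓ')

open scoped IsMulCommutative in
/-- evaluation of Hecke polynomials at a commuting family (into the commutative subalgebra) -/
def familyEvalAux (hf : ∀ ℓ ℓ', f ℓ * f ℓ' = f ℓ' * f ℓ) :
    HeckeAlg →ₐ[ℤ] (Algebra.adjoin ℤ (Set.range f) : Subalgebra ℤ (Module.End ℤ V)) :=
  haveI := isMulCommutative_adjoin_family f hf
  MvPolynomial.aeval fun ℓ =>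
    (⟨f ℓ, Algebra.subset_adjoin (Set.mem_range_self ℓ)⟩ : Algebra.adjoin ℤ (Set.range f))

/-- evaluation of Hecke polynomials at a commuting family -/
def familyEval (hf : ∀ ℓ ℓ', f ℓ * f ℓ' = f ℓ' * f ℓ) : HeckeAlg →ₐ[ℤ] Module.End ℤ V :=
  (Algebra.adjoin ℤ (Set.range f)).val.comp (familyEvalAux f hf)

open scoped IsMulCommutative in
theorem familyEval_X (hf : ∀ ℓ ℓ', f ℓ * f ℓ' = f ℓ' * f ℓ) (ℓ : Nat.Primes) :
    familyEval f hf (MvPolynomial.X ℓ) = f ℓ := by
  have := isMulCommutative_adjoin_family f hf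
  show ((familyEvalAux f hf (MvPolynomial.X ℓ) : Algebra.adjoin ℤ (Set.range f)) :
    Module.End ℤ V) = _
  have : familyEvalAux f hf (MvPolynomial.X ℓ) =
      ⟨f ℓ, Algebra.subset_adjoin (Set.mem_range_self ℓ)⟩ :=
    MvPolynomial.aeval_X _ ℓ
  rw [this]

/-- the module structure over `HeckeAlg` defined by a commuting family -/
@[reducible] def familyModule (hf : ∀ ℓ ℓ', f ℓ * f ℓ' = f ℓ' * f ℓ) : Module HeckeAlg V :=
  Module.compHom V (familyEval f hf).toRingHom

theorem familyModule_smul_def (hf : ∀ ℓ ℓ', f ℓ * f ℓ' = f ℓ' * f ℓ) (t : HeckeAlg) (v : V) :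
    (letI := familyModule f hf; t • v) = familyEval f hf t v := rfl

end Family

/-! ## Words and polynomials -/

section WordsPoly

variable (M p : ℕ)

/-- abelianisation of words in the good variables -/
def wordAb : FreeAlgebra ℤ (goodPrimes M p) →ₐ[ℤ] HeckeAlg :=
  FreeAlgebra.lift ℤ (fun ℓ : goodPrimes M p => (MvPolynomial.X (ℓ : Nat.Primes) : HeckeAlg))

@[simp] theorem wordAb_ι (ℓ : goodPrimes M p) :
    wordAb M p (FreeAlgebra.ι ℤ ℓ) = MvPolynomial.X (ℓ : Nat.Primes) := by
  simp [wordAb]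

theorem exists_wordAb_eq {t : HeckeAlg} (ht : t ∈ MvPolynomial.supported ℤ (goodPrimes M p)) :
    ∃ w : FreeAlgebra ℤ (goodPrimes M p), wordAb M p w = t := by
  rw [MvPolynomial.supported_eq_range_rename] at ht
  obtain ⟨t', rfl⟩ := ht
  induction t' using MvPolynomial.induction_on with
  | C a =>
    refine ⟨algebraMap ℤ _ a, ?_⟩
    rw [AlgHom.commutes]
    simp [MvPolynomial.algebraMap_eq]
  | add s t hs ht =>
    obtain ⟨ws, hws⟩ := hs
    obtain ⟨wt, hwt⟩ := ht
    exact ⟨ws + wt, by rw [map_add, hws, hwt, map_add]⟩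
  | mul_X s ℓ hs =>
    obtain ⟨ws, hws⟩ := hs
    refine ⟨ws * FreeAlgebra.ι ℤ ℓ, ?_⟩
    rw [map_mul, hws, wordAb_ι, map_mul]
    simp

theorem heckeValue_wordAb {M : ℕ} (p : ℕ) (g : CuspForm (CongruenceSubgroup.Gamma0 M) 2)
    (w : FreeAlgebra ℤ (goodPrimes M p)) : heckeValue g (wordAb M p w) = wordValue p g w := by
  have h : ((MvPolynomial.aeval
      (fun ℓ : Nat.Primes => ModularFormClass.qCoeff g ℓ) : HeckeAlg →ₐ[ℤ] ℂ).comp (wordAb M p))
      = wordValue p g := by
    apply FreeAlgebra.hom_ext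
    funext ℓ
    simp [wordAb, wordValue]
  exact congrArg (fun F : FreeAlgebra ℤ (goodPrimes M p) →ₐ[ℤ] ℂ => F w) h

end WordsPoly

/-! ## The commutative part -/

section CommPart

variable {M p : ℕ} {V : Type} [AddCommGroup V] (T : goodPrimes M p → Module.End ℤ V)

/-- the action of words -/
abbrev wordAct : FreeAlgebra ℤ (goodPrimes M p) →ₐ[ℤ] Module.End ℤ V := FreeAlgebra.lift ℤ T

theorem wordAct_ι (ℓ : goodPrimes M p) : wordAct T (FreeAlgebra.ι ℤ ℓ) = T ℓ := by
  simp [wordAct]

/-- the largest Hecke-stable subgroup on which the operators commute -/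
def commPart : Submodule ℤ V where
  carrier := {v | ∀ (w : FreeAlgebra ℤ (goodPrimes M p)) (ℓ ℓ' : goodPrimes M p),
    T ℓ (T ℓ' (wordAct T w v)) = T ℓ' (T ℓ (wordAct T w v))}
  zero_mem' := by
    intro w ℓ ℓ'
    simp
  add_mem' := by
    intro a b ha hb w ℓ ℓ'
    simp only [map_add, ha w ℓ ℓ', hb w ℓ ℓ']
  smul_mem' := by
    intro c v hv w ℓ ℓ'
    simp only [map_smul, hv w ℓ ℓ']

theorem mem_commPart {v : V} : v ∈ commPart T ↔
    ∀ (w : FreeAlgebra ℤ (goodPrimes M p)) (ℓ ℓ' : goodPrimes M p),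
      T ℓ (T ℓ' (wordAct T w v)) = T ℓ' (T ℓ (wordAct T w v)) := Iff.rfl

theorem wordAct_mem_commPart {v : V} (hv : v ∈ commPart T)
    (u : FreeAlgebra ℤ (goodPrimes M p)) : wordAct T u v ∈ commPart T := by
  intro w ℓ ℓ'
  have := hv (w * u) ℓ ℓ'
  rwa [map_mul, Module.End.mul_apply] at this

theorem T_mem_commPart {v : V} (hv : v ∈ commPart T) (ℓ : goodPrimes M p) :
    T ℓ v ∈ commPart T := by
  have := wordAct_mem_commPart T hv (FreeAlgebra.ι ℤ ℓ)
  rwa [wordAct_ι] at this

theorem comm_of_mem_commPart {v : V} (hv : v ∈ commPart T) (ℓ ℓ' : goodPrimes M p) :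
    T ℓ (T ℓ' v) = T ℓ' (T ℓ v) := by
  have := hv 1 ℓ ℓ'
  simpa using this

open Classical in
/-- the operators on the commutative part, indexed by all primes (`0` at the bad primes) -/
def commOp (ℓ : Nat.Primes) : Module.End ℤ (commPart T) :=
  if h : ℓ ∈ goodPrimes M p then
    (T ⟨ℓ, h⟩).restrict (fun _ hv => T_mem_commPart T hv ⟨ℓ, h⟩)
  else 0

theorem commOp_good (ℓ : goodPrimes M p) (v : commPart T) :
    ((commOp T (ℓ : Nat.Primes) v : commPart T) : V) = T ℓ (v : V) := by
  classical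
  have h : (ℓ : Nat.Primes) ∈ goodPrimes M p := ℓ.2
  rw [commOp, dif_pos h]
  rfl

theorem commOp_bad {ℓ : Nat.Primes} (h : ℓ ∉ goodPrimes M p) : commOp T ℓ = 0 := by
  classical
  rw [commOp, dif_neg h]

theorem commOp_comm (ℓ ℓ' : Nat.Primes) : commOp T ℓ * commOp T ℓ' = commOp T ℓ' * commOp T ℓ := by
  classical
  by_cases h : ℓ ∈ goodPrimes M p
  · by_cases h' : ℓ' ∈ goodPrimes M p
    · ext v
      rw [Module.End.mul_apply, Module.End.mul_apply]
      have e1 := commOp_good T ⟨ℓ, h⟩ (commOp T ℓ' v)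
      have e2 := commOp_good T ⟨ℓ', h'⟩ v
      have e3 := commOp_good T ⟨ℓ', h'⟩ (commOp T ℓ v)
      have e4 := commOp_good T ⟨ℓ, h⟩ v
      simp only at e1 e2 e3 e4
      rw [e1, e2, e3, e4]
      exact comm_of_mem_commPart T v.2 ⟨ℓ, h⟩ ⟨ℓ', h'⟩
    · rw [commOp_bad T h', mul_zero, zero_mul]
  · rw [commOp_bad T h, mul_zero, zero_mul]

/-- on the commutative part a word acts through its abelianisation -/
theorem familyEval_wordAb (w : FreeAlgebra ℤ (goodPrimes M p)) (v : commPart T) :
    ((familyEval (commOp T) (commOp_comm T) (wordAb M p w) v : commPart T) : V)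
      = wordAct T w (v : V) := by
  induction w using FreeAlgebra.induction generalizing v with
  | grade0 r =>
    simp only [AlgHom.commutes, Module.algebraMap_end_apply]
    rfl
  | grade1 ℓ =>
    rw [wordAb_ι, familyEval_X, wordAct_ι]
    exact commOp_good T ℓ v
  | mul a b ha hb =>
    rw [map_mul, map_mul, Module.End.mul_apply, ha, hb, map_mul, Module.End.mul_apply]
  | add a b ha hb =>
    rw [map_add, map_add, LinearMap.add_apply, Submodule.coe_add, ha, hb, map_add,
      LinearMap.add_apply]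

end CommPart

/-! ## The theorem -/

section Main

variable {M p : ℕ} {V : Type} [AddCommGroup V] [DistribMulAction GQ V]
  {T : goodPrimes M p → Module.End ℤ V}

theorem ESWords.galois_wordAct (h : ESWords M p V T) (σ : GQ)
    (w : FreeAlgebra ℤ (goodPrimes M p)) (v : V) :
    σ • wordAct T w v = wordAct T w (σ • v) := by
  induction w using FreeAlgebra.induction generalizing v with
  | grade0 r =>
    simp only [AlgHom.commutes, Module.algebraMap_end_apply]
    exact map_zsmul (DistribSMul.toAddMonoidHom V σ) r v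
  | grade1 ℓ =>
    rw [wordAct_ι]
    exact h.galois_comm σ ℓ v
  | mul a b ha hb =>
    rw [map_mul, Module.End.mul_apply, Module.End.mul_apply, ha, hb]
  | add a b ha hb =>
    rw [map_add, LinearMap.add_apply, LinearMap.add_apply, smul_add, ha, hb]

theorem ESWords.galois_mem_commPart (h : ESWords M p V T) (σ : GQ) {v : V}
    (hv : v ∈ commPart T) : σ • v ∈ commPart T := by
  intro w ℓ ℓ'
  rw [← h.galois_wordAct, ← h.galois_comm, ← h.galois_comm, ← h.galois_comm, ← h.galois_comm,
    hv w ℓ ℓ']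

/-- the Galois action on the commutative part -/
@[reducible] def ESWords.commGalois (h : ESWords M p V T) :
    DistribMulAction GQ (commPart T) where
  smul σ x := ⟨σ • (x : V), h.galois_mem_commPart σ x.2⟩
  one_smul x := Subtype.ext (one_smul GQ (x : V))
  mul_smul σ τ x := Subtype.ext (mul_smul σ τ (x : V))
  smul_zero σ := Subtype.ext (smul_zero σ)
  smul_add σ x y := Subtype.ext (smul_add σ (x : V) (y : V))

/-- **The Eichler–Shimura package from its word form** (no commutativity needed). -/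
theorem esPkg_of_esWords (h : ESWords M p V T) : ESPkg M p := by
  classical
  letI instG : DistribMulAction GQ (commPart T) := h.commGalois
  letI instM : Module HeckeAlg (commPart T) := familyModule (commOp T) (commOp_comm T)
  have hcoe : ∀ (σ : GQ) (x : commPart T), ((σ • x : commPart T) : V) = σ • (x : V) :=
    fun _ _ => rfl
  have hsmul : ∀ (t : HeckeAlg) (x : commPart T),
      t • x = familyEval (commOp T) (commOp_comm T) t x := fun _ _ => rfl
  have hgen : ∀ (ℓ : goodPrimes M p) (x : commPart T),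
      (((MvPolynomial.X (ℓ : Nat.Primes) : HeckeAlg) • x : commPart T) : V) = T ℓ (x : V) := by
    intro ℓ x
    rw [hsmul, familyEval_X]
    exact commOp_good T ℓ x
  refine ⟨commPart T, inferInstance, instM, instG, ?_⟩
  refine
    { finite := ?_
      p_torsion := ?_
      smul_comm := ?_
      finite_level := ?_
      frob := ?_
      unram := ?_
      supp := ?_ }
  · haveI := h.finite
    exact Finite.of_injective (fun x : commPart T => (x : V)) Subtype.val_injective
  · intro v
    exact Subtype.ext (h.p_torsion (v : V))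
  · -- Galois commutes with every Hecke polynomial
    intro σ t v
    induction t using MvPolynomial.induction_on generalizing v with
    | C a =>
      have e : ∀ x : commPart T, (MvPolynomial.C a : HeckeAlg) • x = a • x := by
        intro x
        rw [hsmul, ← MvPolynomial.algebraMap_eq, AlgHom.commutes, Module.algebraMap_end_apply]
      rw [e, e]
      exact map_zsmul (DistribSMul.toAddMonoidHom (commPart T) σ) a v
    | add s t hs ht =>
      rw [add_smul, add_smul, smul_add, hs, ht]
    | mul_X s ℓ hs =>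
      rw [mul_smul, mul_smul, hs]
      congr 1
      apply Subtype.ext
      by_cases hℓ : ℓ ∈ goodPrimes M p
      · have e1 := hgen ⟨ℓ, hℓ⟩ v
        have e2 := hgen ⟨ℓ, hℓ⟩ (σ • v)
        simp only at e1 e2
        rw [hcoe, e1, e2, hcoe]
        exact h.galois_comm σ ⟨ℓ, hℓ⟩ (v : V)
      · have e0 : ∀ x : commPart T, (MvPolynomial.X ℓ : HeckeAlg) • x = 0 := by
          intro x
          rw [hsmul, familyEval_X, commOp_bad T hℓ]
          rfl
        rw [e0, e0, smul_zero]
  · intro v
    obtain ⟨E, hE, hfix⟩ := h.finite_level (v : V)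
    exact ⟨E, hE, fun σ hσ => Subtype.ext (hfix σ hσ)⟩
  · intro ℓ hℓ hg A hA τ hτ v
    apply Subtype.ext
    have h1 := h.frob ℓ hℓ hg A hA τ hτ (v : V)
    have h2 := hgen ⟨⟨ℓ, hℓ⟩, hg⟩ (τ • v)
    simp only at h2
    show τ • τ • (v : V) - (((MvPolynomial.X (⟨ℓ, hℓ⟩ : Nat.Primes) : HeckeAlg) • (τ • v) :
      commPart T) : V) + ℓ • (v : V) = 0
    rw [h2, hcoe]
    exact h1
  · intro ℓ hℓ hg A hA σ hσ v
    exact Subtype.ext (h.unram ℓ hℓ hg A hA σ hσ (v : V))
  · intro g hgf 𝔪 h𝔪 hp
    obtain ⟨v, hv0, hv⟩ := h.supp g hgf 𝔪 h𝔪 hp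
    -- the support vector lies in the commutative part
    have hvc : v ∈ commPart T := by
      intro w ℓ ℓ'
      have key : wordAct T ((FreeAlgebra.ι ℤ ℓ * FreeAlgebra.ι ℤ ℓ'
          - FreeAlgebra.ι ℤ ℓ' * FreeAlgebra.ι ℤ ℓ) * w) v = 0 := by
        apply hv
        refine ⟨0, 𝔪.zero_mem, ?_⟩
        rw [map_mul, map_sub, map_mul, map_mul, mul_comm (wordValue p g (FreeAlgebra.ι ℤ ℓ)),
          sub_self, zero_mul]
        rfl
      rw [map_mul, map_sub, map_mul, map_mul, wordAct_ι, wordAct_ι, Module.End.mul_apply,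
        LinearMap.sub_apply, Module.End.mul_apply, Module.End.mul_apply, sub_eq_zero] at key
      exact key
    refine ⟨⟨v, hvc⟩, fun hh => hv0 (congrArg Subtype.val hh), fun t ht hz => ?_⟩
    obtain ⟨w, rfl⟩ := exists_wordAb_eq M p ht
    apply Subtype.ext
    rw [hsmul, familyEval_wordAb]
    obtain ⟨z, hz𝔪, hzv⟩ := hz
    exact hv w ⟨z, hz𝔪, by rw [hzv, heckeValue_wordAb]⟩

end Main

/-! ## The same, with all clauses stated on the `p`-torsion of a big group -/

section Tors

/-- The word form of the package, all clauses about the `p`-torsion of a group `J` with Galois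
action and additive operators `T ℓ` (only the good `ℓ ∤ M p` are used). -/
structure ESTorsWords (M p : ℕ) (J : Type) [AddCommGroup J] [DistribMulAction GQ J]
    (T : Nat.Primes → J →+ J) : Prop where
  /-- `J[p]` is finite -/
  finite : {x : J | p • x = 0}.Finite
  /-- Galois commutes with the good Hecke operators on `J[p]` -/
  galois_comm : ∀ (σ : GQ) (ℓ : Nat.Primes), ¬ (ℓ : ℕ) ∣ M * p →
    ∀ x : J, p • x = 0 → σ • T ℓ x = T ℓ (σ • x)
  /-- every `p`-torsion element is fixed by an open subgroup -/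
  finite_level : ∀ x : J, p • x = 0 → ∃ E : IntermediateField ℚ (AlgebraicClosure ℚ),
    FiniteDimensional ℚ E ∧ ∀ σ : GQ, (∀ a ∈ E, σ a = a) → σ • x = x
  /-- Eichler–Shimura relation on `J[p]` -/
  frob : ∀ ℓ : ℕ, (hℓ : ℓ.Prime) → ¬ ℓ ∣ M * p →
    ∀ A : ValuationSubring (AlgebraicClosure ℚ), A.LiesOverPrime ℓ →
      ∀ τ : GQ, A.IsFrobeniusAt τ ℓ →
        ∀ x : J, p • x = 0 → τ • τ • x - T ⟨ℓ, hℓ⟩ (τ • x) + ℓ • x = 0
  /-- inertia over good primes acts trivially on `J[p]` -/
  unram : ∀ ℓ : ℕ, ℓ.Prime → ¬ ℓ ∣ M * p →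
    ∀ A : ValuationSubring (AlgebraicClosure ℚ), A.LiesOverPrime ℓ →
      ∀ σ ∈ A.inertiaSubgroupIn ℚ, ∀ x : J, p • x = 0 → σ • x = x
  /-- every eigensystem mod `𝔪` occurs in `J[p]`, for all words -/
  supp : ∀ g : CuspForm (CongruenceSubgroup.Gamma0 M) 2, g.IsNormalizedEigenform →
    ∀ 𝔪 : Ideal Zbar, 𝔪.IsMaximal → (p : Zbar) ∈ 𝔪 →
      ∃ v : J, v ≠ 0 ∧ p • v = 0 ∧ ∀ w : FreeAlgebra ℤ (goodPrimes M p),
        (∃ z ∈ 𝔪, (z : ℂ) = wordValue p g w) →
          FreeAlgebra.lift ℤ (fun ℓ : goodPrimes M p => (T ℓ).toIntLinearMap) w v = 0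

variable (M p : ℕ) (J : Type) [AddCommGroup J] [DistribMulAction GQ J]
  (T : Nat.Primes → J →+ J)

/-- the `p`-torsion of `J` -/
def torsPart : Submodule ℤ J where
  carrier := {x | p • x = 0}
  zero_mem' := smul_zero _
  add_mem' := by
    intro a b ha hb
    show p • (a + b) = 0
    rw [smul_add, ha, hb, add_zero]
  smul_mem' := by
    intro c x hx
    show p • (c • x) = 0
    rw [smul_comm, hx, smul_zero]

variable {p J}

theorem mem_torsPart {x : J} : x ∈ torsPart p J ↔ p • x = 0 := Iff.rfl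

theorem galois_mem_torsPart (σ : GQ) {x : J} (hx : x ∈ torsPart p J) : σ • x ∈ torsPart p J := by
  show p • (σ • x) = 0
  have h : σ • (p • x) = p • (σ • x) := map_nsmul (DistribSMul.toAddMonoidHom J σ) p x
  rw [← h, hx, smul_zero]

theorem op_mem_torsPart (f : J →+ J) {x : J} (hx : x ∈ torsPart p J) : f x ∈ torsPart p J := by
  show p • f x = 0
  rw [← map_nsmul, hx, map_zero]

variable (p J)

/-- the Galois action on `J[p]` -/
@[reducible] def torsGalois : DistribMulAction GQ (torsPart p J) where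
  smul σ x := ⟨σ • (x : J), galois_mem_torsPart σ x.2⟩
  one_smul x := Subtype.ext (one_smul GQ (x : J))
  mul_smul σ τ x := Subtype.ext (mul_smul σ τ (x : J))
  smul_zero σ := Subtype.ext (smul_zero σ)
  smul_add σ x y := Subtype.ext (smul_add σ (x : J) (y : J))

variable {J}

/-- the good operators on `J[p]` -/
def torsOp (ℓ : goodPrimes M p) : Module.End ℤ (torsPart p J) :=
  (T ℓ).toIntLinearMap.restrict (fun _ hx => op_mem_torsPart (T ℓ) hx)

theorem torsOp_apply (ℓ : goodPrimes M p) (x : torsPart p J) :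
    ((torsOp M p T ℓ x : torsPart p J) : J) = T ℓ (x : J) := rfl

theorem coe_wordAct_torsOp (w : FreeAlgebra ℤ (goodPrimes M p)) (x : torsPart p J) :
    ((wordAct (torsOp M p T) w x : torsPart p J) : J)
      = FreeAlgebra.lift ℤ (fun ℓ : goodPrimes M p => (T ℓ).toIntLinearMap) w (x : J) := by
  induction w using FreeAlgebra.induction generalizing x with
  | grade0 r =>
    simp only [AlgHom.commutes, Module.algebraMap_end_apply]
    rfl
  | grade1 ℓ =>
    rw [wordAct_ι, FreeAlgebra.lift_ι_apply]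
    rfl
  | mul a b ha hb =>
    rw [map_mul, Module.End.mul_apply, ha, hb, map_mul, Module.End.mul_apply]
  | add a b ha hb =>
    rw [map_add, LinearMap.add_apply, Submodule.coe_add, ha, hb, map_add, LinearMap.add_apply]

variable {M p T}

/-- the torsion form gives the word form on `J[p]` -/
theorem ESTorsWords.esWords (h : ESTorsWords M p J T) :
    letI := torsGalois p J
    ESWords M p (torsPart p J) (torsOp M p T) := by
  letI := torsGalois p J
  have hcoe : ∀ (σ : GQ) (x : torsPart p J), ((σ • x : torsPart p J) : J) = σ • (x : J) :=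
    fun _ _ => rfl
  refine
    { finite := h.finite.to_subtype
      p_torsion := fun v => Subtype.ext v.2
      galois_comm := ?_
      finite_level := ?_
      frob := ?_
      unram := ?_
      supp := ?_ }
  · intro σ ℓ v
    exact Subtype.ext (h.galois_comm σ ℓ ℓ.2 (v : J) v.2)
  · intro v
    obtain ⟨E, hE, hfix⟩ := h.finite_level (v : J) v.2
    exact ⟨E, hE, fun σ hσ => Subtype.ext (hfix σ hσ)⟩
  · intro ℓ hℓ hg A hA τ hτ v
    exact Subtype.ext (h.frob ℓ hℓ hg A hA τ hτ (v : J) v.2)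
  · intro ℓ hℓ hg A hA σ hσ v
    exact Subtype.ext (h.unram ℓ hℓ hg A hA σ hσ (v : J) v.2)
  · intro g hgf 𝔪 h𝔪 hp
    obtain ⟨v, hv0, hpv, hv⟩ := h.supp g hgf 𝔪 h𝔪 hp
    refine ⟨⟨v, hpv⟩, fun hh => hv0 (congrArg Subtype.val hh), fun w hw => ?_⟩
    apply Subtype.ext
    rw [coe_wordAct_torsOp]
    exact hv w hw

/-- **The Eichler–Shimura package from clauses on the `p`-torsion of `J`, word form.** -/
theorem esPkg_of_esTorsWords (h : ESTorsWords M p J T) : ESPkg M p :=
  letI := torsGalois p J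
  esPkg_of_esWords h.esWords

end Tors

end Fermat.Agent.ES
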