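import Mathlib
import Fermat.Agent.ES.Words
import Fermat.Agent.ES.Top

/-!
# ESpkg, top-level contract (word form): `ESPkg M p` from six clauses about `J₀(M)[p]`

`J = ModularCurve.JZero M` (prelude), `T_ℓ = ModularCurve.heckeOperatorBar M ℓ` (prelude; by
`Fermat.Agent.ES.H.heckeOperatorAlong_eq_heckePic0Bar` it is the genuine push-pull operator).

NO commutativity of the Hecke operators is needed (see `Fermat/Agent/ES/Words.lean`), and every
clause is about the `p`-torsion only: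

* `JFinite M p`       (G1)  `J[p]` is finite;
* `JGaloisHecke M p`  (G1)  Galois commutes with `T_ℓ` on `J[p]`, `ℓ ∤ M p`;
* `JFiniteLevel M p`  (G1)  every `x ∈ J[p]` is fixed by an open subgroup;
* `JSuppWords M p`    (G1)  support clause for all words in the `T_ℓ`, `ℓ ∤ M p`;
* `JFrob M p`         (G2)  Eichler–Shimura relation on `J[p]`;
* `JUnram M p`        (G2)  inertia over `ℓ ∤ M p` acts trivially on `J[p]`.

`esPkg_of_clauses` assembles them.  The clauses of `Fermat/Agent/ES/Top.lean` (stated for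
`p`-power torsion) imply the corresponding clauses here.
-/

set_option autoImplicit false
set_option linter.style.haveILetI false
set_option linter.unusedSectionVars false

noncomputable section

namespace Fermat.Agent.ES

open ModularCurve AlgebraicCurve

variable (M p : ℕ) [NeZero M]

/-- the prelude Hecke operators on `J₀(M)(ℚ̄)`, as additive maps -/
def jOp (ℓ : Nat.Primes) : JZero M →+ JZero M := (heckeOperatorBar M ℓ).toAddMonoidHom

@[simp] theorem jOp_apply (ℓ : Nat.Primes) (x : JZero M) :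
    jOp M ℓ x = heckeOperatorBar M ℓ x := rfl

/-- (G1) `J₀(M)[p]` is finite. -/
def JFinite : Prop := {x : JZero M | p • x = 0}.Finite

/-- (G1) Galois commutes with the good Hecke operators on `J₀(M)[p]`. -/
def JGaloisHecke : Prop :=
  ∀ (σ : GQ) (ℓ : Nat.Primes), ¬ (ℓ : ℕ) ∣ M * p →
    ∀ x : JZero M, p • x = 0 → σ • heckeOperatorBar M ℓ x = heckeOperatorBar M ℓ (σ • x)

/-- (G1) every element of `J₀(M)[p]` is fixed by an open subgroup. -/
def JFiniteLevel : Prop :=
  ∀ x : JZero M, p • x = 0 → ∃ E : IntermediateField ℚ (AlgebraicClosure ℚ),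
    FiniteDimensional ℚ E ∧ ∀ σ : GQ, (∀ a ∈ E, σ a = a) → σ • x = x

/-- (G2) the Eichler–Shimura relation on `J₀(M)[p]`. -/
def JFrob : Prop :=
  ∀ ℓ : ℕ, (hℓ : ℓ.Prime) → ¬ ℓ ∣ M * p →
    ∀ A : ValuationSubring (AlgebraicClosure ℚ), A.LiesOverPrime ℓ →
      ∀ τ : GQ, A.IsFrobeniusAt τ ℓ →
        ∀ x : JZero M, p • x = 0 →
          τ • τ • x - heckeOperatorBar M ⟨ℓ, hℓ⟩ (τ • x) + ℓ • x = 0

/-- (G2) inertia over good primes acts trivially on `J₀(M)[p]`. -/
def JUnram : Prop :=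
  ∀ ℓ : ℕ, ℓ.Prime → ¬ ℓ ∣ M * p →
    ∀ A : ValuationSubring (AlgebraicClosure ℚ), A.LiesOverPrime ℓ →
      ∀ σ ∈ A.inertiaSubgroupIn ℚ, ∀ x : JZero M, p • x = 0 → σ • x = x

/-- the action of words in the good Hecke operators on `J₀(M)(ℚ̄)` -/
def jWordAct : FreeAlgebra ℤ (goodPrimes M p) →ₐ[ℤ] Module.End ℤ (JZero M) :=
  FreeAlgebra.lift ℤ (fun ℓ : goodPrimes M p => heckeOperatorBar M (ℓ : Nat.Primes))

/-- (G1) every eigensystem mod `𝔪` occurs in `J₀(M)[p]`, word form. -/
def JSuppWords : Prop :=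
  ∀ g : CuspForm (CongruenceSubgroup.Gamma0 M) 2, g.IsNormalizedEigenform →
    ∀ 𝔪 : Ideal Zbar, 𝔪.IsMaximal → (p : Zbar) ∈ 𝔪 →
      ∃ v : JZero M, v ≠ 0 ∧ p • v = 0 ∧ ∀ w : FreeAlgebra ℤ (goodPrimes M p),
        (∃ z ∈ 𝔪, (z : ℂ) = wordValue p g w) → jWordAct M p w v = 0

variable {M p}

/-- **Top-level assembly**: the six clauses give the Eichler–Shimura package. -/
theorem esPkg_of_clauses (hfin : JFinite M p) (hG : JGaloisHecke M p)
    (hlev : JFiniteLevel M p) (hfrob : JFrob M p) (hunr : JUnram M p)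
    (hsupp : JSuppWords M p) : ESPkg M p := by
  refine esPkg_of_esTorsWords (J := JZero M) (T := jOp M)
    { finite := hfin
      galois_comm := hG
      finite_level := hlev
      frob := hfrob
      unram := hunr
      supp := ?_ }
  intro g hg 𝔪 h𝔪 hp
  obtain ⟨v, hv0, hpv, hv⟩ := hsupp g hg 𝔪 h𝔪 hp
  exact ⟨v, hv0, hpv, fun w hw => hv w hw⟩

/-! ## From the clauses of `Top.lean` -/

theorem jFinite_of_stmt (h : StmtFinite M p) : JFinite M p := by
  have := h 1
  simp only [pow_one] at this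
  exact this

theorem isPPowerTorsion_of_smul_eq_zero {x : JZero M} (hx : p • x = 0) : IsPPowerTorsion p x :=
  ⟨1, by rw [pow_one]; exact hx⟩

theorem jGaloisHecke_of_stmt (h : StmtGaloisHecke M p) : JGaloisHecke M p := by
  intro σ ℓ hℓ x _
  have := h σ ℓ x
  rwa [goodHecke_of_good M p hℓ] at this

theorem jFiniteLevel_of_stmt (h : StmtFiniteLevel M p) : JFiniteLevel M p :=
  fun x hx => h x (isPPowerTorsion_of_smul_eq_zero hx)

theorem jFrob_of_stmt (h : StmtFrob M p) : JFrob M p :=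
  fun ℓ hℓ hg A hA τ hτ x hx => h ℓ hℓ hg A hA τ hτ x (isPPowerTorsion_of_smul_eq_zero hx)

theorem jUnram_of_stmt (h : StmtUnram M p) : JUnram M p :=
  fun ℓ hℓ hg A hA σ hσ x hx => h ℓ hℓ hg A hA σ hσ x (isPPowerTorsion_of_smul_eq_zero hx)

end Fermat.Agent.ES
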