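import Mathlib
import Fermat.Agent.ES.GaloisCorr
import Fermat.Agent.ES.TopWords

/-!
# ESpkg clause `JGaloisHecke` / `StmtGaloisHecke`: Galois commutes with the Hecke operators

`σ • T_ℓ x = T_ℓ (σ • x)` for every `σ ∈ G_ℚ`, every prime `ℓ` and every `x ∈ J₀(M)(ℚ̄)`
(prelude objects: `ModularCurve.JZero M`, `ModularCurve.heckeOperatorBar M ℓ`).

Proof: `T_ℓ` is either `0` or the correspondence `α_* β^*` (prelude definition), and the
coefficientwise action of `σ` on `ℚ̄((q))` commutes with `α` (inclusion) and `β` (`q ↦ q^ℓ`);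
then `Fermat.Agent.ES.pic0_correspondence_smul`.  No input on the Hecke data is needed.
-/

set_option autoImplicit false
set_option linter.style.haveILetI false
set_option linter.unusedSectionVars false

noncomputable section

namespace Fermat.Agent.ES

open ModularCurve AlgebraicCurve AlgebraicCurve.SemilinearAut HahnSeries

theorem coeffMap_qExpand_comm {R S : Type*} [CommRing R] [CommRing S] (f : R →+* S) (n : ℕ)
    [NeZero n] (x : LaurentSeries R) : coeffMap f (qExpand R n x) = qExpand S n (coeffMap f x) := by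
  ext k
  by_cases hk : (n : ℤ) ∣ k
  · obtain ⟨m, rfl⟩ := hk
    rw [coeffMap_coeff, qExpand_coeff_mul, qExpand_coeff_mul, coeffMap_coeff]
  · rw [coeffMap_coeff, qExpand_coeff_of_not_dvd n _ hk, qExpand_coeff_of_not_dvd n _ hk,
      map_zero]

section

variable {L : Type*} [Field L] [Algebra ℚ L] (N ℓ : ℕ) [NeZero N] [NeZero ℓ]

theorem intertwines_heckeAlphaBar (σ : L ≃ₐ[ℚ] L) :
    IntertwinesAlong ((heckeAlphaBar L N ℓ : _ →ₐ[L] _) :
        laurentBaseChange L (modularFunctionFieldFull N) →+*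
          laurentBaseChange L (modularFunctionFieldFull (N * ℓ)))
      (arithmeticGalois (modularFunctionFieldFull N) σ)
      (arithmeticGalois (modularFunctionFieldFull (N * ℓ)) σ) := by
  intro x
  apply Subtype.ext
  show coeffMap (σ : L →+* L) ((heckeAlphaBar L N ℓ x : _) : LaurentSeries L)
    = ((heckeAlphaBar L N ℓ (arithmeticGalois (modularFunctionFieldFull N) σ • x) : _) :
        LaurentSeries L)
  rw [coe_heckeAlphaBar, coe_heckeAlphaBar, coe_arithmeticGalois_smul]

theorem intertwines_heckeBetaBar (σ : L ≃ₐ[ℚ] L) :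
    IntertwinesAlong ((heckeBetaBar L N ℓ : _ →ₐ[L] _) :
        laurentBaseChange L (modularFunctionFieldFull N) →+*
          laurentBaseChange L (modularFunctionFieldFull (N * ℓ)))
      (arithmeticGalois (modularFunctionFieldFull N) σ)
      (arithmeticGalois (modularFunctionFieldFull (N * ℓ)) σ) := by
  intro x
  apply Subtype.ext
  show coeffMap (σ : L →+* L) ((heckeBetaBar L N ℓ x : _) : LaurentSeries L)
    = ((heckeBetaBar L N ℓ (arithmeticGalois (modularFunctionFieldFull N) σ • x) : _) :
        LaurentSeries L)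
  rw [coe_heckeBetaBar, coe_heckeBetaBar, coe_arithmeticGalois_smul, coeffMap_qExpand_comm]

/-- Galois commutes with the prelude Hecke operator `heckeOperatorAlong`. -/
theorem galois_heckeOperatorAlong (σ : L ≃ₐ[ℚ] L)
    (x : Pic0 L (laurentBaseChange L (modularFunctionFieldFull N))) :
    heckeOperatorAlong L N ℓ (σ • x) = σ • heckeOperatorAlong L N ℓ x := by
  classical
  by_cases h : HeckeInputsAlong L N ℓ
  · obtain ⟨hα, hβ, hP, hfin, hFI, hN⟩ := h
    haveI := hP
    rw [heckeOperatorAlong_eq hα hβ hFI hfin hN, galois_smul_pic0_def, galois_smul_pic0_def]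
    exact pic0_correspondence_smul (heckeBetaBar L N ℓ) (heckeAlphaBar L N ℓ) hβ hα hFI hfin hN
      (intertwines_heckeBetaBar N ℓ σ) (intertwines_heckeAlphaBar N ℓ σ) x
  · rw [heckeOperatorAlong_of_not h, AddMonoidHom.zero_apply, AddMonoidHom.zero_apply,
      smul_zero]

end

/-- **Galois commutes with the Hecke operators on `J₀(M)(ℚ̄)`.** -/
theorem galois_heckeOperatorBar (M : ℕ) [NeZero M] (σ : GQ) (ℓ : Nat.Primes) (x : JZero M) :
    σ • heckeOperatorBar M ℓ x = heckeOperatorBar M ℓ (σ • x) := by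
  haveI : NeZero (ℓ : ℕ) := ⟨ℓ.2.ne_zero⟩
  rw [heckeOperatorBar_apply, heckeOperatorBar_apply]
  exact (galois_heckeOperatorAlong M (ℓ : ℕ) σ x).symm

/-- the clause `JGaloisHecke` of `ES/TopWords.lean` -/
theorem jGaloisHecke (M p : ℕ) [NeZero M] : JGaloisHecke M p :=
  fun σ ℓ _ x _ => galois_heckeOperatorBar M σ ℓ x

/-- the clause `StmtGaloisHecke` of `ES/Top.lean` -/
theorem stmtGaloisHecke (M p : ℕ) [NeZero M] : StmtGaloisHecke M p := by
  intro σ ℓ x
  by_cases h : (ℓ : ℕ) ∣ M * p
  · rw [goodHecke_of_bad M p h, LinearMap.zero_apply, LinearMap.zero_apply, smul_zero]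
  · rw [goodHecke_of_good M p h]
    exact galois_heckeOperatorBar M σ ℓ x

end Fermat.Agent.ES
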