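import Mathlib
import Fermat.Agent.ES.G2.HeckeDeg
import Fermat.Agent.S24.AnalyticDefs

/-!
# ESpkg-G1: the coefficient embedding `ι : K_ℚ̄ → K_ℂ`

`K_ℚ̄ = modularFunctionFieldBar M ⊂ ℚ̄((q))`, `K_ℂ = modularFunctionFieldFullC ℂ M ⊂ ℂ((q))`,
`ι = coeffMap embC` (`embC : ℚ̄ → ℂ` the fixed embedding of S24).
-/

set_option autoImplicit false

noncomputable section

namespace Fermat.Agent.ES

open ModularCurve IntermediateField Fermat.Agent.S24

variable (M : ℕ) [NeZero M]

theorem iotaC_coeffMap_coeffEmb (x : LaurentSeries ℚ) :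
    coeffMap embC (coeffEmb (AlgebraicClosure ℚ) x) = coeffEmb ℂ x := by
  rw [coeffEmb, coeffEmb, coeffMap_coeffMap]
  exact coeffMap_congr (Subsingleton.elim _ _) x

theorem iotaC_coeffMap_algebraMap (a : AlgebraicClosure ℚ) :
    coeffMap embC (algebraMap (AlgebraicClosure ℚ) (LaurentSeries (AlgebraicClosure ℚ)) a) =
      algebraMap ℂ (LaurentSeries ℂ) (embC a) := by
  rw [LaurentSeries.algebraMap_apply, LaurentSeries.algebraMap_apply, HahnSeries.C_apply,
    coeffMap_single, HahnSeries.C_apply]

/-- `coeffMap embC` maps `K_ℚ̄` into `K_ℂ`. -/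
theorem coeffMap_embC_mem {x : LaurentSeries (AlgebraicClosure ℚ)}
    (hx : x ∈ modularFunctionFieldBar M) : coeffMap embC x ∈ modularFunctionFieldFullC ℂ M := by
  have key : ∀ z ∈ IntermediateField.adjoin (AlgebraicClosure ℚ)
      (⇑(coeffEmb (AlgebraicClosure ℚ)) '' (modularFunctionFieldFull M : Set (LaurentSeries ℚ))),
      coeffMap embC z ∈ modularFunctionFieldFullC ℂ M := by
    intro z hz
    induction hz using IntermediateField.adjoin_induction with
    | mem z hz =>
      obtain ⟨y, hy, rfl⟩ := hz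
      rw [iotaC_coeffMap_coeffEmb, ← Fermat.Agent.ES.G2.hdeg_laurentBaseChange_full ℂ M]
      exact coeffEmb_mem_laurentBaseChange ℂ hy
    | algebraMap a =>
      rw [iotaC_coeffMap_algebraMap]
      exact IntermediateField.algebraMap_mem _ _
    | add z w _ _ ihz ihw =>
      rw [map_add]
      exact add_mem ihz ihw
    | inv z _ ihz =>
      rw [map_inv₀]
      exact inv_mem ihz
    | mul z w _ _ ihz ihw =>
      rw [map_mul]
      exact mul_mem ihz ihw
  exact key x hx

/-- the coefficient embedding `ι : K_ℚ̄ → K_ℂ` -/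
def iotaC : modularFunctionFieldBar M →+* modularFunctionFieldFullC ℂ M where
  toFun x := ⟨coeffMap embC (x : LaurentSeries (AlgebraicClosure ℚ)), coeffMap_embC_mem M x.2⟩
  map_one' := Subtype.ext (map_one _)
  map_mul' x y := Subtype.ext (map_mul _ _ _)
  map_zero' := Subtype.ext (map_zero _)
  map_add' x y := Subtype.ext (map_add _ _ _)

@[simp] theorem iotaC_coe (x : modularFunctionFieldBar M) :
    ((iotaC M x : modularFunctionFieldFullC ℂ M) : LaurentSeries ℂ) =
      coeffMap embC (x : LaurentSeries (AlgebraicClosure ℚ)) := rfl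

theorem iotaC_injective : Function.Injective (iotaC M) := (iotaC M).injective

theorem iotaC_algebraMap (a : AlgebraicClosure ℚ) :
    iotaC M (algebraMap (AlgebraicClosure ℚ) (modularFunctionFieldBar M) a) =
      algebraMap ℂ (modularFunctionFieldFullC ℂ M) (embC a) :=
  Subtype.ext (iotaC_coeffMap_algebraMap a)

end Fermat.Agent.ES
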