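import Mathlib
import Fermat.Agent.S24.PlaceOfValuation
import Fermat.Agent.ES.IotaC

/-!
# ESpkg-G1, piece BCd: places of `K_ℂ` restrict to places of `K_ℚ̄`

Generic form (`place_restrict_along`): `F / K`, `F' / K'` function fields, `ι : F →+* F'` a ring
homomorphism mapping `K` into `K'`.  Every place `w` of `F' / K'` is either trivial on `ι F`, or
there are a place `v` of `F / K` and `e > 0` with `w.ord (ι f) = e * v.ord f` for all `f`.

Modular form (`baseChangeDown`): `ι = iotaC M : K_ℚ̄ → K_ℂ` (`ES/IotaC.lean`), the coefficientwise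
embedding `modularFunctionFieldBar M → modularFunctionFieldFullC ℂ M` induced by
`S24.embC : ℚ̄ → ℂ`.
-/

set_option autoImplicit false
set_option linter.style.haveILetI false
set_option linter.unusedSectionVars false

noncomputable section

namespace Fermat.Agent.ES

open AlgebraicCurve ModularCurve Fermat.Agent.S24 WithZero

section Generic

variable {K K' F F' : Type*} [Field K] [Field K'] [Field F] [Field F'] [Algebra K F]
  [Algebra K' F']

/-- **BCd, generic.** -/
theorem place_restrict_along (ι : F →+* F') (j : K →+* K')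
    (hι : ∀ a : K, ι (algebraMap K F a) = algebraMap K' F' (j a)) (w : Place K' F') :
    (∀ f : F, w.ord (ι f) = 0) ∨
      ∃ (v : Place K F) (e : ℤ), 0 < e ∧ ∀ f : F, w.ord (ι f) = e * v.ord f := by
  classical
  set v₀ : Valuation F ℤᵐ⁰ := w.adicValuation.comap ι with hv₀
  have hord : ∀ f : F, w.ord (ι f) = vord v₀ f := fun f => rfl
  have hK : ∀ a : K, v₀ (algebraMap K F a) ≤ 1 := by
    intro a
    show w.adicValuation (ι (algebraMap K F a)) ≤ 1
    rw [hι a]
    have h1 := w.adicValuation_coe (algebraMap K' w.toValuationSubring (j a))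
    rw [Place.coe_algebraMap] at h1
    rw [h1]
    exact (w.heightOneSpectrum.intValuation_le_one _)
  by_cases hx : ∃ x : F, x ≠ 0 ∧ v₀ x < 1
  · right
    obtain ⟨v, e₀, he₀, -, hv⟩ := exists_place_of_valuation (K := K) v₀ hK hx
    refine ⟨v, e₀, he₀, fun f => ?_⟩
    rcases eq_or_ne f 0 with rfl | hf
    · simp
    · rw [hord, hv f hf]
  · left
    intro f
    rcases eq_or_ne f 0 with rfl | hf
    · simp
    · rw [hord]
      have h1 : ¬ v₀ f < 1 := fun h => hx ⟨f, hf, h⟩
      have h2 : ¬ v₀ f⁻¹ < 1 := fun h => hx ⟨f⁻¹, inv_ne_zero hf, h⟩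
      rw [lt_one_iff_vord_pos v₀ hf] at h1
      rw [lt_one_iff_vord_pos v₀ (inv_ne_zero hf), vord_inv] at h2
      omega

end Generic

section Modular

attribute [local instance] algKbC

variable (M : ℕ) [NeZero M]

/-- **BCd**: a place of `K_ℂ` is trivial on `K_ℚ̄` or restricts to a place of `K_ℚ̄`. -/
theorem baseChangeDown (w : Place ℂ (modularFunctionFieldFullC ℂ M)) :
    (∀ f : modularFunctionFieldBar M, w.ord (iotaC M f) = 0) ∨
      ∃ (v : Place Kb (modularFunctionFieldBar M)) (e : ℤ), 0 < e ∧
        ∀ f : modularFunctionFieldBar M, w.ord (iotaC M f) = e * v.ord f :=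
  place_restrict_along (iotaC M) embC (iotaC_algebraMap M) w

end Modular

end Fermat.Agent.ES
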