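import Mathlib

/-!
# ESpkg-G1, piece BCu (part 1): the discrete valuation ring of a prime element

`F` a field, `R ⊆ F` a subring, `t ∈ R` with `t R` prime, `⋂ tⁿ R = 0` and `F = Frac R`
(`BcuPrimeData R t`).  Then the localisation of `R` at `t R` is a valuation subring of `F`
(`BcuPrimeData.valuationSubring`) which is a principal ideal ring, is not `⊤`, contains `R`, and in
which `t` is irreducible.
-/

set_option autoImplicit false

noncomputable section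

namespace Fermat.Agent.ES

section DVR

variable {F : Type*} [Field F] (R : Subring F) (t : F)

/-- `x ∈ t R`. -/
def BcuDvd (x : F) : Prop := ∃ c ∈ R, x = t * c

/-- `t` is a prime element of the subring `R` of the field `F`, `⋂ tⁿ R = 0` and `F = Frac R`. -/
structure BcuPrimeData : Prop where
  mem : t ∈ R
  ne_zero : t ≠ 0
  prime : ∀ a ∈ R, ∀ b ∈ R, BcuDvd R t (a * b) → BcuDvd R t a ∨ BcuDvd R t b
  not_unit : ¬ BcuDvd R t 1
  sep : ∀ r ∈ R, (∀ n : ℕ, ∃ c ∈ R, r = t ^ n * c) → r = 0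
  frac : ∀ x : F, ∃ r ∈ R, ∃ s ∈ R, s ≠ 0 ∧ x * s = r

variable {R t}

namespace BcuPrimeData

variable (h : BcuPrimeData R t)
include h

theorem not_dvd_mul {a b : F} (ha : a ∈ R) (hb : b ∈ R) (ha' : ¬ BcuDvd R t a)
    (hb' : ¬ BcuDvd R t b) : ¬ BcuDvd R t (a * b) := fun hab =>
  (h.prime a ha b hb hab).elim ha' hb'

theorem exists_factor {r : F} (hr : r ∈ R) (hr0 : r ≠ 0) :
    ∃ n : ℕ, ∃ r₀ ∈ R, ¬ BcuDvd R t r₀ ∧ r = t ^ n * r₀ := by
  classical
  have hex : ∃ n : ℕ, ¬ ∃ c ∈ R, r = t ^ n * c := by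
    by_contra hcon
    push Not at hcon
    exact hr0 (h.sep r hr hcon)
  have hmin : ∀ m, m < Nat.find hex → ∃ c ∈ R, r = t ^ m * c := fun m hm =>
    not_not.mp (Nat.find_min hex hm)
  have hspec := Nat.find_spec hex
  rcases Nat.eq_zero_or_pos (Nat.find hex) with h0 | hpos
  · exfalso
    apply hspec
    rw [h0]
    exact ⟨r, hr, by simp⟩
  · obtain ⟨m, hm⟩ : ∃ m, Nat.find hex = m + 1 := ⟨Nat.find hex - 1, by omega⟩
    obtain ⟨c, hc, hrc⟩ := hmin m (by omega)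
    refine ⟨m, c, hc, ?_, hrc⟩
    rintro ⟨c', hc', rfl⟩
    apply hspec
    refine ⟨c', hc', ?_⟩
    rw [hm, hrc, pow_succ, mul_assoc]

/-- The localisation of `R` at `t R`, as a valuation subring of `F`. -/
def valuationSubring : ValuationSubring F where
  carrier := {x | ∃ r ∈ R, ∃ s ∈ R, ¬ BcuDvd R t s ∧ x * s = r}
  mul_mem' := by
    rintro x y ⟨r, hr, s, hs, hs', hx⟩ ⟨r', hr', s', hs2, hs2', hy⟩
    refine ⟨r * r', R.mul_mem hr hr', s * s', R.mul_mem hs hs2, h.not_dvd_mul hs hs2 hs' hs2', ?_⟩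
    rw [← hx, ← hy]; ring
  one_mem' := ⟨1, R.one_mem, 1, R.one_mem, h.not_unit, by simp⟩
  add_mem' := by
    rintro x y ⟨r, hr, s, hs, hs', hx⟩ ⟨r', hr', s', hs2, hs2', hy⟩
    refine ⟨r * s' + r' * s, R.add_mem (R.mul_mem hr hs2) (R.mul_mem hr' hs), s * s',
      R.mul_mem hs hs2, h.not_dvd_mul hs hs2 hs' hs2', ?_⟩
    rw [← hx, ← hy]; ring
  zero_mem' := ⟨0, R.zero_mem, 1, R.one_mem, h.not_unit, by simp⟩
  neg_mem' := by
    rintro x ⟨r, hr, s, hs, hs', hx⟩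
    exact ⟨-r, R.neg_mem hr, s, hs, hs', by rw [← hx]; ring⟩
  mem_or_inv_mem' := by
    intro x
    rcases eq_or_ne x 0 with rfl | hx0
    · left
      exact ⟨0, R.zero_mem, 1, R.one_mem, h.not_unit, by simp⟩
    obtain ⟨r, hr, s, hs, hs0, hxs⟩ := h.frac x
    have hr0 : r ≠ 0 := by rw [← hxs]; exact mul_ne_zero hx0 hs0
    obtain ⟨a, r₀, hr₀, hr₀', rfl⟩ := h.exists_factor hr hr0
    obtain ⟨b, s₀, hs₀, hs₀', rfl⟩ := h.exists_factor hs hs0
    have ht0 := h.ne_zero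
    rcases le_total b a with hba | hab
    · left
      refine ⟨t ^ (a - b) * r₀, R.mul_mem (R.pow_mem h.mem _) hr₀, s₀, hs₀, hs₀', ?_⟩
      have h1 : t ^ a = t ^ b * t ^ (a - b) := by
        rw [← pow_add, Nat.add_sub_cancel' hba]
      have : t ^ b * (x * s₀) = t ^ b * (t ^ (a - b) * r₀) := by
        rw [← mul_assoc (t ^ b) (t ^ (a - b)), ← h1, ← hxs]; ring
      exact mul_left_cancel₀ (pow_ne_zero _ ht0) this
    · right
      refine ⟨t ^ (b - a) * s₀, R.mul_mem (R.pow_mem h.mem _) hs₀, r₀, hr₀, hr₀', ?_⟩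
      have h0 : t ^ b = t ^ a * t ^ (b - a) := by
        rw [← pow_add, Nat.add_sub_cancel' hab]
      have h1 : t ^ a * r₀ = t ^ a * (x * (t ^ (b - a) * s₀)) := by
        rw [← hxs, h0]; ring
      have h2 : r₀ = x * (t ^ (b - a) * s₀) := mul_left_cancel₀ (pow_ne_zero a ht0) h1
      rw [h2]
      field_simp

theorem mem_valuationSubring_iff {x : F} :
    x ∈ h.valuationSubring ↔ ∃ r ∈ R, ∃ s ∈ R, ¬ BcuDvd R t s ∧ x * s = r := Iff.rfl

theorem le_valuationSubring {r : F} (hr : r ∈ R) : r ∈ h.valuationSubring :=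
  ⟨r, hr, 1, R.one_mem, h.not_unit, by simp⟩

theorem inv_not_mem : t⁻¹ ∉ h.valuationSubring := by
  rintro ⟨r, hr, s, hs, hs', hx⟩
  apply hs'
  refine ⟨r, hr, ?_⟩
  rw [← hx]
  field_simp [h.ne_zero]

omit h in
theorem ne_zero_of_not_dvd {r : F} (hr : ¬ BcuDvd R t r) : r ≠ 0 := by
  rintro rfl
  exact hr ⟨0, R.zero_mem, by simp⟩

/-- every nonzero element of the valuation subring is `tⁿ · u`, `u` a quotient of elements of
`R ∖ t R`. -/
theorem exists_pow_mul {x : F} (hx : x ∈ h.valuationSubring) (hx0 : x ≠ 0) :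
    ∃ (n : ℕ) (u : F), u ∈ h.valuationSubring ∧ u⁻¹ ∈ h.valuationSubring ∧ u ≠ 0 ∧
      x = t ^ n * u := by
  obtain ⟨r, hr, s, hs, hs', hxs⟩ := hx
  have hs0 : s ≠ 0 := ne_zero_of_not_dvd hs'
  have hr0 : r ≠ 0 := by rw [← hxs]; exact mul_ne_zero hx0 hs0
  obtain ⟨n, r₀, hr₀, hr₀', rfl⟩ := h.exists_factor hr hr0
  have hr₀0 : r₀ ≠ 0 := ne_zero_of_not_dvd hr₀'
  refine ⟨n, r₀ / s, ⟨r₀, hr₀, s, hs, hs', by field_simp⟩,
    ⟨s, hs, r₀, hr₀, hr₀', by field_simp⟩, div_ne_zero hr₀0 hs0, ?_⟩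
  rw [← mul_div_assoc, ← hxs]
  field_simp

theorem isUnit_of_inv_mem {u : F} (hu : u ∈ h.valuationSubring)
    (hu' : u⁻¹ ∈ h.valuationSubring) (hu0 : u ≠ 0) :
    IsUnit (⟨u, hu⟩ : h.valuationSubring) :=
  isUnit_iff_exists_inv.mpr ⟨⟨u⁻¹, hu'⟩, Subtype.ext (mul_inv_cancel₀ hu0)⟩

theorem not_isUnit_t : ¬ IsUnit (⟨t, h.le_valuationSubring h.mem⟩ : h.valuationSubring) := by
  intro hu
  obtain ⟨q, hq⟩ := isUnit_iff_exists_inv.mp hu
  have h1 : t * (q : F) = 1 := congrArg Subtype.val hq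
  have h2 : (q : F) = t⁻¹ := eq_inv_of_mul_eq_one_right h1
  exact h.inv_not_mem (h2 ▸ q.2)

theorem irreducible_t :
    Irreducible (⟨t, h.le_valuationSubring h.mem⟩ : h.valuationSubring) := by
  rw [irreducible_iff]
  refine ⟨h.not_isUnit_t, ?_⟩
  rintro ⟨a, ha⟩ ⟨b, hb⟩ hab
  have hab' : t = a * b := congrArg Subtype.val hab
  have ht0 := h.ne_zero
  have ha0 : a ≠ 0 := by rintro rfl; exact ht0 (by simpa using hab')
  have hb0 : b ≠ 0 := by rintro rfl; exact ht0 (by simpa using hab')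
  obtain ⟨n, u, hu, hu', hu0, rfl⟩ := h.exists_pow_mul ha ha0
  obtain ⟨m, u', hu2, hu2', hu20, rfl⟩ := h.exists_pow_mul hb hb0
  rcases Nat.eq_zero_or_pos n with rfl | hn
  · left
    have : (⟨t ^ 0 * u, ha⟩ : h.valuationSubring) = ⟨u, hu⟩ := Subtype.ext (by simp)
    rw [this]
    exact h.isUnit_of_inv_mem hu hu' hu0
  rcases Nat.eq_zero_or_pos m with rfl | hm
  · right
    have : (⟨t ^ 0 * u', hb⟩ : h.valuationSubring) = ⟨u', hu2⟩ := Subtype.ext (by simp)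
    rw [this]
    exact h.isUnit_of_inv_mem hu2 hu2' hu20
  exfalso
  obtain ⟨n, rfl⟩ : ∃ n', n = n' + 1 := ⟨n - 1, by omega⟩
  obtain ⟨m, rfl⟩ : ∃ m', m = m' + 1 := ⟨m - 1, by omega⟩
  have h1 : t * 1 = t * (t * (t ^ n * t ^ m * (u * u'))) := by
    rw [mul_one]
    conv_lhs => rw [hab']
    ring
  have h2 : 1 = t * (t ^ n * t ^ m * (u * u')) := mul_left_cancel₀ ht0 h1
  have h3 : t⁻¹ = t ^ n * t ^ m * (u * u') := (eq_inv_of_mul_eq_one_right h2.symm).symm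
  apply h.inv_not_mem
  rw [h3]
  have htm : t ∈ h.valuationSubring := h.le_valuationSubring h.mem
  exact mul_mem (mul_mem (pow_mem htm _) (pow_mem htm _)) (mul_mem hu hu2)

theorem hasUnitMulPowIrreducibleFactorization :
    IsDiscreteValuationRing.HasUnitMulPowIrreducibleFactorization h.valuationSubring := by
  refine ⟨⟨t, h.le_valuationSubring h.mem⟩, h.irreducible_t, ?_⟩
  rintro ⟨x, hx⟩ hx0
  have hx0' : x ≠ 0 := fun h0 => hx0 (Subtype.ext h0)
  obtain ⟨n, u, hu, hu', hu0, rfl⟩ := h.exists_pow_mul hx hx0'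
  refine ⟨n, ?_⟩
  obtain ⟨U, hU⟩ := h.isUnit_of_inv_mem hu hu' hu0
  refine ⟨U, Subtype.ext ?_⟩
  rw [hU]
  rfl

theorem isPrincipalIdealRing : IsPrincipalIdealRing h.valuationSubring :=
  haveI := IsDiscreteValuationRing.ofHasUnitMulPowIrreducibleFactorization
    h.hasUnitMulPowIrreducibleFactorization
  inferInstance

theorem valuationSubring_ne_top : h.valuationSubring ≠ ⊤ := fun htop =>
  h.inv_not_mem (htop ▸ ValuationSubring.mem_top _)

end BcuPrimeData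

end DVR

end Fermat.Agent.ES
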