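import Mathlib
import Fermat.Prelude.Def_AlgebraicCurve_DivisorClassGroup
import Fermat.Prelude.Def_ModularCurve_LaurentCoeff
import Fermat.Agent.ES.BaseChangeUpDvr

/-!
# ESpkg-G1, piece BCu (part 2): places extend along a constant field extension, `e = 1`

`k ⊆ C` fields, `K ⊆ k((q))` and `K' ⊆ C((q))` intermediate fields, `ι : K → K'` the
coefficientwise embedding, `K'` generated by `C` and `ι K`.  For a place `v` of `K / k` with
residue field `k`:

* `bcu_exists_place_extends` : there is a place `w` of `K' / C` with `w.ord (ι f) = v.ord f`.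

Proof.  `T = C ⊗[k] O_v`, `μ : T → K'` the multiplication map, `R = μ T`, `t = ι ϖ`.  For a
`k`-linear `l : C → k`, `Λ_l = l ⊗ id : T → O_v`; the coefficient identity `bcu_coeff`
(`l` of the `m`-th coefficient of `μ x` is the `m`-th coefficient of `Λ_l x`) gives linear
disjointness.  Then `R = C + t R`, `C ∩ t R = 0`, `⋂ tⁿ R = 0`, so `t R` is prime and
`BaseChangeUpDvr.lean` applies.
-/

set_option autoImplicit false

noncomputable section

namespace Fermat.Agent.ES

open AlgebraicCurve ModularCurve TensorProduct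

section Core

variable {k C : Type*} [Field k] [Field C] [Algebra k C]
variable {K : IntermediateField k (LaurentSeries k)}
  {K' : IntermediateField C (LaurentSeries C)}

/-- the `k`-algebra structure of `K'` (through `C`); a local instance of this file. -/
@[reducible] def bcuAlgebra (k : Type*) {C : Type*} [Field k] [Field C] [Algebra k C]
    (K' : IntermediateField C (LaurentSeries C)) : Algebra k K' :=
  ((algebraMap C K').comp (algebraMap k C)).toAlgebra

attribute [local instance] bcuAlgebra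

theorem bcu_isScalarTower : IsScalarTower k C K' :=
  IsScalarTower.of_algebraMap_eq fun _ => rfl

attribute [local instance] bcu_isScalarTower

theorem bcu_coeffMap_algebraMap (a : k) :
    coeffMap (algebraMap k C) (algebraMap k (LaurentSeries k) a) =
      algebraMap C (LaurentSeries C) (algebraMap k C a) := by
  rw [algebraMap_laurentSeries_eq_single, algebraMap_laurentSeries_eq_single, coeffMap_single]

variable (ι : K →+* K')
  (hι : ∀ x : K, ((ι x : K') : LaurentSeries C) =
    coeffMap (algebraMap k C) (x : LaurentSeries k))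
variable (v : Place k K)

include hι in
theorem bcu_iota_algebraMap (a : k) :
    ι (algebraMap k K a) = algebraMap C K' (algebraMap k C a) := by
  apply Subtype.ext
  rw [hι]
  exact bcu_coeffMap_algebraMap a

/-- `ι` on the valuation ring, as a `k`-algebra map. -/
def bcuG : v.toValuationSubring →ₐ[k] K' where
  toFun g := ι (g : K)
  map_one' := by simp
  map_mul' x y := by simp
  map_zero' := by simp
  map_add' x y := by simp
  commutes' a := by
    show ι ((algebraMap k v.toValuationSubring a : v.toValuationSubring) : K) = _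
    rw [Place.coe_algebraMap, bcu_iota_algebraMap ι hι]
    rfl

/-- the multiplication map `C ⊗ O_v → K'`. -/
def bcuMu : C ⊗[k] v.toValuationSubring →ₐ[k] K' :=
  Algebra.TensorProduct.productMap (IsScalarTower.toAlgHom k C K') (bcuG ι hι v)

theorem bcuMu_tmul (c : C) (g : v.toValuationSubring) :
    bcuMu ι hι v (c ⊗ₜ g) = algebraMap C K' c * ι (g : K) := rfl

/-- the coefficient functional `C ⊗ O_v → O_v` attached to `l : C → k`. -/
def bcuLam (l : C →ₗ[k] k) : C ⊗[k] v.toValuationSubring →ₗ[k] v.toValuationSubring :=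
  (TensorProduct.lid k v.toValuationSubring).toLinearMap ∘ₗ LinearMap.rTensor _ l

theorem bcuLam_tmul (l : C →ₗ[k] k) (c : C) (g : v.toValuationSubring) :
    bcuLam v l (c ⊗ₜ g) = l c • g := rfl

theorem bcuLam_mul (l : C →ₗ[k] k) (g : v.toValuationSubring)
    (y : C ⊗[k] v.toValuationSubring) :
    bcuLam v l ((1 ⊗ₜ g) * y) = g * bcuLam v l y := by
  induction y using TensorProduct.induction_on with
  | zero => simp
  | tmul c h =>
    rw [Algebra.TensorProduct.tmul_mul_tmul, bcuLam_tmul, bcuLam_tmul, one_mul, mul_smul_comm]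
  | add x y hx hy => rw [mul_add, map_add, map_add, hx, hy, mul_add]

/-- **coefficient identity**: `l` applied to the coefficients of `μ x` gives the coefficients of
`Λ_l x`. -/
theorem bcu_coeff (l : C →ₗ[k] k) (x : C ⊗[k] v.toValuationSubring) (m : ℤ) :
    l (((bcuMu ι hι v x : K') : LaurentSeries C).coeff m) =
      (((bcuLam v l x : v.toValuationSubring) : K) : LaurentSeries k).coeff m := by
  induction x using TensorProduct.induction_on with
  | zero => simp
  | tmul c g =>
    rw [bcuMu_tmul, bcuLam_tmul]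
    have h1 : ((algebraMap C K' c * ι (g : K) : K') : LaurentSeries C) =
        c • coeffMap (algebraMap k C) ((g : K) : LaurentSeries k) := by
      rw [MulMemClass.coe_mul, hι]
      show algebraMap C (LaurentSeries C) c * _ = _
      rw [LaurentSeries.algebraMap_apply, HahnSeries.C_mul_eq_smul]
    have h2 : (((l c • g : v.toValuationSubring) : K) : LaurentSeries k) =
        l c • (((g : K) : LaurentSeries k)) := by
      rw [Algebra.smul_def]
      show algebraMap k (LaurentSeries k) (l c) * _ = _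
      rw [LaurentSeries.algebraMap_apply, HahnSeries.C_mul_eq_smul]
    rw [h1, h2, HahnSeries.coeff_smul, HahnSeries.coeff_smul, coeffMap_coeff, smul_eq_mul,
      smul_eq_mul, mul_comm c, ← Algebra.smul_def, map_smul, smul_eq_mul, mul_comm]
  | add x y hx hy =>
    rw [map_add, map_add]
    simp only [AddMemClass.coe_add, HahnSeries.coeff_add, map_add, hx, hy]

/-- (LD1) -/
theorem bcu_lam_eq_zero (l : C →ₗ[k] k) (x : C ⊗[k] v.toValuationSubring)
    (hx : bcuMu ι hι v x = 0) : bcuLam v l x = 0 := by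
  apply Subtype.ext
  apply Subtype.ext
  ext m
  rw [← bcu_coeff ι hι v l x m, hx]
  simp

/-- (LD2) -/
theorem bcu_mu_eq_zero (x : C ⊗[k] v.toValuationSubring)
    (hx : ∀ l : C →ₗ[k] k, bcuLam v l x = 0) : bcuMu ι hι v x = 0 := by
  apply Subtype.ext
  ext m
  have h : ∀ l : Module.Dual k C, l (((bcuMu ι hι v x : K') : LaurentSeries C).coeff m) = 0 := by
    intro l
    rw [bcu_coeff ι hι v l x m, hx l]
    simp
  rw [(Module.forall_dual_apply_eq_zero_iff k _).mp h]
  simp

/-! ### The ring `R = C · ι(O_v)` -/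

/-- (P2) `R = C + t R`. -/
theorem bcu_exists_const (hres : Function.Surjective (algebraMap k v.ResidueField))
    {ϖ : v.toValuationSubring} (hϖ : Irreducible ϖ) (x : C ⊗[k] v.toValuationSubring) :
    ∃ (c : C) (y : C ⊗[k] v.toValuationSubring), x = c ⊗ₜ 1 + (1 ⊗ₜ ϖ) * y := by
  induction x using TensorProduct.induction_on with
  | zero => exact ⟨0, 0, by simp⟩
  | tmul c g =>
    obtain ⟨a, ha⟩ := hres (IsLocalRing.residue _ g)
    have h1 : IsLocalRing.residue v.toValuationSubring (g - algebraMap k _ a) = 0 := by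
      rw [map_sub, ← ha]
      exact sub_self _
    rw [IsLocalRing.residue_eq_zero_iff, hϖ.maximalIdeal_eq, Ideal.mem_span_singleton'] at h1
    obtain ⟨h, hh⟩ := h1
    refine ⟨a • c, c ⊗ₜ h, ?_⟩
    have hg : g = a • (1 : v.toValuationSubring) + ϖ * h := by
      rw [Algebra.smul_def, mul_one, mul_comm, hh]; ring
    rw [Algebra.TensorProduct.tmul_mul_tmul, one_mul, TensorProduct.smul_tmul, ← tmul_add, ← hg]
  | add x y hx hy =>
    obtain ⟨c, x', rfl⟩ := hx
    obtain ⟨d, y', rfl⟩ := hy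
    exact ⟨c + d, x' + y', by rw [add_tmul, mul_add]; abel⟩

/-- (P3) `C ∩ t R = 0`. -/
theorem bcu_const_eq_zero {ϖ : v.toValuationSubring} (hϖ : Irreducible ϖ) (c : C)
    (y : C ⊗[k] v.toValuationSubring)
    (h : bcuMu ι hι v (c ⊗ₜ 1) = bcuMu ι hι v ((1 ⊗ₜ ϖ) * y)) : c = 0 := by
  rw [← Module.forall_dual_apply_eq_zero_iff k c]
  intro l
  have h0 : bcuMu ι hι v (c ⊗ₜ 1 - (1 ⊗ₜ ϖ) * y) = 0 := by rw [map_sub, h, sub_self]
  have h1 := bcu_lam_eq_zero ι hι v l _ h0
  rw [map_sub, bcuLam_tmul, bcuLam_mul, sub_eq_zero] at h1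
  by_contra hl
  have hu : IsUnit (l c • (1 : v.toValuationSubring)) := by
    rw [Algebra.smul_def, mul_one]
    exact (IsUnit.mk0 _ hl).map (algebraMap k v.toValuationSubring)
  rw [h1] at hu
  exact hϖ.not_isUnit (isUnit_of_mul_isUnit_left hu)

/-- Krull's intersection theorem in `O_v`. -/
theorem bcu_krull {ϖ : v.toValuationSubring} (hϖ : Irreducible ϖ) (g : v.toValuationSubring)
    (h : ∀ n : ℕ, ∃ y : v.toValuationSubring, g = ϖ ^ n * y) : g = 0 := by
  have hI : (Ideal.span {ϖ} : Ideal v.toValuationSubring) ≠ ⊤ := by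
    rw [← hϖ.maximalIdeal_eq]
    exact (IsLocalRing.maximalIdeal.isMaximal _).ne_top
  have hbot := Ideal.iInf_pow_eq_bot_of_isLocalRing (Ideal.span {ϖ}) hI
  have hmem : g ∈ (⨅ i : ℕ, (Ideal.span {ϖ} : Ideal v.toValuationSubring) ^ i) := by
    rw [Ideal.mem_iInf]
    intro n
    obtain ⟨y, rfl⟩ := h n
    rw [Ideal.span_singleton_pow]
    exact Ideal.mul_mem_right _ _ (Ideal.mem_span_singleton_self _)
  rw [hbot] at hmem
  exact hmem

/-- (P4) `⋂ tⁿ R = 0`. -/
theorem bcu_sep {ϖ : v.toValuationSubring} (hϖ : Irreducible ϖ)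
    (x : C ⊗[k] v.toValuationSubring)
    (h : ∀ n : ℕ, ∃ y : C ⊗[k] v.toValuationSubring,
      bcuMu ι hι v x = bcuMu ι hι v ((1 ⊗ₜ ϖ) ^ n * y)) : bcuMu ι hι v x = 0 := by
  apply bcu_mu_eq_zero
  intro l
  apply bcu_krull v hϖ
  intro n
  obtain ⟨y, hy⟩ := h n
  have h0 : bcuMu ι hι v (x - (1 ⊗ₜ ϖ) ^ n * y) = 0 := by rw [map_sub, hy, sub_self]
  have h1 := bcu_lam_eq_zero ι hι v l _ h0
  rw [map_sub, sub_eq_zero] at h1
  refine ⟨bcuLam v l y, ?_⟩
  rw [h1, Algebra.TensorProduct.tmul_pow, one_pow, bcuLam_mul]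

/-- The ring `R = C · ι(O_v) ⊆ K'`. -/
def bcuR : Subring K' := (bcuMu ι hι v : C ⊗[k] v.toValuationSubring →+* K').range

theorem bcu_mem_R {r : K'} : r ∈ bcuR ι hι v ↔ ∃ x, bcuMu ι hι v x = r := Iff.rfl

theorem bcu_algebraMap_mem_R (c : C) : algebraMap C K' c ∈ bcuR ι hι v :=
  ⟨c ⊗ₜ 1, by rw [RingHom.coe_coe, bcuMu_tmul]; simp⟩

theorem bcu_iota_mem_R (g : v.toValuationSubring) : ι (g : K) ∈ bcuR ι hι v :=
  ⟨1 ⊗ₜ g, by rw [RingHom.coe_coe, bcuMu_tmul]; simp⟩

theorem bcu_mu_one_tmul (g : v.toValuationSubring) : bcuMu ι hι v (1 ⊗ₜ g) = ι (g : K) := by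
  rw [bcuMu_tmul]; simp

theorem bcu_mu_tmul_one (c : C) : bcuMu ι hι v (c ⊗ₜ 1) = algebraMap C K' c := by
  rw [bcuMu_tmul]; simp

/-- `K' = Frac R`. -/
theorem bcu_frac
    (hgen : ∀ y : K', y ∈ Subfield.closure (Set.range (algebraMap C K') ∪ Set.range ι))
    (x : K') : ∃ r ∈ bcuR ι hι v, ∃ s ∈ bcuR ι hι v, s ≠ 0 ∧ x * s = r := by
  have hle : Subfield.closure (Set.range (algebraMap C K') ∪ Set.range ι) ≤
      Subfield.closure (bcuR ι hι v : Set K') := by
    rw [Subfield.closure_le]
    rintro y (⟨c, rfl⟩ | ⟨f, rfl⟩)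
    · exact Subfield.subset_closure (bcu_algebraMap_mem_R ι hι v c)
    · rcases v.toValuationSubring.mem_or_inv_mem f with hf | hf
      · exact Subfield.subset_closure (bcu_iota_mem_R ι hι v ⟨f, hf⟩)
      · have h1 : ι f⁻¹ ∈ Subfield.closure (bcuR ι hι v : Set K') :=
          Subfield.subset_closure (bcu_iota_mem_R ι hι v ⟨f⁻¹, hf⟩)
        have h2 := inv_mem h1
        rwa [map_inv₀, inv_inv] at h2
  have hx := hle (hgen x)
  rw [Subfield.mem_closure_iff, Subring.closure_eq] at hx
  obtain ⟨y, hy, z, hz, rfl⟩ := hx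
  rcases eq_or_ne z 0 with rfl | hz0
  · exact ⟨0, Subring.zero_mem _, 1, Subring.one_mem _, one_ne_zero, by simp⟩
  · exact ⟨y, hy, z, hz, hz0, by field_simp⟩

theorem bcu_primeData (hres : Function.Surjective (algebraMap k v.ResidueField))
    (hgen : ∀ y : K', y ∈ Subfield.closure (Set.range (algebraMap C K') ∪ Set.range ι))
    {ϖ : v.toValuationSubring} (hϖ : Irreducible ϖ) :
    BcuPrimeData (bcuR ι hι v) (ι (ϖ : K)) := by
  have hmul : ∀ y, ι (ϖ : K) * bcuMu ι hι v y = bcuMu ι hι v ((1 ⊗ₜ ϖ) * y) := fun y => by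
    rw [map_mul, bcu_mu_one_tmul]
  have hdvd : ∀ c : C, BcuDvd (bcuR ι hι v) (ι (ϖ : K)) (algebraMap C K' c) → c = 0 := by
    rintro c ⟨r, ⟨y, rfl⟩, hc⟩
    refine bcu_const_eq_zero ι hι v hϖ c y ?_
    rw [bcu_mu_tmul_one, hc, RingHom.coe_coe, hmul]
  refine ⟨bcu_iota_mem_R ι hι v ϖ, ?_, ?_, ?_, ?_, bcu_frac ι hι v hgen⟩
  · rw [Ne, map_eq_zero_iff ι ι.injective]
    exact fun h0 => hϖ.ne_zero (Subtype.ext h0)
  · rintro a ⟨x, rfl⟩ b ⟨y, rfl⟩ hab
    obtain ⟨c, x', rfl⟩ := bcu_exists_const v hres hϖ x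
    obtain ⟨d, y', rfl⟩ := bcu_exists_const v hres hϖ y
    obtain ⟨e, ⟨z, rfl⟩, he⟩ := hab
    simp only [RingHom.coe_coe, map_add, map_mul, bcu_mu_tmul_one, bcu_mu_one_tmul] at he ⊢
    have hcd : c * d = 0 := by
      apply hdvd
      refine ⟨bcuMu ι hι v z - algebraMap C K' c * bcuMu ι hι v y' -
        algebraMap C K' d * bcuMu ι hι v x' -
        ι (ϖ : K) * (bcuMu ι hι v x' * bcuMu ι hι v y'), ?_, ?_⟩
      · refine Subring.sub_mem _ (Subring.sub_mem _ (Subring.sub_mem _ ⟨z, rfl⟩
          (Subring.mul_mem _ (bcu_algebraMap_mem_R ι hι v c) ⟨y', rfl⟩))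
          (Subring.mul_mem _ (bcu_algebraMap_mem_R ι hι v d) ⟨x', rfl⟩))
          (Subring.mul_mem _ (bcu_iota_mem_R ι hι v ϖ) (Subring.mul_mem _ ⟨x', rfl⟩ ⟨y', rfl⟩))
      · rw [map_mul]
        linear_combination he
    rcases mul_eq_zero.mp hcd with rfl | rfl
    · left
      exact ⟨bcuMu ι hι v x', ⟨x', rfl⟩, by simp⟩
    · right
      exact ⟨bcuMu ι hι v y', ⟨y', rfl⟩, by simp⟩
  · intro h1
    have := hdvd 1 (by simpa using h1)
    exact one_ne_zero this
  · rintro r ⟨x, rfl⟩ hn
    refine bcu_sep ι hι v hϖ x fun n => ?_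
    obtain ⟨c, ⟨y, rfl⟩, hc⟩ := hn n
    refine ⟨y, ?_⟩
    rw [map_mul, map_pow, bcu_mu_one_tmul]
    exact hc

include hι in
/-- **BCu, generic form.**  A place `v` of `K / k` with residue field `k` extends to a place `w`
of `K' = C · ι K` over `C` with the same orders (`e = 1`). -/
theorem bcu_exists_place_extends
    (hres : Function.Surjective (algebraMap k v.ResidueField))
    (hgen : ∀ y : K', y ∈ Subfield.closure (Set.range (algebraMap C K') ∪ Set.range ι)) :
    ∃ w : Place C K', ∀ f : K, w.ord (ι f) = v.ord f := by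
  classical
  obtain ⟨ϖ, hϖ⟩ := IsDiscreteValuationRing.exists_irreducible v.toValuationSubring
  have hD := bcu_primeData ι hι v hres hgen hϖ
  let w : Place C K' :=
    { toValuationSubring := hD.valuationSubring
      algebraMap_mem' := fun c => hD.le_valuationSubring (bcu_algebraMap_mem_R ι hι v c)
      ne_top' := hD.valuationSubring_ne_top
      isPrincipalIdealRing' := hD.isPrincipalIdealRing }
  refine ⟨w, fun f => ?_⟩
  rcases eq_or_ne f 0 with rfl | hf
  · simp
  obtain ⟨u, hu⟩ := v.exists_unit_mul_zpow hf hϖ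
  have hmem : ∀ g : v.toValuationSubring, ι (g : K) ∈ w.toValuationSubring := fun g =>
    hD.le_valuationSubring (bcu_iota_mem_R ι hι v g)
  let U : (w.toValuationSubring)ˣ :=
    { val := ⟨ι ((u : v.toValuationSubring) : K), hmem _⟩
      inv := ⟨ι (((u⁻¹ : (v.toValuationSubring)ˣ) : v.toValuationSubring) : K), hmem _⟩
      val_inv := by
        apply Subtype.ext
        show ι _ * ι _ = 1
        rw [← map_mul, ← MulMemClass.coe_mul, Units.mul_inv]
        simp
      inv_val := by
        apply Subtype.ext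
        show ι _ * ι _ = 1
        rw [← map_mul, ← MulMemClass.coe_mul, Units.inv_mul]
        simp }
  have hirr : Irreducible (⟨ι (ϖ : K), hmem ϖ⟩ : w.toValuationSubring) := hD.irreducible_t
  have key := w.ord_unit_smul_zpow U hirr (v.ord f)
  have hιf : ι f = ((U : w.toValuationSubring) : K') *
      (((⟨ι (ϖ : K), hmem ϖ⟩ : w.toValuationSubring) : K') ^ (v.ord f)) := by
    conv_lhs => rw [hu]
    rw [map_mul, map_zpow₀]
  rw [hιf]
  exact key

end Core

end Fermat.Agent.ES
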