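import Mathlib
import Fermat.Agent.ES.BaseChangeUpCore
import Fermat.Agent.ES.IotaC
import Fermat.Agent.ES.HModular

/-!
# ESpkg-G1, piece BCu: places of `K_ℚ̄` extend to places of `K_ℂ` with the same orders

`K_ℚ̄ = modularFunctionFieldBar M ⊂ ℚ̄((q))`, `K_ℂ = modularFunctionFieldFullC ℂ M ⊂ ℂ((q))`,
`ι = iotaC M : K_ℚ̄ → K_ℂ` the coefficientwise embedding (`ES/IotaC.lean`).

* `baseChangeUp` : for every place `v` of `K_ℚ̄ / ℚ̄` there is a place `w` of `K_ℂ / ℂ` with
  `w.ord (ι f) = v.ord f` for all `f` (ramification index `1`).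
* `baseChangeUp_dvd` : consequently, `n ∣ w.ord (ι u)` for all places `w` of `K_ℂ` implies
  `n ∣ v.ord u` for all places `v` of `K_ℚ̄`.

Generic proof: `ES/BaseChangeUpCore.lean` (linear disjointness of `ℂ` and `K_ℚ̄` over `ℚ̄`,
residue field `ℚ̄`) and `ES/BaseChangeUpDvr.lean`.
-/

set_option autoImplicit false

noncomputable section

namespace Fermat.Agent.ES

open AlgebraicCurve ModularCurve IntermediateField Fermat.Agent.S24

attribute [local instance] algKbC

variable (M : ℕ) [NeZero M]

/-- `K_ℂ` is generated, as a field, by `ℂ` and `ι K_ℚ̄`. -/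
theorem iotaC_generates (y : modularFunctionFieldFullC ℂ M) :
    y ∈ Subfield.closure
      (Set.range (algebraMap ℂ (modularFunctionFieldFullC ℂ M)) ∪ Set.range (iotaC M)) := by
  set S : Subfield (LaurentSeries ℂ) := (Subfield.closure
    (Set.range (algebraMap ℂ (modularFunctionFieldFullC ℂ M)) ∪ Set.range (iotaC M))).map
      (modularFunctionFieldFullC ℂ M).val.toRingHom with hS
  have key : ∀ x : LaurentSeries ℂ, x ∈ modularFunctionFieldFullC ℂ M → x ∈ S := by
    intro x hx
    unfold modularFunctionFieldFullC at hx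
    induction hx using IntermediateField.adjoin_induction with
    | mem x hx =>
      obtain ⟨d, hne, hd, rfl⟩ := hx
      have h1 : qExpand Kb d (jqModC Kb) ∈ modularFunctionFieldBar M := by
        show qExpand Kb d (jqModC Kb) ∈ laurentBaseChange Kb (modularFunctionFieldFull M)
        rw [Fermat.Agent.ES.G2.hdeg_laurentBaseChange_full Kb M]
        exact jqModCd_mem_full Kb M hd
      have h2 : ((iotaC M ⟨_, h1⟩ : modularFunctionFieldFullC ℂ M) : LaurentSeries ℂ) =
          qExpand ℂ d (jqModC ℂ) := by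
        rw [iotaC_coe, coeffMap_qExpand, coeffMap_jqModC]
      rw [hS, Subfield.mem_map]
      exact ⟨iotaC M ⟨_, h1⟩, Subfield.subset_closure (Or.inr ⟨_, rfl⟩), h2⟩
    | algebraMap c =>
      rw [hS, Subfield.mem_map]
      exact ⟨algebraMap ℂ (modularFunctionFieldFullC ℂ M) c,
        Subfield.subset_closure (Or.inl ⟨c, rfl⟩), rfl⟩
    | add x y _ _ ihx ihy => exact S.add_mem ihx ihy
    | inv x _ ih => exact S.inv_mem ih
    | mul x y _ _ ihx ihy => exact S.mul_mem ihx ihy
  have hy := key y y.2
  rw [hS, Subfield.mem_map] at hy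
  obtain ⟨z, hz, hzy⟩ := hy
  have : z = y := Subtype.ext hzy
  rwa [this] at hz

/-- **BCu**: every place of `K_ℚ̄` extends to a place of `K_ℂ` with the same orders. -/
theorem baseChangeUp (v : Place Kb (modularFunctionFieldBar M)) :
    ∃ w : Place ℂ (modularFunctionFieldFullC ℂ M),
      ∀ f : modularFunctionFieldBar M, w.ord (iotaC M f) = v.ord f :=
  bcu_exists_place_extends (iotaC M) (fun _ => rfl) v
    (Fermat.Agent.ES.H.residue_bijective_FF M v).surjective (iotaC_generates M)

/-- Divisibility of orders descends from `K_ℂ` to `K_ℚ̄`. -/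
theorem baseChangeUp_dvd (n : ℤ) (u : modularFunctionFieldBar M)
    (h : ∀ w : Place ℂ (modularFunctionFieldFullC ℂ M), n ∣ w.ord (iotaC M u))
    (v : Place Kb (modularFunctionFieldBar M)) : n ∣ v.ord u := by
  obtain ⟨w, hw⟩ := baseChangeUp M v
  rw [← hw u]
  exact h w

end Fermat.Agent.ES
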