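/-
ES package: the bridge from the `p`-adic package to the mod-`p` package, `V := J[p]`.
(Owner: helper59.)
-/
import Fermat.Agent.ES.PackageInf

set_option autoImplicit false
set_option linter.style.haveILetI false
set_option linter.unusedSectionVars false

namespace Fermat.Agent.ES

open ModularCurve

section Bridge

variable (p : ℕ) (J : Type) [AddCommGroup J] [Module HeckeAlg J] [DistribMulAction GQ J]

/-- the `p`-torsion of `J`, as a Hecke submodule -/
def pTorsion : Submodule HeckeAlg J where
  carrier := {x | p • x = 0}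
  zero_mem' := smul_zero _
  add_mem' := by
    intro a b ha hb
    show p • (a + b) = 0
    rw [smul_add, ha, hb, add_zero]
  smul_mem' := by
    intro t x hx
    show p • (t • x) = 0
    rw [smul_comm, hx, smul_zero]

variable {p J}

lemma mem_pTorsion {x : J} : x ∈ pTorsion p J ↔ p • x = 0 := Iff.rfl

lemma galois_smul_mem_pTorsion (σ : GQ) {x : J} (hx : x ∈ pTorsion p J) :
    σ • x ∈ pTorsion p J := by
  show p • (σ • x) = 0
  have h : σ • (p • x) = p • (σ • x) := map_nsmul (DistribSMul.toAddMonoidHom J σ) p x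
  rw [← h, hx, smul_zero]

variable (p J)

/-- the Galois action on `J[p]` -/
@[reducible] noncomputable def pTorsionGalois : DistribMulAction GQ (pTorsion p J) where
  smul σ x := ⟨σ • (x : J), galois_smul_mem_pTorsion σ x.2⟩
  one_smul x := Subtype.ext (one_smul GQ (x : J))
  mul_smul σ τ x := Subtype.ext (mul_smul σ τ (x : J))
  smul_zero σ := Subtype.ext (smul_zero σ)
  smul_add σ x y := Subtype.ext (smul_add σ (x : J) (y : J))

variable {p J}

lemma isPPowerTorsion_of_mem {x : J} (hx : x ∈ pTorsion p J) : IsPPowerTorsion p x :=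
  ⟨1, by rw [pow_one]; exact hx⟩

end Bridge

/-- **Bridge**: the `p`-adic Eichler–Shimura package gives the mod-`p` package (`V := J[p]`). -/
theorem stmtBridge : StmtBridge := by
  rintro M p ⟨J, instA, instM, instG, hJ⟩
  letI : DistribMulAction GQ (pTorsion p J) := pTorsionGalois p J
  have hcoe : ∀ (σ : GQ) (x : pTorsion p J), ((σ • x : pTorsion p J) : J) = σ • (x : J) :=
    fun _ _ => rfl
  refine ⟨pTorsion p J, inferInstance, inferInstance, pTorsionGalois p J, ?_⟩
  refine
    { finite := ?_
      p_torsion := ?_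
      smul_comm := ?_
      finite_level := ?_
      frob := ?_
      unram := ?_
      supp := ?_ }
  · have h := hJ.finite 1
    simp only [pow_one] at h
    exact h.to_subtype
  · intro v
    exact Subtype.ext v.2
  · intro σ t v
    exact Subtype.ext (hJ.smul_comm σ t (v : J))
  · intro v
    obtain ⟨E, hE, h⟩ := hJ.finite_level (v : J) (isPPowerTorsion_of_mem v.2)
    exact ⟨E, hE, fun σ hσ => Subtype.ext (h σ hσ)⟩
  · intro ℓ hℓ hℓM A hA τ hτ v
    apply Subtype.ext
    have := hJ.frob ℓ hℓ hℓM A hA τ hτ (v : J) (isPPowerTorsion_of_mem v.2)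
    exact this
  · intro ℓ hℓ hℓM A hA σ hσ v
    exact Subtype.ext (hJ.unram ℓ hℓ hℓM A hA σ hσ (v : J) (isPPowerTorsion_of_mem v.2))
  · intro g hg 𝔪 h𝔪 hp
    obtain ⟨v, hv0, hpv, hv⟩ := hJ.supp g hg 𝔪 h𝔪 hp
    refine ⟨⟨v, hpv⟩, fun h => hv0 (congrArg Subtype.val h), fun t ht hz => ?_⟩
    exact Subtype.ext (hv t ht hz)

end Fermat.Agent.ES
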