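import Mathlib

/-!
# ESpkg-G1, piece A1: `p`-th roots of holomorphic functions on the upper half plane

If `F` is holomorphic on `ℍ`, not identically zero, and the order of vanishing of `F` at every point
is divisible by `p`, then `F = a ^ p` for a holomorphic `a` on `ℍ` (`exists_mdiff_pow_eq`).
Quotient form `exists_mdiff_pow_eq_div` and rigidity `exists_root_of_unity_of_pow_eq`.

No monodromy: `ℍ` is a union of balls with closure in `ℍ` through a base point; on a closed ball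
zeros are removed by `MeromorphicOn.extract_zeros_poles`, the zero-free part has a continuous root by
`Complex.exists_continuousOn_pow_eq`, a continuous root of a holomorphic function is holomorphic,
and two normalised roots on two balls agree on the (convex) intersection.
-/

set_option autoImplicit false

noncomputable section

open Metric Set Filter Topology

namespace Fermat.Agent.ES

/-! ### Roots of unity are isolated -/

theorem pthRoot_finite_roots {p : ℕ} (hp : p ≠ 0) : {ζ : ℂ | ζ ^ p = 1}.Finite := by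
  have : {ζ : ℂ | ζ ^ p = 1} = ↑(Polynomial.nthRootsFinset p (1 : ℂ)) := by
    ext ζ
    simp [Polynomial.mem_nthRootsFinset (Nat.pos_of_ne_zero hp)]
  rw [this]
  exact Finset.finite_toSet _

theorem pthRoot_eventually_eq_one {p : ℕ} (hp : p ≠ 0) :
    ∀ᶠ ζ : ℂ in 𝓝 1, ζ ^ p = 1 → ζ = 1 := by
  have hS : ({ζ : ℂ | ζ ^ p = 1} \ {1}).Finite := (pthRoot_finite_roots hp).subset Set.sdiff_subset
  have hopen : IsOpen ({ζ : ℂ | ζ ^ p = 1} \ {1})ᶜ := hS.isClosed.isOpen_compl
  filter_upwards [hopen.mem_nhds (by simp)] with ζ hζ h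
  by_contra hne
  exact hζ ⟨h, hne⟩

/-- If `ρ` is continuous at `z`, `ρ z = 1` and `ρ ^ p = 1` near `z`, then `ρ = 1` near `z`. -/
theorem pthRoot_eventually_one_of_continuousAt {p : ℕ} (hp : p ≠ 0) {ρ : ℂ → ℂ} {z : ℂ}
    (hρ : ContinuousAt ρ z) (h1 : ρ z = 1) (hpow : ∀ᶠ w in 𝓝 z, ρ w ^ p = 1) :
    ∀ᶠ w in 𝓝 z, ρ w = 1 := by
  have h := hρ.eventually (by rw [h1]; exact pthRoot_eventually_eq_one hp)
  filter_upwards [h, hpow] with w hw hw' using hw hw'

/-! ### Local branches -/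

/-- A local holomorphic `p`-th root with prescribed value at a point where `F ≠ 0`. -/
theorem pthRoot_local {p : ℕ} (hp : p ≠ 0) {F : ℂ → ℂ} {z c : ℂ} (hF : DifferentiableAt ℂ F z)
    (hz : F z ≠ 0) (hc : c ^ p = F z) :
    ∃ h : ℂ → ℂ, DifferentiableAt ℂ h z ∧ h z = c ∧ ∀ᶠ w in 𝓝 z, h w ^ p = F w ∧ h w ≠ 0 := by
  refine ⟨fun w => c * Complex.exp (Complex.log (F w / F z) / p), ?_, ?_, ?_⟩
  · have h1 : DifferentiableAt ℂ (fun w => F w / F z) z := hF.div_const _
    have h2 : DifferentiableAt ℂ (fun w => Complex.log (F w / F z)) z := by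
      refine h1.clog ?_
      simp [div_self hz]
    exact (h2.div_const _).cexp.const_mul c
  · simp [div_self hz]
  · have hcont : ContinuousAt F z := hF.continuousAt
    have hne : ∀ᶠ w in 𝓝 z, F w ≠ 0 := hcont.eventually_ne hz
    have hc0 : c ≠ 0 := by
      rintro rfl
      rw [zero_pow hp] at hc
      exact hz hc.symm
    filter_upwards [hne] with w hw
    refine ⟨?_, mul_ne_zero hc0 (Complex.exp_ne_zero _)⟩
    have hp' : (p : ℂ) ≠ 0 := by exact_mod_cast hp
    rw [mul_pow, ← Complex.exp_nat_mul, mul_div_cancel₀ _ hp', Complex.exp_log (div_ne_zero hw hz), hc]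
    field_simp

/-- A continuous `p`-th root of a holomorphic function is holomorphic at the points where it does
not vanish. -/
theorem pthRoot_differentiableAt {p : ℕ} (hp : p ≠ 0) {a F : ℂ → ℂ} {z : ℂ}
    (ha : ContinuousAt a z) (hF : DifferentiableAt ℂ F z) (hz : F z ≠ 0)
    (hpow : ∀ᶠ w in 𝓝 z, a w ^ p = F w) : DifferentiableAt ℂ a z := by
  obtain ⟨h, hh, hhz, hhev⟩ := pthRoot_local hp hF hz hpow.self_of_nhds
  have haz : a z ≠ 0 := by
    intro h0
    have := hpow.self_of_nhds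
    rw [h0, zero_pow hp] at this
    exact hz this.symm
  have hρ : ContinuousAt (fun w => a w / h w) z :=
    ha.div hh.continuousAt (by rw [hhz]; exact haz)
  have h1 : (fun w => a w / h w) z = 1 := by simp [hhz, div_self haz]
  have hpow' : ∀ᶠ w in 𝓝 z, (fun w => a w / h w) w ^ p = 1 := by
    filter_upwards [hpow, hhev] with w hw hw'
    simp only [div_pow, hw, hw'.1]
    have : F w ≠ 0 := by rw [← hw'.1]; exact pow_ne_zero _ hw'.2
    exact div_self this
  have hev := pthRoot_eventually_one_of_continuousAt hp hρ h1 hpow'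
  have hEq : a =ᶠ[𝓝 z] h := by
    filter_upwards [hev, hhev] with w hw hw'
    have := (div_eq_one_iff_eq hw'.2).mp hw
    exact this
  exact hh.congr_of_eventuallyEq hEq

/-- A continuous `p`-th root of a holomorphic function with isolated zeros is holomorphic. -/
theorem pthRoot_differentiableOn {p : ℕ} (hp : p ≠ 0) {a F : ℂ → ℂ} {V : Set ℂ} (hV : IsOpen V)
    (ha : ContinuousOn a V) (hF : DifferentiableOn ℂ F V) (hpow : ∀ z ∈ V, a z ^ p = F z)
    (hiso : ∀ z ∈ V, ∀ᶠ w in 𝓝[≠] z, F w ≠ 0) : DifferentiableOn ℂ a V := by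
  -- differentiability at the points where `F ≠ 0`
  have key : ∀ z ∈ V, F z ≠ 0 → DifferentiableAt ℂ a z := by
    intro z hz hFz
    refine pthRoot_differentiableAt hp (ha.continuousAt (hV.mem_nhds hz))
      (hF.differentiableAt (hV.mem_nhds hz)) hFz ?_
    filter_upwards [hV.mem_nhds hz] with w hw using hpow w hw
  intro z hz
  by_cases hFz : F z ≠ 0
  · exact (key z hz hFz).differentiableWithinAt
  · -- isolated zero: removable singularity
    have h1 : ∀ᶠ w in 𝓝[≠] z, F w ≠ 0 := hiso z hz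
    rw [eventually_nhdsWithin_iff] at h1
    obtain ⟨W, hW, hWo, hzW⟩ := _root_.eventually_nhds_iff.mp
      (h1.and (hV.mem_nhds hz))
    have hd : DifferentiableOn ℂ a (W \ {z}) := by
      intro w hw
      have hwW := hW w hw.1
      exact (key w hwW.2 (hwW.1 hw.2)).differentiableWithinAt
    have hc : ContinuousAt a z := ha.continuousAt (hV.mem_nhds hz)
    have := (Complex.differentiableOn_compl_singleton_and_continuousAt_iff
      (hWo.mem_nhds hzW)).mp ⟨hd, hc⟩
    exact (this.differentiableAt (hWo.mem_nhds hzW)).differentiableWithinAt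

/-! ### Rigidity -/

/-- Two holomorphic functions with the same `p`-th power on a connected open set, which agree and
do not vanish at one point, are equal. -/
theorem pthRoot_eqOn {p : ℕ} (hp : p ≠ 0) {a b : ℂ → ℂ} {V : Set ℂ} (hV : IsOpen V)
    (hVc : IsPreconnected V) (ha : DifferentiableOn ℂ a V) (hb : DifferentiableOn ℂ b V)
    (hpow : ∀ z ∈ V, a z ^ p = b z ^ p) {z₀ : ℂ} (hz₀ : z₀ ∈ V) (h0 : a z₀ = b z₀)
    (hb0 : b z₀ ≠ 0) : EqOn a b V := by
  have hac : ContinuousAt a z₀ := (ha.differentiableAt (hV.mem_nhds hz₀)).continuousAt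
  have hbc : ContinuousAt b z₀ := (hb.differentiableAt (hV.mem_nhds hz₀)).continuousAt
  have hbne : ∀ᶠ w in 𝓝 z₀, b w ≠ 0 := hbc.eventually_ne hb0
  have hρ : ContinuousAt (fun w => a w / b w) z₀ := hac.div hbc hb0
  have h1 : (fun w => a w / b w) z₀ = 1 := by simp [h0, div_self hb0]
  have hpow' : ∀ᶠ w in 𝓝 z₀, (fun w => a w / b w) w ^ p = 1 := by
    filter_upwards [hbne, hV.mem_nhds hz₀] with w hw hwV
    simp only [div_pow, hpow w hwV]
    exact div_self (pow_ne_zero _ hw)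
  have hev := pthRoot_eventually_one_of_continuousAt hp hρ h1 hpow'
  have hEq : a =ᶠ[𝓝 z₀] b := by
    filter_upwards [hev, hbne] with w hw hw'
    exact (div_eq_one_iff_eq hw').mp hw
  exact (ha.analyticOnNhd hV).eqOn_of_preconnected_of_eventuallyEq (hb.analyticOnNhd hV) hVc hz₀ hEq

/-! ### Existence on a ball -/

theorem pthRoot_isSimplyConnected_ball (c : ℂ) {r : ℝ} (hr : 0 < r) :
    IsSimplyConnected (ball c r) := by
  have := (convex_ball c r).contractibleSpace ⟨c, mem_ball_self hr⟩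
  exact SimplyConnectedSpace.ofContractible _

/-- On a closed ball on which `F` is analytic with all orders finite multiples of `p`, `F` has a
holomorphic `p`-th root on the open ball. -/
theorem pthRoot_exists_on_ball {p : ℕ} (hp : p ≠ 0) {F : ℂ → ℂ} {c : ℂ} {r : ℝ} (hr : 0 < r)
    (hF : AnalyticOnNhd ℂ F (closedBall c r))
    (hord : ∀ z ∈ closedBall c r, ∃ k : ℕ, analyticOrderAt F z = ((p * k : ℕ) : ℕ∞)) :
    ∃ a : ℂ → ℂ, DifferentiableOn ℂ a (ball c r) ∧ ∀ z ∈ ball c r, a z ^ p = F z := by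
  classical
  have hmero : MeromorphicOn F (closedBall c r) := hF.meromorphicOn
  have hordm : ∀ z ∈ closedBall c r, ∃ k : ℕ,
      meromorphicOrderAt F z = (((p * k : ℕ) : ℤ) : WithTop ℤ) := by
    intro z hz
    obtain ⟨k, hk⟩ := hord z hz
    refine ⟨k, ?_⟩
    rw [(hF z hz).meromorphicOrderAt_eq, hk]
    rfl
  have hfin : (MeromorphicOn.divisor F (closedBall c r)).support.Finite :=
    (MeromorphicOn.divisor F (closedBall c r)).finiteSupport (isCompact_closedBall c r)
  obtain ⟨g, hg, hg0, hFg⟩ := hmero.extract_zeros_poles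
    (fun u => by obtain ⟨k, hk⟩ := hordm u u.2; rw [hk]; exact WithTop.coe_ne_top) hfin
  -- exponents divided by `p`
  have hDe : ∀ u, ∃ k : ℕ, MeromorphicOn.divisor F (closedBall c r) u = ((p * k : ℕ) : ℤ) := by
    intro u
    by_cases hu : u ∈ closedBall c r
    · obtain ⟨k, hk⟩ := hordm u hu
      refine ⟨k, ?_⟩
      rw [MeromorphicOn.divisor_apply hmero hu, hk]
      rfl
    · refine ⟨0, ?_⟩
      simpa using Function.locallyFinsuppWithin.apply_eq_zero_of_notMem _ hu
  choose e he using hDe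
  -- the polynomial part
  have hsupp : Function.mulSupport (fun u : ℂ => (fun z : ℂ => (z - u) ^ e u)) ⊆
      (MeromorphicOn.divisor F (closedBall c r)).support := by
    intro u hu
    rw [Function.mem_mulSupport] at hu
    rw [Function.mem_support, he u]
    intro h0
    apply hu
    have : e u = 0 := by
      have : p * e u = 0 := by exact_mod_cast h0
      rcases Nat.mul_eq_zero.mp this with h | h
      · exact absurd h hp
      · exact h
    funext z
    simp [this]
  have hψfin : Function.HasFiniteMulSupport (fun u : ℂ => (fun z : ℂ => (z - u) ^ e u)) :=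
    hfin.subset hsupp
  set ψ : ℂ → ℂ := ∏ᶠ u : ℂ, (fun z : ℂ => (z - u) ^ e u) with hψ
  have hψd : Differentiable ℂ ψ := by
    rw [hψ, finprod_eq_prod _ hψfin]
    refine Differentiable.finsetProd fun u _ => ?_
    fun_prop
  have hψpow : ψ ^ p = ∏ᶠ u, (fun x : ℂ => x - u) ^ MeromorphicOn.divisor F (closedBall c r) u := by
    rw [hψ, finprod_pow hψfin]
    congr 1
    funext u
    funext z
    simp only [Pi.pow_apply, he u]
    rw [zpow_natCast, pow_mul, ← pow_mul, mul_comm, pow_mul]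
  -- the root of the unit part
  have hgc : ContinuousOn g (ball c r) := (hg.mono ball_subset_closedBall).continuousOn
  have hg0' : (0 : ℂ) ∉ g '' ball c r := by
    rintro ⟨z, hz, h0⟩
    exact hg0 ⟨z, ball_subset_closedBall hz⟩ h0
  obtain ⟨b, hbc, hb⟩ := Complex.exists_continuousOn_pow_eq
    (pthRoot_isSimplyConnected_ball c hr) isOpen_ball hgc hg0' hp
  have hbd : DifferentiableOn ℂ b (ball c r) := by
    intro z hz
    refine (pthRoot_differentiableAt hp (hbc.continuousAt (isOpen_ball.mem_nhds hz))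
      ((hg z (ball_subset_closedBall hz)).differentiableAt)
      (hg0 ⟨z, ball_subset_closedBall hz⟩) ?_).differentiableWithinAt
    exact Eventually.of_forall hb
  refine ⟨ψ * b, hψd.differentiableOn.mul hbd, ?_⟩
  intro z hz
  -- equality on a codiscrete set upgrades to equality everywhere by continuity
  rw [← hψpow] at hFg
  have hmem : {x | F x = ((ψ ^ p) • g) x} ∈ codiscreteWithin (closedBall c r) := hFg
  rw [mem_codiscreteWithin] at hmem
  have hdisj := hmem z (ball_subset_closedBall hz)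
  have hev : ∀ᶠ w in 𝓝[≠] z, F w = ((ψ ^ p) • g) w := by
    have h1 : ∀ᶠ w in 𝓝[≠] z, w ∉ closedBall c r \ {x | F x = ((ψ ^ p) • g) x} := by
      rw [Filter.disjoint_principal_right] at hdisj
      exact hdisj
    have h2 : ∀ᶠ w in 𝓝[≠] z, w ∈ closedBall c r :=
      mem_nhdsWithin_of_mem_nhds
        (Filter.mem_of_superset (isOpen_ball.mem_nhds hz) ball_subset_closedBall)
    filter_upwards [h1, h2] with w hw1 hw2
    by_contra h
    exact hw1 ⟨hw2, h⟩
  have hFc : ContinuousAt F z := (hF z (ball_subset_closedBall hz)).continuousAt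
  have hGc : ContinuousAt ((ψ ^ p) • g) z :=
    ((hψd.pow p).continuous.continuousAt).smul (hg z (ball_subset_closedBall hz)).continuousAt
  have hEq := tendsto_nhds_unique_of_eventuallyEq (hFc.tendsto.mono_left nhdsWithin_le_nhds)
    (hGc.tendsto.mono_left nhdsWithin_le_nhds) hev
  rw [hEq]
  simp [mul_pow, hb]

/-! ### Balls in the upper half plane -/

/-- Two points of the upper half plane lie in an open ball whose closure is contained in the upper
half plane. -/
theorem pthRoot_exists_ball {z w : ℂ} (hz : 0 < z.im) (hw : 0 < w.im) :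
    ∃ (c : ℂ) (r : ℝ), 0 < r ∧ closedBall c r ⊆ {u : ℂ | 0 < u.im} ∧
      z ∈ ball c r ∧ w ∈ ball c r := by
  set ε : ℝ := min z.im w.im / 2 with hε
  have hε0 : 0 < ε := by
    have : 0 < min z.im w.im := lt_min hz hw
    positivity
  have hεz : 2 * ε ≤ z.im := by
    have := min_le_left z.im w.im
    rw [hε]; linarith
  have hεw : 2 * ε ≤ w.im := by
    have := min_le_right z.im w.im
    rw [hε]; linarith
  set R : ℝ := ‖z‖ ^ 2 / z.im + ‖w‖ ^ 2 / w.im + 1 + ε with hR
  have hz1 : 0 ≤ ‖z‖ ^ 2 / z.im := by positivity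
  have hw1 : 0 ≤ ‖w‖ ^ 2 / w.im := by positivity
  have hRε : 0 < R - ε := by rw [hR]; linarith
  have hR0 : 0 < R := by linarith
  have hRz : ‖z‖ ^ 2 < R * z.im := by
    have h1 : ‖z‖ ^ 2 / z.im * z.im = ‖z‖ ^ 2 := div_mul_cancel₀ _ hz.ne'
    have h2 : (‖z‖ ^ 2 / z.im + 1) * z.im ≤ R * z.im :=
      mul_le_mul_of_nonneg_right (by rw [hR]; linarith) hz.le
    nlinarith
  have hRw : ‖w‖ ^ 2 < R * w.im := by
    have h1 : ‖w‖ ^ 2 / w.im * w.im = ‖w‖ ^ 2 := div_mul_cancel₀ _ hw.ne'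
    have h2 : (‖w‖ ^ 2 / w.im + 1) * w.im ≤ R * w.im :=
      mul_le_mul_of_nonneg_right (by rw [hR]; linarith) hw.le
    nlinarith
  have key : ∀ u : ℂ, 2 * ε ≤ u.im → ‖u‖ ^ 2 < R * u.im → u ∈ ball ((R : ℂ) * Complex.I) (R - ε) := by
    intro u hu1 hu2
    rw [mem_ball, dist_eq_norm]
    have hsq : ‖u - (R : ℂ) * Complex.I‖ ^ 2 < (R - ε) ^ 2 := by
      rw [Complex.sq_norm, Complex.normSq_apply]
      rw [Complex.sq_norm, Complex.normSq_apply] at hu2
      simp only [Complex.sub_re, Complex.sub_im, Complex.mul_re, Complex.mul_im, Complex.ofReal_re,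
        Complex.ofReal_im, Complex.I_re, Complex.I_im, mul_zero, mul_one, sub_zero, add_zero]
      have h3 : 2 * ε * R ≤ u.im * R := mul_le_mul_of_nonneg_right hu1 hR0.le
      nlinarith
    exact lt_of_pow_lt_pow_left₀ 2 hRε.le hsq
  refine ⟨(R : ℂ) * Complex.I, R - ε, hRε, ?_, key z hεz hRz, key w hεw hRw⟩
  intro u hu
  rw [mem_closedBall, dist_eq_norm] at hu
  have h1 : |(u - (R : ℂ) * Complex.I).im| ≤ ‖u - (R : ℂ) * Complex.I‖ := Complex.abs_im_le_norm _
  have h2 : (u - (R : ℂ) * Complex.I).im = u.im - R := by simp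
  rw [h2] at h1
  have h3 := (abs_le.mp (h1.trans hu)).1
  show 0 < u.im
  linarith

/-! ### Gluing: `p`-th roots on the upper half plane (`ℂ`-level statements) -/

/-- **`p`-th roots on the upper half plane.** If `F` is holomorphic on `{0 < im}` and the order of
`F` at every point of the upper half plane is a (finite) multiple of `p`, then `F = a ^ p` on the
upper half plane with `a` holomorphic there. -/
theorem exists_differentiableOn_pow_eq {p : ℕ} (hp : p ≠ 0) {F : ℂ → ℂ}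
    (hF : DifferentiableOn ℂ F {z : ℂ | 0 < z.im})
    (hord : ∀ z : ℂ, 0 < z.im → ∃ k : ℕ, analyticOrderAt F z = ((p * k : ℕ) : ℕ∞)) :
    ∃ a : ℂ → ℂ, DifferentiableOn ℂ a {z : ℂ | 0 < z.im} ∧ ∀ z : ℂ, 0 < z.im → a z ^ p = F z := by
  classical
  have hΩ : IsOpen {z : ℂ | 0 < z.im} := UpperHalfPlane.isOpen_upperHalfPlaneSet
  have hFa : AnalyticOnNhd ℂ F {z : ℂ | 0 < z.im} := hF.analyticOnNhd hΩ
  -- a base point where `F ≠ 0`
  obtain ⟨z₀, hz₀, hFz₀⟩ : ∃ z₀ : ℂ, 0 < z₀.im ∧ F z₀ ≠ 0 := by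
    have hI : (0 : ℝ) < Complex.I.im := by simp
    rcases (hFa Complex.I hI).eventually_eq_zero_or_eventually_ne_zero with h | h
    · exfalso
      obtain ⟨k, hk⟩ := hord Complex.I hI
      rw [← analyticOrderAt_eq_top, hk] at h
      exact ENat.natCast_ne_top _ h
    · obtain ⟨w, hw1, hw2⟩ := (h.and (mem_nhdsWithin_of_mem_nhds (hΩ.mem_nhds hI))).exists
      exact ⟨w, hw2, hw1⟩
  obtain ⟨c₀, hc₀⟩ := IsAlgClosed.exists_pow_nat_eq (F z₀) (Nat.pos_of_ne_zero hp)
  have hc₀0 : c₀ ≠ 0 := by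
    rintro rfl
    rw [zero_pow hp] at hc₀
    exact hFz₀ hc₀.symm
  -- local normalised roots
  have hloc : ∀ z : {z : ℂ // 0 < z.im}, ∃ (B : Set ℂ) (a : ℂ → ℂ), IsOpen B ∧ Convex ℝ B ∧
      (z : ℂ) ∈ B ∧ z₀ ∈ B ∧ B ⊆ {z : ℂ | 0 < z.im} ∧ DifferentiableOn ℂ a B ∧
      (∀ w ∈ B, a w ^ p = F w) ∧ a z₀ = c₀ := by
    rintro ⟨z, hz⟩
    obtain ⟨c, r, hr, hsub, hzB, hz₀B⟩ := pthRoot_exists_ball hz hz₀
    obtain ⟨a, ha, hapow⟩ := pthRoot_exists_on_ball hp hr (hFa.mono hsub)
      (fun u hu => hord u (hsub hu))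
    have haz₀ : a z₀ ≠ 0 := by
      intro h0
      have := hapow z₀ hz₀B
      rw [h0, zero_pow hp] at this
      exact hFz₀ this.symm
    refine ⟨ball c r, fun w => c₀ / a z₀ * a w, isOpen_ball, convex_ball c r, hzB, hz₀B,
      ball_subset_closedBall.trans hsub, ha.const_mul _, ?_, div_mul_cancel₀ _ haz₀⟩
    intro w hw
    rw [mul_pow, div_pow, hapow w hw, hapow z₀ hz₀B, hc₀, div_self hFz₀, one_mul]
  choose B A hBo hBc hzB hz₀B hBsub hAd hApow hAz₀ using hloc
  -- compatibility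
  have hcompat : ∀ z w : {z : ℂ // 0 < z.im}, (w : ℂ) ∈ B z → A w w = A z w := by
    intro z w hw
    have := pthRoot_eqOn hp ((hBo w).inter (hBo z)) ((hBc w).inter (hBc z)).isPreconnected
      ((hAd w).mono inter_subset_left) ((hAd z).mono inter_subset_right)
      (fun u hu => by rw [hApow w u hu.1, hApow z u hu.2]) ⟨hz₀B w, hz₀B z⟩
      (by rw [hAz₀ w, hAz₀ z]) (by rw [hAz₀ z]; exact hc₀0)
    exact this ⟨hzB w, hw⟩
  refine ⟨fun z => if h : 0 < z.im then A ⟨z, h⟩ z else 0, ?_, ?_⟩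
  · intro z hz
    have hEq : (fun z => if h : 0 < z.im then A ⟨z, h⟩ z else 0) =ᶠ[𝓝 z] A ⟨z, hz⟩ := by
      filter_upwards [(hBo ⟨z, hz⟩).mem_nhds (hzB ⟨z, hz⟩)] with w hw
      have hw' : 0 < w.im := hBsub ⟨z, hz⟩ hw
      simp only [hw', dif_pos]
      exact hcompat ⟨z, hz⟩ ⟨w, hw'⟩ hw
    exact (((hAd ⟨z, hz⟩).differentiableAt
      ((hBo ⟨z, hz⟩).mem_nhds (hzB ⟨z, hz⟩))).congr_of_eventuallyEq hEq).differentiableWithinAt
  · intro z hz
    simp only [hz, dif_pos]
    exact hApow ⟨z, hz⟩ z (hzB ⟨z, hz⟩)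

/-- Rigidity on the upper half plane, `ℂ`-level: two holomorphic functions with the same `p`-th
power differ by a `p`-th root of unity, provided one of them does not vanish somewhere. -/
theorem exists_root_of_unity_of_pow_eqOn {p : ℕ} (hp : p ≠ 0) {a b : ℂ → ℂ}
    (ha : DifferentiableOn ℂ a {z : ℂ | 0 < z.im}) (hb : DifferentiableOn ℂ b {z : ℂ | 0 < z.im})
    {z₀ : ℂ} (hz₀ : 0 < z₀.im) (hbz₀ : b z₀ ≠ 0)
    (h : ∀ z : ℂ, 0 < z.im → a z ^ p = b z ^ p) :
    ∃ ζ : ℂ, ζ ^ p = 1 ∧ ∀ z : ℂ, 0 < z.im → a z = ζ * b z := by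
  have hΩ : IsOpen {z : ℂ | 0 < z.im} := UpperHalfPlane.isOpen_upperHalfPlaneSet
  have hΩc : IsPreconnected {z : ℂ | 0 < z.im} := (convex_halfSpace_im_gt 0).isPreconnected
  refine ⟨a z₀ / b z₀, ?_, ?_⟩
  · rw [div_pow, h z₀ hz₀]
    exact div_self (pow_ne_zero _ hbz₀)
  · have haz₀ : a z₀ ≠ 0 := by
      intro h0
      have := h z₀ hz₀
      rw [h0, zero_pow hp] at this
      exact pow_ne_zero _ hbz₀ this.symm
    have := pthRoot_eqOn hp hΩ hΩc ha (hb.const_mul (a z₀ / b z₀))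
      (fun z hz => by
        rw [mul_pow, div_pow, h z₀ hz₀, div_self (pow_ne_zero _ hbz₀), one_mul]
        exact h z hz)
      hz₀ (by rw [div_mul_cancel₀ _ hbz₀]) (by rw [div_mul_cancel₀ _ hbz₀]; exact haz₀)
    exact fun z hz => this hz

/-! ### Statements on `ℍ` -/

open UpperHalfPlane

open scoped Manifold

/-- **`p`-th roots on `ℍ`.** If `F` is holomorphic on `ℍ` and the order of vanishing of `F` at every
point is a finite multiple of `p`, then `F = a ^ p` with `a` holomorphic on `ℍ`.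
(The hypothesis `F ≠ 0` is implied by the order hypothesis; it is kept for the callers.) -/
theorem exists_mdiff_pow_eq {p : ℕ} (hp : p ≠ 0) {F : ℍ → ℂ} (hF : MDiff F) (_hF0 : F ≠ 0)
    (hord : ∀ τ : ℍ, ∃ k : ℕ, analyticOrderAt (F ∘ ofComplex) (τ : ℂ) = ((p * k : ℕ) : ℕ∞)) :
    ∃ a : ℍ → ℂ, MDiff a ∧ ∀ τ, a τ ^ p = F τ := by
  have hF' := UpperHalfPlane.mdifferentiable_iff.mp hF
  obtain ⟨a, ha, hapow⟩ := exists_differentiableOn_pow_eq hp hF' (fun z hz => hord ⟨z, hz⟩)
  refine ⟨fun τ => a τ, ?_, ?_⟩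
  · rw [UpperHalfPlane.mdifferentiable_iff]
    refine ha.congr fun z hz => ?_
    simp [Function.comp, ofComplex_apply_of_im_pos hz]
  · intro τ
    have := hapow τ τ.im_pos
    simpa [Function.comp] using this

/-- A holomorphic function on `ℍ` which is not identically zero has finite order everywhere. -/
theorem pthRoot_order_ne_top {f : ℍ → ℂ} (hf : MDiff f) (hf0 : f ≠ 0) (τ : ℍ) :
    analyticOrderAt (f ∘ ofComplex) (τ : ℂ) ≠ ⊤ := by
  intro htop
  rw [analyticOrderAt_eq_top] at htop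
  have hΩ : IsOpen {z : ℂ | 0 < z.im} := UpperHalfPlane.isOpen_upperHalfPlaneSet
  have hΩc : IsPreconnected {z : ℂ | 0 < z.im} := (convex_halfSpace_im_gt 0).isPreconnected
  have hfa : AnalyticOnNhd ℂ (f ∘ ofComplex) {z : ℂ | 0 < z.im} :=
    (UpperHalfPlane.mdifferentiable_iff.mp hf).analyticOnNhd hΩ
  have h0 := hfa.eqOn_zero_of_preconnected_of_eventuallyEq_zero hΩc (z₀ := (τ : ℂ)) τ.im_pos htop
  apply hf0
  funext σ
  have := h0 σ.im_pos
  simpa [Function.comp] using this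

/-- **`p`-th roots of quotients.** If `f`, `g` are holomorphic on `ℍ`, not identically zero, and
`ord_τ f - ord_τ g ∈ p ℤ` for all `τ`, then `f * g ^ (p - 1) = a ^ p` with `a` holomorphic on `ℍ`;
so `a / g` is a meromorphic `p`-th root of `f / g`. -/
theorem exists_mdiff_pow_eq_div {p : ℕ} (hp : p ≠ 0) {f g : ℍ → ℂ} (hf : MDiff f) (hg : MDiff g)
    (hf0 : f ≠ 0) (hg0 : g ≠ 0)
    (hord : ∀ τ : ℍ, ∃ k : ℤ, ((analyticOrderAt (f ∘ ofComplex) (τ : ℂ)).toNat : ℤ) -
        ((analyticOrderAt (g ∘ ofComplex) (τ : ℂ)).toNat : ℤ) = p * k) :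
    ∃ a : ℍ → ℂ, MDiff a ∧ a ≠ 0 ∧ ∀ τ, a τ ^ p = f τ * g τ ^ (p - 1) := by
  have hΩ : IsOpen {z : ℂ | 0 < z.im} := UpperHalfPlane.isOpen_upperHalfPlaneSet
  have hfa : AnalyticOnNhd ℂ (f ∘ ofComplex) {z : ℂ | 0 < z.im} :=
    (UpperHalfPlane.mdifferentiable_iff.mp hf).analyticOnNhd hΩ
  have hga : AnalyticOnNhd ℂ (g ∘ ofComplex) {z : ℂ | 0 < z.im} :=
    (UpperHalfPlane.mdifferentiable_iff.mp hg).analyticOnNhd hΩ
  have hFd : MDiff (f * g ^ (p - 1)) := hf.mul (hg.pow (p - 1))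
  have hcomp : (f * g ^ (p - 1)) ∘ ofComplex = (f ∘ ofComplex) * (g ∘ ofComplex) ^ (p - 1) := by
    funext z
    simp [Function.comp]
  have hordF : ∀ τ : ℍ, ∃ k : ℕ,
      analyticOrderAt ((f * g ^ (p - 1)) ∘ ofComplex) (τ : ℂ) = ((p * k : ℕ) : ℕ∞) := by
    intro τ
    obtain ⟨k, hk⟩ := hord τ
    have h1 := pthRoot_order_ne_top hf hf0 τ
    have h2 := pthRoot_order_ne_top hg hg0 τ
    rw [hcomp, analyticOrderAt_mul (hfa _ τ.im_pos) ((hga _ τ.im_pos).pow _),
      analyticOrderAt_pow (hga _ τ.im_pos)]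
    set m := (analyticOrderAt (f ∘ ofComplex) (τ : ℂ)).toNat with hm
    set n := (analyticOrderAt (g ∘ ofComplex) (τ : ℂ)).toNat with hn
    rw [← ENat.natCast_toNat h1, ← ENat.natCast_toNat h2, ← hm, ← hn]
    have hp1 : 1 ≤ p := Nat.pos_of_ne_zero hp
    have hkn : 0 ≤ k + n := by
      have h3 : (p : ℤ) * (k + n) = m + (p - 1) * n := by rw [mul_add, ← hk]; ring
      have h4 : (0 : ℤ) ≤ m + (p - 1) * n := by
        have : (0 : ℤ) ≤ (p : ℤ) - 1 := by
          have : (1 : ℤ) ≤ p := by exact_mod_cast hp1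
          linarith
        positivity
      rw [← h3] at h4
      have hp0 : (0 : ℤ) < p := by exact_mod_cast hp1
      exact nonneg_of_mul_nonneg_right h4 hp0
    refine ⟨(k + n).toNat, ?_⟩
    have hnat : m + (p - 1) * n = p * (k + n).toNat := by
      have : ((m + (p - 1) * n : ℕ) : ℤ) = ((p * (k + n).toNat : ℕ) : ℤ) := by
        push_cast [Int.toNat_of_nonneg hkn, Nat.cast_sub hp1]
        rw [mul_add, ← hk]; ring
      exact_mod_cast this
    rw [← hnat]
    push_cast
    rfl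
  have hF0 : f * g ^ (p - 1) ≠ 0 := by
    intro h0
    obtain ⟨k, hk⟩ := hordF UpperHalfPlane.I
    have : analyticOrderAt ((f * g ^ (p - 1)) ∘ ofComplex) ((UpperHalfPlane.I : ℍ) : ℂ) = ⊤ := by
      rw [analyticOrderAt_eq_top, h0]
      exact Eventually.of_forall fun z => by simp
    rw [hk] at this
    exact ENat.natCast_ne_top _ this
  obtain ⟨a, ha, hapow⟩ := exists_mdiff_pow_eq hp hFd hF0 hordF
  refine ⟨a, ha, ?_, fun τ => by simpa using hapow τ⟩
  rintro rfl
  apply hF0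
  funext τ
  have := hapow τ
  simp only [Pi.zero_apply, zero_pow hp] at this
  exact this.symm

/-- **Rigidity.** Two holomorphic functions on `ℍ` with the same `p`-th power differ by a `p`-th
root of unity. -/
theorem exists_root_of_unity_of_pow_eq {p : ℕ} (hp : p ≠ 0) {a b : ℍ → ℂ} (ha : MDiff a)
    (hb : MDiff b) (hb0 : b ≠ 0) (h : ∀ τ, a τ ^ p = b τ ^ p) :
    ∃ ζ : ℂ, ζ ^ p = 1 ∧ ∀ τ, a τ = ζ * b τ := by
  obtain ⟨τ₀, hτ₀⟩ : ∃ τ₀ : ℍ, b τ₀ ≠ 0 := by
    by_contra hcon
    exact hb0 (funext fun τ => by_contra fun hτ => hcon ⟨τ, hτ⟩)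
  obtain ⟨ζ, hζ, hab⟩ := exists_root_of_unity_of_pow_eqOn hp
    (UpperHalfPlane.mdifferentiable_iff.mp ha) (UpperHalfPlane.mdifferentiable_iff.mp hb)
    (z₀ := (τ₀ : ℂ)) τ₀.im_pos (by simpa [Function.comp] using hτ₀)
    (fun z hz => by simpa [Function.comp] using h (ofComplex z))
  refine ⟨ζ, hζ, fun τ => ?_⟩
  simpa [Function.comp] using hab τ τ.im_pos

end Fermat.Agent.ES
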