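import Fermat.Agent.S24.CuspAnalysis
import Fermat.Agent.ES.PthRoot

/-!
# ESpkg-G1 piece A2, cusp part: periodic `p`-th roots at a cusp

* `exists_periodic_root`: if `Φ` is meromorphic at `0` with order `p * n`, then on a half plane
  `Im τ > Y` the function `τ ↦ Φ (q_k τ)` has a `k`-periodic, holomorphic, non-vanishing
  `p`-th root.
* `exists_root_factor`: if moreover `A ^ p = Φ (q_k) * B ^ p` near `i∞` with `A`, `B` holomorphic
  on `ℍ`, then `A = r * B` on a half plane with `r` `k`-periodic and non-vanishing.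
* `periodic_cross_of_pow_eq`, `periodic_cross_of_pow_mul_eq`: consequently `A / B` is `k`-periodic
  near `i∞`, in the cross-multiplied form `A (τ + k) * B τ = A τ * B (τ + k)`.
-/

set_option autoImplicit false

noncomputable section

open Complex Filter Topology UpperHalfPlane Function
open scoped Manifold

namespace Fermat.Agent.ES

open Fermat.Agent.S24 (cuspFn IsPer)

/-- A local analytic `p`-th root of an analytic function that does not vanish at `0`. -/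
theorem cuspRoot_local {p : ℕ} (hp : p ≠ 0) {G : ℂ → ℂ} (hG : AnalyticAt ℂ G 0) (hG0 : G 0 ≠ 0) :
    ∃ H : ℂ → ℂ, ∀ᶠ q in 𝓝 (0 : ℂ), AnalyticAt ℂ H q ∧ H q ^ p = G q ∧ H q ≠ 0 := by
  obtain ⟨c, hc⟩ := IsAlgClosed.exists_pow_nat_eq (G 0) (Nat.pos_of_ne_zero hp)
  have hc0 : c ≠ 0 := by
    rintro rfl
    rw [zero_pow hp] at hc
    exact hG0 hc.symm
  have hp' : (p : ℂ) ≠ 0 := by exact_mod_cast hp
  refine ⟨fun q => c * Complex.exp (Complex.log (G q / G 0) / p), ?_⟩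
  have hH : AnalyticAt ℂ (fun q => c * Complex.exp (Complex.log (G q / G 0) / p)) 0 := by
    have h1 : AnalyticAt ℂ (fun q => G q / G 0) 0 := hG.div analyticAt_const hG0
    have h2 : AnalyticAt ℂ (fun q => Complex.log (G q / G 0)) 0 := by
      refine h1.clog ?_
      simp [div_self hG0]
    exact analyticAt_const.mul (h2.div analyticAt_const hp').cexp
  have hne : ∀ᶠ q in 𝓝 (0 : ℂ), G q ≠ 0 := hG.continuousAt.eventually_ne hG0
  filter_upwards [hH.eventually_analyticAt, hne] with q hq hq'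
  refine ⟨hq, ?_, mul_ne_zero hc0 (Complex.exp_ne_zero _)⟩
  rw [mul_pow, ← Complex.exp_nat_mul, mul_div_cancel₀ _ hp', Complex.exp_log (div_ne_zero hq' hG0),
    hc]
  field_simp

theorem cuspRoot_qParam_vadd {k : ℕ} (hk : 0 < k) (τ : ℍ) :
    Function.Periodic.qParam (k : ℝ) (((k : ℝ) +ᵥ τ : ℍ) : ℂ)
      = Function.Periodic.qParam (k : ℝ) (τ : ℂ) := by
  have hk' : ((k : ℝ) : ℂ) ≠ 0 := by exact_mod_cast hk.ne'
  rw [coe_vadd]
  simp only [Function.Periodic.qParam]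
  rw [show 2 * (Real.pi : ℂ) * Complex.I * (((k : ℝ) : ℂ) + (τ : ℂ)) / ((k : ℝ) : ℂ)
      = 2 * (Real.pi : ℂ) * Complex.I * (τ : ℂ) / ((k : ℝ) : ℂ) + 2 * Real.pi * Complex.I by
    field_simp
    ring]
  rw [Complex.exp_add, Complex.exp_two_pi_mul_I, mul_one]

theorem cuspRoot_qParam_ne_zero (k : ℕ) (z : ℂ) : Function.Periodic.qParam (k : ℝ) z ≠ 0 :=
  Complex.exp_ne_zero _

/-- **Periodic `p`-th root at a cusp.**  If `Φ` is meromorphic at `0` of order `p * n`, then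
`τ ↦ Φ (q_k τ)` has a `k`-periodic, holomorphic, non-vanishing `p`-th root on a half plane. -/
theorem exists_periodic_root {k p : ℕ} (hk : 0 < k) (hp : p ≠ 0) {Φ : ℂ → ℂ}
    (hmero : MeromorphicAt Φ 0) {n : ℤ} (hord : meromorphicOrderAt Φ 0 = (((p : ℤ) * n : ℤ) : ℤ)) :
    ∃ (Y : ℝ) (r : ℍ → ℂ), 0 < Y ∧ IsPer k r ∧
      (∀ τ : ℍ, Y < τ.im → MDifferentiableAt 𝓘(ℂ) 𝓘(ℂ) r τ) ∧
      (∀ τ : ℍ, Y < τ.im → r τ ≠ 0) ∧
      (∀ τ : ℍ, Y < τ.im → r τ ^ p = Φ (Function.Periodic.qParam (k : ℝ) τ)) := by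
  obtain ⟨G, hG, hG0, hΦ⟩ := (meromorphicOrderAt_eq_int_iff hmero).mp hord
  obtain ⟨H, hH⟩ := cuspRoot_local hp hG hG0
  have hH' : ∀ᶠ q in 𝓝[≠] (0 : ℂ), AnalyticAt ℂ H q ∧ H q ^ p = G q ∧ H q ≠ 0 :=
    hH.filter_mono nhdsWithin_le_nhds
  have hev := (Fermat.Agent.S24.tendsto_qParam_nhdsNE hk).eventually (hΦ.and hH')
  obtain ⟨Y₀, hY₀⟩ := (UpperHalfPlane.atImInfty_mem _).mp hev
  set r : ℍ → ℂ := fun τ => Function.Periodic.qParam (k : ℝ) τ ^ n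
      * H (Function.Periodic.qParam (k : ℝ) τ) with hr
  refine ⟨max Y₀ 1, r, lt_max_of_lt_right one_pos, ?_, ?_, ?_, ?_⟩
  · intro τ
    simp only [hr, cuspRoot_qParam_vadd hk]
  · intro τ hτ
    have h := hY₀ τ ((le_max_left _ _).trans hτ.le)
    simp only [Set.mem_ofPred_eq] at h
    obtain ⟨-, hHan, -, -⟩ := h
    have hq : DifferentiableAt ℂ (Function.Periodic.qParam (k : ℝ)) (τ : ℂ) :=
      Function.Periodic.differentiable_qParam.differentiableAt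
    have h1 : DifferentiableAt ℂ (fun z : ℂ => Function.Periodic.qParam (k : ℝ) z ^ n
        * H (Function.Periodic.qParam (k : ℝ) z)) (τ : ℂ) := by
      refine DifferentiableAt.mul ?_ ?_
      · exact hq.zpow (Or.inl (cuspRoot_qParam_ne_zero k _))
      · exact (hHan.differentiableAt).comp (τ : ℂ) hq
    exact h1.mdifferentiableAt.comp τ (mdifferentiable_coe τ)
  · intro τ hτ
    have h := hY₀ τ ((le_max_left _ _).trans hτ.le)
    simp only [Set.mem_ofPred_eq] at h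
    obtain ⟨-, -, -, hH0⟩ := h
    exact mul_ne_zero (zpow_ne_zero _ (cuspRoot_qParam_ne_zero k _)) hH0
  · intro τ hτ
    have h := hY₀ τ ((le_max_left _ _).trans hτ.le)
    simp only [Set.mem_ofPred_eq] at h
    obtain ⟨hΦτ, -, hHp, -⟩ := h
    rw [hΦτ, hr]
    simp only [sub_zero, smul_eq_mul]
    rw [mul_pow, hHp, ← zpow_natCast, ← zpow_mul, mul_comm n (p : ℤ)]

/-- The version for a `k`-periodic function on `ℍ`. -/
theorem exists_periodic_root_of_isPer {k p : ℕ} (hk : 0 < k) (hp : p ≠ 0) {U : ℍ → ℂ}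
    (hper : IsPer k U) (hmero : MeromorphicAt (cuspFn k U) 0) {n : ℤ}
    (hord : meromorphicOrderAt (cuspFn k U) 0 = (((p : ℤ) * n : ℤ) : ℤ)) :
    ∃ (Y : ℝ) (r : ℍ → ℂ), 0 < Y ∧ IsPer k r ∧
      (∀ τ : ℍ, Y < τ.im → MDifferentiableAt 𝓘(ℂ) 𝓘(ℂ) r τ) ∧
      (∀ τ : ℍ, Y < τ.im → r τ ≠ 0) ∧
      (∀ τ : ℍ, Y < τ.im → r τ ^ p = U τ) := by
  obtain ⟨Y, r, hY, h1, h2, h3, h4⟩ := exists_periodic_root hk hp hmero hord
  refine ⟨Y, r, hY, h1, h2, h3, fun τ hτ => ?_⟩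
  rw [h4 τ hτ, Fermat.Agent.S24.cuspFn_qParam hk hper]

/-! ### Rigidity on a half plane -/

/-- Two holomorphic functions on a connected open set with the same `p`-th power differ by a
`p`-th root of unity. -/
theorem cuspRoot_rigid {p : ℕ} (hp : p ≠ 0) {a c : ℂ → ℂ} {V : Set ℂ} (hV : IsOpen V)
    (hVc : IsPreconnected V) (ha : DifferentiableOn ℂ a V) (hc : DifferentiableOn ℂ c V)
    (hpow : ∀ z ∈ V, a z ^ p = c z ^ p) :
    ∃ ζ : ℂ, ζ ^ p = 1 ∧ ∀ z ∈ V, a z = ζ * c z := by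
  by_cases h : ∃ z₀ ∈ V, c z₀ ≠ 0
  · obtain ⟨z₀, hz₀, hcz₀⟩ := h
    have haz₀ : a z₀ ≠ 0 := by
      intro h0
      have := hpow z₀ hz₀
      rw [h0, zero_pow hp] at this
      exact pow_ne_zero p hcz₀ this.symm
    have hζ : (a z₀ / c z₀) ^ p = 1 := by
      rw [div_pow, hpow z₀ hz₀, div_self (pow_ne_zero p hcz₀)]
    refine ⟨a z₀ / c z₀, hζ, ?_⟩
    have := pthRoot_eqOn hp hV hVc ha (hc.const_mul (a z₀ / c z₀))
      (fun z hz => by rw [mul_pow, hζ, one_mul, hpow z hz]) hz₀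
      (by rw [div_mul_cancel₀ _ hcz₀]) (by rw [div_mul_cancel₀ _ hcz₀]; exact haz₀)
    exact fun z hz => this hz
  · simp only [not_exists, not_and, not_not] at h
    refine ⟨1, one_pow p, fun z hz => ?_⟩
    have h1 := hpow z hz
    rw [h z hz, zero_pow hp] at h1
    rw [h z hz, mul_zero]
    exact pow_eq_zero_iff hp |>.mp h1

theorem cuspRoot_isOpen_halfPlane (Y : ℝ) : IsOpen {z : ℂ | Y < z.im} :=
  isOpen_lt continuous_const Complex.continuous_im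

theorem cuspRoot_isPreconnected_halfPlane (Y : ℝ) : IsPreconnected {z : ℂ | Y < z.im} := by
  have : Convex ℝ {z : ℂ | Y < z.im} := by
    have h := (convex_Ioi Y).linear_preimage Complex.imLm
    exact h
  exact this.isPreconnected

/-- **Factorisation near the cusp.**  If `A ^ p = Φ(q_k) · B ^ p` near `i∞`, with `A`, `B`
holomorphic on `ℍ` and `Φ` meromorphic at `0` of order divisible by `p`, then `A = r · B` on a
half plane, with `r` `k`-periodic and non-vanishing there. -/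
theorem exists_root_factor {k p : ℕ} (hk : 0 < k) (hp : p ≠ 0) {Φ : ℂ → ℂ}
    (hmero : MeromorphicAt Φ 0) {n : ℤ} (hord : meromorphicOrderAt Φ 0 = (((p : ℤ) * n : ℤ) : ℤ))
    {A B : ℍ → ℂ} (hA : MDifferentiable 𝓘(ℂ) 𝓘(ℂ) A) (hB : MDifferentiable 𝓘(ℂ) 𝓘(ℂ) B)
    (hpow : ∀ᶠ τ in atImInfty, A τ ^ p = Φ (Function.Periodic.qParam (k : ℝ) τ) * B τ ^ p) :
    ∃ (Y : ℝ) (r : ℍ → ℂ), 0 < Y ∧ IsPer k r ∧
      (∀ τ : ℍ, Y < τ.im → MDifferentiableAt 𝓘(ℂ) 𝓘(ℂ) r τ) ∧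
      (∀ τ : ℍ, Y < τ.im → r τ ≠ 0) ∧
      (∀ τ : ℍ, Y < τ.im → r τ ^ p = Φ (Function.Periodic.qParam (k : ℝ) τ)) ∧
      (∀ τ : ℍ, Y < τ.im → A τ = r τ * B τ) := by
  obtain ⟨Y₁, r, hY₁, hrper, hrdiff, hr0, hrp⟩ := exists_periodic_root hk hp hmero hord
  obtain ⟨Y₂, hY₂⟩ := (UpperHalfPlane.atImInfty_mem _).mp hpow
  set Y := max Y₁ Y₂ with hY
  have hYpos : 0 < Y := lt_max_of_lt_left hY₁
  set V : Set ℂ := {z : ℂ | Y < z.im} with hVdef
  have hVpos : ∀ z ∈ V, 0 < z.im := fun z hz => hYpos.trans hz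
  have hVsub : V ⊆ {z : ℂ | 0 < z.im} := hVpos
  have haD : DifferentiableOn ℂ (A ∘ ofComplex) V :=
    (UpperHalfPlane.mdifferentiable_iff.mp hA).mono hVsub
  have hbD : DifferentiableOn ℂ (B ∘ ofComplex) V :=
    (UpperHalfPlane.mdifferentiable_iff.mp hB).mono hVsub
  have hrD : DifferentiableOn ℂ (r ∘ ofComplex) V := by
    intro z hz
    have hz0 : 0 < z.im := hVpos z hz
    have h1 := hrdiff ⟨z, hz0⟩ (by
      show Y₁ < z.im
      exact (le_max_left _ _).trans_lt hz)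
    have h2 := UpperHalfPlane.mdifferentiableAt_iff.mp h1
    exact h2.differentiableWithinAt
  have hcD : DifferentiableOn ℂ (fun z => (r ∘ ofComplex) z * (B ∘ ofComplex) z) V := hrD.mul hbD
  have hpowV : ∀ z ∈ V, (A ∘ ofComplex) z ^ p
      = ((fun z => (r ∘ ofComplex) z * (B ∘ ofComplex) z) z) ^ p := by
    intro z hz
    have hz0 : 0 < z.im := hVpos z hz
    simp only [comp_apply, ofComplex_apply_of_im_pos hz0]
    have h1 := hY₂ ⟨z, hz0⟩ (by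
      show Y₂ ≤ z.im
      exact (le_max_right _ _).trans hz.le)
    simp only [Set.mem_ofPred_eq] at h1
    have h2 := hrp ⟨z, hz0⟩ (by
      show Y₁ < z.im
      exact (le_max_left _ _).trans_lt hz)
    rw [mul_pow, h2, h1]
  obtain ⟨ζ, hζ, hζeq⟩ := cuspRoot_rigid hp (cuspRoot_isOpen_halfPlane Y)
    (cuspRoot_isPreconnected_halfPlane Y) haD hcD hpowV
  have hζ0 : ζ ≠ 0 := by
    rintro rfl
    rw [zero_pow hp] at hζ
    exact zero_ne_one hζ
  refine ⟨Y, fun τ => ζ * r τ, hYpos, ?_, ?_, ?_, ?_, ?_⟩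
  · intro τ
    simp only [hrper τ]
  · intro τ hτ
    exact (mdifferentiableAt_const (c := ζ)).mul (hrdiff τ ((le_max_left _ _).trans_lt hτ))
  · intro τ hτ
    exact mul_ne_zero hζ0 (hr0 τ ((le_max_left _ _).trans_lt hτ))
  · intro τ hτ
    rw [mul_pow, hζ, one_mul]
    exact hrp τ ((le_max_left _ _).trans_lt hτ)
  · intro τ hτ
    have h := hζeq (τ : ℂ) hτ
    simp only [comp_apply, ofComplex_apply] at h
    rw [h, mul_assoc]

/-- **Periodicity of the quotient near the cusp**, in cross-multiplied form. -/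
theorem periodic_cross_of_pow_eq {k p : ℕ} (hk : 0 < k) (hp : p ≠ 0) {Φ : ℂ → ℂ}
    (hmero : MeromorphicAt Φ 0) {n : ℤ} (hord : meromorphicOrderAt Φ 0 = (((p : ℤ) * n : ℤ) : ℤ))
    {A B : ℍ → ℂ} (hA : MDifferentiable 𝓘(ℂ) 𝓘(ℂ) A) (hB : MDifferentiable 𝓘(ℂ) 𝓘(ℂ) B)
    (hpow : ∀ᶠ τ in atImInfty, A τ ^ p = Φ (Function.Periodic.qParam (k : ℝ) τ) * B τ ^ p) :
    ∃ Y : ℝ, 0 < Y ∧ ∀ τ : ℍ, Y < τ.im →
      A ((k : ℝ) +ᵥ τ) * B τ = A τ * B ((k : ℝ) +ᵥ τ) := by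
  obtain ⟨Y, r, hY, hrper, -, -, -, hAB⟩ := exists_root_factor hk hp hmero hord hA hB hpow
  refine ⟨Y, hY, fun τ hτ => ?_⟩
  have hτ' : Y < ((k : ℝ) +ᵥ τ : ℍ).im := by
    rw [UpperHalfPlane.vadd_im]
    exact hτ
  rw [hAB τ hτ, hAB _ hτ', hrper τ]
  ring

/-- The same for a quotient `F / G` of `k`-periodic functions whose cusp functions are
meromorphic, with `p ∣ ord F - ord G`, and `A ^ p * G = F * B ^ p`. -/
theorem periodic_cross_of_pow_mul_eq {k p : ℕ} (hk : 0 < k) (hp : p ≠ 0) {F G : ℍ → ℂ}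
    (hFper : IsPer k F) (hGper : IsPer k G)
    (hFm : MeromorphicAt (cuspFn k F) 0) (hGm : MeromorphicAt (cuspFn k G) 0)
    {m₁ m₂ : ℤ} (hF : meromorphicOrderAt (cuspFn k F) 0 = (m₁ : ℤ))
    (hG : meromorphicOrderAt (cuspFn k G) 0 = (m₂ : ℤ)) (hdvd : (p : ℤ) ∣ m₁ - m₂)
    {A B : ℍ → ℂ} (hA : MDifferentiable 𝓘(ℂ) 𝓘(ℂ) A) (hB : MDifferentiable 𝓘(ℂ) 𝓘(ℂ) B)
    (hpow : ∀ᶠ τ in atImInfty, A τ ^ p * G τ = F τ * B τ ^ p) :
    ∃ Y : ℝ, 0 < Y ∧ ∀ τ : ℍ, Y < τ.im →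
      A ((k : ℝ) +ᵥ τ) * B τ = A τ * B ((k : ℝ) +ᵥ τ) := by
  obtain ⟨n, hn⟩ := hdvd
  set Φ : ℂ → ℂ := cuspFn k F * (cuspFn k G)⁻¹ with hΦ
  have hΦm : MeromorphicAt Φ 0 := hFm.mul hGm.inv
  have hΦord : meromorphicOrderAt Φ 0 = (((p : ℤ) * n : ℤ) : ℤ) := by
    rw [hΦ, meromorphicOrderAt_mul hFm hGm.inv, meromorphicOrderAt_inv, hF, hG, ← hn]
    rw [sub_eq_add_neg]
    push_cast
    rfl
  have hGne : ∀ᶠ q in 𝓝[≠] (0 : ℂ), cuspFn k G q ≠ 0 :=
    (meromorphicOrderAt_ne_top_iff_eventually_ne_zero hGm).mp (by rw [hG]; exact WithTop.coe_ne_top)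
  have hGne' := (Fermat.Agent.S24.tendsto_qParam_nhdsNE hk).eventually hGne
  refine periodic_cross_of_pow_eq hk hp hΦm hΦord hA hB ?_
  filter_upwards [hpow, hGne'] with τ h1 h2
  rw [Fermat.Agent.S24.cuspFn_qParam hk hGper] at h2
  simp only [hΦ, Pi.mul_apply, Pi.inv_apply, Fermat.Agent.S24.cuspFn_qParam hk hFper,
    Fermat.Agent.S24.cuspFn_qParam hk hGper]
  field_simp
  linear_combination h1

end Fermat.Agent.ES
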