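import Mathlib
import Fermat.Prelude.Def_ModularCurve_X0ModL
import Fermat.Agent.S28.PrimeHypMain
import Fermat.Agent.S24.AnalyticDefs

/-!
# ESpkg-G1, piece A6-surj: the hypotheses H1–H5 of helper10's descent theorem for the real
`K = modularFunctionFieldFullC ℂ N`

* H1 `one_lt_val_jqModC`
* H2 `coeffMap_mem_full`
* H3 `relfinrank_full_ne_zero`
* H4 `exists_coeffMap_eq_of_algebraic`
* H5 `exists_ringEquiv_extends`

`ℚ̄ → ℂ` is `Fermat.Agent.S24.embC` (`algebraMap Kb ℂ` for the local instance `S24.algKbC`).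
-/

set_option autoImplicit false

noncomputable section

namespace Fermat.Agent.ES.RRFin

open ModularCurve IntermediateField Fermat.Agent.S24

attribute [local instance] algKbC

/-- H1: `j` has a pole at `q = 0`. -/
theorem one_lt_val_jqModC : 1 < Valued.v (jqModC ℂ) := by
  rw [← not_le]
  intro h
  have h0 : Valued.v (jqModC ℂ) ≤ WithZero.exp (-(0 : ℤ)) := by simpa using h
  have := (LaurentSeries.valuation_le_iff_coeff_lt_eq_zero ℂ).1 h0 (-1) (by norm_num)
  rw [coeff_jqModC_neg_one] at this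
  exact one_ne_zero this

/-- H2: the level-`N` function field over `ℂ` is stable under coefficientwise automorphisms. -/
theorem coeffMap_mem_full (σ : ℂ ≃+* ℂ) (N : ℕ) [NeZero N] {y : LaurentSeries ℂ}
    (hy : y ∈ modularFunctionFieldFullC ℂ N) :
    coeffMap (σ : ℂ →+* ℂ) y ∈ modularFunctionFieldFullC ℂ N := by
  have hy' : y ∈ Subfield.closure (Set.range (algebraMap ℂ (LaurentSeries ℂ)) ∪
      divisorExpansionsC ℂ N) := hy
  clear hy
  induction hy' using Subfield.closure_induction with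
  | mem z hz =>
      rcases hz with ⟨a, rfl⟩ | ⟨d, hd, hdN, rfl⟩
      · rw [coeffMap_algebraMap]
        exact (modularFunctionFieldFullC ℂ N).algebraMap_mem _
      · have h1 : coeffMap (σ : ℂ →+* ℂ) (qExpand ℂ d (jqModC ℂ)) = qExpand ℂ d (jqModC ℂ) :=
          coeffMap_jqNModC (σ : ℂ →+* ℂ) d
        rw [h1]
        exact jqModCd_mem_full ℂ N hdN
  | one => simp
  | add x y _ _ hx hy => simpa using add_mem hx hy
  | neg x _ hx => simpa using neg_mem hx
  | inv x _ hx => simpa using inv_mem hx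
  | mul x y _ _ hx hy => simpa using mul_mem hx hy

theorem DescentHypAux.dedekindPsi_ne_zero (N : ℕ) [NeZero N] : dedekindPsi N ≠ 0 := by
  unfold dedekindPsi
  have h1 : (1 : ℕ) ∈ N.divisors.filter (fun d => Squarefree d) := by
    simp [NeZero.ne N]
  have := Finset.single_le_sum (f := fun d => N / d) (fun _ _ => Nat.zero_le _) h1
  have hN : 0 < N := Nat.pos_of_ne_zero (NeZero.ne N)
  simp only [Nat.div_one] at this
  omega

/-- H3: `[ℂ(j(q^d) : d ∣ N) : ℂ(j)]` is finite (and nonzero). -/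
theorem relfinrank_full_ne_zero (N : ℕ) [NeZero N] :
    (adjoin ℂ {jqModC ℂ}).relfinrank (modularFunctionFieldFullC ℂ N) ≠ 0 := by
  rw [Fermat.Agent.S28.relfinrank_full_eq_dedekindPsi ℂ N (Nat.cast_ne_zero.2 (NeZero.ne N))]
  exact DescentHypAux.dedekindPsi_ne_zero N

/-- every algebraic complex number is in the image of `ℚ̄`. -/
theorem DescentHypAux.mem_range_embC_of_isAlgebraic {z : ℂ} (hz : IsAlgebraic ℚ z) :
    z ∈ Set.range (algebraMap Kb ℂ) := by
  obtain ⟨P, hP0, hPz⟩ := hz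
  have hroot : ((P.map (algebraMap ℚ Kb)).map (algebraMap Kb ℂ)).IsRoot z := by
    rw [Polynomial.IsRoot, Polynomial.map_map, Polynomial.eval_map]
    have : (algebraMap Kb ℂ).comp (algebraMap ℚ Kb) = algebraMap ℚ ℂ := Subsingleton.elim _ _
    rw [this]
    exact hPz
  have hne : P.map (algebraMap ℚ Kb) ≠ 0 :=
    (Polynomial.map_ne_zero_iff (algebraMap ℚ Kb).injective).2 hP0
  exact (IsAlgClosed.splits _).mem_range_of_isRoot hne hroot

/-- H4: a Laurent series over `ℂ` with algebraic coefficients comes from `ℚ̄((q))`. -/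
theorem exists_coeffMap_eq_of_algebraic (y : LaurentSeries ℂ)
    (h : ∀ m, IsAlgebraic ℚ (y.coeff m)) :
    ∃ y' : LaurentSeries Kb, coeffMap (algebraMap Kb ℂ) y' = y := by
  have hex : ∀ m, ∃ a : Kb, algebraMap Kb ℂ a = y.coeff m := fun m =>
    DescentHypAux.mem_range_embC_of_isAlgebraic (h m)
  choose c hc using hex
  have hsupp : Function.support c ⊆ Function.support y.coeff := by
    intro m hm hy0
    apply hm
    have : algebraMap Kb ℂ (c m) = 0 := by rw [hc]; exact hy0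
    exact (map_eq_zero_iff _ (algebraMap Kb ℂ).injective).1 this
  refine ⟨⟨c, y.isPWO_support.mono hsupp⟩, ?_⟩
  ext m
  rw [coeffMap_coeff]
  exact hc m

/-- H5: every automorphism of `ℚ̄` extends to a ring automorphism of `ℂ`. -/
theorem exists_ringEquiv_extends (τ : Kb ≃ₐ[ℚ] Kb) :
    ∃ σ : ℂ ≃+* ℂ, ∀ a, σ (algebraMap Kb ℂ a) = algebraMap Kb ℂ (τ a) := by
  obtain ⟨s, hs⟩ := exists_isTranscendenceBasis Kb ℂ
  have := IsAlgClosed.isAlgClosure_of_transcendence_basis ((↑) : s → ℂ) hs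
  let e : Algebra.adjoin Kb (Set.range ((↑) : s → ℂ)) ≃+*
      Algebra.adjoin Kb (Set.range ((↑) : s → ℂ)) :=
    hs.1.aevalEquiv.symm.toRingEquiv.trans
      ((MvPolynomial.mapEquiv s (τ : Kb ≃+* Kb)).trans hs.1.aevalEquiv.toRingEquiv)
  refine ⟨IsAlgClosure.equivOfEquiv ℂ ℂ e, fun a => ?_⟩
  have h1 : (hs.1.aevalEquiv (MvPolynomial.C a) : ℂ) = algebraMap Kb ℂ a := by
    simp [AlgebraicIndependent.aevalEquiv_apply_coe]
  have h2 : (e (hs.1.aevalEquiv (MvPolynomial.C a)) : ℂ) = algebraMap Kb ℂ (τ a) := by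
    simp [e, AlgebraicIndependent.aevalEquiv_apply_coe]
  have h3 := IsAlgClosure.equivOfEquiv_algebraMap ℂ ℂ e (hs.1.aevalEquiv (MvPolynomial.C a))
  have h4 : algebraMap (Algebra.adjoin Kb (Set.range ((↑) : s → ℂ))) ℂ
      (hs.1.aevalEquiv (MvPolynomial.C a)) = algebraMap Kb ℂ a := h1
  have h5 : algebraMap (Algebra.adjoin Kb (Set.range ((↑) : s → ℂ))) ℂ
      (e (hs.1.aevalEquiv (MvPolynomial.C a))) = algebraMap Kb ℂ (τ a) := h2
  rw [h4, h5] at h3
  exact h3

end Fermat.Agent.ES.RRFin
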