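import Mathlib
import Fermat.Prelude.Def_ModularCurve_LaurentCoeff

/-!
# ESpkg-G1, piece A6-surj S2: the Riemann–Roch-type subspaces `rrSub x n ⊂ k((q))`

`rrSub x n = L(n·(x)_∞)`: series integral over `k[x]` such that `y / x ^ n` is integral over
`k[1/x]`.

* `exists_mul_mem_rrSub`: every `w` algebraic over `k[x]` has a nonzero multiple `e * w`,
  `e ∈ k[x]`, in some `rrSub x n`;
* `coeffMap_mem_rrSub`: `rrSub x n` is stable under coefficientwise automorphisms fixing `x`;
* `eq_C_of_pow_eq_one`: roots of unity in `k((q))` are constants (`k` algebraically closed).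
-/

set_option autoImplicit false

noncomputable section

namespace Fermat.Agent.ES.RRFin

open ModularCurve Polynomial

namespace RRSubAux

section Generic

variable {k F : Type*} [Field k] [CommRing F] [Nontrivial F] [Algebra k F]

/-- Integrality over a subalgebra, via a monic polynomial over the big ring with coefficients in
the subalgebra. -/
theorem isIntegral_subalgebra_iff (B : Subalgebra k F) (y : F) :
    IsIntegral B y ↔ ∃ p : F[X], p.Monic ∧ (∀ i, p.coeff i ∈ B) ∧ p.eval y = 0 := by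
  constructor
  · rintro ⟨P, hP, hroot⟩
    refine ⟨P.map (algebraMap B F), hP.map _, fun i => ?_, ?_⟩
    · rw [coeff_map]
      exact (P.coeff i).2
    · rw [eval_map]
      exact hroot
  · rintro ⟨p, hp, hcoeff, hroot⟩
    have hl : p ∈ lifts (algebraMap B F) := by
      rw [lifts_iff_coeff_lifts]
      intro i
      exact ⟨⟨p.coeff i, hcoeff i⟩, rfl⟩
    obtain ⟨q, hq, -, hqm⟩ := lifts_and_degree_eq_and_monic hl hp
    refine ⟨q, hqm, ?_⟩
    rw [← eval_map, hq]
    exact hroot

omit [Nontrivial F] in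
theorem isIntegral_algebraMap_subalgebra (B : Subalgebra k F) (c : k) :
    IsIntegral B (algebraMap k F c) := by
  rw [IsScalarTower.algebraMap_apply k B F c]
  exact isIntegral_algebraMap

omit [Nontrivial F] in
theorem isIntegral_of_mem_subalgebra (B : Subalgebra k F) {a : F} (ha : a ∈ B) :
    IsIntegral B a := by
  have : a = algebraMap B F ⟨a, ha⟩ := rfl
  rw [this]
  exact isIntegral_algebraMap

end Generic

end RRSubAux

open RRSubAux

variable {k : Type*} [Field k]

/-- `L(n·(x)_∞)`: integral over `k[x]`, and `y / x ^ n` integral over `k[1/x]`. -/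
def rrSub (x : LaurentSeries k) (n : ℕ) : Submodule k (LaurentSeries k) where
  carrier := {y | IsIntegral (Algebra.adjoin k {x}) y ∧
    IsIntegral (Algebra.adjoin k {x⁻¹}) (y * x⁻¹ ^ n)}
  add_mem' := by
    rintro a b ⟨ha1, ha2⟩ ⟨hb1, hb2⟩
    exact ⟨ha1.add hb1, by rw [add_mul]; exact ha2.add hb2⟩
  zero_mem' := ⟨isIntegral_zero, by rw [zero_mul]; exact isIntegral_zero⟩
  smul_mem' := by
    rintro c y ⟨h1, h2⟩
    have hc : ∀ B : Subalgebra k (LaurentSeries k),
        IsIntegral B (HahnSeries.C c : LaurentSeries k) := fun B => by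
      rw [← LaurentSeries.algebraMap_apply]
      exact isIntegral_algebraMap_subalgebra B c
    show IsIntegral _ (c • y) ∧ IsIntegral _ (c • y * x⁻¹ ^ n)
    rw [← HahnSeries.C_mul_eq_smul]
    exact ⟨(hc _).mul h1, by rw [mul_assoc]; exact (hc _).mul h2⟩

theorem mem_rrSub_iff {x : LaurentSeries k} {n : ℕ} {y : LaurentSeries k} :
    y ∈ rrSub x n ↔ IsIntegral (Algebra.adjoin k {x}) y ∧
      IsIntegral (Algebra.adjoin k {x⁻¹}) (y * x⁻¹ ^ n) :=
  Iff.rfl

theorem rrSub_mono {x : LaurentSeries k} {m n : ℕ} (h : m ≤ n) : rrSub x m ≤ rrSub x n := by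
  rintro y ⟨h1, h2⟩
  refine ⟨h1, ?_⟩
  obtain ⟨d, rfl⟩ := Nat.exists_eq_add_of_le h
  rw [pow_add, ← mul_assoc]
  refine h2.mul ?_
  exact isIntegral_of_mem_subalgebra _
    (Subalgebra.pow_mem _ (Algebra.subset_adjoin (Set.mem_singleton _)) d)

/-- every element of `k[x]` becomes an element of `k[1/x]` after division by a high power of
`x`. -/
theorem RRSubAux.exists_bound_mul_inv_pow_mem (x : LaurentSeries k) {a : LaurentSeries k}
    (ha : a ∈ Algebra.adjoin k {x}) :
    ∃ N : ℕ, ∀ n, N ≤ n → a * x⁻¹ ^ n ∈ Algebra.adjoin k {x⁻¹} := by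
  have hxinv : x⁻¹ ∈ Algebra.adjoin k {x⁻¹} := Algebra.subset_adjoin (Set.mem_singleton _)
  induction ha using Algebra.adjoin_induction with
  | mem y hy =>
    rw [Set.mem_singleton_iff] at hy
    subst hy
    refine ⟨1, fun n hn => ?_⟩
    obtain ⟨m, rfl⟩ := Nat.exists_eq_add_of_le hn
    by_cases hx : y = 0
    · subst hx
      rw [zero_mul]
      exact zero_mem _
    · rw [pow_add, pow_one, ← mul_assoc, mul_inv_cancel₀ hx, one_mul]
      exact Subalgebra.pow_mem _ hxinv m
  | algebraMap c =>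
    exact ⟨0, fun n _ => Subalgebra.mul_mem _ (Subalgebra.algebraMap_mem _ c)
      (Subalgebra.pow_mem _ hxinv n)⟩
  | add a b _ _ iha ihb =>
    obtain ⟨Na, hNa⟩ := iha
    obtain ⟨Nb, hNb⟩ := ihb
    refine ⟨max Na Nb, fun n hn => ?_⟩
    rw [add_mul]
    exact add_mem (hNa n (le_trans (le_max_left _ _) hn)) (hNb n (le_trans (le_max_right _ _) hn))
  | mul a b _ _ iha ihb =>
    obtain ⟨Na, hNa⟩ := iha
    obtain ⟨Nb, hNb⟩ := ihb
    refine ⟨Na + Nb, fun n hn => ?_⟩
    obtain ⟨m, rfl⟩ := Nat.exists_eq_add_of_le hn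
    have : a * b * x⁻¹ ^ (Na + Nb + m) = (a * x⁻¹ ^ Na) * (b * x⁻¹ ^ (Nb + m)) := by
      rw [pow_add, pow_add, pow_add]; ring
    rw [this]
    exact mul_mem (hNa Na le_rfl) (hNb (Nb + m) (Nat.le_add_right _ _))

theorem exists_mul_mem_rrSub {x : LaurentSeries k} (w : LaurentSeries k)
    (hw : IsAlgebraic (Algebra.adjoin k {x}) w) :
    ∃ e ∈ Algebra.adjoin k {x}, e ≠ 0 ∧ ∃ n, e * w ∈ rrSub x n := by
  obtain ⟨e, he0, hint⟩ := hw.exists_integral_multiple
  refine ⟨(e : LaurentSeries k), e.2, fun h => he0 (Subtype.ext h), ?_⟩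
  have hint' : IsIntegral (Algebra.adjoin k {x}) ((e : LaurentSeries k) * w) := hint
  obtain ⟨P, hPm, hPc, hPr⟩ := (RRSubAux.isIntegral_subalgebra_iff _ _).1 hint'
  -- a common bound for all coefficients
  choose N hN using fun i => exists_bound_mul_inv_pow_mem x (hPc i)
  set n := (Finset.range (P.natDegree + 1)).sup N with hn
  refine ⟨n, hint', ?_⟩
  refine (RRSubAux.isIntegral_subalgebra_iff _ _).2 ⟨P.scaleRoots (x⁻¹ ^ n), ?_, fun i => ?_, ?_⟩
  · exact (monic_scaleRoots_iff _).2 hPm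
  · rw [coeff_scaleRoots]
    rcases lt_trichotomy i P.natDegree with hi | hi | hi
    · rw [← pow_mul]
      refine hN i _ ?_
      have h1 : N i ≤ n := Finset.le_sup (f := N) (Finset.mem_range.2 (by omega))
      have h2 : 1 ≤ P.natDegree - i := by omega
      calc N i ≤ n := h1
        _ = n * 1 := (mul_one n).symm
        _ ≤ n * (P.natDegree - i) := Nat.mul_le_mul_left n h2
    · subst hi
      rw [Nat.sub_self, pow_zero, mul_one, coeff_natDegree, hPm.leadingCoeff]
      exact one_mem _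
    · rw [coeff_eq_zero_of_natDegree_lt hi, zero_mul]
      exact zero_mem _
  · have := scaleRoots_eval₂_eq_zero (RingHom.id (LaurentSeries k)) (r := (e : LaurentSeries k) * w)
      (s := x⁻¹ ^ n) (p := P) (by rw [eval₂_id]; exact hPr)
    rw [eval₂_id, RingHom.id_apply, mul_comm] at this
    exact this

theorem RRSubAux.coeffMap_mem_adjoin (σ : k →+* k) {x : LaurentSeries k} (hσ : coeffMap σ x = x)
    {a : LaurentSeries k} (ha : a ∈ Algebra.adjoin k {x}) :
    coeffMap σ a ∈ Algebra.adjoin k {x} := by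
  induction ha using Algebra.adjoin_induction with
  | mem y hy =>
    rw [Set.mem_singleton_iff] at hy
    subst hy
    rw [hσ]
    exact Algebra.subset_adjoin (Set.mem_singleton _)
  | algebraMap c =>
    rw [coeffMap_algebraMap]
    exact Subalgebra.algebraMap_mem _ _
  | add a b _ _ iha ihb => rw [map_add]; exact add_mem iha ihb
  | mul a b _ _ iha ihb => rw [map_mul]; exact mul_mem iha ihb

theorem RRSubAux.isIntegral_coeffMap (σ : k →+* k) {x : LaurentSeries k} (hσ : coeffMap σ x = x)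
    {y : LaurentSeries k} (hy : IsIntegral (Algebra.adjoin k {x}) y) :
    IsIntegral (Algebra.adjoin k {x}) (coeffMap σ y) := by
  obtain ⟨P, hPm, hPc, hPr⟩ := (RRSubAux.isIntegral_subalgebra_iff _ _).1 hy
  refine (RRSubAux.isIntegral_subalgebra_iff _ _).2 ⟨P.map (coeffMap σ), hPm.map _, fun i => ?_, ?_⟩
  · rw [coeff_map]
    exact coeffMap_mem_adjoin σ hσ (hPc i)
  · rw [eval_map, eval₂_hom, hPr, map_zero]

theorem coeffMap_mem_rrSub (σ : k ≃+* k) {x : LaurentSeries k}
    (hσ : coeffMap (σ : k →+* k) x = x) {n : ℕ} {y : LaurentSeries k} (hy : y ∈ rrSub x n) :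
    coeffMap (σ : k →+* k) y ∈ rrSub x n := by
  obtain ⟨h1, h2⟩ := hy
  have hσ' : coeffMap (σ : k →+* k) x⁻¹ = x⁻¹ := by rw [map_inv₀, hσ]
  refine ⟨isIntegral_coeffMap _ hσ h1, ?_⟩
  have := isIntegral_coeffMap (σ : k →+* k) hσ' h2
  rwa [map_mul, map_pow, hσ'] at this

/-- `p`-th roots of unity in `k((q))` are constants. -/
theorem eq_C_of_pow_eq_one [IsAlgClosed k] {p : ℕ} (hp : 0 < p) (hpk : (p : k) ≠ 0)
    {ζ : LaurentSeries k} (h : ζ ^ p = 1) : ∃ c : k, ζ = HahnSeries.C c := by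
  have _ := hpk
  have hne : (X ^ p - C (1 : k) : k[X]) ≠ 0 := X_pow_sub_C_ne_zero hp _
  have hroot : ((X ^ p - C (1 : k) : k[X]).map (HahnSeries.C : k →+* LaurentSeries k)).IsRoot ζ := by
    rw [IsRoot, eval_map, eval₂_sub, eval₂_pow, eval₂_X, eval₂_C, h, map_one, sub_self]
  obtain ⟨c, hc⟩ := (IsAlgClosed.splits _).mem_range_of_isRoot hne hroot
  exact ⟨c, hc.symm⟩

end Fermat.Agent.ES.RRFin
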