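import Fermat.Agent.ES.DescentCore
import Fermat.Agent.ES.RRFin
import Fermat.Agent.ES.RRSub

/-!
# ESpkg-G1, piece A6-surj (S3): descent of a finite family of `K`-lines in `ℂ((q))`

`K ⊆ ℂ((q))` a field, finite over `ℂ(x)` (`x` with a pole at `q = 0`, `Aut ℂ`-fixed), stable under
the coefficientwise action of `Aut ℂ`; `S` a finite set of nonzero series `w` with some power in
`K`, such that the lines `K·w` (`w ∈ S`) are permuted by `Aut ℂ`.  Then every line `K·w` contains a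
nonzero series with algebraic coefficients (`exists_algebraic_mul_of_finite_lines`).

Proof: `W_w := L(n·(x)_∞) ∩ K·w` is a finite-dimensional `ℂ`-subspace (`RRFin.val_bounds`), nonzero
for `n ≫ 0`, and `σ W_w = W_{w'}`; apply the echelon descent of `DescentCore`.
-/

set_option autoImplicit false

noncomputable section

namespace Fermat.Agent.ES.RRFin

open ModularCurve IntermediateField Polynomial

/-- the coefficient function of a Laurent series, as a linear map. -/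
def coeffLin : LaurentSeries ℂ →ₗ[ℂ] (ℤ → ℂ) where
  toFun y := y.coeff
  map_add' y z := by
    funext i
    simp
  map_smul' c y := by
    funext i
    simp

@[simp] theorem coeffLin_apply (y : LaurentSeries ℂ) (m : ℤ) : coeffLin y m = y.coeff m := rfl

theorem coeffLin_injective : Function.Injective coeffLin := by
  intro a b h
  ext m
  exact congrFun h m

theorem coeffLin_coeffMap (σ : ℂ ≃+* ℂ) (y : LaurentSeries ℂ) :
    coeffLin (coeffMap (σ : ℂ →+* ℂ) y) = Fermat.Agent.ES.coeffAct σ (coeffLin y) := rfl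

theorem coeffMap_symm_coeffMap (σ : ℂ ≃+* ℂ) (y : LaurentSeries ℂ) :
    coeffMap (σ.symm : ℂ →+* ℂ) (coeffMap (σ : ℂ →+* ℂ) y) = y := by
  ext m
  simp

theorem coeffMap_coeffMap_symm (σ : ℂ ≃+* ℂ) (y : LaurentSeries ℂ) :
    coeffMap (σ : ℂ →+* ℂ) (coeffMap (σ.symm : ℂ →+* ℂ) y) = y := by
  ext m
  simp

/-- the `K`-line through `w`, as a `ℂ`-subspace. -/
def lineSub (K : IntermediateField ℂ (LaurentSeries ℂ)) (w : LaurentSeries ℂ) :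
    Submodule ℂ (LaurentSeries ℂ) where
  carrier := {y | ∃ c ∈ K, y = c * w}
  add_mem' := by
    rintro a b ⟨c, hc, rfl⟩ ⟨c', hc', rfl⟩
    exact ⟨c + c', add_mem hc hc', by ring⟩
  zero_mem' := ⟨0, zero_mem _, by ring⟩
  smul_mem' := by
    rintro a y ⟨c, hc, rfl⟩
    refine ⟨algebraMap ℂ _ a * c, mul_mem (K.algebraMap_mem a) hc, ?_⟩
    rw [← HahnSeries.C_mul_eq_smul, LaurentSeries.algebraMap_apply, mul_assoc]

theorem mem_lineSub {K : IntermediateField ℂ (LaurentSeries ℂ)} {w y : LaurentSeries ℂ} :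
    y ∈ lineSub K w ↔ ∃ c ∈ K, y = c * w := Iff.rfl

/-- the valuation of a nonzero constant is `1`. -/
theorem val_algebraMap_eq_one (c : ℂ) (hc : c ≠ 0) :
    Valued.v (algebraMap ℂ (LaurentSeries ℂ) c) = 1 := by
  have hle : ∀ a : ℂ, Valued.v (algebraMap ℂ (LaurentSeries ℂ) a) ≤ 1 := by
    intro a
    rw [← WithZero.exp_zero, ← neg_zero, LaurentSeries.valuation_le_iff_coeff_lt_eq_zero]
    intro m hm
    rw [algebraMap_laurentSeries_eq_single, HahnSeries.coeff_single_of_ne hm.ne]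
  refine le_antisymm (hle c) ?_
  have h1 := hle c⁻¹
  have h2 : Valued.v (algebraMap ℂ (LaurentSeries ℂ) c) *
      Valued.v (algebraMap ℂ (LaurentSeries ℂ) c⁻¹) = 1 := by
    rw [← map_mul, ← map_mul, mul_inv_cancel₀ hc, map_one, map_one]
  have hpos : Valued.v (algebraMap ℂ (LaurentSeries ℂ) c) ≠ 0 := by
    intro h
    rw [h, zero_mul] at h2
    exact zero_ne_one h2
  calc (1 : WithZero (Multiplicative ℤ)) = Valued.v (algebraMap ℂ (LaurentSeries ℂ) c) *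
      Valued.v (algebraMap ℂ (LaurentSeries ℂ) c⁻¹) := h2.symm
    _ ≤ Valued.v (algebraMap ℂ (LaurentSeries ℂ) c) * 1 := by gcongr
    _ = _ := mul_one _

/-- transport of `L(n·(x)_∞) ∩ K·w` under a coefficientwise automorphism. -/
theorem coeffMap_mem_inf {x : LaurentSeries ℂ} {K : IntermediateField ℂ (LaurentSeries ℂ)}
    (σ : ℂ ≃+* ℂ) (hσx : coeffMap (σ : ℂ →+* ℂ) x = x)
    (hKσ : ∀ y ∈ K, coeffMap (σ : ℂ →+* ℂ) y ∈ K) {n : ℕ} {w w' c : LaurentSeries ℂ}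
    (hc : c ∈ K) (hw : coeffMap (σ : ℂ →+* ℂ) w = c * w') {y : LaurentSeries ℂ}
    (hy : y ∈ rrSub x n ⊓ lineSub K w) :
    coeffMap (σ : ℂ →+* ℂ) y ∈ rrSub x n ⊓ lineSub K w' := by
  refine ⟨coeffMap_mem_rrSub σ hσx hy.1, ?_⟩
  obtain ⟨c₁, hc₁, rfl⟩ := hy.2
  exact ⟨coeffMap (σ : ℂ →+* ℂ) c₁ * c, mul_mem (hKσ c₁ hc₁) hc, by rw [map_mul, hw]; ring⟩

/-- integrality over `ℂ(x)` and a uniform degree bound on the lines `K·w`, `w ∈ S`. -/
theorem exists_degree_bound (x : LaurentSeries ℂ)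
    (K : IntermediateField ℂ (LaurentSeries ℂ)) (hxK : x ∈ K)
    (hKfin : (IntermediateField.adjoin ℂ {x}).relfinrank K ≠ 0)
    (S : Set (LaurentSeries ℂ)) (hSfin : S.Finite)
    (hSpow : ∀ w ∈ S, ∃ p : ℕ, 0 < p ∧ w ^ p ∈ K) :
    (∀ w ∈ S, IsIntegral ℂ⟮x⟯ w) ∧
      ∃ d : ℕ, ∀ c ∈ K, ∀ w ∈ S, (minpoly ℂ⟮x⟯ (c * w)).natDegree ≤ d := by
  have hle : ℂ⟮x⟯ ≤ K := adjoin_simple_le_iff.2 hxK
  set K₀ : IntermediateField ℂ⟮x⟯ (LaurentSeries ℂ) := extendScalars hle with hK₀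
  have hfinK : FiniteDimensional ℂ⟮x⟯ K₀ := by
    apply FiniteDimensional.of_finrank_pos
    rw [← relfinrank_eq_finrank_of_le hle]
    exact Nat.pos_of_ne_zero hKfin
  have hintK : Algebra.IsIntegral ℂ⟮x⟯ K₀ := Algebra.IsIntegral.of_finite ℂ⟮x⟯ K₀
  have hSint : ∀ w ∈ S, IsIntegral ℂ⟮x⟯ w := by
    intro w hw
    obtain ⟨p, hp, hwp⟩ := hSpow w hw
    have h1 : IsIntegral K₀ (w ^ p) := by
      have : w ^ p = algebraMap K₀ (LaurentSeries ℂ) ⟨w ^ p, hwp⟩ := rfl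
      rw [this]
      exact isIntegral_algebraMap
    have h2 : IsIntegral K₀ w := IsIntegral.of_pow hp h1
    exact isIntegral_trans (R := ℂ⟮x⟯) (A := K₀) w h2
  refine ⟨hSint, ?_⟩
  have hSf : Finite S := hSfin.to_subtype
  have hfinS : FiniteDimensional ℂ⟮x⟯ (adjoin ℂ⟮x⟯ S) := finiteDimensional_adjoin hSint
  set E : IntermediateField ℂ⟮x⟯ (LaurentSeries ℂ) := K₀ ⊔ adjoin ℂ⟮x⟯ S with hE
  have hfinE : FiniteDimensional ℂ⟮x⟯ E := IntermediateField.finiteDimensional_sup K₀ _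
  refine ⟨Module.finrank ℂ⟮x⟯ E, fun c hc w hw => ?_⟩
  have hy : c * w ∈ E :=
    mul_mem ((le_sup_left : K₀ ≤ E) ((mem_extendScalars hle).2 hc))
      ((le_sup_right : adjoin ℂ⟮x⟯ S ≤ E) (subset_adjoin _ _ hw))
  haveI hfree : Module.Free ℂ⟮x⟯ E := Module.Free.of_divisionRing ℂ⟮x⟯ E
  have := minpoly.natDegree_le (A := ℂ⟮x⟯) (⟨c * w, hy⟩ : E)
  rwa [IntermediateField.minpoly_eq] at this

open scoped IntermediateField.algebraAdjoinAdjoin in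
theorem isAlgebraic_adjoin_of_isIntegral {x w : LaurentSeries ℂ} (hw : IsIntegral ℂ⟮x⟯ w) :
    IsAlgebraic (Algebra.adjoin ℂ {x}) w := by
  rw [IsFractionRing.isAlgebraic_iff (Algebra.adjoin ℂ {x}) ℂ⟮x⟯ (LaurentSeries ℂ)]
  exact hw.isAlgebraic

/-- **Descent of a finite `Aut ℂ`-stable family of `K`-lines.** -/
theorem exists_algebraic_mul_of_finite_lines
    (x : LaurentSeries ℂ) (hx : 1 < Valued.v x)
    (hxσ : ∀ σ : ℂ ≃+* ℂ, coeffMap (σ : ℂ →+* ℂ) x = x)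
    (K : IntermediateField ℂ (LaurentSeries ℂ)) (hxK : x ∈ K)
    (hKfin : (IntermediateField.adjoin ℂ {x}).relfinrank K ≠ 0)
    (hKσ : ∀ σ : ℂ ≃+* ℂ, ∀ y ∈ K, coeffMap (σ : ℂ →+* ℂ) y ∈ K)
    (S : Set (LaurentSeries ℂ)) (hSfin : S.Finite) (hS0 : ∀ w ∈ S, w ≠ 0)
    (hSpow : ∀ w ∈ S, ∃ p : ℕ, 0 < p ∧ w ^ p ∈ K)
    (hSσ : ∀ σ : ℂ ≃+* ℂ, ∀ w ∈ S, ∃ w' ∈ S, ∃ c ∈ K, c ≠ 0 ∧
      coeffMap (σ : ℂ →+* ℂ) w = c * w') :
    ∀ w ∈ S, ∃ c ∈ K, c ≠ 0 ∧ ∀ m : ℤ, IsAlgebraic ℚ ((c * w).coeff m) := by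
  classical
  -- (1) a degree bound
  obtain ⟨hSint, d, hdeg⟩ := exists_degree_bound x K hxK hKfin S hSfin hSpow
  haveI : Finite S := hSfin.to_subtype
  -- (2) the pole bound `n`
  have hSalg : ∀ w ∈ S, IsAlgebraic (Algebra.adjoin ℂ {x}) w := fun w hw =>
    isAlgebraic_adjoin_of_isIntegral (hSint w hw)
  choose! e he1 he0 nn hnn using fun w (hw : w ∈ S) => exists_mul_mem_rrSub w (hSalg w hw)
  set n := hSfin.toFinset.sup nn with hn
  have hen : ∀ w ∈ S, e w * w ∈ rrSub x n := fun w hw =>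
    rrSub_mono (Finset.le_sup (f := nn) (hSfin.mem_toFinset.2 hw)) (hnn w hw)
  have heK : ∀ w ∈ S, e w ∈ K := by
    intro w hw
    have : Algebra.adjoin ℂ {x} ≤ K.toSubalgebra :=
      Algebra.adjoin_le (by
        intro z hz
        rw [Set.mem_singleton_iff] at hz
        rw [hz]; exact hxK)
    exact this (he1 w hw)
  -- (3) the family of subspaces
  set Ws : S → Submodule ℂ (ℤ → ℂ) := fun w =>
    (rrSub x n ⊓ lineSub K (w : LaurentSeries ℂ)).map coeffLin with hWs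
  -- (4) stability
  have hstab : ∀ (σ : ℂ ≃+* ℂ) (i : S), ∃ j : S, ∀ F : ℤ → ℂ,
      F ∈ Ws j ↔ ∃ f ∈ Ws i, F = Fermat.Agent.ES.coeffAct σ f := by
    intro σ i
    obtain ⟨w', hw', c, hc, hc0, hcw⟩ := hSσ σ i.1 i.2
    refine ⟨⟨w', hw'⟩, fun F => ?_⟩
    constructor
    · rintro ⟨y', hy', rfl⟩
      -- pull back by `σ⁻¹`
      have hc' : coeffMap (σ.symm : ℂ →+* ℂ) c ≠ 0 := by
        intro h
        apply hc0
        have := congrArg (coeffMap (σ : ℂ →+* ℂ)) h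
        rwa [coeffMap_coeffMap_symm, map_zero] at this
      have hrel : coeffMap (σ.symm : ℂ →+* ℂ) w' =
          (coeffMap (σ.symm : ℂ →+* ℂ) c)⁻¹ * (i : LaurentSeries ℂ) := by
        have := congrArg (coeffMap (σ.symm : ℂ →+* ℂ)) hcw
        rw [coeffMap_symm_coeffMap, map_mul] at this
        rw [this, ← mul_assoc, inv_mul_cancel₀ hc', one_mul]
      have hy := coeffMap_mem_inf (x := x) (K := K) σ.symm (hxσ σ.symm) (hKσ σ.symm)
        (inv_mem (hKσ σ.symm c hc)) hrel hy'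
      refine ⟨coeffLin (coeffMap (σ.symm : ℂ →+* ℂ) y'), ⟨_, hy, rfl⟩, ?_⟩
      rw [← coeffLin_coeffMap, coeffMap_coeffMap_symm]
    · rintro ⟨f, ⟨y, hy, rfl⟩, rfl⟩
      exact ⟨coeffMap (σ : ℂ →+* ℂ) y,
        coeffMap_mem_inf (x := x) (K := K) σ (hxσ σ) (hKσ σ) hc hcw hy, coeffLin_coeffMap σ y⟩
  intro w hw
  -- (5) finite-dimensionality
  haveI hfd : FiniteDimensional ℂ (rrSub x n ⊓ lineSub K w : Submodule ℂ (LaurentSeries ℂ)) := by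
    have hvx : Valued.v x ≠ 0 := ne_of_gt (zero_lt_one.trans hx)
    refine finiteDimensional_of_val_bounds _ (Valued.v x ^ n) (Valued.v x ^ ((d - 1) * n))⁻¹
      (inv_ne_zero (pow_ne_zero _ hvx)) ?_
    rintro y ⟨⟨h1, h2⟩, ⟨c, hc, rfl⟩⟩ hy0
    obtain ⟨hb1, hb2⟩ := val_bounds (k := ℂ) (L := LaurentSeries ℂ) Valued.v val_algebraMap_eq_one
      hx n d hy0 h1 h2 (hdeg c hc w hw)
    refine ⟨hb1, ?_⟩
    rw [inv_le_iff_one_le_mul₀ (pow_pos (zero_lt_one.trans hx) _)]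
    exact hb2
  haveI : FiniteDimensional ℂ (Ws ⟨w, hw⟩) := by
    rw [hWs]
    infer_instance
  -- (6) non-triviality
  have hne : Ws ⟨w, hw⟩ ≠ ⊥ := by
    intro h
    have hmem : coeffLin (e w * w) ∈ Ws ⟨w, hw⟩ :=
      ⟨e w * w, ⟨hen w hw, ⟨e w, heK w hw, rfl⟩⟩, rfl⟩
    rw [h, Submodule.mem_bot] at hmem
    have := coeffLin_injective (hmem.trans (map_zero coeffLin).symm)
    exact mul_ne_zero (he0 w hw) (hS0 w hw) this
  -- (7) descent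
  obtain ⟨F, hF, hF0, hFalg⟩ :=
    Fermat.Agent.ES.exists_ne_zero_algebraic_of_finite_family Ws hstab ⟨w, hw⟩ hne
  obtain ⟨y, ⟨_, ⟨c, hc, rfl⟩⟩, rfl⟩ := hF
  refine ⟨c, hc, ?_, fun m => hFalg m⟩
  rintro rfl
  apply hF0
  rw [zero_mul, map_zero]

/-- series with algebraic coefficients are closed under multiplication. -/
theorem isAlgebraic_coeff_mul {y z : LaurentSeries ℂ} (hy : ∀ m : ℤ, IsAlgebraic ℚ (y.coeff m))
    (hz : ∀ m : ℤ, IsAlgebraic ℚ (z.coeff m)) (m : ℤ) : IsAlgebraic ℚ ((y * z).coeff m) := by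
  rw [HahnSeries.coeff_mul]
  have key : ∀ s : Finset (ℤ × ℤ), IsAlgebraic ℚ (∑ ij ∈ s, y.coeff ij.1 * z.coeff ij.2) := by
    intro s
    induction s using Finset.induction_on with
    | empty => simpa using isAlgebraic_zero
    | insert a s ha ih =>
      rw [Finset.sum_insert ha]
      exact ((hy _).mul (hz _)).add ih
  exact key _

theorem isAlgebraic_coeff_pow {y : LaurentSeries ℂ} (hy : ∀ m : ℤ, IsAlgebraic ℚ (y.coeff m))
    (p : ℕ) (m : ℤ) : IsAlgebraic ℚ ((y ^ p).coeff m) := by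
  induction p generalizing m with
  | zero =>
    rw [pow_zero, HahnSeries.coeff_one]
    split_ifs
    · exact isAlgebraic_one
    · exact isAlgebraic_zero
  | succ p ih =>
    rw [pow_succ]
    exact isAlgebraic_coeff_mul ih hy m

/-- **A6-surj, generic form.**  `U ⊆ K^×` stable under `Aut ℂ` and under multiplication by
`p`-th powers of `K^×`, with finitely many classes modulo `p`-th powers, all of whose elements are
`p`-th powers in `ℂ((q))`: every class contains `w ^ p` with `w` of algebraic coefficients. -/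
theorem exists_algebraic_root (p : ℕ) (hp : 0 < p)
    (x : LaurentSeries ℂ) (hx : 1 < Valued.v x)
    (hxσ : ∀ σ : ℂ ≃+* ℂ, coeffMap (σ : ℂ →+* ℂ) x = x)
    (K : IntermediateField ℂ (LaurentSeries ℂ)) (hxK : x ∈ K)
    (hKfin : (IntermediateField.adjoin ℂ {x}).relfinrank K ≠ 0)
    (hKσ : ∀ σ : ℂ ≃+* ℂ, ∀ y ∈ K, coeffMap (σ : ℂ →+* ℂ) y ∈ K)
    (U : Set (LaurentSeries ℂ)) (hU0 : ∀ u ∈ U, u ≠ 0) (hUK : ∀ u ∈ U, u ∈ K)
    (hUσ : ∀ σ : ℂ ≃+* ℂ, ∀ u ∈ U, coeffMap (σ : ℂ →+* ℂ) u ∈ U)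
    (hUroot : ∀ u ∈ U, ∃ w : LaurentSeries ℂ, w ^ p = u)
    (hUfin : ∃ T : Set (LaurentSeries ℂ), T.Finite ∧ T ⊆ U ∧
      ∀ u ∈ U, ∃ t ∈ T, ∃ c ∈ K, c ≠ 0 ∧ u = t * c ^ p) :
    ∀ u ∈ U, ∃ c ∈ K, c ≠ 0 ∧ ∃ w : LaurentSeries ℂ, w ^ p = u * c ^ p ∧
      ∀ m : ℤ, IsAlgebraic ℚ (w.coeff m) := by
  classical
  obtain ⟨T, hTfin, hTU, hT⟩ := hUfin
  choose! rt hrt using hUroot
  set S : Set (LaurentSeries ℂ) := rt '' T with hS
  have hS0 : ∀ w ∈ S, w ≠ 0 := by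
    rintro _ ⟨t, ht, rfl⟩ h0
    have := hrt t (hTU ht)
    rw [h0, zero_pow hp.ne'] at this
    exact hU0 t (hTU ht) this.symm
  have hSpow : ∀ w ∈ S, ∃ q : ℕ, 0 < q ∧ w ^ q ∈ K := by
    rintro _ ⟨t, ht, rfl⟩
    exact ⟨p, hp, by rw [hrt t (hTU ht)]; exact hUK t (hTU ht)⟩
  have hSσ : ∀ σ : ℂ ≃+* ℂ, ∀ w ∈ S, ∃ w' ∈ S, ∃ c ∈ K, c ≠ 0 ∧
      coeffMap (σ : ℂ →+* ℂ) w = c * w' := by
    rintro σ _ ⟨t, ht, rfl⟩
    obtain ⟨t', ht', c, hc, hc0, hct⟩ := hT _ (hUσ σ t (hTU ht))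
    have hw'0 : rt t' ≠ 0 := hS0 _ ⟨t', ht', rfl⟩
    have hpow : (coeffMap (σ : ℂ →+* ℂ) (rt t) / (c * rt t')) ^ p = 1 := by
      rw [div_pow, ← map_pow, hrt t (hTU ht), hct, mul_pow, hrt t' (hTU ht'), mul_comm]
      exact div_self (mul_ne_zero (pow_ne_zero _ hc0) (hU0 t' (hTU ht')))
    obtain ⟨ζ, hζ⟩ := eq_C_of_pow_eq_one hp (by exact_mod_cast hp.ne') hpow
    have hζ0 : (HahnSeries.C ζ : LaurentSeries ℂ) ≠ 0 := by
      intro h
      rw [h] at hζ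
      rw [hζ, zero_pow hp.ne'] at hpow
      exact zero_ne_one hpow
    refine ⟨rt t', ⟨t', ht', rfl⟩, HahnSeries.C ζ * c, mul_mem ?_ hc, mul_ne_zero hζ0 hc0, ?_⟩
    · rw [← LaurentSeries.algebraMap_apply]
      exact K.algebraMap_mem ζ
    · rw [mul_assoc, ← hζ, div_mul_cancel₀ _ (mul_ne_zero hc0 hw'0)]
  have key := exists_algebraic_mul_of_finite_lines x hx hxσ K hxK hKfin hKσ S (hTfin.image rt)
    hS0 hSpow hSσ
  intro u hu
  obtain ⟨t, ht, c₁, hc₁, hc₁0, hut⟩ := hT u hu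
  obtain ⟨c₂, hc₂, hc₂0, halg⟩ := key (rt t) ⟨t, ht, rfl⟩
  refine ⟨c₂ / c₁, div_mem hc₂ hc₁, div_ne_zero hc₂0 hc₁0, c₂ * rt t, ?_, halg⟩
  rw [mul_pow, hrt t (hTU ht), hut, div_pow]
  field_simp

/-- the same, for the representative itself. -/
theorem exists_algebraic_rep (p : ℕ) (hp : 0 < p)
    (x : LaurentSeries ℂ) (hx : 1 < Valued.v x)
    (hxσ : ∀ σ : ℂ ≃+* ℂ, coeffMap (σ : ℂ →+* ℂ) x = x)
    (K : IntermediateField ℂ (LaurentSeries ℂ)) (hxK : x ∈ K)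
    (hKfin : (IntermediateField.adjoin ℂ {x}).relfinrank K ≠ 0)
    (hKσ : ∀ σ : ℂ ≃+* ℂ, ∀ y ∈ K, coeffMap (σ : ℂ →+* ℂ) y ∈ K)
    (U : Set (LaurentSeries ℂ)) (hU0 : ∀ u ∈ U, u ≠ 0) (hUK : ∀ u ∈ U, u ∈ K)
    (hUσ : ∀ σ : ℂ ≃+* ℂ, ∀ u ∈ U, coeffMap (σ : ℂ →+* ℂ) u ∈ U)
    (hUroot : ∀ u ∈ U, ∃ w : LaurentSeries ℂ, w ^ p = u)
    (hUfin : ∃ T : Set (LaurentSeries ℂ), T.Finite ∧ T ⊆ U ∧
      ∀ u ∈ U, ∃ t ∈ T, ∃ c ∈ K, c ≠ 0 ∧ u = t * c ^ p) :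
    ∀ u ∈ U, ∃ c ∈ K, c ≠ 0 ∧ ∀ m : ℤ, IsAlgebraic ℚ ((u * c ^ p).coeff m) := by
  intro u hu
  obtain ⟨c, hc, hc0, w, hw, halg⟩ :=
    exists_algebraic_root p hp x hx hxσ K hxK hKfin hKσ U hU0 hUK hUσ hUroot hUfin u hu
  exact ⟨c, hc, hc0, fun m => by rw [← hw]; exact isAlgebraic_coeff_pow halg p m⟩

end Fermat.Agent.ES.RRFin
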