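import Mathlib

/-!
# ESpkg-G1 piece A5, core algebra (helper39)

`Fermat.Agent.ES.modp_joint_kernel`: a family of integer matrices `A j` with a common eigenvector
over a domain `K ⊇ R` whose eigenvalues `z j` lie in a proper ideal `𝔪 ∋ p` of `R` has a nonzero
common kernel vector modulo `p`.  No commutativity of the `A j` is needed.
-/

set_option autoImplicit false

namespace Fermat.Agent.ES

open Matrix

section Core

variable {R K : Type*} [CommRing R] [CommRing K] [IsDomain K]

/-- **Core lemma (matrix form).**  -/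
theorem modp_joint_kernel (ι : R →+* K) (hι : Function.Injective ι)
    {r : ℕ} {J : Type*} (A : J → Matrix (Fin r) (Fin r) ℤ) (z : J → R)
    (p : ℕ) [Fact p.Prime] (𝔪 : Ideal R) (h𝔪 : 𝔪 ≠ ⊤) (hp : (p : R) ∈ 𝔪) (hz : ∀ j, z j ∈ 𝔪)
    (c : Fin r → K) (hc : c ≠ 0)
    (h : ∀ j, (Int.castRingHom K).mapMatrix (A j) *ᵥ c = ι (z j) • c) :
    ∃ x : Fin r → ZMod p, x ≠ 0 ∧ ∀ j, (Int.castRingHom (ZMod p)).mapMatrix (A j) *ᵥ x = 0 := by
  classical
  by_contra hcon
  push Not at hcon
  -- choose, for every nonzero vector, an index that does not kill it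
  let X := {x : Fin r → ZMod p // x ≠ 0}
  have hX : ∀ x : X, ∃ j, (Int.castRingHom (ZMod p)).mapMatrix (A j) *ᵥ x.1 ≠ 0 :=
    fun x => hcon x.1 x.2
  choose j hj using hX
  -- the joint map is injective
  let F : (Fin r → ZMod p) →ₗ[ZMod p] (X → Fin r → ZMod p) :=
    LinearMap.pi (fun x => Matrix.mulVecLin ((Int.castRingHom (ZMod p)).mapMatrix (A (j x))))
  have hF : LinearMap.ker F = ⊥ := by
    rw [LinearMap.ker_eq_bot']
    intro y hy
    by_contra hy0
    apply hj ⟨y, hy0⟩
    have := congrFun hy ⟨y, hy0⟩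
    simpa [F] using this
  obtain ⟨G, hG⟩ := LinearMap.exists_leftInverse_of_injective F hF
  -- matrices of the components of the left inverse
  let B : X → Matrix (Fin r) (Fin r) (ZMod p) :=
    fun x => LinearMap.toMatrix' (G ∘ₗ LinearMap.single (ZMod p) (fun _ : X => Fin r → ZMod p) x)
  have hB : ∑ x : X, B x * (Int.castRingHom (ZMod p)).mapMatrix (A (j x)) = 1 := by
    apply (Matrix.toLin' (R := ZMod p)).injective
    apply LinearMap.ext
    intro y
    rw [map_sum, LinearMap.sum_apply, Matrix.toLin'_one, LinearMap.id_apply]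
    have h1 : ∀ x : X, Matrix.toLin' (B x * (Int.castRingHom (ZMod p)).mapMatrix (A (j x))) y
        = G (Pi.single x (F y x)) := by
      intro x
      rw [Matrix.toLin'_mul]
      simp [B, F, Matrix.toLin'_toMatrix']
    rw [Finset.sum_congr rfl (fun x _ => h1 x), ← map_sum]
    rw [LinearMap.sum_single_apply (fun _ : X => Fin r → ZMod p) (F y)]
    exact LinearMap.congr_fun hG y
  -- integer lifts
  let Bt : X → Matrix (Fin r) (Fin r) ℤ := fun x => (B x).map (fun a => (a.cast : ℤ))
  have hBt : ∀ x, (Int.castRingHom (ZMod p)).mapMatrix (Bt x) = B x := by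
    intro x
    ext i k
    simp [Bt]
  -- the integer matrix `Σ Bt A` is `1` mod `p`
  let S : Matrix (Fin r) (Fin r) ℤ := ∑ x : X, Bt x * A (j x)
  have hS : (Int.castRingHom (ZMod p)).mapMatrix S = 1 := by
    simp only [S, map_sum, map_mul, hBt]
    exact hB
  -- the matrix Θ over `R`
  let Θ : Matrix (Fin r) (Fin r) R :=
    ∑ x : X, (Int.castRingHom R).mapMatrix (Bt x) *
      ((Int.castRingHom R).mapMatrix (A (j x)) - z (j x) • (1 : Matrix (Fin r) (Fin r) R))
  let π : R →+* R ⧸ 𝔪 := Ideal.Quotient.mk 𝔪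
  have hπz : ∀ j, π (z j) = 0 := fun j => Ideal.Quotient.eq_zero_iff_mem.mpr (hz j)
  have hπp : π (p : R) = 0 := Ideal.Quotient.eq_zero_iff_mem.mpr hp
  have hcomp : ∀ M : Matrix (Fin r) (Fin r) ℤ,
      π.mapMatrix ((Int.castRingHom R).mapMatrix M) = (Int.castRingHom (R ⧸ 𝔪)).mapMatrix M := by
    intro M
    ext i k
    simp
  have hΘπ : π.mapMatrix Θ = 1 := by
    have e1 : π.mapMatrix Θ = (Int.castRingHom (R ⧸ 𝔪)).mapMatrix S := by
      simp only [Θ, S, map_sum, map_mul, map_sub, hcomp]
      refine Finset.sum_congr rfl (fun x _ => ?_)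
      congr 1
      have : π.mapMatrix (z (j x) • (1 : Matrix (Fin r) (Fin r) R)) = 0 := by
        ext i k
        simp [Matrix.smul_apply, hπz]
      rw [this, sub_zero]
    rw [e1]
    ext i k
    have h2 := congrFun (congrFun hS i) k
    simp only [RingHom.mapMatrix_apply, Matrix.map_apply, Int.coe_castRingHom] at h2 ⊢
    -- `S i k ≡ δ_ik mod p`
    have h3 : ((S i k - (1 : Matrix (Fin r) (Fin r) ℤ) i k : ℤ) : ZMod p) = 0 := by
      rw [Int.cast_sub, h2]
      by_cases hik : i = k
      · subst hik; simp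
      · simp [hik]
    rw [ZMod.intCast_zmod_eq_zero_iff_dvd] at h3
    obtain ⟨q, hq⟩ := h3
    have h4 : S i k = (1 : Matrix (Fin r) (Fin r) ℤ) i k + p * q := by linarith
    rw [h4]
    have hp' : ((p : ℕ) : R ⧸ 𝔪) = 0 := by
      have : ((p : ℕ) : R ⧸ 𝔪) = π (p : R) := by simp
      rw [this, hπp]
    by_cases hik : i = k
    · subst hik; simp [hp']
    · simp [hik, hp']
  -- `Θ` kills `c` over `K`
  have hΘc : ι.mapMatrix Θ *ᵥ c = 0 := by
    have hcompK : ∀ M : Matrix (Fin r) (Fin r) ℤ,
        ι.mapMatrix ((Int.castRingHom R).mapMatrix M) = (Int.castRingHom K).mapMatrix M := by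
      intro M
      ext i k
      simp
    simp only [Θ, map_sum, map_mul, map_sub, hcompK]
    rw [Matrix.sum_mulVec]
    refine Finset.sum_eq_zero (fun x _ => ?_)
    rw [← Matrix.mulVec_mulVec, Matrix.sub_mulVec, h (j x)]
    have : ι.mapMatrix (z (j x) • (1 : Matrix (Fin r) (Fin r) R)) *ᵥ c = ι (z (j x)) • c := by
      have e : ι.mapMatrix (z (j x) • (1 : Matrix (Fin r) (Fin r) R))
          = ι (z (j x)) • (1 : Matrix (Fin r) (Fin r) K) := by
        ext i k
        by_cases hik : i = k
        · subst hik; simp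
        · simp [hik]
      rw [e, Matrix.smul_mulVec, Matrix.one_mulVec]
    rw [this, sub_self, Matrix.mulVec_zero]
  have hdetK : (ι.mapMatrix Θ).det = 0 := Matrix.exists_mulVec_eq_zero_iff.mp ⟨c, hc, hΘc⟩
  have hdet : Θ.det = 0 := by
    apply hι
    rw [RingHom.map_det, hdetK, map_zero]
  have h1 : π Θ.det = 1 := by rw [RingHom.map_det, hΘπ, Matrix.det_one]
  rw [hdet, map_zero] at h1
  apply h𝔪
  rw [Ideal.eq_top_iff_one]
  exact Ideal.Quotient.eq_zero_iff_mem.mp h1.symm

end Core

section Lattice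

variable {R K : Type*} [CommRing R] [Field K]

/-- **Core lemma (lattice form).**  `L` a finite free `ℤ`-module with endomorphisms `T j`, mapping
equivariantly to a `K`-vector space `W` such that `ℤ`-independent families stay `K`-independent.
A nonzero joint eigenvector in the `K`-span of `L` with eigenvalues in a proper ideal `𝔪 ∋ p` of
`R ⊆ K` produces `x ∈ L ∖ pL` with `T j x ∈ pL` for all `j`. -/
theorem lattice_joint_kernel (ι : R →+* K) (hι : Function.Injective ι)
    {L : Type*} [AddCommGroup L] [Module.Finite ℤ L] [Module.Free ℤ L]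
    {W : Type*} [AddCommGroup W] [Module K W] (e : L →+ W)
    (he : ∀ (n : ℕ) (b : Fin n → L), LinearIndependent ℤ b → LinearIndependent K (fun k => e (b k)))
    {J : Type*} (T : J → (L →+ L)) (TW : J → (W →ₗ[K] W))
    (hT : ∀ j x, TW j (e x) = e (T j x)) (z : J → R)
    (p : ℕ) [Fact p.Prime] (𝔪 : Ideal R) (h𝔪 : 𝔪 ≠ ⊤) (hp : (p : R) ∈ 𝔪) (hz : ∀ j, z j ∈ 𝔪)
    (v : W) (hv0 : v ≠ 0) (hvspan : v ∈ Submodule.span K (Set.range e))
    (hv : ∀ j, TW j v = ι (z j) • v) :
    ∃ x : L, (¬ ∃ y : L, x = p • y) ∧ ∀ j, ∃ y : L, T j x = p • y := by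
  classical
  set r := Module.finrank ℤ L with hr
  let b : Module.Basis (Fin r) ℤ L := Module.finBasis ℤ L
  have hind : LinearIndependent K (fun k => e (b k)) := he r b b.linearIndependent
  -- `v` is a `K`-combination of the `e (b k)`
  have hspan : Submodule.span K (Set.range e) ≤ Submodule.span K (Set.range fun k => e (b k)) := by
    rw [Submodule.span_le]
    rintro _ ⟨x, rfl⟩
    have hx : x = ∑ k, (b.repr x k) • b k := (b.sum_repr x).symm
    rw [hx, map_sum]
    refine Submodule.sum_mem _ (fun k _ => ?_)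
    rw [map_zsmul]
    rw [← Int.cast_smul_eq_zsmul K]
    exact Submodule.smul_mem _ _ (Submodule.subset_span ⟨k, rfl⟩)
  obtain ⟨c, hc⟩ := (Submodule.mem_span_range_iff_exists_fun K).mp (hspan hvspan)
  have hc0 : c ≠ 0 := by
    rintro rfl
    apply hv0
    rw [← hc]
    simp
  let A : J → Matrix (Fin r) (Fin r) ℤ := fun j => LinearMap.toMatrix b b (T j).toIntLinearMap
  -- `T j (b k) = Σ_i A j i k • b i`
  have hTb : ∀ j k, T j (b k) = ∑ i, (A j i k) • b i := by
    intro j k
    simp [A, LinearMap.toMatrix_apply]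
  have heig : ∀ j, (Int.castRingHom K).mapMatrix (A j) *ᵥ c = ι (z j) • c := by
    intro j
    have h1 : TW j v = ∑ i, ((Int.castRingHom K).mapMatrix (A j) *ᵥ c) i • e (b i) := by
      rw [← hc, map_sum]
      have h2 : ∀ k, TW j (c k • e (b k)) = ∑ i, (c k * ((A j i k : ℤ) : K)) • e (b i) := by
        intro k
        rw [map_smul, hT, hTb, map_sum, Finset.smul_sum]
        refine Finset.sum_congr rfl (fun i _ => ?_)
        rw [map_zsmul, ← Int.cast_smul_eq_zsmul K, smul_smul]
      rw [Finset.sum_congr rfl (fun k _ => h2 k), Finset.sum_comm]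
      refine Finset.sum_congr rfl (fun i _ => ?_)
      rw [← Finset.sum_smul]
      congr 1
      simp only [Matrix.mulVec, dotProduct, RingHom.mapMatrix_apply, Matrix.map_apply,
        Int.coe_castRingHom]
      exact Finset.sum_congr rfl (fun k _ => mul_comm _ _)
    have h3 : TW j v = ∑ i, (ι (z j) • c) i • e (b i) := by
      rw [hv, ← hc, Finset.smul_sum]
      refine Finset.sum_congr rfl (fun i _ => ?_)
      rw [Pi.smul_apply, smul_eq_mul, smul_smul]
    have h4 : ∑ i, (((Int.castRingHom K).mapMatrix (A j) *ᵥ c) i - (ι (z j) • c) i) • e (b i)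
        = 0 := by
      simp only [sub_smul, Finset.sum_sub_distrib]
      rw [← h1, ← h3, sub_self]
    have h5 := (Fintype.linearIndependent_iff.mp hind) _ h4
    funext i
    exact sub_eq_zero.mp (h5 i)
  obtain ⟨xb, hxb0, hxb⟩ := modp_joint_kernel ι hι A z p 𝔪 h𝔪 hp hz c hc0 heig
  -- lift `xb` to `L`
  let xt : Fin r → ℤ := fun k => ((xb k).cast : ℤ)
  have hxt : ∀ k, ((xt k : ℤ) : ZMod p) = xb k := fun k => ZMod.intCast_zmod_cast (xb k)
  refine ⟨∑ k, xt k • b k, ?_, ?_⟩
  · rintro ⟨y, hy⟩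
    apply hxb0
    funext k
    have h1 := congrArg (fun u => b.repr u k) hy
    simp only [b.repr_sum_self] at h1
    rw [← hxt k]
    have h2 : xt k = (p : ℤ) * b.repr y k := by
      rw [h1]
      simp
    rw [h2]
    simp
  · intro j
    have h1 : ∀ i, (p : ℤ) ∣ b.repr (T j (∑ k, xt k • b k)) i := by
      intro i
      have h2 := LinearMap.toMatrix_mulVec_repr b b (T j).toIntLinearMap (∑ k, xt k • b k)
      have h3 : b.repr (T j (∑ k, xt k • b k)) i = (A j *ᵥ xt) i := by
        have := congrFun h2 i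
        rw [b.repr_sum_self] at this
        exact this.symm
      rw [h3, ← ZMod.intCast_zmod_eq_zero_iff_dvd]
      have h4 := RingHom.map_mulVec (Int.castRingHom (ZMod p)) (A j) xt i
      have h5 : (⇑(Int.castRingHom (ZMod p)) ∘ xt) = xb := by
        funext k
        exact hxt k
      rw [h5] at h4
      have h6 := congrFun (hxb j) i
      simp only [RingHom.mapMatrix_apply] at h6
      rw [h6] at h4
      simpa using h4
    choose q hq using h1
    refine ⟨∑ i, q i • b i, ?_⟩
    rw [b.ext_elem_iff]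
    intro i
    rw [hq i, map_nsmul, Finsupp.smul_apply, b.repr_sum_self]
    simp

end Lattice

end Fermat.Agent.ES
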