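import Mathlib
import Fermat.Agent.ES.EigenCore

/-!
# ESpkg-G1 piece A5, the lattice of integral homomorphisms (helper39)

For a finitely generated group `G` and a set `P ⊆ G` ("parabolic elements"):

* `Fermat.Agent.ES.intHoms G P` : the `ℤ`-module of homomorphisms `G → ℤ` vanishing on `P`;
  it is finite and free;
* `ℤ`-independent families of integer-valued functions stay `ℂ`-independent
  (`linearIndependent_intCast_fun`);
* every homomorphism `G → ℂ` vanishing on `P` is a `ℂ`-combination of elements of `intHoms G P`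
  (`mem_span_range_castHom`);
* `Fermat.Agent.ES.exists_modp_eigen_hom` : the mod-`p` eigen-support statement for a family of
  natural endomorphisms of the functor `A ↦ Hom(G, A)`.
-/

set_option autoImplicit false

namespace Fermat.Agent.ES

section Indep

/-- Finitely many complex numbers have `ℤ`-coordinates: `ℤ`-independent families of integer-valued
functions stay `ℂ`-independent. -/
theorem linearIndependent_intCast_fun {X : Type*} {n : ℕ} (b : Fin n → X → ℤ)
    (hb : LinearIndependent ℤ b) :
    LinearIndependent ℂ (fun k : Fin n => fun x : X => ((b k x : ℤ) : ℂ)) := by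
  classical
  rw [Fintype.linearIndependent_iff]
  intro c hc
  -- the lattice generated by the coefficients
  let Λ : Submodule ℤ ℂ := Submodule.span ℤ (Set.range c)
  have : Module.Finite ℤ Λ := Module.Finite.span_of_finite ℤ (Set.finite_range c)
  have : Module.Free ℤ Λ := Module.free_of_finite_type_torsion_free'
  let ν := Module.finBasis ℤ Λ
  let c' : Fin n → Λ := fun k => ⟨c k, Submodule.subset_span ⟨k, rfl⟩⟩
  have hrel : ∀ x : X, ∑ k, (b k x) • c' k = 0 := by
    intro x
    apply Subtype.ext
    have h1 := congrFun hc x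
    simp only [Finset.sum_apply, Pi.smul_apply, smul_eq_mul, Pi.zero_apply] at h1
    rw [Submodule.coe_sum, Submodule.coe_zero, ← h1]
    refine Finset.sum_congr rfl (fun k _ => ?_)
    rw [Submodule.coe_smul, zsmul_eq_mul]
    exact mul_comm _ _
  have hcoord : ∀ m k, ν.coord m (c' k) = 0 := by
    intro m
    have h2 : ∑ k, (ν.coord m (c' k)) • b k = 0 := by
      funext x
      have h3 := congrArg (ν.coord m) (hrel x)
      rw [map_sum, map_zero] at h3
      simp only [Finset.sum_apply, Pi.smul_apply, smul_eq_mul, Pi.zero_apply]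
      rw [← h3]
      refine Finset.sum_congr rfl (fun k _ => ?_)
      rw [map_smul, smul_eq_mul, mul_comm]
    exact Fintype.linearIndependent_iff.mp hb _ h2
  intro k
  have h4 : c' k = 0 := ν.forall_coord_eq_zero_iff.mp (fun m => hcoord m k)
  exact congrArg Subtype.val h4

end Indep

section Lattice

variable (G : Type*) [Group G] (P : Set G)

/-- homomorphisms `G → ℤ` vanishing on `P` -/
def intHoms : Submodule ℤ (Additive G →+ ℤ) where
  carrier := {φ | ∀ g ∈ P, φ (Additive.ofMul g) = 0}
  zero_mem' := fun _ _ => rfl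
  add_mem' := by
    intro φ ψ hφ hψ g hg
    show φ (Additive.ofMul g) + ψ (Additive.ofMul g) = 0
    rw [hφ g hg, hψ g hg, add_zero]
  smul_mem' := by
    intro c φ hφ g hg
    show c • φ (Additive.ofMul g) = 0
    rw [hφ g hg, smul_zero]

variable {G P}

lemma mem_intHoms {φ : Additive G →+ ℤ} :
    φ ∈ intHoms G P ↔ ∀ g ∈ P, φ (Additive.ofMul g) = 0 := Iff.rfl

instance isTorsionFree_addHom_int : Module.IsTorsionFree ℤ (Additive G →+ ℤ) := by
  apply Module.IsTorsionFree.of_smul_eq_zero
  intro r φ h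
  by_cases hr : r = 0
  · exact Or.inl hr
  · right
    ext g
    have h1 : r • φ g = 0 := DFunLike.congr_fun h g
    rw [smul_eq_mul] at h1
    rcases mul_eq_zero.mp h1 with h2 | h2
    · exact absurd h2 hr
    · exact h2

variable (G) in
/-- `Hom(G, ℤ)` is a finite `ℤ`-module when `G` is finitely generated -/
theorem finite_addHom_int [Group.FG G] : Module.Finite ℤ (Additive G →+ ℤ) := by
  classical
  obtain ⟨S, hS, hSfin⟩ := AddGroup.fg_iff.mp (AddGroup.fg_of_group_fg (G := G))
  have : Finite S := hSfin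
  let ev : (Additive G →+ ℤ) →ₗ[ℤ] (S → ℤ) :=
    { toFun := fun φ s => φ (s : Additive G)
      map_add' := fun _ _ => rfl
      map_smul' := fun _ _ => rfl }
  refine Module.Finite.of_injective ev ?_
  intro φ ψ h
  exact AddMonoidHom.eq_of_eqOn_dense hS (fun s hs => congrFun h ⟨s, hs⟩)

variable (G P) in
theorem finite_intHoms [Group.FG G] : Module.Finite ℤ (intHoms G P) := by
  have := finite_addHom_int G
  infer_instance

variable (G P) in
theorem free_intHoms [Group.FG G] : Module.Free ℤ (intHoms G P) := by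
  have := finite_intHoms G P
  exact Module.free_of_finite_type_torsion_free'

/-- the map `Hom(G, ℤ) → Hom(G, ℂ)` -/
noncomputable def castHomC : (Additive G →+ ℤ) →+ (Additive G →+ ℂ) where
  toFun φ := (Int.castAddHom ℂ).comp φ
  map_zero' := by ext; simp
  map_add' φ ψ := by ext; simp

@[simp] lemma castHomC_apply (φ : Additive G →+ ℤ) (g : Additive G) :
    castHomC φ g = ((φ g : ℤ) : ℂ) := rfl

/-- `ℤ`-independent families of integral homs stay `ℂ`-independent -/
theorem linearIndependent_castHomC {n : ℕ} (b : Fin n → (Additive G →+ ℤ))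
    (hb : LinearIndependent ℤ b) : LinearIndependent ℂ (fun k => castHomC (b k)) := by
  -- pass to functions
  let toFunZ : (Additive G →+ ℤ) →ₗ[ℤ] (Additive G → ℤ) :=
    { toFun := fun φ g => φ g
      map_add' := fun _ _ => rfl
      map_smul' := fun _ _ => rfl }
  let toFunC : (Additive G →+ ℂ) →ₗ[ℂ] (Additive G → ℂ) :=
    { toFun := fun φ g => φ g
      map_add' := fun _ _ => rfl
      map_smul' := fun _ _ => rfl }
  have h1 : LinearIndependent ℤ (toFunZ ∘ b) := by
    apply hb.map'
    rw [LinearMap.ker_eq_bot]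
    intro φ ψ h
    ext g
    exact congrFun h g
  have h2 := linearIndependent_intCast_fun (toFunZ ∘ b) h1
  exact LinearIndependent.of_comp toFunC h2

/-- every hom `G → ℂ` vanishing on `P` is a `ℂ`-combination of integral homs vanishing on `P` -/
theorem mem_span_range_castHomC [Group.FG G] (v : Additive G →+ ℂ)
    (hv : ∀ g ∈ P, v (Additive.ofMul g) = 0) :
    v ∈ Submodule.span ℂ (Set.range fun x : intHoms G P => castHomC (x : Additive G →+ ℤ)) := by
  classical
  have hfg : AddGroup.FG (Additive G) := AddGroup.fg_of_group_fg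
  let Λ : Submodule ℤ ℂ := AddSubgroup.toIntSubmodule v.range
  have hΛfg : AddGroup.FG v.range := AddGroup.fg_range v
  have : Module.Finite ℤ Λ := Module.Finite.iff_addGroup_fg.mpr hΛfg
  have : Module.Free ℤ Λ := Module.free_of_finite_type_torsion_free'
  let ν := Module.finBasis ℤ Λ
  let v' : Additive G →+ Λ :=
    { toFun := fun g => ⟨v g, ⟨g, rfl⟩⟩
      map_zero' := Subtype.ext (map_zero v)
      map_add' := fun a b => Subtype.ext (map_add v a b) }
  let φ : Fin (Module.finrank ℤ Λ) → (Additive G →+ ℤ) :=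
    fun m => (ν.coord m).toAddMonoidHom.comp v'
  have hφ : ∀ m, φ m ∈ intHoms G P := by
    intro m g hg
    have h0 : v' (Additive.ofMul g) = 0 := Subtype.ext (hv g hg)
    show ν.coord m (v' (Additive.ofMul g)) = 0
    rw [h0, map_zero]
  have hsum : v = ∑ m, ((ν m : Λ) : ℂ) • castHomC (φ m) := by
    refine DFunLike.ext _ _ (fun g => ?_)
    have h1 := ν.sum_repr (v' g)
    have h2 := congrArg (Subtype.val) h1
    rw [Submodule.coe_sum] at h2
    have h3 : (v g : ℂ) = ((v' g : Λ) : ℂ) := rfl
    rw [h3, ← h2]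
    simp only [AddMonoidHom.coe_finsetSum, Finset.sum_apply, AddMonoidHom.smul_apply,
      castHomC_apply, smul_eq_mul]
    refine Finset.sum_congr rfl (fun m _ => ?_)
    rw [Submodule.coe_smul, zsmul_eq_mul, mul_comm]
    rfl
  rw [hsum]
  refine Submodule.sum_mem _ (fun m _ => ?_)
  exact Submodule.smul_mem _ _ (Submodule.subset_span ⟨⟨φ m, hφ m⟩, rfl⟩)


/-- saturation: an integral hom whose reduction mod `p` vanishes is `p` times an integral hom,
and the quotient still vanishes on `P` -/
theorem exists_eq_nsmul_of_castHom_eq_zero (p : ℕ) (hp0 : p ≠ 0) (x : Additive G →+ ℤ)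
    (hxP : x ∈ intHoms G P) (hx : (Int.castAddHom (ZMod p)).comp x = 0) :
    ∃ y : Additive G →+ ℤ, y ∈ intHoms G P ∧ x = p • y := by
  have hdvd : ∀ g, (p : ℤ) ∣ x g := by
    intro g
    have h1 : ((x g : ℤ) : ZMod p) = 0 := DFunLike.congr_fun hx g
    exact (ZMod.intCast_zmod_eq_zero_iff_dvd _ _).mp h1
  have hp0' : (p : ℤ) ≠ 0 := by exact_mod_cast hp0
  let y : Additive G →+ ℤ :=
    { toFun := fun g => x g / (p : ℤ)
      map_zero' := by simp
      map_add' := by
        intro a b
        show x (a + b) / (p : ℤ) = x a / (p : ℤ) + x b / (p : ℤ)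
        rw [map_add, Int.add_ediv_of_dvd_left (hdvd a)] }
  have hy : ∀ g, x g = p * y g := fun g => (Int.mul_ediv_cancel' (hdvd g)).symm
  refine ⟨y, ?_, ?_⟩
  · intro g hg
    have h1 := hy (Additive.ofMul g)
    rw [hxP g hg] at h1
    rcases mul_eq_zero.mp h1.symm with h2 | h2
    · exact absurd h2 hp0'
    · exact h2
  · refine DFunLike.ext _ _ (fun g => ?_)
    rw [hy g]
    simp

/-- **A5, generic form.**  Let `T j` be a family of natural endomorphisms of `A ↦ Hom(G, A)`
preserving the integral homs vanishing on `P`.  A nonzero joint eigenvector `v : G → ℂ` vanishing on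
`P` whose eigenvalues lie in a proper ideal `𝔪 ∋ p` of a subring `R ⊆ ℂ` yields an integral hom `x`
vanishing on `P` whose reduction mod `p` is nonzero and killed by all `T j`. -/
theorem exists_modp_eigen_hom [Group.FG G] {J : Type*}
    (T : J → ∀ (A : Type) [AddCommGroup A], (Additive G →+ A) →+ (Additive G →+ A))
    (hnat : ∀ (j : J) (A A' : Type) [AddCommGroup A] [AddCommGroup A'] (f : A →+ A')
      (φ : Additive G →+ A), T j A' (f.comp φ) = f.comp (T j A φ))
    (hpar : ∀ (j : J) (φ : Additive G →+ ℤ), φ ∈ intHoms G P → T j ℤ φ ∈ intHoms G P)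
    {R : Type*} [CommRing R] (ι : R →+* ℂ) (hι : Function.Injective ι) (z : J → R)
    (p : ℕ) [Fact p.Prime] (𝔪 : Ideal R) (h𝔪 : 𝔪 ≠ ⊤) (hp : (p : R) ∈ 𝔪) (hz : ∀ j, z j ∈ 𝔪)
    (v : Additive G →+ ℂ) (hv0 : v ≠ 0) (hvP : ∀ g ∈ P, v (Additive.ofMul g) = 0)
    (hv : ∀ j, T j ℂ v = ι (z j) • v) :
    ∃ x : Additive G →+ ℤ, x ∈ intHoms G P ∧ (Int.castAddHom (ZMod p)).comp x ≠ 0 ∧
      ∀ j, T j (ZMod p) ((Int.castAddHom (ZMod p)).comp x) = 0 := by
  classical
  have hfin := finite_intHoms G P
  have hfree := free_intHoms G P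
  -- the data for the lattice lemma
  let e : intHoms G P →+ (Additive G →+ ℂ) := castHomC.comp (intHoms G P).subtype.toAddMonoidHom
  have he_apply : ∀ x : intHoms G P, e x = castHomC (x : Additive G →+ ℤ) := fun _ => rfl
  let TL : J → (intHoms G P →+ intHoms G P) := fun j =>
    { toFun := fun x => ⟨T j ℤ (x : Additive G →+ ℤ), hpar j x x.2⟩
      map_zero' := Subtype.ext (map_zero (T j ℤ))
      map_add' := fun a b => Subtype.ext (map_add (T j ℤ) (a : Additive G →+ ℤ) b) }
  have hsmul : ∀ (c : ℂ) (φ : Additive G →+ ℂ), c • φ = (AddMonoidHom.mulLeft c).comp φ := by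
    intro c φ
    refine DFunLike.ext _ _ (fun g => ?_)
    rfl
  let TW : J → ((Additive G →+ ℂ) →ₗ[ℂ] (Additive G →+ ℂ)) := fun j =>
    { toFun := fun φ => T j ℂ φ
      map_add' := fun a b => map_add (T j ℂ) a b
      map_smul' := by
        intro c φ
        show T j ℂ (c • φ) = c • T j ℂ φ
        rw [hsmul, hsmul, hnat] }
  have hT : ∀ j x, TW j (e x) = e (TL j x) := by
    intro j x
    show T j ℂ ((Int.castAddHom ℂ).comp (x : Additive G →+ ℤ))
      = (Int.castAddHom ℂ).comp (T j ℤ (x : Additive G →+ ℤ))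
    exact hnat j ℤ ℂ _ _
  have he : ∀ (n : ℕ) (b : Fin n → intHoms G P), LinearIndependent ℤ b →
      LinearIndependent ℂ (fun k => e (b k)) := by
    intro n b hb
    have h1 : LinearIndependent ℤ ((intHoms G P).subtype ∘ b) :=
      hb.map' _ (Submodule.ker_subtype _)
    exact linearIndependent_castHomC _ h1
  have hvspan : v ∈ Submodule.span ℂ (Set.range e) := mem_span_range_castHomC v hvP
  obtain ⟨x, hx1, hx2⟩ := lattice_joint_kernel ι hι e he TL TW hT z p 𝔪 h𝔪 hp hz v hv0 hvspan hv
  refine ⟨x, x.2, ?_, ?_⟩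
  · intro h0
    obtain ⟨y, hyP, hy⟩ :=
      exists_eq_nsmul_of_castHom_eq_zero p (Fact.out : p.Prime).ne_zero (x : Additive G →+ ℤ) x.2 h0
    exact hx1 ⟨⟨y, hyP⟩, Subtype.ext hy⟩
  · intro j
    obtain ⟨y, hy⟩ := hx2 j
    rw [hnat j ℤ (ZMod p)]
    have h1 : T j ℤ (x : Additive G →+ ℤ) = p • (y : Additive G →+ ℤ) := congrArg Subtype.val hy
    rw [h1]
    refine DFunLike.ext _ _ (fun g => ?_)
    simp

end Lattice

end Fermat.Agent.ES
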