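import Fermat.Agent.ES.HeckeP

/-!
# ESpkg-G1, piece A4 (part 2): `T_p` preserves parabolic homomorphisms

If `tr(g)² = 4` then for every cycle `x₀ → x₁ → … → x_{r-1} → x₀` of `x ↦ x·g` on `ℙ¹(𝔽_p)` the
product `κ(g,x₀) ⋯ κ(g,x_{r-1}) = κ(g^r, x₀) = α_{x₀} g^r α_{x₀}⁻¹` has trace `tr(g^r) = ±2`.
Hence a parabolic `φ` has `∑_x φ(κ(g,x)) = 0`.
-/

set_option autoImplicit false

noncomputable section

namespace Fermat.Agent.ES.HeckeP

open Matrix Matrix.SpecialLinearGroup CongruenceSubgroup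
open P2MW.S_ModularForm_heckeT_slash_eq_self_of_mem_Gamma0.ModularForm.HeckeSlashInvariance
open scoped MatrixGroups

/-- A sum over a finite set stable under a permutation vanishes if it vanishes on every cycle. -/
theorem sum_eq_zero_of_cycle_sums {X A : Type*} [DecidableEq X] [AddCommMonoid A]
    (σ : Equiv.Perm X) (f : X → A) (s : Finset X) (hs : ∀ x ∈ s, σ x ∈ s)
    (h : ∀ x ∈ s, ∃ r : ℕ, 0 < r ∧ (σ ^ r) x = x ∧
      (∀ i < r, ∀ j < r, (σ ^ i) x = (σ ^ j) x → i = j) ∧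
      ∑ j ∈ Finset.range r, f ((σ ^ j) x) = 0) :
    ∑ x ∈ s, f x = 0 := by
  induction s using Finset.strongInduction with
  | H s ih =>
    rcases s.eq_empty_or_nonempty with rfl | ⟨x, hx⟩
    · simp
    obtain ⟨r, hr0, hrx, hinj, hsum⟩ := h x hx
    set O : Finset X := (Finset.range r).image (fun j => (σ ^ j) x) with hO
    have hpow : ∀ j : ℕ, (σ ^ j) x ∈ s := by
      intro j
      induction j with
      | zero => simpa using hx
      | succ j ihj =>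
        rw [pow_succ', Equiv.Perm.mul_apply]
        exact hs _ ihj
    have hOs : O ⊆ s := by
      intro y hy
      rw [hO, Finset.mem_image] at hy
      obtain ⟨j, _, rfl⟩ := hy
      exact hpow j
    have hxO : x ∈ O := by
      rw [hO, Finset.mem_image]
      exact ⟨0, Finset.mem_range.2 hr0, by simp⟩
    have hsumO : ∑ y ∈ O, f y = 0 := by
      rw [hO, Finset.sum_image, hsum]
      intro i hi j hj hij
      exact hinj i (Finset.mem_range.1 hi) j (Finset.mem_range.1 hj) hij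
    have hstab : ∀ y ∈ s \ O, σ y ∈ s \ O := by
      intro y hy
      rw [Finset.mem_sdiff] at hy ⊢
      refine ⟨hs y hy.1, fun hσy => hy.2 ?_⟩
      rw [hO, Finset.mem_image] at hσy ⊢
      obtain ⟨j, hj, hjy⟩ := hσy
      rcases Nat.eq_zero_or_pos j with rfl | hjpos
      · -- σ y = x = σ^r x
        refine ⟨r - 1, Finset.mem_range.2 (by omega), ?_⟩
        apply σ.injective
        show σ ((σ ^ (r - 1)) x) = σ y
        rw [← Equiv.Perm.mul_apply, ← pow_succ', Nat.sub_add_cancel hr0, hrx, ← hjy]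
        simp
      · refine ⟨j - 1, Finset.mem_range.2 (by have := Finset.mem_range.1 hj; omega), ?_⟩
        apply σ.injective
        show σ ((σ ^ (j - 1)) x) = σ y
        rw [← Equiv.Perm.mul_apply, ← pow_succ', Nat.sub_add_cancel hjpos, hjy]
    have hlt : s \ O ⊂ s := by
      refine ⟨Finset.sdiff_subset, fun hsub => ?_⟩
      have := hsub hx
      rw [Finset.mem_sdiff] at this
      exact this.2 hxO
    have h' := ih (s \ O) hlt hstab (fun y hy => h y (Finset.mem_sdiff.1 hy).1)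
    rw [← Finset.sum_sdiff hOs, h', hsumO, add_zero]

/-- Version for a whole finite type, with minimal periods. -/
theorem sum_univ_eq_zero_of_cycle_sums {X A : Type*} [Fintype X] [DecidableEq X]
    [AddCommMonoid A] (σ : Equiv.Perm X) (f : X → A)
    (h : ∀ (x : X) (r : ℕ), 0 < r → (σ ^ r) x = x → ∑ j ∈ Finset.range r, f ((σ ^ j) x) = 0) :
    ∑ x, f x = 0 := by
  refine sum_eq_zero_of_cycle_sums σ f Finset.univ (fun _ _ => Finset.mem_univ _) ?_
  intro x _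
  have hper : x ∈ Function.periodicPts σ := by
    refine Function.mk_mem_periodicPts (orderOf_pos σ) ?_
    show (σ : X → X)^[orderOf σ] x = x
    rw [Equiv.Perm.iterate_eq_pow, pow_orderOf_eq_one]
    rfl
  have hr0 := Function.minimalPeriod_pos_of_mem_periodicPts hper
  have hrx : (σ ^ Function.minimalPeriod σ x) x = x := by
    have := Function.isPeriodicPt_minimalPeriod σ x
    rw [Function.IsPeriodicPt, Function.IsFixedPt, Equiv.Perm.iterate_eq_pow] at this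
    exact this
  refine ⟨Function.minimalPeriod σ x, hr0, hrx, ?_, h x _ hr0 hrx⟩
  intro i hi j hj hij
  have hinj := Function.iterate_injOn_Iio_minimalPeriod (f := (σ : X → X)) (x := x)
  refine hinj (Set.mem_Iio.2 hi) (Set.mem_Iio.2 hj) ?_
  show (σ : X → X)^[i] x = (σ : X → X)^[j] x
  rw [Equiv.Perm.iterate_eq_pow, Equiv.Perm.iterate_eq_pow]
  exact hij

variable {p : ℕ} [Fact p.Prime] {N : ℕ}

theorem idx_pow (g : SL(2, ℤ)) (j : ℕ) (x : OnePoint (ZMod p)) :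
    idx (g ^ j) x = ((idxPerm g) ^ j) x := by
  induction j with
  | zero => rw [pow_zero, pow_zero, idx_one]; rfl
  | succ j ih =>
    rw [pow_succ, idx_mul, ih, pow_succ', Equiv.Perm.mul_apply]
    rfl

section hom

variable {A : Type*} [AddCommGroup A]

theorem sum_range_kap (hpN : ¬ p ∣ N) (φ : Additive (Gamma0 N) →+ A) (g : Gamma0 N)
    (x : OnePoint (ZMod p)) (n : ℕ) :
    ∑ j ∈ Finset.range n, φ (Additive.ofMul
        (kap hpN g (((idxPerm (g : SL(2, ℤ))) ^ j) x))) =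
      φ (Additive.ofMul (kap hpN (g ^ n) x)) := by
  induction n with
  | zero => simp [kap_one]
  | succ n ih =>
    rw [Finset.sum_range_succ, ih, pow_succ, kap_mul, ofMul_mul, map_add, Subgroup.coe_pow,
      idx_pow]

/-- trace of a power of an element of `SL(2,ℤ)` with `tr² = 4`. -/
theorem trace_pow_sq_eq_four (g : SL(2, ℤ))
    (hg : (g : Matrix (Fin 2) (Fin 2) ℤ).trace ^ 2 = 4) (n : ℕ) :
    ((g ^ n : SL(2, ℤ)) : Matrix (Fin 2) (Fin 2) ℤ).trace ^ 2 = 4 := by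
  -- Cayley–Hamilton: g² = tr(g) g - 1
  set t : ℤ := (g : Matrix (Fin 2) (Fin 2) ℤ).trace with ht
  have hdet : (g : Matrix (Fin 2) (Fin 2) ℤ) 0 0 * (g : Matrix (Fin 2) (Fin 2) ℤ) 1 1 -
      (g : Matrix (Fin 2) (Fin 2) ℤ) 0 1 * (g : Matrix (Fin 2) (Fin 2) ℤ) 1 0 = 1 := by
    have h := g.det_coe
    rwa [Matrix.det_fin_two] at h
  have hCH : (g : Matrix (Fin 2) (Fin 2) ℤ) * (g : Matrix (Fin 2) (Fin 2) ℤ) =
      t • (g : Matrix (Fin 2) (Fin 2) ℤ) - 1 := by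
    ext i j
    rw [Matrix.sub_apply, Matrix.smul_apply, smul_eq_mul, Matrix.mul_apply, Fin.sum_univ_two, ht,
      Matrix.trace_fin_two]
    fin_cases i <;> fin_cases j
    · show (g : Matrix (Fin 2) (Fin 2) ℤ) 0 0 * (g : Matrix (Fin 2) (Fin 2) ℤ) 0 0 +
          (g : Matrix (Fin 2) (Fin 2) ℤ) 0 1 * (g : Matrix (Fin 2) (Fin 2) ℤ) 1 0 =
        ((g : Matrix (Fin 2) (Fin 2) ℤ) 0 0 + (g : Matrix (Fin 2) (Fin 2) ℤ) 1 1) *
          (g : Matrix (Fin 2) (Fin 2) ℤ) 0 0 - (1 : Matrix (Fin 2) (Fin 2) ℤ) 0 0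
      rw [Matrix.one_apply_eq]
      linear_combination (-1 : ℤ) * hdet
    · show (g : Matrix (Fin 2) (Fin 2) ℤ) 0 0 * (g : Matrix (Fin 2) (Fin 2) ℤ) 0 1 +
          (g : Matrix (Fin 2) (Fin 2) ℤ) 0 1 * (g : Matrix (Fin 2) (Fin 2) ℤ) 1 1 =
        ((g : Matrix (Fin 2) (Fin 2) ℤ) 0 0 + (g : Matrix (Fin 2) (Fin 2) ℤ) 1 1) *
          (g : Matrix (Fin 2) (Fin 2) ℤ) 0 1 - (1 : Matrix (Fin 2) (Fin 2) ℤ) 0 1
      rw [Matrix.one_apply_ne (by decide : (0 : Fin 2) ≠ 1)]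
      ring
    · show (g : Matrix (Fin 2) (Fin 2) ℤ) 1 0 * (g : Matrix (Fin 2) (Fin 2) ℤ) 0 0 +
          (g : Matrix (Fin 2) (Fin 2) ℤ) 1 1 * (g : Matrix (Fin 2) (Fin 2) ℤ) 1 0 =
        ((g : Matrix (Fin 2) (Fin 2) ℤ) 0 0 + (g : Matrix (Fin 2) (Fin 2) ℤ) 1 1) *
          (g : Matrix (Fin 2) (Fin 2) ℤ) 1 0 - (1 : Matrix (Fin 2) (Fin 2) ℤ) 1 0
      rw [Matrix.one_apply_ne (by decide : (1 : Fin 2) ≠ 0)]
      ring
    · show (g : Matrix (Fin 2) (Fin 2) ℤ) 1 0 * (g : Matrix (Fin 2) (Fin 2) ℤ) 0 1 +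
          (g : Matrix (Fin 2) (Fin 2) ℤ) 1 1 * (g : Matrix (Fin 2) (Fin 2) ℤ) 1 1 =
        ((g : Matrix (Fin 2) (Fin 2) ℤ) 0 0 + (g : Matrix (Fin 2) (Fin 2) ℤ) 1 1) *
          (g : Matrix (Fin 2) (Fin 2) ℤ) 1 1 - (1 : Matrix (Fin 2) (Fin 2) ℤ) 1 1
      rw [Matrix.one_apply_eq]
      linear_combination (-1 : ℤ) * hdet
  have hrec : ∀ n : ℕ, ((g : Matrix (Fin 2) (Fin 2) ℤ) ^ (n + 2)).trace =
      t * ((g : Matrix (Fin 2) (Fin 2) ℤ) ^ (n + 1)).trace -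
        ((g : Matrix (Fin 2) (Fin 2) ℤ) ^ n).trace := by
    intro n
    have : (g : Matrix (Fin 2) (Fin 2) ℤ) ^ (n + 2) =
        t • (g : Matrix (Fin 2) (Fin 2) ℤ) ^ (n + 1) - (g : Matrix (Fin 2) (Fin 2) ℤ) ^ n := by
      rw [pow_add, pow_two, hCH, mul_sub, mul_one, Matrix.mul_smul, ← pow_succ]
    rw [this, Matrix.trace_sub, Matrix.trace_smul, smul_eq_mul]
  have ht2 : t = 2 ∨ t = -2 := by
    have h1 : (t - 2) * (t + 2) = 0 := by linear_combination hg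
    rcases mul_eq_zero.1 h1 with h | h
    · left; omega
    · right; omega
  have key : ∀ n : ℕ, ((g : Matrix (Fin 2) (Fin 2) ℤ) ^ n).trace ^ 2 = 4 ∧
      ((g : Matrix (Fin 2) (Fin 2) ℤ) ^ (n + 1)).trace =
        (t / 2) * ((g : Matrix (Fin 2) (Fin 2) ℤ) ^ n).trace := by
    intro n
    induction n with
    | zero =>
      refine ⟨by simp, ?_⟩
      rw [pow_zero, zero_add, pow_one]
      rcases ht2 with h | h <;> rw [← ht, h] <;> simp
    | succ n ih =>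
      obtain ⟨ih1, ih2⟩ := ih
      have e2 : ((g : Matrix (Fin 2) (Fin 2) ℤ) ^ (n + 1 + 1)).trace =
          (t / 2) * ((g : Matrix (Fin 2) (Fin 2) ℤ) ^ (n + 1)).trace := by
        rw [hrec n, ih2]
        rcases ht2 with h | h <;> rw [h] <;> norm_num <;> ring
      refine ⟨?_, e2⟩
      rw [ih2, mul_pow, ih1]
      rcases ht2 with h | h <;> rw [h] <;> norm_num
  rw [Matrix.SpecialLinearGroup.coe_pow]
  exact (key n).1

theorem trace_mapGL (g : SL(2, ℤ)) :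
    ((mapGL ℝ g : GL (Fin 2) ℝ) : Matrix (Fin 2) (Fin 2) ℝ).trace =
      (((g : Matrix (Fin 2) (Fin 2) ℤ).trace : ℤ) : ℝ) := by
  rw [Matrix.trace_fin_two, Matrix.trace_fin_two]
  push_cast
  simp

/-- `T_p` preserves parabolic homomorphisms. -/
theorem heckeHom_isParabolicHom (hpN : ¬ p ∣ N) {φ : Additive (Gamma0 N) →+ A}
    (hφ : ModularCurve.Period.IsParabolicHom (Gamma0 N) φ) :
    ModularCurve.Period.IsParabolicHom (Gamma0 N) (heckeHom hpN φ) := by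
  classical
  intro g hg
  rw [heckeHom_apply]
  refine sum_univ_eq_zero_of_cycle_sums (idxPerm (g : SL(2, ℤ)))
    (fun x => φ (Additive.ofMul (kap hpN g x))) ?_
  intro x r _ hrx
  rw [sum_range_kap]
  refine hφ _ ?_
  have hidx : idx (((g ^ r : Gamma0 N) : SL(2, ℤ))) x = x := by
    rw [Subgroup.coe_pow, idx_pow]
    exact hrx
  have h1 := kap_of_idx_eq hpN (g ^ r) x hidx
  have h2 : (((kap hpN (g ^ r) x : Gamma0 N) : SL(2, ℤ)) : Matrix (Fin 2) (Fin 2) ℤ).trace =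
      (((g ^ r : Gamma0 N) : SL(2, ℤ)) : Matrix (Fin 2) (Fin 2) ℤ).trace := by
    have h3 := congrArg (fun M : GL (Fin 2) ℝ => (M : Matrix (Fin 2) (Fin 2) ℝ).trace) h1
    simp only [Matrix.GeneralLinearGroup.coe_mul] at h3
    have h4 : ((heckeRep p x : GL (Fin 2) ℝ) : Matrix (Fin 2) (Fin 2) ℝ) *
        ((mapGL ℝ ((g ^ r : Gamma0 N) : SL(2, ℤ)) : GL (Fin 2) ℝ) : Matrix (Fin 2) (Fin 2) ℝ) *
        (((heckeRep p x)⁻¹ : GL (Fin 2) ℝ) : Matrix (Fin 2) (Fin 2) ℝ) =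
        (((heckeRep p x : GL (Fin 2) ℝ) : (Matrix (Fin 2) (Fin 2) ℝ)ˣ) : Matrix (Fin 2) (Fin 2) ℝ) *
        ((mapGL ℝ ((g ^ r : Gamma0 N) : SL(2, ℤ)) : GL (Fin 2) ℝ) : Matrix (Fin 2) (Fin 2) ℝ) *
        ((((heckeRep p x : GL (Fin 2) ℝ) : (Matrix (Fin 2) (Fin 2) ℝ)ˣ)⁻¹ :
          (Matrix (Fin 2) (Fin 2) ℝ)ˣ) : Matrix (Fin 2) (Fin 2) ℝ) := rfl
    rw [h4, Matrix.trace_units_conj, trace_mapGL, trace_mapGL] at h3
    exact_mod_cast h3
  rw [h2, Subgroup.coe_pow]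
  exact trace_pow_sq_eq_four _ hg r

theorem heckeHom_mem_parabolicHoms (hpN : ¬ p ∣ N) (R : Type*) [Semiring R] [Module R A]
    {φ : Additive (Gamma0 N) →+ A}
    (hφ : φ ∈ ModularCurve.Period.parabolicHoms R (Gamma0 N) A) :
    heckeHom hpN φ ∈ ModularCurve.Period.parabolicHoms R (Gamma0 N) A :=
  heckeHom_isParabolicHom hpN hφ

end hom

end Fermat.Agent.ES.HeckeP
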