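import Fermat.Agent.ES.PeriodHeckeP
import Fermat.Agent.S21.Assemble
import Fermat.Agent.S42.Int

/-!
# The period class of a normalized eigenform is a Hecke eigenvector in `Hom_par(Γ₀(M), ℂ)`

Input of ESpkg-G1 piece A5 from the analytic side: for a normalized eigenform `g` of level `M`
there is a nonzero parabolic homomorphism `φ : Γ₀(M) → ℂ` with
`T_ℓ φ = a_ℓ(g) • φ` for every prime `ℓ ∤ M` (`T_ℓ = HeckeP.heckeHom`).
-/

set_option autoImplicit false

namespace Fermat.Agent.ES

open UpperHalfPlane ModularForm CongruenceSubgroup ModularCurve ModularCurve.Period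
open ModularFormClass
open scoped MatrixGroups ModularForm

variable {M : ℕ} [NeZero M]

/-- The period map of level `M` is injective on cusp forms. -/
theorem periodMap_eq_zero_iff (f : CuspForm (Gamma0 M) 2) : periodMap M f = 0 ↔ f = 0 := by
  constructor
  · intro h
    have h0 : periodMap M (0 : CuspForm (Gamma0 M) 2) = 0 :=
      (Fermat.Agent.S21.periodMapLinear M).map_zero
    have h1 : periodHomPair M (f, 0) = periodHomPair M (0, 0) := by
      rw [Fermat.Agent.S21.periodHomPair_apply, Fermat.Agent.S21.periodHomPair_apply, h, h0]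
    have := Fermat.Agent.S21.periodHomPair_injective M h1
    exact (Prod.mk.inj this).1
  · rintro rfl
    exact (Fermat.Agent.S21.periodMapLinear M).map_zero

/-- The period class of a normalized eigenform is an eigenvector of every `T_ℓ`, `ℓ ∤ M`. -/
theorem heckeP_periodMap_eigenform (g : CuspForm (Gamma0 M) 2) (hg : g.IsNormalizedEigenform)
    {ℓ : ℕ} [hℓ : Fact ℓ.Prime] (hℓM : ¬ ℓ ∣ M) :
    HeckeP.heckeHom hℓM (periodMap M g) = qCoeff ⇑g ℓ • periodMap M g :=
  heckeP_periodMap_eq_smul hℓM g _ (Fermat.Agent.S42.heckeTLin_apply_eq_smul g hg hℓ.out hℓM)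

/-- **Analytic input of A5.** Every normalized eigenform of level `M` gives a nonzero parabolic
homomorphism `Γ₀(M) → ℂ` which is a simultaneous eigenvector of the operators `T_ℓ`, `ℓ ∤ M`,
with eigenvalues `a_ℓ(g)`. -/
theorem exists_eigen_parabolicHom (g : CuspForm (Gamma0 M) 2) (hg : g.IsNormalizedEigenform) :
    ∃ φ : Additive (Gamma0 M) →+ ℂ, φ ≠ 0 ∧ φ ∈ parabolicHoms ℂ (Gamma0 M) ℂ ∧
      ∀ (ℓ : ℕ) [Fact ℓ.Prime] (hℓM : ¬ ℓ ∣ M),
        HeckeP.heckeHom hℓM φ = qCoeff ⇑g ℓ • φ := by
  refine ⟨periodMap M g, ?_, Fermat.Agent.S21.periodMap_mem_parabolicHoms M g, ?_⟩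
  · intro h
    exact Fermat.Agent.S42.normalizedEigenform_ne_zero g hg ((periodMap_eq_zero_iff g).mp h)
  · intro ℓ _ hℓM
    exact heckeP_periodMap_eigenform g hg hℓM

end Fermat.Agent.ES
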