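import Fermat.Agent.ES.EigenWords
import Fermat.Agent.ES.PeriodEigen
import Fermat.Agent.ES.HeckePPar
import Fermat.Agent.ES.Package

/-!
# ESpkg-G1 piece A5: every eigensystem mod `𝔪` occurs in `Hom_par(Γ₀(M), 𝔽_p)` (helper39)

* `eigenSupport_words` : for a normalized eigenform `g` of level `M` and a proper ideal `𝔪 ∋ p` of
  `ℤ̄` there is an INTEGRAL parabolic homomorphism `x : Γ₀(M) → ℤ` whose reduction mod `p` is
  nonzero and is killed by every word `w` in the Hecke operators `T_ℓ` (`ℓ ∤ M p`,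
  `T_ℓ = HeckeP.heckeHom`) whose value on the eigensystem of `g` lies in `𝔪`.
* `supp_of_multiplier` : the `supp` field of `ESData M p V` for every Hecke module `V` with an
  injective Hecke-equivariant map `μ : V → Hom(Γ₀(M), 𝔽_p)` whose image contains the reductions of
  the integral parabolic homomorphisms.
-/

set_option autoImplicit false

namespace Fermat.Agent.ES

open CongruenceSubgroup ModularCurve ModularCurve.Period ModularFormClass
open scoped MatrixGroups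

variable (M p : ℕ)

/-- the good primes `ℓ ∤ M p`, as a type -/
abbrev GoodPrime : Type := ↥(goodPrimes M p)

variable {M p}

lemma GoodPrime.not_dvd (ℓ : GoodPrime M p) : ¬ ((ℓ : Nat.Primes) : ℕ) ∣ M :=
  fun h => ℓ.2 (dvd_mul_of_dvd_left h p)

variable (M p)

/-- the operator `T_ℓ` on `Hom(Γ₀(M), A)`, for a good prime `ℓ` -/
noncomputable def heckeOp (ℓ : GoodPrime M p) (A : Type) [AddCommGroup A] :
    (Additive (Gamma0 M) →+ A) →+ (Additive (Gamma0 M) →+ A) :=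
  haveI : Fact ((ℓ : Nat.Primes) : ℕ).Prime := ⟨ℓ.1.2⟩
  (HeckeP.heckeHomL (GoodPrime.not_dvd ℓ) ℤ).toAddMonoidHom

variable {M p}

lemma heckeOp_apply (ℓ : GoodPrime M p) (A : Type) [AddCommGroup A]
    (φ : Additive (Gamma0 M) →+ A) :
    heckeOp M p ℓ A φ =
      @HeckeP.heckeHom ((ℓ : Nat.Primes) : ℕ) ⟨ℓ.1.2⟩ M A _ (GoodPrime.not_dvd ℓ) φ := rfl

lemma heckeOp_natural (ℓ : GoodPrime M p) (A A' : Type) [AddCommGroup A] [AddCommGroup A']
    (f : A →+ A') (φ : Additive (Gamma0 M) →+ A) :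
    heckeOp M p ℓ A' (f.comp φ) = f.comp (heckeOp M p ℓ A φ) := by
  have : Fact ((ℓ : Nat.Primes) : ℕ).Prime := ⟨ℓ.1.2⟩
  rw [heckeOp_apply, heckeOp_apply]
  exact HeckeP.heckeHom_comp (GoodPrime.not_dvd ℓ) f φ

/-- the set of elements of trace `±2` -/
def parabolicSet (M : ℕ) : Set (Gamma0 M) :=
  {γ | ((γ : SL(2, ℤ)) : Matrix (Fin 2) (Fin 2) ℤ).trace ^ 2 = 4}

lemma mem_intHoms_parabolicSet {φ : Additive (Gamma0 M) →+ ℤ} :
    φ ∈ intHoms (Gamma0 M) (parabolicSet M) ↔ IsParabolicHom (Gamma0 M) φ := Iff.rfl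

/-- **A5 (word form).** -/
theorem eigenSupport_words [NeZero M] [Fact p.Prime] (g : CuspForm (Gamma0 M) 2)
    (hg : g.IsNormalizedEigenform) (𝔪 : Ideal Zbar) (h𝔪 : 𝔪 ≠ ⊤) (hp : (p : Zbar) ∈ 𝔪) :
    ∃ x : Additive (Gamma0 M) →+ ℤ, IsParabolicHom (Gamma0 M) x ∧
      (Int.castAddHom (ZMod p)).comp x ≠ 0 ∧
      ∀ w : FreeAlgebra ℤ (GoodPrime M p),
        (∃ z ∈ 𝔪, (z : ℂ) = FreeAlgebra.lift ℤ
          (fun ℓ : GoodPrime M p => qCoeff ⇑g ((ℓ : Nat.Primes) : ℕ)) w) →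
        wordOp (heckeOp M p) (ZMod p) w ((Int.castAddHom (ZMod p)).comp x) = 0 := by
  obtain ⟨v, hv0, hvP, hv⟩ := exists_eigen_parabolicHom g hg
  have : Group.FG (Gamma0 M) := (Group.fg_iff_subgroup_fg _).mpr (Fermat.Agent.S22.gamma0_fg M)
  obtain ⟨x, hxP, hx0, hx⟩ := exists_modp_eigen_hom_words (G := Gamma0 M)
    (T := heckeOp M p) (parabolicSet M)
    (fun ℓ A A' _ _ f φ => heckeOp_natural ℓ A A' f φ)
    (fun ℓ φ hφ => by
      have : Fact ((ℓ : Nat.Primes) : ℕ).Prime := ⟨ℓ.1.2⟩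
      rw [mem_intHoms_parabolicSet] at hφ ⊢
      rw [heckeOp_apply]
      exact HeckeP.heckeHom_isParabolicHom (GoodPrime.not_dvd ℓ) hφ)
    (fun ℓ : GoodPrime M p => qCoeff ⇑g ((ℓ : Nat.Primes) : ℕ)) v hv0
    (fun γ hγ => hvP γ hγ)
    (fun ℓ => by
      have : Fact ((ℓ : Nat.Primes) : ℕ).Prime := ⟨ℓ.1.2⟩
      rw [heckeOp_apply]
      exact hv _ (GoodPrime.not_dvd ℓ))
    (algebraMap Zbar ℂ) Subtype.val_injective p 𝔪 h𝔪 hp
  exact ⟨x, hxP, hx0, fun w hw => hx w hw⟩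

/-! ### Transfer to a Hecke module `V` -/

variable (M p) in
/-- the commutative image of a word -/
noncomputable def wordPoly : FreeAlgebra ℤ (GoodPrime M p) →ₐ[ℤ] HeckeAlg :=
  FreeAlgebra.lift ℤ (fun ℓ : GoodPrime M p => heckeGen (ℓ : Nat.Primes))

@[simp] lemma wordPoly_ι (ℓ : GoodPrime M p) :
    wordPoly M p (FreeAlgebra.ι ℤ ℓ) = heckeGen (ℓ : Nat.Primes) := by
  simp [wordPoly]

lemma exists_word_of_mem_supported {t : HeckeAlg}
    (ht : t ∈ MvPolynomial.supported ℤ (goodPrimes M p)) : ∃ w, wordPoly M p w = t := by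
  have h1 : MvPolynomial.supported ℤ (goodPrimes M p) ≤ (wordPoly M p).range := by
    rw [MvPolynomial.supported_eq_adjoin_X]
    refine Algebra.adjoin_le ?_
    rintro _ ⟨ℓ, hℓ, rfl⟩
    exact ⟨FreeAlgebra.ι ℤ (⟨ℓ, hℓ⟩ : GoodPrime M p), wordPoly_ι (⟨ℓ, hℓ⟩ : GoodPrime M p)⟩
  exact h1 ht

lemma heckeValue_wordPoly (g : CuspForm (Gamma0 M) 2) (w : FreeAlgebra ℤ (GoodPrime M p)) :
    heckeValue g (wordPoly M p w) = FreeAlgebra.lift ℤ
      (fun ℓ : GoodPrime M p => qCoeff ⇑g ((ℓ : Nat.Primes) : ℕ)) w := by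
  have h : (MvPolynomial.aeval (fun ℓ : Nat.Primes => qCoeff ⇑g (ℓ : ℕ))).comp (wordPoly M p)
      = FreeAlgebra.lift ℤ (fun ℓ : GoodPrime M p => qCoeff ⇑g ((ℓ : Nat.Primes) : ℕ)) := by
    apply FreeAlgebra.hom_ext
    funext ℓ
    simp [heckeGen]
  exact DFunLike.congr_fun h w

/-- `μ` intertwines polynomials with words -/
lemma multiplier_wordPoly {V : Type} [AddCommGroup V] [Module HeckeAlg V]
    (μ : V →+ (Additive (Gamma0 M) →+ ZMod p))
    (hμT : ∀ (ℓ : GoodPrime M p) (v : V),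
      μ (heckeGen (ℓ : Nat.Primes) • v) = heckeOp M p ℓ (ZMod p) (μ v))
    (w : FreeAlgebra ℤ (GoodPrime M p)) (v : V) :
    μ (wordPoly M p w • v) = wordOp (heckeOp M p) (ZMod p) w (μ v) := by
  induction w using FreeAlgebra.induction generalizing v with
  | grade0 r =>
    simp only [AlgHom.commutes, Module.algebraMap_end_apply, algebraMap_smul]
    exact map_zsmul μ r v
  | grade1 ℓ => rw [wordPoly_ι, wordOp_ι, hμT]
  | mul a b ha hb =>
    simp only [map_mul, Module.End.mul_apply]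
    rw [mul_smul, ha, hb]
  | add a b ha hb =>
    simp only [map_add, LinearMap.add_apply]
    rw [add_smul, map_add, ha, hb]

/-- **A5 (module form).**  The `supp` field of `ESData M p V` holds for every Hecke module `V`
with an injective map `μ : V → Hom(Γ₀(M), 𝔽_p)`, equivariant for the good `T_ℓ`, whose image
contains the reductions of the integral parabolic homomorphisms. -/
theorem supp_of_multiplier [NeZero M] [Fact p.Prime] {V : Type} [AddCommGroup V]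
    [Module HeckeAlg V] (μ : V →+ (Additive (Gamma0 M) →+ ZMod p)) (hμ : Function.Injective μ)
    (hμT : ∀ (ℓ : GoodPrime M p) (v : V),
      μ (heckeGen (ℓ : Nat.Primes) • v) = heckeOp M p ℓ (ZMod p) (μ v))
    (hμS : ∀ x : Additive (Gamma0 M) →+ ℤ, IsParabolicHom (Gamma0 M) x →
      (Int.castAddHom (ZMod p)).comp x ∈ Set.range μ) :
    ∀ g : CuspForm (Gamma0 M) 2, g.IsNormalizedEigenform →
      ∀ 𝔪 : Ideal Zbar, 𝔪.IsMaximal → (p : Zbar) ∈ 𝔪 →
        ∃ v : V, v ≠ 0 ∧ ∀ t ∈ MvPolynomial.supported ℤ (goodPrimes M p),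
          (∃ z ∈ 𝔪, (z : ℂ) = heckeValue g t) → t • v = 0 := by
  intro g hg 𝔪 h𝔪 hp
  obtain ⟨x, hxP, hx0, hx⟩ := eigenSupport_words g hg 𝔪 h𝔪.ne_top hp
  obtain ⟨v, hv⟩ := hμS x hxP
  refine ⟨v, ?_, ?_⟩
  · rintro rfl
    rw [map_zero] at hv
    exact hx0 hv.symm
  · intro t ht hz
    obtain ⟨w, rfl⟩ := exists_word_of_mem_supported ht
    apply hμ
    rw [map_zero, multiplier_wordPoly μ hμT, hv]
    apply hx w
    obtain ⟨z, hz𝔪, hzv⟩ := hz
    exact ⟨z, hz𝔪, by rw [hzv, heckeValue_wordPoly]⟩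


end Fermat.Agent.ES
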