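import Fermat.Agent.ES.EigenSupport

/-!
# ESpkg-G1 piece A5, general coefficient form (helper39)

`supp_of_multiplier_gen` : the `supp` clause for a Hecke module `V` with an injective
Hecke-equivariant map `μ : V → Hom(Γ₀(M), Co)` into homomorphisms with values in ANY abelian group
`Co` (e.g. `Additive ℂˣ`), given an injective `ε : ZMod p → Co` (e.g. `k ↦ exp(2πi k / p)`) such that
`ε ∘ (x mod p)` lies in the image of `μ` for every integral parabolic homomorphism `x`.
The vector produced is killed by `p`.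
-/

set_option autoImplicit false

namespace Fermat.Agent.ES

open CongruenceSubgroup ModularCurve ModularCurve.Period ModularFormClass
open scoped MatrixGroups

variable {M p : ℕ}

/-- `μ` intertwines polynomials with words (general coefficients) -/
lemma multiplier_wordPoly_gen {V : Type} [AddCommGroup V] [Module HeckeAlg V] {Co : Type}
    [AddCommGroup Co] (μ : V →+ (Additive (Gamma0 M) →+ Co))
    (hμT : ∀ (ℓ : GoodPrime M p) (v : V),
      μ (heckeGen (ℓ : Nat.Primes) • v) = heckeOp M p ℓ Co (μ v))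
    (w : FreeAlgebra ℤ (GoodPrime M p)) (v : V) :
    μ (wordPoly M p w • v) = wordOp (heckeOp M p) Co w (μ v) := by
  induction w using FreeAlgebra.induction generalizing v with
  | grade0 r =>
    simp only [AlgHom.commutes, Module.algebraMap_end_apply, algebraMap_smul]
    exact map_zsmul μ r v
  | grade1 ℓ => rw [wordPoly_ι, wordOp_ι, hμT]
  | mul a b ha hb =>
    simp only [map_mul, Module.End.mul_apply]
    rw [mul_smul, ha, hb]
  | add a b ha hb =>
    simp only [map_add, LinearMap.add_apply]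
    rw [add_smul, map_add, ha, hb]

/-- **A5 (module form, general coefficients).** -/
theorem supp_of_multiplier_gen [NeZero M] [Fact p.Prime] {V : Type} [AddCommGroup V]
    [Module HeckeAlg V] {Co : Type} [AddCommGroup Co]
    (μ : V →+ (Additive (Gamma0 M) →+ Co)) (hμ : Function.Injective μ)
    (hμT : ∀ (ℓ : GoodPrime M p) (v : V),
      μ (heckeGen (ℓ : Nat.Primes) • v) = heckeOp M p ℓ Co (μ v))
    (ε : ZMod p →+ Co) (hε : Function.Injective ε)
    (hμS : ∀ x : Additive (Gamma0 M) →+ ℤ, IsParabolicHom (Gamma0 M) x →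
      ∃ v : V, p • v = 0 ∧ μ v = ε.comp ((Int.castAddHom (ZMod p)).comp x)) :
    ∀ g : CuspForm (Gamma0 M) 2, g.IsNormalizedEigenform →
      ∀ 𝔪 : Ideal Zbar, 𝔪.IsMaximal → (p : Zbar) ∈ 𝔪 →
        ∃ v : V, v ≠ 0 ∧ p • v = 0 ∧ ∀ t ∈ MvPolynomial.supported ℤ (goodPrimes M p),
          (∃ z ∈ 𝔪, (z : ℂ) = heckeValue g t) → t • v = 0 := by
  intro g hg 𝔪 h𝔪 hp
  obtain ⟨x, hxP, hx0, hx⟩ := eigenSupport_words g hg 𝔪 h𝔪.ne_top hp
  obtain ⟨v, hpv, hv⟩ := hμS x hxP
  refine ⟨v, ?_, hpv, ?_⟩
  · rintro rfl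
    rw [map_zero] at hv
    apply hx0
    refine DFunLike.ext _ _ (fun γ => ?_)
    apply hε
    have h1 := (DFunLike.congr_fun hv γ).symm
    simp only [AddMonoidHom.zero_apply, map_zero] at h1 ⊢
    exact h1
  · intro t ht hz
    obtain ⟨w, rfl⟩ := exists_word_of_mem_supported ht
    apply hμ
    rw [map_zero, multiplier_wordPoly_gen μ hμT, hv,
      wordOp_natural (fun ℓ A A' _ _ f φ => heckeOp_natural ℓ A A' f φ) w (ZMod p) Co ε]
    have h0 : wordOp (heckeOp M p) (ZMod p) w ((Int.castAddHom (ZMod p)).comp x) = 0 := by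
      apply hx w
      obtain ⟨z, hz𝔪, hzv⟩ := hz
      exact ⟨z, hz𝔪, by rw [hzv, heckeValue_wordPoly]⟩
    rw [h0]
    refine DFunLike.ext _ _ (fun γ => ?_)
    simp

end Fermat.Agent.ES
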