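import Mathlib
import Fermat.Agent.ES.EigenLattice

/-!
# ESpkg-G1 piece A5: words in natural operators (helper39)

A family `T x` (`x : X`) of natural endomorphisms of `A ↦ Hom(G, A)` need not commute, so the free
algebra `FreeAlgebra ℤ X` acts (`wordOp`).  `exists_modp_eigen_hom_words` is the mod-`p`
eigen-support statement for all words at once.
-/

set_option autoImplicit false

namespace Fermat.Agent.ES

section Words

variable {G : Type*} [Group G] {X : Type*}
  (T : X → ∀ (A : Type) [AddCommGroup A], (Additive G →+ A) →+ (Additive G →+ A))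

/-- the action of words in the `T x` on `Hom(G, A)` -/
noncomputable def wordOp (A : Type) [AddCommGroup A] :
    FreeAlgebra ℤ X →ₐ[ℤ] Module.End ℤ (Additive G →+ A) :=
  FreeAlgebra.lift ℤ (fun x => (T x A).toIntLinearMap)

@[simp] lemma wordOp_ι (A : Type) [AddCommGroup A] (x : X) (φ : Additive G →+ A) :
    wordOp T A (FreeAlgebra.ι ℤ x) φ = T x A φ := by
  simp [wordOp]

variable {T}

/-- words act naturally in the coefficient group -/
theorem wordOp_natural
    (hnat : ∀ (x : X) (A A' : Type) [AddCommGroup A] [AddCommGroup A'] (f : A →+ A')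
      (φ : Additive G →+ A), T x A' (f.comp φ) = f.comp (T x A φ))
    (w : FreeAlgebra ℤ X) (A A' : Type) [AddCommGroup A] [AddCommGroup A'] (f : A →+ A')
    (φ : Additive G →+ A) :
    wordOp T A' w (f.comp φ) = f.comp (wordOp T A w φ) := by
  induction w using FreeAlgebra.induction generalizing φ with
  | grade0 r =>
    simp only [AlgHom.commutes, Module.algebraMap_end_apply]
    refine DFunLike.ext _ _ (fun g => ?_)
    simp
  | grade1 x => rw [wordOp_ι, wordOp_ι, hnat]
  | mul a b ha hb =>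
    simp only [map_mul, Module.End.mul_apply]
    rw [hb, ha]
  | add a b ha hb =>
    simp only [map_add, LinearMap.add_apply]
    rw [ha, hb]
    refine DFunLike.ext _ _ (fun g => ?_)
    simp

/-- words preserve a class of homs preserved by the generators -/
theorem wordOp_mem {A : Type} [AddCommGroup A] (S : AddSubgroup (Additive G →+ A))
    (hS : ∀ (x : X) (φ : Additive G →+ A), φ ∈ S → T x A φ ∈ S)
    (w : FreeAlgebra ℤ X) (φ : Additive G →+ A) (hφ : φ ∈ S) : wordOp T A w φ ∈ S := by
  induction w using FreeAlgebra.induction generalizing φ with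
  | grade0 r =>
    simp only [AlgHom.commutes, Module.algebraMap_end_apply]
    exact S.zsmul_mem hφ r
  | grade1 x => rw [wordOp_ι]; exact hS x φ hφ
  | mul a b ha hb =>
    simp only [map_mul, Module.End.mul_apply]
    exact ha _ (hb _ hφ)
  | add a b ha hb =>
    simp only [map_add, LinearMap.add_apply]
    exact S.add_mem (ha _ hφ) (hb _ hφ)

/-- a joint eigenvector of the generators is an eigenvector of every word -/
theorem wordOp_eigen
    (hnat : ∀ (x : X) (A A' : Type) [AddCommGroup A] [AddCommGroup A'] (f : A →+ A')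
      (φ : Additive G →+ A), T x A' (f.comp φ) = f.comp (T x A φ))
    (a : X → ℂ) (v : Additive G →+ ℂ) (hv : ∀ x, T x ℂ v = a x • v) (w : FreeAlgebra ℤ X) :
    wordOp T ℂ w v = (FreeAlgebra.lift ℤ a w) • v := by
  have hsmul : ∀ (c : ℂ) (φ : Additive G →+ ℂ), c • φ = (AddMonoidHom.mulLeft c).comp φ := by
    intro c φ
    refine DFunLike.ext _ _ (fun g => ?_)
    rfl
  induction w using FreeAlgebra.induction with
  | grade0 r =>
    simp only [AlgHom.commutes, Module.algebraMap_end_apply]
    refine DFunLike.ext _ _ (fun g => ?_)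
    simp
  | grade1 x => rw [wordOp_ι, hv]; simp
  | mul a' b ha hb =>
    simp only [map_mul, Module.End.mul_apply]
    rw [hb, hsmul, wordOp_natural hnat, ← hsmul, ha, smul_smul, mul_comm]
  | add a' b ha hb =>
    simp only [map_add, LinearMap.add_apply]
    rw [ha, hb, add_smul]

/-- **A5, generic form for words.** -/
theorem exists_modp_eigen_hom_words [Group.FG G] (P : Set G)
    (hnat : ∀ (x : X) (A A' : Type) [AddCommGroup A] [AddCommGroup A'] (f : A →+ A')
      (φ : Additive G →+ A), T x A' (f.comp φ) = f.comp (T x A φ))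
    (hpar : ∀ (x : X) (φ : Additive G →+ ℤ), φ ∈ intHoms G P → T x ℤ φ ∈ intHoms G P)
    (a : X → ℂ) (v : Additive G →+ ℂ) (hv0 : v ≠ 0) (hvP : ∀ g ∈ P, v (Additive.ofMul g) = 0)
    (hv : ∀ x, T x ℂ v = a x • v)
    {R : Type*} [CommRing R] (ι : R →+* ℂ) (hι : Function.Injective ι)
    (p : ℕ) [Fact p.Prime] (𝔪 : Ideal R) (h𝔪 : 𝔪 ≠ ⊤) (hp : (p : R) ∈ 𝔪) :
    ∃ x : Additive G →+ ℤ, x ∈ intHoms G P ∧ (Int.castAddHom (ZMod p)).comp x ≠ 0 ∧
      ∀ w : FreeAlgebra ℤ X, (∃ z ∈ 𝔪, ι z = FreeAlgebra.lift ℤ a w) →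
        wordOp T (ZMod p) w ((Int.castAddHom (ZMod p)).comp x) = 0 := by
  classical
  let J := {w : FreeAlgebra ℤ X // ∃ z ∈ 𝔪, ι z = FreeAlgebra.lift ℤ a w}
  let TJ : J → ∀ (A : Type) [AddCommGroup A], (Additive G →+ A) →+ (Additive G →+ A) :=
    fun j A _ => (wordOp T A j.1).toAddMonoidHom
  have hz : ∀ j : J, ∃ z ∈ 𝔪, ι z = FreeAlgebra.lift ℤ a j.1 := fun j => j.2
  choose z hz𝔪 hzval using hz
  obtain ⟨x, hxP, hx0, hx⟩ := exists_modp_eigen_hom (G := G) (P := P) TJ
    (fun j A A' _ _ f φ => wordOp_natural hnat j.1 A A' f φ)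
    (fun j φ hφ => wordOp_mem (intHoms G P).toAddSubgroup hpar j.1 φ hφ)
    ι hι z p 𝔪 h𝔪 hp hz𝔪 v hv0 hvP
    (fun j => by
      show wordOp T ℂ j.1 v = ι (z j) • v
      rw [hzval j]
      exact wordOp_eigen hnat a v hv j.1)
  exact ⟨x, hxP, hx0, fun w hw => hx ⟨w, hw⟩⟩

end Words

end Fermat.Agent.ES
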