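/-
ESpkg-G1, piece A3 (helper83): Eisenstein-type series with bounded coefficients.

`eisC κ k z = ∑' v : Fin 2 → ℤ, κ v * (v 0 * z + v 1) ^ (-k)` for a bounded `κ : (Fin 2 → ℤ) → ℂ`
and `3 ≤ k`: holomorphic on `ℍ`, explicit slash action of `SL(2,ℤ)`, bounded at `i∞` and with an
explicit limit at `i∞` when periodic.
-/
import Mathlib

set_option autoImplicit false

open EisensteinSeries UpperHalfPlane ModularForm CongruenceSubgroup Matrix Filter Topology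
open scoped MatrixGroups Manifold

noncomputable section

namespace Fermat.Agent.ES

/-- Eisenstein-type series with coefficients `κ`. -/
def eisC (κ : (Fin 2 → ℤ) → ℂ) (k : ℤ) (z : ℍ) : ℂ :=
  ∑' v : Fin 2 → ℤ, κ v * eisSummand k v z

variable {κ : (Fin 2 → ℤ) → ℂ} {C : ℝ} {k : ℤ}

lemma eisC_norm_term_le (hκ : ∀ v, ‖κ v‖ ≤ C) (v : Fin 2 → ℤ) (z : ℍ) :
    ‖κ v * eisSummand k v z‖ ≤ C * ‖eisSummand k v z‖ := by
  rw [norm_mul]
  exact mul_le_mul_of_nonneg_right (hκ v) (norm_nonneg _)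

lemma eisC_summable_norm (hκ : ∀ v, ‖κ v‖ ≤ C) (hk : 3 ≤ k) (z : ℍ) :
    Summable fun v : Fin 2 → ℤ => ‖κ v * eisSummand k v z‖ :=
  ((summable_norm_eisSummand hk z).mul_left C).of_nonneg_of_le (fun _ => norm_nonneg _)
    (fun v => eisC_norm_term_le hκ v z)

lemma eisC_summable (hκ : ∀ v, ‖κ v‖ ≤ C) (hk : 3 ≤ k) (z : ℍ) :
    Summable fun v : Fin 2 → ℤ => κ v * eisSummand k v z :=
  (eisC_summable_norm hκ hk z).of_norm

/-- Uniform bound of the terms on a vertical strip. -/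
lemma eisC_term_bound (hκ : ∀ v, ‖κ v‖ ≤ C) (hC : 0 ≤ C) (hk : 3 ≤ k) {A B : ℝ} (hB : 0 < B)
    {z : ℍ} (hz : z ∈ verticalStrip A B) (v : Fin 2 → ℤ) :
    ‖κ v * eisSummand k v z‖ ≤ C * (r ⟨⟨A, B⟩, hB⟩ ^ (-k : ℝ) * ‖v‖ ^ (-k : ℝ)) := by
  refine (eisC_norm_term_le hκ v z).trans (mul_le_mul_of_nonneg_left ?_ hC)
  have hk0 : (0 : ℝ) ≤ k := by
    have : (0 : ℤ) ≤ k := by omega
    exact_mod_cast this
  have := summand_bound_of_mem_verticalStrip hk0 v hB hz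
  simpa only [eisSummand, one_div, ← _root_.zpow_neg, norm_zpow, ← Real.rpow_intCast,
    Int.cast_neg] using this

lemma eisC_bound_summable (hk : 3 ≤ k) {A B : ℝ} (hB : 0 < B) :
    Summable fun v : Fin 2 → ℤ => C * (r ⟨⟨A, B⟩, hB⟩ ^ (-k : ℝ) * ‖v‖ ^ (-k : ℝ)) := by
  have hk' : (2 : ℝ) < k := by norm_cast
  exact ((summable_one_div_norm_rpow hk').mul_left _).mul_left _

/-- Locally uniform convergence. -/
theorem eisC_tendstoLocallyUniformly (hκ : ∀ v, ‖κ v‖ ≤ C) (hk : 3 ≤ k) :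
    TendstoLocallyUniformly (fun (s : Finset (Fin 2 → ℤ)) ↦ (∑ v ∈ s, κ v * eisSummand k v ·))
      (eisC κ k ·) Filter.atTop := by
  have hC : 0 ≤ C := (norm_nonneg _).trans (hκ 0)
  simp only [tendstoLocallyUniformly_iff_forall_isCompact, eisC]
  intro K hK
  obtain ⟨A, B, hB, HABK⟩ := subset_verticalStrip_of_isCompact hK
  refine (tendstoUniformlyOn_tsum (hu := eisC_bound_summable (C := C) (A := A) hk hB)
    (fun p z hz ↦ ?_)).mono HABK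
  exact eisC_term_bound hκ hC hk hB hz p

lemma eisC_tendstoLocallyUniformlyOn (hκ : ∀ v, ‖κ v‖ ≤ C) (hk : 3 ≤ k) :
    TendstoLocallyUniformlyOn (fun (s : Finset (Fin 2 → ℤ)) ↦
      ↑ₕ(fun (z : ℍ) ↦ ∑ v ∈ s, κ v * eisSummand k v z)) (↑ₕ(eisC κ k))
          Filter.atTop {z : ℂ | 0 < z.im} := by
  rw [← upperHalfPlaneSet, ← range_coe, ← Set.image_univ]
  apply TendstoLocallyUniformlyOn.comp (s := ⊤) _ _ _ (OpenPartialHomeomorph.continuousOn_symm _)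
  · simp only [Set.top_eq_univ, tendstoLocallyUniformlyOn_univ]
    exact eisC_tendstoLocallyUniformly hκ hk
  · simp only [IsOpenEmbedding.toOpenPartialHomeomorph_target, Set.top_eq_univ,
      Set.mapsTo_range_iff, Set.mem_univ, forall_const]

lemma eisC_term_differentiableOn (κ : (Fin 2 → ℤ) → ℂ) (k : ℤ) (v : Fin 2 → ℤ) :
    DifferentiableOn ℂ (↑ₕ(fun z : ℍ => κ v * eisSummand k v z)) {z : ℂ | 0 < z.im} := by
  have h := (eisSummand_extension_differentiableOn k v).const_mul (κ v)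
  refine h.congr fun z hz => ?_
  simp [Function.comp]

/-- `eisC κ k` is holomorphic on `ℍ`. -/
theorem eisC_mdiff (hκ : ∀ v, ‖κ v‖ ≤ C) (hk : 3 ≤ k) : MDiff (eisC κ k) := by
  intro τ
  suffices DifferentiableAt ℂ (↑ₕ(eisC κ k)) τ.1 by
    convert!
      MDifferentiableAt.comp τ (DifferentiableAt.mdifferentiableAt this) τ.mdifferentiable_coe
    exact funext fun z ↦ (comp_ofComplex (eisC κ k) z).symm
  refine DifferentiableOn.differentiableAt ?_ (isOpen_upperHalfPlaneSet.mem_nhds τ.2)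
  refine (eisC_tendstoLocallyUniformlyOn hκ hk).differentiableOn
    (Eventually.of_forall fun s ↦ ?_) isOpen_upperHalfPlaneSet
  have : (↑ₕ(fun (z : ℍ) ↦ ∑ v ∈ s, κ v * eisSummand k v z))
      = fun w : ℂ => ∑ v ∈ s, (↑ₕ(fun z : ℍ => κ v * eisSummand k v z)) w := by
    funext w
    simp [Function.comp]
  rw [this]
  exact DifferentiableOn.fun_sum fun v _ ↦ eisC_term_differentiableOn κ k v

/-! ### Slash action -/

lemma eis_coe_mul_coe_inv (A : SL(2, ℤ)) :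
    (A : Matrix (Fin 2) (Fin 2) ℤ) * ((A⁻¹ : SL(2, ℤ)) : Matrix (Fin 2) (Fin 2) ℤ) = 1 :=
  congrArg Subtype.val (mul_inv_cancel A)

lemma eis_coe_inv_mul_coe (A : SL(2, ℤ)) :
    ((A⁻¹ : SL(2, ℤ)) : Matrix (Fin 2) (Fin 2) ℤ) * (A : Matrix (Fin 2) (Fin 2) ℤ) = 1 :=
  congrArg Subtype.val (inv_mul_cancel A)

lemma eis_coe_mul_coe (A B : SL(2, ℤ)) :
    (A : Matrix (Fin 2) (Fin 2) ℤ) * (B : Matrix (Fin 2) (Fin 2) ℤ)
      = ((A * B : SL(2, ℤ)) : Matrix (Fin 2) (Fin 2) ℤ) := rfl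

/-- Right multiplication by `A ∈ SL(2,ℤ)` as a permutation of `ℤ²`. -/
def eisVecMulEquiv (A : SL(2, ℤ)) : (Fin 2 → ℤ) ≃ (Fin 2 → ℤ) where
  toFun v := v ᵥ* (A : Matrix (Fin 2) (Fin 2) ℤ)
  invFun v := v ᵥ* ((A⁻¹ : SL(2, ℤ)) : Matrix (Fin 2) (Fin 2) ℤ)
  left_inv v := by
    change (v ᵥ* (A : Matrix (Fin 2) (Fin 2) ℤ)) ᵥ*
      ((A⁻¹ : SL(2, ℤ)) : Matrix (Fin 2) (Fin 2) ℤ) = v
    rw [vecMul_vecMul, eis_coe_mul_coe_inv, vecMul_one]
  right_inv v := by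
    change (v ᵥ* ((A⁻¹ : SL(2, ℤ)) : Matrix (Fin 2) (Fin 2) ℤ)) ᵥ*
      (A : Matrix (Fin 2) (Fin 2) ℤ) = v
    rw [vecMul_vecMul, eis_coe_inv_mul_coe, vecMul_one]

@[simp] lemma eisVecMulEquiv_apply (A : SL(2, ℤ)) (v : Fin 2 → ℤ) :
    eisVecMulEquiv A v = v ᵥ* (A : Matrix (Fin 2) (Fin 2) ℤ) := rfl

@[simp] lemma eisVecMulEquiv_symm_apply (A : SL(2, ℤ)) (v : Fin 2 → ℤ) :
    (eisVecMulEquiv A).symm v = v ᵥ* ((A⁻¹ : SL(2, ℤ)) : Matrix (Fin 2) (Fin 2) ℤ) := rfl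

/-- The slash action of `SL(2,ℤ)` on `eisC`. -/
theorem eisC_slash (κ : (Fin 2 → ℤ) → ℂ) (k : ℤ) (A : SL(2, ℤ)) :
    eisC κ k ∣[k] A
      = eisC (fun v => κ (v ᵥ* ((A⁻¹ : SL(2, ℤ)) : Matrix (Fin 2) (Fin 2) ℤ))) k := by
  ext1 z
  have h1 : eisC κ k (A • z) = denom A z ^ k *
      eisC (fun v => κ (v ᵥ* ((A⁻¹ : SL(2, ℤ)) : Matrix (Fin 2) (Fin 2) ℤ))) k z := by
    unfold eisC
    rw [← tsum_mul_left,
      ← (eisVecMulEquiv A).tsum_eq (fun w => denom A z ^ k *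
        (κ (w ᵥ* ((A⁻¹ : SL(2, ℤ)) : Matrix (Fin 2) (Fin 2) ℤ)) * eisSummand k w z))]
    refine tsum_congr fun v => ?_
    rw [eisVecMulEquiv_apply, vecMul_vecMul, eis_coe_mul_coe_inv, vecMul_one, eisSummand_SL2_apply]
    ring
  rw [SL_slash_apply, h1, _root_.zpow_neg]
  field_simp [zpow_ne_zero k (denom_ne_zero A z)]

/-! ### Behaviour at `i∞` for periodic series -/

lemma eis_vadd_periodic_int {f : ℍ → ℂ} {N : ℕ} (hper : ∀ z : ℍ, f ((N : ℝ) +ᵥ z) = f z) (n : ℤ)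
    (z : ℍ) : f ((N * n : ℝ) +ᵥ z) = f z := by
  have hnat : ∀ m : ℕ, ∀ w : ℍ, f ((N * m : ℝ) +ᵥ w) = f w := by
    intro m
    induction m with
    | zero => intro w; simp
    | succ m ih =>
      intro w
      have : ((N * (m + 1 : ℕ) : ℝ)) +ᵥ w = (N : ℝ) +ᵥ ((N * m : ℝ) +ᵥ w) := by
        rw [vadd_vadd]
        congr 1
        push_cast
        ring
      rw [this, hper, ih]
  rcases Int.eq_nat_or_neg n with ⟨m, rfl | rfl⟩
  · exact_mod_cast hnat m z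
  · have h := hnat m ((N * (-(m : ℤ)) : ℝ) +ᵥ z)
    rw [vadd_vadd] at h
    have h0 : ((N * m : ℝ) + (N * (-(m : ℤ)) : ℝ)) = 0 := by push_cast; ring
    rw [h0, zero_vadd] at h
    exact_mod_cast h.symm

/-- Move a point into the strip `|re| ≤ N` by a translation by a multiple of `N`. -/
lemma eis_exists_strip_rep {f : ℍ → ℂ} {N : ℕ} (hN : 0 < N)
    (hper : ∀ z : ℍ, f ((N : ℝ) +ᵥ z) = f z) (z : ℍ) :
    ∃ w : ℍ, w ∈ verticalStrip N z.im ∧ w.im = z.im ∧ f w = f z := by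
  obtain ⟨n, hn⟩ := ModularGroup_T_zpow_mem_verticalStrip z hN
  rw [modular_T_zpow_smul z (N * n)] at hn
  refine ⟨_, hn, by simp, ?_⟩
  have := eis_vadd_periodic_int hper n z
  exact_mod_cast this

/-- A periodic `eisC` is bounded at `i∞`. -/
theorem eisC_isBoundedAtImInfty (hκ : ∀ v, ‖κ v‖ ≤ C) (hk : 3 ≤ k) {N : ℕ} (hN : 0 < N)
    (hper : ∀ z : ℍ, eisC κ k ((N : ℝ) +ᵥ z) = eisC κ k z) :
    IsBoundedAtImInfty (eisC κ k) := by
  have hC : 0 ≤ C := (norm_nonneg _).trans (hκ 0)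
  rw [UpperHalfPlane.isBoundedAtImInfty_iff]
  refine ⟨∑' v : Fin 2 → ℤ, C * (r ⟨⟨N, 2⟩, Nat.ofNat_pos⟩ ^ (-k : ℝ) * ‖v‖ ^ (-k : ℝ)), 2, ?_⟩
  intro z hz
  obtain ⟨w, hw, hwim, hfw⟩ := eis_exists_strip_rep hN hper z
  rw [← hfw]
  have hw2 : w ∈ verticalStrip N 2 := verticalStrip_anti_right N hz hw
  calc ‖eisC κ k w‖ ≤ ∑' v : Fin 2 → ℤ, ‖κ v * eisSummand k v w‖ :=
        norm_tsum_le_tsum_norm (eisC_summable_norm hκ hk w)
    _ ≤ _ := (eisC_summable_norm hκ hk w).tsum_le_tsum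
        (fun v => eisC_term_bound hκ hC hk two_pos hw2 v) (eisC_bound_summable hk two_pos)

lemma eis_tendsto_eisSummand_atImInfty (hk : 3 ≤ k) (v : Fin 2 → ℤ) :
    Tendsto (fun z : ℍ => eisSummand k v z) atImInfty
      (𝓝 (if v 0 = 0 then ((v 1 : ℂ)) ^ (-k) else 0)) := by
  split_ifs with h0
  · have : (fun z : ℍ => eisSummand k v z) = fun _ => ((v 1 : ℂ)) ^ (-k) := by
      funext z
      simp [eisSummand, h0]
    rw [this]
    exact tendsto_const_nhds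
  · lift k to ℕ using (by omega)
    have hk1 : k ≠ 0 := by omega
    rw [tendsto_zero_iff_norm_tendsto_zero]
    have hlim : Tendsto (fun z : ℍ => ((z.im)⁻¹) ^ k) atImInfty (𝓝 0) := by
      have h1 : Tendsto (fun z : ℍ => (z.im)⁻¹) atImInfty (𝓝 0) :=
        tendsto_inv_atTop_zero.comp tendsto_comap
      simpa [hk1] using h1.pow k
    refine squeeze_zero (fun _ => norm_nonneg _) (fun z => ?_) hlim
    have hle : z.im ≤ ‖(v 0 : ℂ) * (z : ℂ) + v 1‖ := by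
      have h1 : |((v 0 : ℂ) * (z : ℂ) + v 1).im| ≤ ‖(v 0 : ℂ) * (z : ℂ) + v 1‖ :=
        Complex.abs_im_le_norm _
      have h2 : ((v 0 : ℂ) * (z : ℂ) + v 1).im = (v 0 : ℝ) * z.im := by
        simp [Complex.add_im, Complex.mul_im]
      rw [h2, abs_mul, abs_of_pos z.im_pos] at h1
      have h3 : (1 : ℝ) ≤ |(v 0 : ℝ)| := by
        have : (1 : ℤ) ≤ |v 0| := Int.one_le_abs h0
        exact_mod_cast this
      nlinarith [z.im_pos]
    simp only [eisSummand, _root_.zpow_neg, zpow_natCast, norm_inv, norm_pow, inv_pow]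
    exact inv_anti₀ (pow_pos z.im_pos k) (pow_le_pow_left₀ z.im_pos.le hle k)

/-- The limit at `i∞` of a periodic `eisC`. -/
theorem eisC_tendsto_atImInfty (hκ : ∀ v, ‖κ v‖ ≤ C) (hk : 3 ≤ k) {N : ℕ} (hN : 0 < N)
    (hper : ∀ z : ℍ, eisC κ k ((N : ℝ) +ᵥ z) = eisC κ k z) :
    Tendsto (eisC κ k) atImInfty
      (𝓝 (∑' v : Fin 2 → ℤ, κ v * (if v 0 = 0 then ((v 1 : ℂ)) ^ (-k) else 0))) := by
  have hC : 0 ≤ C := (norm_nonneg _).trans (hκ 0)
  set S : Set ℍ := {z | |z.re| ≤ N} with hS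
  -- convergence along the strip
  have hstrip : Tendsto (eisC κ k) (atImInfty ⊓ 𝓟 S)
      (𝓝 (∑' v : Fin 2 → ℤ, κ v * (if v 0 = 0 then ((v 1 : ℂ)) ^ (-k) else 0))) := by
    refine tendsto_tsum_of_dominated_convergence
      (bound := fun v : Fin 2 → ℤ => C * (r ⟨⟨N, 1⟩, one_pos⟩ ^ (-k : ℝ) * ‖v‖ ^ (-k : ℝ)))
      (eisC_bound_summable hk one_pos) (fun v => ?_) ?_
    · exact ((eis_tendsto_eisSummand_atImInfty hk v).mono_left inf_le_left).const_mul (κ v)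
    · have h1 : ∀ᶠ z : ℍ in atImInfty ⊓ 𝓟 S, (1 : ℝ) ≤ z.im :=
        (tendsto_comap.eventually (eventually_ge_atTop (1 : ℝ))).filter_mono inf_le_left
      have h2 : ∀ᶠ z : ℍ in atImInfty ⊓ 𝓟 S, z ∈ S :=
        eventually_inf_principal.mpr (Eventually.of_forall fun z hz => hz)
      filter_upwards [h1, h2] with z hz1 hz2 v
      exact eisC_term_bound hκ hC hk one_pos ⟨hz2, hz1⟩ v
  -- transfer by periodicity
  rw [tendsto_def] at hstrip ⊢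
  intro s hs
  have := hstrip s hs
  rw [mem_inf_principal] at this
  rw [atImInfty, mem_comap] at this ⊢
  obtain ⟨t, ht, hts⟩ := this
  obtain ⟨B, hB⟩ := mem_atTop_sets.mp ht
  refine ⟨Set.Ici B, Ici_mem_atTop B, fun z hz => ?_⟩
  obtain ⟨w, hw, hwim, hfw⟩ := eis_exists_strip_rep hN hper z
  have hwt : w ∈ im ⁻¹' t := by
    apply hB
    rw [hwim]
    exact hz
  have := hts hwt hw.1
  simp only [Set.mem_preimage] at this ⊢
  rw [← hfw]
  exact this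

end Fermat.Agent.ES
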