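/-
ESpkg-G1, piece A3 (helper83): Eisenstein series with character.

For a character `χ : Γ₀(M) → ℂˣ` of absolute value one which is trivial on parabolic elements
(`tr² = 4`), the series `eisChar χ k z = ∑_{(c,d)} χ(γ_{c,d})⁻¹ (c z + d)^{-k}` (sum over the bottom
rows of elements of `Γ₀(M)`) is holomorphic on `ℍ`, satisfies
`eisChar χ k ∣[k] γ = χ γ • eisChar χ k` for `γ ∈ Γ₀(M)`, all its `SL(2,ℤ)`-translates are bounded
at `i∞`, and it tends to `2` at `i∞` (for even `k ≥ 4`).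
-/
import Fermat.Agent.ES.EisCoeff

set_option autoImplicit false

open EisensteinSeries UpperHalfPlane ModularForm CongruenceSubgroup Matrix Filter Topology
open scoped MatrixGroups Manifold

noncomputable section

namespace Fermat.Agent.ES

variable {M : ℕ}

/-- An element of `SL(2,ℤ)` is *parabolic* (in the sense of the prelude) if `tr² = 4`. -/
def IsPar (γ : SL(2, ℤ)) : Prop := (γ : Matrix (Fin 2) (Fin 2) ℤ).trace ^ 2 = 4

/-- The bottom row of an element of `SL(2,ℤ)`. -/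
def brow (γ : SL(2, ℤ)) : Fin 2 → ℤ := (γ : Matrix (Fin 2) (Fin 2) ℤ) 1

lemma brow_mul (γ δ : SL(2, ℤ)) : brow (γ * δ) = brow γ ᵥ* (δ : Matrix (Fin 2) (Fin 2) ℤ) := by
  unfold brow
  rw [← eis_coe_mul_coe, Matrix.mul_apply_eq_vecMul]

lemma brow_one : brow 1 = ![0, 1] := by
  funext i
  fin_cases i <;> simp [brow]

lemma brow_apply_zero (γ : SL(2, ℤ)) : brow γ 0 = γ 1 0 := rfl

lemma brow_apply_one (γ : SL(2, ℤ)) : brow γ 1 = γ 1 1 := rfl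

/-- An element of `SL(2,ℤ)` with bottom row `(0,1)` is parabolic. -/
lemma isPar_of_brow_eq {δ : SL(2, ℤ)} (h : brow δ = ![0, 1]) : IsPar δ := by
  have h0 : δ 1 0 = 0 := by
    have := congrFun h 0
    rw [brow_apply_zero] at this
    simpa using this
  have h1 : δ 1 1 = 1 := by
    have := congrFun h 1
    rw [brow_apply_one] at this
    simpa using this
  have hdet := δ.2
  rw [Matrix.det_fin_two] at hdet
  have h00 : δ 0 0 = 1 := by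
    have : (δ : Matrix (Fin 2) (Fin 2) ℤ) 0 0 * (δ : Matrix (Fin 2) (Fin 2) ℤ) 1 1
      - (δ : Matrix (Fin 2) (Fin 2) ℤ) 0 1 * (δ : Matrix (Fin 2) (Fin 2) ℤ) 1 0 = 1 := hdet
    rw [h0, h1] at this
    linarith
  unfold IsPar
  rw [Matrix.trace_fin_two, h00, h1]
  norm_num

/-- Two elements with the same bottom row differ by a parabolic element on the left. -/
lemma isPar_mul_inv_of_brow_eq {γ γ' : SL(2, ℤ)} (h : brow γ' = brow γ) : IsPar (γ' * γ⁻¹) := by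
  apply isPar_of_brow_eq
  rw [brow_mul, h, ← brow_mul, mul_inv_cancel, brow_one]

open scoped Classical in
/-- The coefficient function of the Eisenstein series with character. -/
def kap (χ : Gamma0 M →* ℂˣ) (v : Fin 2 → ℤ) : ℂ :=
  if h : ∃ γ : Gamma0 M, brow γ = v then (((χ h.choose)⁻¹ : ℂˣ) : ℂ) else 0

variable (χ : Gamma0 M →* ℂˣ)

lemma kap_eq (hpar : ∀ γ : Gamma0 M, IsPar γ → χ γ = 1) (γ : Gamma0 M) :
    kap χ (brow γ) = (((χ γ)⁻¹ : ℂˣ) : ℂ) := by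
  have h : ∃ γ' : Gamma0 M, brow γ' = brow γ := ⟨γ, rfl⟩
  unfold kap
  rw [dif_pos h]
  have h1 : IsPar ((h.choose * γ⁻¹ : Gamma0 M) : SL(2, ℤ)) := by
    have := isPar_mul_inv_of_brow_eq h.choose_spec
    simpa using this
  have h2 := hpar _ h1
  rw [map_mul, map_inv, mul_inv_eq_one] at h2
  rw [h2]

lemma kap_of_not_exists {v : Fin 2 → ℤ} (h : ¬ ∃ γ : Gamma0 M, brow γ = v) : kap χ v = 0 := by
  unfold kap
  rw [dif_neg h]

lemma norm_kap_le (hχ : ∀ γ : Gamma0 M, ‖((χ γ : ℂˣ) : ℂ)‖ = 1) (v : Fin 2 → ℤ) :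
    ‖kap χ v‖ ≤ 1 := by
  unfold kap
  split_ifs with h
  · rw [Units.val_inv_eq_inv_val, norm_inv, hχ, inv_one]
  · simp

lemma kap_vecMul (hpar : ∀ γ : Gamma0 M, IsPar γ → χ γ = 1) (γ : Gamma0 M) (v : Fin 2 → ℤ) :
    kap χ (v ᵥ* ((γ : SL(2, ℤ)) : Matrix (Fin 2) (Fin 2) ℤ)) = kap χ v * (((χ γ)⁻¹ : ℂˣ) : ℂ) := by
  by_cases h : ∃ γ' : Gamma0 M, brow γ' = v
  · obtain ⟨γ', rfl⟩ := h
    have : brow γ' ᵥ* ((γ : SL(2, ℤ)) : Matrix (Fin 2) (Fin 2) ℤ) = brow ((γ' * γ : Gamma0 M)) := by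
      rw [Subgroup.coe_mul, brow_mul]
    rw [this, kap_eq χ hpar, kap_eq χ hpar, map_mul, mul_inv, Units.val_mul]
  · have h' : ¬ ∃ γ' : Gamma0 M,
        brow γ' = v ᵥ* ((γ : SL(2, ℤ)) : Matrix (Fin 2) (Fin 2) ℤ) := by
      rintro ⟨γ', hγ'⟩
      apply h
      refine ⟨γ' * γ⁻¹, ?_⟩
      rw [Subgroup.coe_mul, brow_mul, hγ', Subgroup.coe_inv, vecMul_vecMul, eis_coe_mul_coe_inv,
        vecMul_one]
    rw [kap_of_not_exists χ h, kap_of_not_exists χ h', zero_mul]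

/-! ### The series -/

/-- The Eisenstein series of weight `k` with character `χ` on `Γ₀(M)`. -/
def eisChar (χ : Gamma0 M →* ℂˣ) (k : ℤ) : ℍ → ℂ := eisC (kap χ) k

variable {k : ℤ}

lemma eisC_const_mul (κ : (Fin 2 → ℤ) → ℂ) (c : ℂ) (k : ℤ) :
    eisC (fun v => c * κ v) k = c • eisC κ k := by
  funext z
  simp only [eisC, Pi.smul_apply, smul_eq_mul, mul_assoc, tsum_mul_left]

/-- `eisChar χ k` is holomorphic. -/
theorem eisChar_mdiff (hχ : ∀ γ : Gamma0 M, ‖((χ γ : ℂˣ) : ℂ)‖ = 1) (hk : 3 ≤ k) :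
    MDiff (eisChar χ k) :=
  eisC_mdiff (norm_kap_le χ hχ) hk

/-- The automorphy of `eisChar χ k` under `Γ₀(M)`. -/
theorem eisChar_slash (hpar : ∀ γ : Gamma0 M, IsPar γ → χ γ = 1) (γ : Gamma0 M) :
    eisChar χ k ∣[k] (γ : SL(2, ℤ)) = ((χ γ : ℂˣ) : ℂ) • eisChar χ k := by
  unfold eisChar
  rw [eisC_slash, ← eisC_const_mul]
  congr 1
  funext v
  have := kap_vecMul χ hpar γ⁻¹ v
  rw [Subgroup.coe_inv] at this
  rw [this, map_inv, inv_inv, mul_comm]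

lemma eis_slash_T_zpow_apply (f : ℍ → ℂ) (k n : ℤ) (z : ℍ) :
    (f ∣[k] (ModularGroup.T ^ n)) z = f ((n : ℝ) +ᵥ z) := by
  rw [SL_slash_apply, modular_T_zpow_smul]
  have h : denom (ModularGroup.T ^ n : SL(2, ℤ)) z = 1 := by
    rw [ModularGroup.denom_apply, ModularGroup.coe_T_zpow]
    simp
  rw [h, _root_.one_zpow, mul_one]

lemma isPar_conj_T_zpow (δ : SL(2, ℤ)) (n : ℤ) : IsPar (δ * ModularGroup.T ^ n * δ⁻¹) := by
  unfold IsPar
  have h1 : ((δ * ModularGroup.T ^ n * δ⁻¹ : SL(2, ℤ)) : Matrix (Fin 2) (Fin 2) ℤ)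
      = (δ : Matrix (Fin 2) (Fin 2) ℤ) * ((ModularGroup.T ^ n : SL(2, ℤ)) : Matrix (Fin 2) (Fin 2) ℤ)
        * ((δ⁻¹ : SL(2, ℤ)) : Matrix (Fin 2) (Fin 2) ℤ) := rfl
  rw [h1, Matrix.trace_mul_cycle, eis_coe_inv_mul_coe, one_mul, ModularGroup.coe_T_zpow,
    Matrix.trace_fin_two]
  norm_num

lemma eis_conj_T_zpow_mem_Gamma0 (δ : SL(2, ℤ)) (n : ℤ) (hn : (M : ℤ) ∣ n) :
    δ * ModularGroup.T ^ n * δ⁻¹ ∈ Gamma0 M := by
  have h1 : ModularGroup.T ^ n ∈ Gamma M := by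
    have := ModularGroup_T_pow_mem_Gamma (M : ℤ) n hn
    simpa using this
  have h2 : δ * ModularGroup.T ^ n * δ⁻¹ ∈ Gamma M := (Gamma_normal M).conj_mem _ h1 δ
  rw [Gamma_mem] at h2
  rw [Gamma0_mem]
  exact h2.2.2.1

/-- The coefficient function of a translate is invariant under `T^n` whenever
`δ T^n δ⁻¹ ∈ Γ₀(M)`. -/
lemma kap_translate_periodic' (hpar : ∀ γ : Gamma0 M, IsPar γ → χ γ = 1) (δ : SL(2, ℤ))
    (n : ℤ) (hn : δ * ModularGroup.T ^ n * δ⁻¹ ∈ Gamma0 M) (v : Fin 2 → ℤ) :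
    kap χ ((v ᵥ* (((ModularGroup.T ^ n)⁻¹ : SL(2, ℤ)) : Matrix (Fin 2) (Fin 2) ℤ)) ᵥ*
        ((δ⁻¹ : SL(2, ℤ)) : Matrix (Fin 2) (Fin 2) ℤ))
      = kap χ (v ᵥ* ((δ⁻¹ : SL(2, ℤ)) : Matrix (Fin 2) (Fin 2) ℤ)) := by
  have hmem : δ * ModularGroup.T ^ (-n) * δ⁻¹ ∈ Gamma0 M := by
    have := (Gamma0 M).inv_mem hn
    have e : (δ * ModularGroup.T ^ n * δ⁻¹)⁻¹ = δ * ModularGroup.T ^ (-n) * δ⁻¹ := by
      rw [_root_.zpow_neg]
      group
    rwa [e] at this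
  have hγpar : IsPar (δ * ModularGroup.T ^ (-n) * δ⁻¹) := isPar_conj_T_zpow δ _
  have h1 := kap_vecMul χ hpar ⟨_, hmem⟩
    (v ᵥ* ((δ⁻¹ : SL(2, ℤ)) : Matrix (Fin 2) (Fin 2) ℤ))
  rw [hpar ⟨_, hmem⟩ hγpar, inv_one, Units.val_one, mul_one] at h1
  rw [← h1]
  have key : ((ModularGroup.T ^ n)⁻¹ * δ⁻¹ : SL(2, ℤ))
      = δ⁻¹ * (δ * ModularGroup.T ^ (-n) * δ⁻¹) := by
    rw [_root_.zpow_neg]
    group
  rw [vecMul_vecMul, vecMul_vecMul, eis_coe_mul_coe, eis_coe_mul_coe, key]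

/-- The coefficient function of a translate is invariant under `T^M`. -/
lemma kap_translate_periodic (hpar : ∀ γ : Gamma0 M, IsPar γ → χ γ = 1) (δ : SL(2, ℤ))
    (v : Fin 2 → ℤ) :
    kap χ ((v ᵥ* (((ModularGroup.T ^ (M : ℤ))⁻¹ : SL(2, ℤ)) : Matrix (Fin 2) (Fin 2) ℤ)) ᵥ*
        ((δ⁻¹ : SL(2, ℤ)) : Matrix (Fin 2) (Fin 2) ℤ))
      = kap χ (v ᵥ* ((δ⁻¹ : SL(2, ℤ)) : Matrix (Fin 2) (Fin 2) ℤ)) :=
  kap_translate_periodic' χ hpar δ (M : ℤ) (eis_conj_T_zpow_mem_Gamma0 δ _ dvd_rfl) v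

/-- A translate of `eisChar χ k` by `δ ∈ SL(2,ℤ)` is `n`-periodic whenever `δ T^n δ⁻¹ ∈ Γ₀(M)`. -/
theorem eisChar_slash_periodic' (hpar : ∀ γ : Gamma0 M, IsPar γ → χ γ = 1) (δ : SL(2, ℤ))
    (n : ℤ) (hn : δ * ModularGroup.T ^ n * δ⁻¹ ∈ Gamma0 M) (z : ℍ) :
    (eisChar χ k ∣[k] δ) ((n : ℝ) +ᵥ z) = (eisChar χ k ∣[k] δ) z := by
  have h := eis_slash_T_zpow_apply (eisChar χ k ∣[k] δ) k n z
  rw [← h]
  unfold eisChar
  rw [eisC_slash, eisC_slash]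
  congr 2
  funext v
  exact kap_translate_periodic' χ hpar δ n hn v

/-- Every `SL(2,ℤ)`-translate of `eisChar χ k` is `M`-periodic. -/
theorem eisChar_slash_periodic (hpar : ∀ γ : Gamma0 M, IsPar γ → χ γ = 1) (δ : SL(2, ℤ))
    (z : ℍ) : (eisChar χ k ∣[k] δ) ((M : ℝ) +ᵥ z) = (eisChar χ k ∣[k] δ) z := by
  have h := eisChar_slash_periodic' (k := k) χ hpar δ (M : ℤ)
    (eis_conj_T_zpow_mem_Gamma0 δ _ dvd_rfl) z
  rwa [show ((M : ℤ) : ℝ) = (M : ℝ) by simp] at h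

/-- Every `SL(2,ℤ)`-translate of `eisChar χ k` is bounded at `i∞`. -/
theorem eisChar_slash_isBoundedAtImInfty [NeZero M]
    (hχ : ∀ γ : Gamma0 M, ‖((χ γ : ℂˣ) : ℂ)‖ = 1)
    (hpar : ∀ γ : Gamma0 M, IsPar γ → χ γ = 1) (hk : 3 ≤ k) (δ : SL(2, ℤ)) :
    IsBoundedAtImInfty (eisChar χ k ∣[k] δ) := by
  have hper := eisChar_slash_periodic (k := k) χ hpar δ
  unfold eisChar at hper ⊢
  rw [eisC_slash] at hper ⊢
  exact eisC_isBoundedAtImInfty (C := 1) (fun v => norm_kap_le χ hχ _) hk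
    (Nat.pos_of_ne_zero (NeZero.ne M)) hper

lemma eisChar_periodic [NeZero M] (hpar : ∀ γ : Gamma0 M, IsPar γ → χ γ = 1) (z : ℍ) :
    eisChar χ k ((M : ℝ) +ᵥ z) = eisChar χ k z := by
  have := eisChar_slash_periodic (k := k) χ hpar 1 z
  simpa using this

/-! ### The limit at `i∞` -/

lemma eis_neg_one_mem_Gamma0 : (-1 : SL(2, ℤ)) ∈ Gamma0 M := by
  rw [Gamma0_mem]
  simp

lemma isPar_neg_one : IsPar (-1 : SL(2, ℤ)) := by
  unfold IsPar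
  rw [Matrix.trace_fin_two]
  simp

lemma brow_neg_one : brow (-1 : SL(2, ℤ)) = ![0, -1] := by
  funext i
  fin_cases i <;> simp [brow]

lemma kap_zero_one (hpar : ∀ γ : Gamma0 M, IsPar γ → χ γ = 1) : kap χ ![0, 1] = 1 := by
  have := kap_eq χ hpar 1
  rw [map_one, inv_one, Units.val_one] at this
  rw [← this]
  congr 1
  exact brow_one.symm

lemma kap_zero_neg_one (hpar : ∀ γ : Gamma0 M, IsPar γ → χ γ = 1) : kap χ ![0, -1] = 1 := by
  have := kap_eq χ hpar ⟨-1, eis_neg_one_mem_Gamma0⟩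
  rw [hpar ⟨-1, eis_neg_one_mem_Gamma0⟩ isPar_neg_one, inv_one, Units.val_one] at this
  rw [← this]
  congr 1
  exact brow_neg_one.symm

lemma kap_eq_zero_of_ne {v : Fin 2 → ℤ} (h0 : v 0 = 0) (h1 : v ≠ ![0, 1]) (h2 : v ≠ ![0, -1]) :
    kap χ v = 0 := by
  apply kap_of_not_exists
  rintro ⟨γ, hγ⟩
  have hcop := ModularGroup.bottom_row_coprime (γ : SL(2, ℤ))
  have e0 : ((γ : SL(2, ℤ)) : Matrix (Fin 2) (Fin 2) ℤ) 1 0 = v 0 := congrFun hγ 0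
  have e1 : ((γ : SL(2, ℤ)) : Matrix (Fin 2) (Fin 2) ℤ) 1 1 = v 1 := congrFun hγ 1
  rw [e0, e1, h0, isCoprime_zero_left, Int.isUnit_iff] at hcop
  rcases hcop with h | h
  · apply h1
    funext i
    fin_cases i <;> simp [h0, h]
  · apply h2
    funext i
    fin_cases i <;> simp [h0, h]

lemma tsum_kap_eq_two (hpar : ∀ γ : Gamma0 M, IsPar γ → χ γ = 1) (hk2 : Even k) :
    (∑' v : Fin 2 → ℤ, kap χ v * (if v 0 = 0 then ((v 1 : ℂ)) ^ (-k) else 0)) = 2 := by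
  classical
  have hne : (![0, 1] : Fin 2 → ℤ) ≠ ![0, -1] := by
    intro h
    have := congrFun h 1
    simp at this
  rw [tsum_eq_sum (s := {![0, 1], ![0, -1]})]
  · rw [Finset.sum_pair hne, kap_zero_one χ hpar, kap_zero_neg_one χ hpar]
    have h1 : ((-1 : ℂ)) ^ (-k) = 1 := by
      rw [_root_.zpow_neg, Even.neg_one_zpow hk2, inv_one]
    simp [h1]
    norm_num
  · intro v hv
    simp only [Finset.mem_insert, Finset.mem_singleton, not_or] at hv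
    by_cases h0 : v 0 = 0
    · rw [kap_eq_zero_of_ne χ h0 hv.1 hv.2, zero_mul]
    · rw [if_neg h0, mul_zero]

/-- `eisChar χ k` tends to `2` at `i∞` (even weight `k ≥ 4`). -/
theorem eisChar_tendsto [NeZero M] (hχ : ∀ γ : Gamma0 M, ‖((χ γ : ℂˣ) : ℂ)‖ = 1)
    (hpar : ∀ γ : Gamma0 M, IsPar γ → χ γ = 1) (hk : 3 ≤ k) (hk2 : Even k) :
    Tendsto (eisChar χ k) atImInfty (𝓝 2) := by
  have h := eisC_tendsto_atImInfty (norm_kap_le χ hχ) hk (Nat.pos_of_ne_zero (NeZero.ne M))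
    (eisChar_periodic (k := k) χ hpar)
  rw [tsum_kap_eq_two χ hpar hk2] at h
  exact h

/-- `eisChar χ k` is not identically zero. -/
theorem eisChar_ne_zero [NeZero M] (hχ : ∀ γ : Gamma0 M, ‖((χ γ : ℂˣ) : ℂ)‖ = 1)
    (hpar : ∀ γ : Gamma0 M, IsPar γ → χ γ = 1) (hk : 3 ≤ k) (hk2 : Even k) :
    ∃ z : ℍ, eisChar χ k z ≠ 0 := by
  by_contra hne
  push Not at hne
  have h0 : Tendsto (eisChar χ k) atImInfty (𝓝 0) := by
    have : eisChar χ k = fun _ => 0 := funext hne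
    rw [this]
    exact tendsto_const_nhds
  have := tendsto_nhds_unique (eisChar_tendsto χ hχ hpar hk hk2) h0
  norm_num at this

/-! ### Powers: genuine modular forms on `Γ₀(M)` -/

lemma eis_pow_slash (k : ℤ) (n : ℕ) (g : ℍ → ℂ) (A : SL(2, ℤ)) :
    (g ^ n) ∣[(n : ℤ) * k] A = (g ∣[k] A) ^ n := by
  induction n with
  | zero =>
    simp only [pow_zero, Nat.cast_zero, zero_mul]
    exact ModularForm.is_invariant_one A
  | succ n ih =>
    rw [pow_succ, pow_succ, ← ih]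
    have : ((n + 1 : ℕ) : ℤ) * k = (n : ℤ) * k + k := by push_cast; ring
    rw [this]
    exact mul_slash_SL2 _ _ A _ _

/-- If `χ ^ n = 1`, the `n`-th power of `eisChar χ k` is a modular form of weight `n k` on
`Γ₀(M)`. -/
def eisCharPow [NeZero M] (hχ : ∀ γ : Gamma0 M, ‖((χ γ : ℂˣ) : ℂ)‖ = 1)
    (hpar : ∀ γ : Gamma0 M, IsPar γ → χ γ = 1) (hk : 3 ≤ k) (n : ℕ)
    (hn : ∀ γ : Gamma0 M, χ γ ^ n = 1) :
    ModularForm ((Gamma0 M).map (Matrix.SpecialLinearGroup.mapGL ℝ)) ((n : ℤ) * k) where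
  toFun := eisChar χ k ^ n
  slash_action_eq' := by
    rintro _ ⟨γ, hγ, rfl⟩
    change (eisChar χ k ^ n) ∣[(n : ℤ) * k] γ = _
    rw [eis_pow_slash, eisChar_slash χ hpar ⟨γ, hγ⟩, smul_pow, ← Units.val_pow_eq_pow_val,
      hn ⟨γ, hγ⟩, Units.val_one, one_smul]
  holo' := by
    have h := eisChar_mdiff χ hχ hk
    have : MDiff (fun z => eisChar χ k z ^ n) := h.pow n
    exact this
  bdd_at_cusps' := by
    intro c hc
    rw [Subgroup.IsArithmetic.isCusp_iff_isCusp_SL2Z] at hc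
    rw [OnePoint.isBoundedAt_iff_forall_SL2Z hc]
    intro δ _
    rw [eis_pow_slash]
    have hb := eisChar_slash_isBoundedAtImInfty χ hχ hpar hk δ
    have key : ∀ m : ℕ, IsBoundedAtImInfty ((eisChar χ k ∣[k] δ) ^ m) := by
      intro m
      induction m with
      | zero =>
        simp only [pow_zero]
        exact Filter.const_boundedAtFilter _ (1 : ℂ)
      | succ m ih =>
        rw [pow_succ]
        exact ih.mul hb
    exact key n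

@[simp] lemma eisCharPow_apply [NeZero M] (hχ : ∀ γ : Gamma0 M, ‖((χ γ : ℂˣ) : ℂ)‖ = 1)
    (hpar : ∀ γ : Gamma0 M, IsPar γ → χ γ = 1) (hk : 3 ≤ k) (n : ℕ)
    (hn : ∀ γ : Gamma0 M, χ γ ^ n = 1) (z : ℍ) :
    eisCharPow χ hχ hpar hk n hn z = eisChar χ k z ^ n := rfl

end Fermat.Agent.ES
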