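/-
ESpkg-G1, piece A3 (helper83): the `χ`-automorphic function `hChi χ = eisChar χ 12 / Δ`.

`hChi χ` is holomorphic on `ℍ`, not identically zero, `hChi χ (γ • z) = χ γ * hChi χ z` for
`γ ∈ Γ₀(M)`; for every `δ ∈ SL(2,ℤ)`: `hChi χ (δ • z) = (eisChar χ 12 ∣[12] δ) z / Δ z`, where the
numerator is holomorphic, bounded at `i∞`, and `n`-periodic whenever `δ T^n δ⁻¹ ∈ Γ₀(M)`.
-/
import Fermat.Agent.ES.EisChar

set_option autoImplicit false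

open EisensteinSeries UpperHalfPlane ModularForm CongruenceSubgroup Matrix Filter Topology
open scoped MatrixGroups Manifold

noncomputable section

namespace Fermat.Agent.ES

variable {M : ℕ} (χ : Gamma0 M →* ℂˣ)

local notation "Δ" => ModularForm.discriminant

/-- The `χ`-automorphic function `E₁₂^χ / Δ`. -/
def hChi (χ : Gamma0 M →* ℂˣ) (z : ℍ) : ℂ := eisChar χ 12 z / Δ z

lemma hChi_apply (z : ℍ) : hChi χ z = eisChar χ 12 z / Δ z := rfl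

lemma eis_discriminant_mdiff : MDiff (Δ : ℍ → ℂ) := CuspForm.discriminant.holo'

theorem hChi_mdiff (hχ : ∀ γ : Gamma0 M, ‖((χ γ : ℂˣ) : ℂ)‖ = 1) : MDiff (hChi χ) :=
  (eisChar_mdiff χ hχ (by norm_num)).div eis_discriminant_mdiff discriminant_ne_zero

/-- `Δ(δ z) = (c z + d)^12 Δ(z)`. -/
lemma eis_discriminant_smul (δ : SL(2, ℤ)) (z : ℍ) : Δ (δ • z) = denom δ z ^ 12 * Δ z := by
  have h : (⇑CuspForm.discriminant : ℍ → ℂ) ∣[(12 : ℤ)] δ = ⇑CuspForm.discriminant := by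
    rw [SL_slash]
    exact SlashInvariantForm.slash_action_eqn CuspForm.discriminant _ ⟨δ, rfl⟩
  have h2 := congrFun h z
  rw [SL_slash_apply] at h2
  have hd : denom δ z ^ 12 ≠ 0 := pow_ne_zero _ (denom_ne_zero _ z)
  have h3 : (CuspForm.discriminant : ℍ → ℂ) (δ • z) = Δ (δ • z) := rfl
  have h4 : (CuspForm.discriminant : ℍ → ℂ) z = Δ z := rfl
  have h5 : denom δ z ^ (-(12 : ℤ)) = (denom δ z ^ 12)⁻¹ := by
    rw [_root_.zpow_neg]
    norm_cast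
  rw [h3, h4, h5] at h2
  calc Δ (δ • z) = Δ (δ • z) * (denom δ z ^ 12)⁻¹ * denom δ z ^ 12 := by
        rw [inv_mul_cancel_right₀ hd]
    _ = denom δ z ^ 12 * Δ z := by rw [h2, mul_comm]

/-- The translates of `hChi χ`. -/
theorem hChi_smul_SL (δ : SL(2, ℤ)) (z : ℍ) :
    hChi χ (δ • z) = (eisChar χ 12 ∣[(12 : ℤ)] δ) z / Δ z := by
  have hd : denom δ z ^ 12 ≠ 0 := pow_ne_zero _ (denom_ne_zero _ z)
  have hΔ : Δ z ≠ 0 := discriminant_ne_zero z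
  have h5 : denom δ z ^ (-(12 : ℤ)) = (denom δ z ^ 12)⁻¹ := by
    rw [_root_.zpow_neg]
    norm_cast
  rw [hChi_apply, eis_discriminant_smul, SL_slash_apply, h5]
  field_simp

/-- The automorphy of `hChi χ`. -/
theorem hChi_smul (hpar : ∀ γ : Gamma0 M, IsPar γ → χ γ = 1) (γ : Gamma0 M) (z : ℍ) :
    hChi χ ((γ : SL(2, ℤ)) • z) = ((χ γ : ℂˣ) : ℂ) * hChi χ z := by
  rw [hChi_smul_SL, eisChar_slash χ hpar γ, hChi_apply, Pi.smul_apply, smul_eq_mul, mul_div_assoc]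

/-- `hChi χ ^ n` is `Γ₀(M)`-invariant if `χ ^ n = 1`. -/
theorem hChi_pow_smul (hpar : ∀ γ : Gamma0 M, IsPar γ → χ γ = 1) (n : ℕ)
    (hn : ∀ γ : Gamma0 M, χ γ ^ n = 1) (γ : Gamma0 M) (z : ℍ) :
    hChi χ ((γ : SL(2, ℤ)) • z) ^ n = hChi χ z ^ n := by
  rw [hChi_smul χ hpar, mul_pow, ← Units.val_pow_eq_pow_val, hn, Units.val_one, one_mul]

/-- `hChi χ · Δ` tends to `2` at `i∞`; in particular `hChi χ` has a simple pole at `i∞`. -/
theorem hChi_mul_discriminant_tendsto [NeZero M] (hχ : ∀ γ : Gamma0 M, ‖((χ γ : ℂˣ) : ℂ)‖ = 1)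
    (hpar : ∀ γ : Gamma0 M, IsPar γ → χ γ = 1) :
    Tendsto (fun z => hChi χ z * Δ z) atImInfty (𝓝 2) := by
  have h := eisChar_tendsto (k := 12) χ hχ hpar (by norm_num) ⟨6, by norm_num⟩
  refine h.congr fun z => ?_
  rw [hChi_apply, div_mul_cancel₀ _ (discriminant_ne_zero z)]

theorem hChi_ne_zero [NeZero M] (hχ : ∀ γ : Gamma0 M, ‖((χ γ : ℂˣ) : ℂ)‖ = 1)
    (hpar : ∀ γ : Gamma0 M, IsPar γ → χ γ = 1) : ∃ z : ℍ, hChi χ z ≠ 0 := by
  obtain ⟨z, hz⟩ := eisChar_ne_zero (k := 12) χ hχ hpar (by norm_num) ⟨6, by norm_num⟩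
  exact ⟨z, div_ne_zero hz (discriminant_ne_zero z)⟩

/-- At every cusp: `z ↦ hChi χ (δ • z) · Δ z` is holomorphic, bounded at `i∞` and `n`-periodic
whenever `δ T^n δ⁻¹ ∈ Γ₀(M)`. -/
theorem hChi_cusp [NeZero M] (hχ : ∀ γ : Gamma0 M, ‖((χ γ : ℂˣ) : ℂ)‖ = 1)
    (hpar : ∀ γ : Gamma0 M, IsPar γ → χ γ = 1) (δ : SL(2, ℤ)) :
    MDiff (fun z => hChi χ (δ • z) * Δ z) ∧
    IsBoundedAtImInfty (fun z => hChi χ (δ • z) * Δ z) ∧
    ∀ n : ℤ, δ * ModularGroup.T ^ n * δ⁻¹ ∈ Gamma0 M → ∀ z : ℍ,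
      hChi χ (δ • ((n : ℝ) +ᵥ z)) * Δ ((n : ℝ) +ᵥ z) = hChi χ (δ • z) * Δ z := by
  have hfun : (fun z => hChi χ (δ • z) * Δ z) = eisChar χ 12 ∣[(12 : ℤ)] δ := by
    funext z
    rw [hChi_smul_SL, div_mul_cancel₀ _ (discriminant_ne_zero z)]
  refine ⟨?_, ?_, fun n hn z => ?_⟩
  · rw [hfun]
    have h := eisChar_mdiff (k := 12) χ hχ (by norm_num)
    unfold eisChar at h ⊢
    rw [eisC_slash]
    exact eisC_mdiff (C := 1) (fun v => norm_kap_le χ hχ _) (by norm_num)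
  · rw [hfun]
    exact eisChar_slash_isBoundedAtImInfty χ hχ hpar (by norm_num) δ
  · have h1 := congrFun hfun ((n : ℝ) +ᵥ z)
    have h2 := congrFun hfun z
    rw [h1, h2]
    exact eisChar_slash_periodic' χ hpar δ n hn z

end Fermat.Agent.ES
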