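import Fermat.Agent.S24.OrderAt

/-!
# ESpkg-G1, piece A2 (core): the multiplier of a `p`-th root

A meromorphic function on `ℍ` is written `a / g` with `a g : ℍ → ℂ` holomorphic, `g ≠ 0`.
`IsMultiplier γ a g ζ` says `(a/g)(γ τ) = ζ · (a/g)(τ)` (written without division).

* `exists_rootOfUnity_mul_of_pow_eq` : rigidity — holomorphic `A, B` on `ℍ` with `A^p = B^p`
  differ by a constant `p`-th root of unity;
* `exists_isMultiplier` : if `(a/g)^p` is `γ`-invariant then `a/g` has a multiplier `ζ ∈ μ_p`;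
* `IsMultiplier.unique`, `.one`, `.mul`, `.inv`, `.mul_fun`, `.congr_fun` : uniqueness, cocycle rules;
* `IsMultiplier.mul_pow_eq_of_fixed` : at a fixed point `τ₀` of `γ`,
  `ζ · ν ^ ord_τ₀ g = ν ^ ord_τ₀ a` with `ν = 1 / denom γ τ₀ ^ 2`;
* `RootData Γ p`, `RootData.mult : Γ →* ℂˣ`, the multiplier character of a `p`-th root of a
  `Γ`-invariant function.
-/

set_option autoImplicit false

noncomputable section

open UpperHalfPlane Filter Topology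
open scoped MatrixGroups Manifold

namespace Fermat.Agent.ES

open Fermat.Agent.S24

/-! ### Holomorphic functions on `ℍ` and precomposition with `SL(2,ℤ)` -/

theorem mdiff_comp_SL {w : ℍ → ℂ} (hw : MDiff w) (γ : SL(2, ℤ)) :
    MDiff (fun τ : ℍ => w (γ • τ)) :=
  hw.comp (UpperHalfPlane.mdifferentiable_smul (g := (γ : GL (Fin 2) ℝ)) (SL_val_det_pos γ))

theorem comp_SL_eq_zero_iff {w : ℍ → ℂ} (γ : SL(2, ℤ)) :
    (fun τ : ℍ => w (γ • τ)) = 0 ↔ w = 0 := by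
  constructor
  · intro h
    funext τ
    have := congrFun h (γ⁻¹ • τ)
    simpa using this
  · rintro rfl
    rfl

/-- Rigidity: two holomorphic functions on `ℍ` with the same `p`-th power differ by a constant
`p`-th root of unity. -/
theorem exists_rootOfUnity_mul_of_pow_eq {p : ℕ} (hp : p ≠ 0) {A B : ℍ → ℂ} (hA : MDiff A)
    (hB : MDiff B) (h : ∀ τ, A τ ^ p = B τ ^ p) :
    ∃ ζ : ℂ, ζ ^ p = 1 ∧ ∀ τ, A τ = ζ * B τ := by
  classical
  have hprim := Complex.isPrimitiveRoot_exp p hp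
  have hprod : ∏ ζ ∈ Polynomial.nthRootsFinset p (1 : ℂ), (fun τ : ℍ => A τ - ζ * B τ) = 0 := by
    funext τ
    rw [Finset.prod_apply]
    have := hprim.pow_sub_pow_eq_prod_sub_mul (A τ) (B τ) (Nat.pos_of_ne_zero hp)
    rw [← this, h τ, sub_self]
    rfl
  have hmd : ∀ ζ ∈ Polynomial.nthRootsFinset p (1 : ℂ), MDiff (fun τ : ℍ => A τ - ζ * B τ) := by
    intro ζ _
    exact hA.sub (mdifferentiable_const.mul hB)
  obtain ⟨ζ, hζ, hz⟩ := (UpperHalfPlane.prod_eq_zero_iff hmd).mp hprod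
  refine ⟨ζ, ?_, fun τ => ?_⟩
  · exact (Polynomial.mem_nthRootsFinset (Nat.pos_of_ne_zero hp) 1).mp hζ
  · have := congrFun hz τ
    exact sub_eq_zero.mp this

/-- Cancellation in the domain of holomorphic functions on `ℍ`. -/
theorem mdiff_mul_right_cancel {F G C : ℍ → ℂ} (hF : MDiff F) (hG : MDiff G) (hC : MDiff C)
    (hC0 : C ≠ 0) (h : ∀ τ, F τ * C τ = G τ * C τ) : ∀ τ, F τ = G τ := by
  have h1 : (fun τ => F τ - G τ) * C = 0 := by
    funext τ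
    simp only [Pi.mul_apply, Pi.zero_apply]
    rw [sub_mul, h τ, sub_self]
  rcases (UpperHalfPlane.mul_eq_zero_iff (hF.sub hG) hC).mp h1 with h2 | h2
  · intro τ
    exact sub_eq_zero.mp (congrFun h2 τ)
  · exact absurd h2 hC0

theorem exists_ne_zero_of_ne_zero {C : ℍ → ℂ} (hC0 : C ≠ 0) : ∃ τ, C τ ≠ 0 := by
  by_contra h
  apply hC0
  funext τ
  by_contra h'
  exact h ⟨τ, h'⟩

theorem mdiff_mul_ne_zero {F G : ℍ → ℂ} (hF : MDiff F) (hG : MDiff G) (hF0 : F ≠ 0)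
    (hG0 : G ≠ 0) : (fun τ => F τ * G τ) ≠ 0 := by
  intro h
  rcases (UpperHalfPlane.mul_eq_zero_iff hF hG).mp h with h | h
  · exact hF0 h
  · exact hG0 h

/-! ### The multiplier relation -/

/-- `ζ` is the multiplier under `γ` of the meromorphic function `a / g` on `ℍ`:
`(a/g)(γ τ) = ζ · (a/g)(τ)`, written without division. -/
def IsMultiplier (γ : SL(2, ℤ)) (a g : ℍ → ℂ) (ζ : ℂ) : Prop :=
  ∀ τ : ℍ, a (γ • τ) * g τ = ζ * (a τ * g (γ • τ))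

theorem isMultiplier_one_iff {γ : SL(2, ℤ)} {a g : ℍ → ℂ} :
    IsMultiplier γ a g 1 ↔ ∀ τ : ℍ, a (γ • τ) * g τ = a τ * g (γ • τ) := by
  simp [IsMultiplier]

theorem IsMultiplier.one (a g : ℍ → ℂ) : IsMultiplier 1 a g 1 := by
  intro τ
  simp

theorem isMultiplier_neg_iff {γ : SL(2, ℤ)} {a g : ℍ → ℂ} {ζ : ℂ} :
    IsMultiplier (-γ) a g ζ ↔ IsMultiplier γ a g ζ := by
  simp only [IsMultiplier, ModularGroup.SL_neg_smul]

/-- The multiplier is unique. -/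
theorem IsMultiplier.unique {γ : SL(2, ℤ)} {a g : ℍ → ℂ} {ζ ζ' : ℂ} (ha : MDiff a) (hg : MDiff g)
    (ha0 : a ≠ 0) (hg0 : g ≠ 0) (h : IsMultiplier γ a g ζ) (h' : IsMultiplier γ a g ζ') :
    ζ = ζ' := by
  have hgγ : (fun τ => g (γ • τ)) ≠ 0 := fun h0 => hg0 ((comp_SL_eq_zero_iff γ).mp h0)
  obtain ⟨τ, hτ⟩ := exists_ne_zero_of_ne_zero (mdiff_mul_ne_zero ha (mdiff_comp_SL hg γ) ha0 hgγ)
  have h1 := h τ
  rw [h' τ] at h1
  exact (mul_right_cancel₀ hτ h1).symm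

/-- A multiplier of a nonzero function is nonzero. -/
theorem IsMultiplier.ne_zero {γ : SL(2, ℤ)} {a g : ℍ → ℂ} {ζ : ℂ} (ha : MDiff a) (hg : MDiff g)
    (ha0 : a ≠ 0) (hg0 : g ≠ 0) (h : IsMultiplier γ a g ζ) : ζ ≠ 0 := by
  rintro rfl
  have haγ : (fun τ => a (γ • τ)) ≠ 0 := fun h0 => ha0 ((comp_SL_eq_zero_iff γ).mp h0)
  obtain ⟨τ, hτ⟩ := exists_ne_zero_of_ne_zero (mdiff_mul_ne_zero (mdiff_comp_SL ha γ) hg haγ hg0)
  apply hτ
  have := h τ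
  simpa using this

/-- Cocycle rule: the multiplier is multiplicative in `γ`. -/
theorem IsMultiplier.mul {γ δ : SL(2, ℤ)} {a g : ℍ → ℂ} {ζ ζ' : ℂ} (ha : MDiff a) (hg : MDiff g)
    (ha0 : a ≠ 0) (hg0 : g ≠ 0) (h : IsMultiplier γ a g ζ) (h' : IsMultiplier δ a g ζ') :
    IsMultiplier (γ * δ) a g (ζ * ζ') := by
  have haδ : (fun τ => a (δ • τ)) ≠ 0 := fun h0 => ha0 ((comp_SL_eq_zero_iff δ).mp h0)
  have hgδ : (fun τ => g (δ • τ)) ≠ 0 := fun h0 => hg0 ((comp_SL_eq_zero_iff δ).mp h0)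
  have hC0 := mdiff_mul_ne_zero (mdiff_comp_SL ha δ) (mdiff_comp_SL hg δ) haδ hgδ
  have hC : MDiff (fun τ => a (δ • τ) * g (δ • τ)) := (mdiff_comp_SL ha δ).mul (mdiff_comp_SL hg δ)
  have hF : MDiff (fun τ => a ((γ * δ) • τ) * g τ) := (mdiff_comp_SL ha (γ * δ)).mul hg
  have hG : MDiff (fun τ => ζ * ζ' * (a τ * g ((γ * δ) • τ))) :=
    mdifferentiable_const.mul (ha.mul (mdiff_comp_SL hg (γ * δ)))
  refine mdiff_mul_right_cancel hF hG hC hC0 fun τ => ?_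
  have h1 := h (δ • τ)
  have h2 := h' τ
  rw [← mul_smul] at h1
  linear_combination (a (δ • τ) * g τ) * h1 + (ζ * a (δ • τ) * g ((γ * δ) • τ)) * h2

theorem IsMultiplier.inv {γ : SL(2, ℤ)} {a g : ℍ → ℂ} {ζ : ℂ} (hζ : ζ ≠ 0)
    (h : IsMultiplier γ a g ζ) : IsMultiplier γ⁻¹ a g ζ⁻¹ := by
  intro τ
  have h1 := h (γ⁻¹ • τ)
  rw [smul_inv_smul] at h1
  rw [eq_comm, inv_mul_eq_iff_eq_mul₀ hζ]
  rw [h1]

/-- Multiplicativity in the function. -/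
theorem IsMultiplier.mul_fun {γ : SL(2, ℤ)} {a g a' g' : ℍ → ℂ} {ζ ζ' : ℂ}
    (h : IsMultiplier γ a g ζ) (h' : IsMultiplier γ a' g' ζ') :
    IsMultiplier γ (fun τ => a τ * a' τ) (fun τ => g τ * g' τ) (ζ * ζ') := by
  intro τ
  have h1 := h τ
  have h2 := h' τ
  linear_combination (a' (γ • τ) * g' τ) * h1 + (ζ * a τ * g (γ • τ)) * h2

theorem IsMultiplier.pow_fun {γ : SL(2, ℤ)} {a g : ℍ → ℂ} {ζ : ℂ}
    (h : IsMultiplier γ a g ζ) (n : ℕ) :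
    IsMultiplier γ (fun τ => a τ ^ n) (fun τ => g τ ^ n) (ζ ^ n) := by
  intro τ
  have h1 := h τ
  calc a (γ • τ) ^ n * g τ ^ n = (a (γ • τ) * g τ) ^ n := by ring
    _ = (ζ * (a τ * g (γ • τ))) ^ n := by rw [h1]
    _ = ζ ^ n * (a τ ^ n * g (γ • τ) ^ n) := by ring

/-- The multiplier of the inverse function `g / a`. -/
theorem IsMultiplier.inv_fun {γ : SL(2, ℤ)} {a g : ℍ → ℂ} {ζ : ℂ} (hζ : ζ ≠ 0)
    (h : IsMultiplier γ a g ζ) : IsMultiplier γ g a ζ⁻¹ := by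
  intro τ
  have h1 := h τ
  rw [eq_comm, inv_mul_eq_iff_eq_mul₀ hζ]
  linear_combination h1

/-- The multiplier only depends on the meromorphic function `a / g`. -/
theorem IsMultiplier.congr_fun {γ : SL(2, ℤ)} {a g a' g' : ℍ → ℂ} {ζ : ℂ} (hg : MDiff g)
    (ha' : MDiff a') (hg' : MDiff g') (hg0 : g ≠ 0)
    (hrel : ∀ τ, a τ * g' τ = a' τ * g τ) (h : IsMultiplier γ a g ζ) :
    IsMultiplier γ a' g' ζ := by
  have hgγ : (fun τ => g (γ • τ)) ≠ 0 := fun h0 => hg0 ((comp_SL_eq_zero_iff γ).mp h0)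
  have hC0 := mdiff_mul_ne_zero (mdiff_comp_SL hg γ) hg hgγ hg0
  have hC : MDiff (fun τ => g (γ • τ) * g τ) := (mdiff_comp_SL hg γ).mul hg
  have hF : MDiff (fun τ => a' (γ • τ) * g' τ) := (mdiff_comp_SL ha' γ).mul hg'
  have hG : MDiff (fun τ => ζ * (a' τ * g' (γ • τ))) :=
    mdifferentiable_const.mul (ha'.mul (mdiff_comp_SL hg' γ))
  refine mdiff_mul_right_cancel hF hG hC hC0 fun τ => ?_
  have h1 := h τ
  have h2 := hrel τ
  have h3 := hrel (γ • τ)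
  linear_combination (g' (γ • τ) * g' τ) * h1 + (ζ * g (γ • τ) * g' (γ • τ)) * h2
    - (g' τ * g τ) * h3

/-- Existence of the multiplier: if `(a/g)^p` is `γ`-invariant then `a/g` is multiplied by a
`p`-th root of unity under `γ`. -/
theorem exists_isMultiplier {p : ℕ} (hp : p ≠ 0) {γ : SL(2, ℤ)} {a g : ℍ → ℂ} (ha : MDiff a)
    (hg : MDiff g)
    (hpow : ∀ τ : ℍ, (a (γ • τ) * g τ) ^ p = (a τ * g (γ • τ)) ^ p) :
    ∃ ζ : ℂ, ζ ^ p = 1 ∧ IsMultiplier γ a g ζ :=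
  exists_rootOfUnity_mul_of_pow_eq hp ((mdiff_comp_SL ha γ).mul hg)
    (ha.mul (mdiff_comp_SL hg γ)) hpow

/-! ### The multiplier at a fixed point -/

theorem isLead_const_mul {f : ℂ → ℂ} {z₀ : ℂ} {n : ℕ} {c : ℂ} (h : IsLead f z₀ n c) {ζ : ℂ}
    (hζ : ζ ≠ 0) : IsLead (fun z => ζ * f z) z₀ n (ζ * c) := by
  obtain ⟨hc, g, hg, hgc, hfg⟩ := h
  refine ⟨mul_ne_zero hζ hc, fun z => ζ * g z, analyticAt_const.mul hg,
    by show ζ * g z₀ = ζ * c; rw [hgc], ?_⟩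
  filter_upwards [hfg] with z hz
  rw [hz]; ring

/-- **Multiplier at a fixed point.**  If `γ τ₀ = τ₀` and `a / g` has multiplier `ζ` under `γ`,
then `ζ · ν ^ ord_τ₀ g = ν ^ ord_τ₀ a`, where `ν = 1 / denom γ τ₀ ^ 2` is the derivative of `γ`
at `τ₀`. -/
theorem IsMultiplier.mul_pow_eq_of_fixed {γ : SL(2, ℤ)} {a g : ℍ → ℂ} {ζ : ℂ} {τ₀ : ℍ}
    (ha : MDiff a) (hg : MDiff g) (ha0 : a ≠ 0) (hg0 : g ≠ 0) (hfix : γ • τ₀ = τ₀)
    (h : IsMultiplier γ a g ζ) :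
    ζ * (1 / denom γ τ₀ ^ 2) ^ (ordAt τ₀ g).toNat = (1 / denom γ τ₀ ^ 2) ^ (ordAt τ₀ a).toNat := by
  have hζ := h.ne_zero ha hg ha0 hg0
  obtain ⟨ca, hca⟩ := exists_isLead (ordAt_analyticAt ha τ₀) (ordAt_ne_top ha ha0 τ₀)
  obtain ⟨cg, hcg⟩ := exists_isLead (ordAt_analyticAt hg τ₀) (ordAt_ne_top hg hg0 τ₀)
  have hμfix : mobC γ (τ₀ : ℂ) = (τ₀ : ℂ) := by rw [mobC_coe, hfix]
  have hν := hasDerivAt_mobC γ τ₀
  have hν0 : (1 / denom γ τ₀ ^ 2 : ℂ) ≠ 0 := one_div_ne_zero (pow_ne_zero _ (denom_ne_zero _ _))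
  set ν : ℂ := 1 / denom γ τ₀ ^ 2 with hνdef
  set na := (analyticOrderAt (a ∘ ofComplex) (τ₀ : ℂ)).toNat with hna
  set ng := (analyticOrderAt (g ∘ ofComplex) (τ₀ : ℂ)).toNat with hng
  have key : ∀ f : ℍ → ℂ, ∀ z : ℂ, (f ∘ ofComplex) (mobC γ z) = f (γ • ofComplex z) := by
    intro f z
    simp only [Function.comp_apply, mobC, ofComplex_apply]
  have heq : ∀ᶠ z in 𝓝 (τ₀ : ℂ),
      (a ∘ ofComplex) (mobC γ z) * (g ∘ ofComplex) z
        = ζ * ((a ∘ ofComplex) z * (g ∘ ofComplex) (mobC γ z)) := by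
    refine Filter.Eventually.of_forall fun z => ?_
    rw [key a z, key g z]
    exact h (ofComplex z)
  have h1 : IsLead (fun z => (a ∘ ofComplex) (mobC γ z) * (g ∘ ofComplex) z) (τ₀ : ℂ) (na + ng)
      (ν ^ na * ca * cg) := (hca.comp (analyticAt_mobC γ τ₀) hμfix hν hν0).mul hcg
  have h2 : IsLead (fun z => ζ * ((a ∘ ofComplex) z * (g ∘ ofComplex) (mobC γ z))) (τ₀ : ℂ)
      (na + ng) (ζ * (ca * (ν ^ ng * cg))) :=
    isLead_const_mul (hca.mul (hcg.comp (analyticAt_mobC γ τ₀) hμfix hν hν0)) hζ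
  have h3 := ((h1.congr heq).unique h2).2
  have hca0 := hca.1
  have hcg0 := hcg.1
  have h4 : (ζ * ν ^ ng) * (ca * cg) = ν ^ na * (ca * cg) := by linear_combination -h3
  exact mul_right_cancel₀ (mul_ne_zero hca0 hcg0) h4

/-- **Triviality on stabilisers.**  If `γ τ₀ = τ₀`, the derivative `ν` of `γ` at `τ₀` satisfies
`ν ^ e = 1`, and `ord_τ₀ a - ord_τ₀ g` is divisible by `e`, then the multiplier of `a / g` under
`γ` is `1`. -/
theorem IsMultiplier.eq_one_of_fixed {γ : SL(2, ℤ)} {a g : ℍ → ℂ} {ζ : ℂ} {τ₀ : ℍ}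
    (ha : MDiff a) (hg : MDiff g) (ha0 : a ≠ 0) (hg0 : g ≠ 0) (hfix : γ • τ₀ = τ₀)
    (h : IsMultiplier γ a g ζ) {e : ℕ} (hν : (denom γ τ₀ ^ 2) ^ e = 1)
    (hdvd : (e : ℤ) ∣ ((ordAt τ₀ a).toNat : ℤ) - ((ordAt τ₀ g).toNat : ℤ)) : ζ = 1 := by
  have h1 := h.mul_pow_eq_of_fixed ha hg ha0 hg0 hfix
  have hd0 : (denom γ τ₀ ^ 2 : ℂ) ≠ 0 := pow_ne_zero _ (denom_ne_zero _ _)
  set ν : ℂ := 1 / denom γ τ₀ ^ 2 with hνdef
  have hν0 : ν ≠ 0 := one_div_ne_zero hd0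
  have hνe : ν ^ e = 1 := by
    rw [hνdef, one_div, inv_pow, hν, inv_one]
  obtain ⟨k, hk⟩ := hdvd
  have h2 : ζ = ν ^ (((ordAt τ₀ a).toNat : ℤ) - ((ordAt τ₀ g).toNat : ℤ)) := by
    rw [zpow_sub₀ hν0, zpow_natCast, zpow_natCast, eq_div_iff (pow_ne_zero _ hν0)]
    exact h1
  rw [h2, hk, zpow_mul, zpow_natCast, hνe, one_zpow]

/-- Conjugation: the multiplier of `(a/g) ∘ σ` under `σ⁻¹ γ σ` is the multiplier of `a/g`
under `γ`. -/
theorem IsMultiplier.conj {γ : SL(2, ℤ)} {a g : ℍ → ℂ} {ζ : ℂ} (h : IsMultiplier γ a g ζ)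
    (σ : SL(2, ℤ)) :
    IsMultiplier (σ⁻¹ * γ * σ) (fun τ => a (σ • τ)) (fun τ => g (σ • τ)) ζ := by
  intro τ
  have h1 := h (σ • τ)
  have e : σ • ((σ⁻¹ * γ * σ) • τ) = γ • (σ • τ) := by
    rw [← mul_smul, ← mul_smul, ← mul_assoc, ← mul_assoc, mul_inv_cancel, one_mul]
  show a (σ • ((σ⁻¹ * γ * σ) • τ)) * g (σ • τ) = ζ * (a (σ • τ) * g (σ • ((σ⁻¹ * γ * σ) • τ)))
  rw [e]
  exact h1

/-- Scaling `a` by a nonzero constant does not change the multiplier. -/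
theorem IsMultiplier.const_mul {γ : SL(2, ℤ)} {a g : ℍ → ℂ} {ζ : ℂ} (h : IsMultiplier γ a g ζ)
    (c : ℂ) : IsMultiplier γ (fun τ => c * a τ) g ζ := by
  intro τ
  have h1 := h τ
  show c * a (γ • τ) * g τ = ζ * (c * a τ * g (γ • τ))
  linear_combination c * h1

/-! ### The multiplier character of a `p`-th root of a `Γ`-invariant function -/

/-- A meromorphic function `a / g` on `ℍ` (`a`, `g` holomorphic and nonzero) whose `p`-th power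
is invariant under `Γ`. -/
structure RootData (Γ : Subgroup SL(2, ℤ)) (p : ℕ) where
  /-- numerator -/
  a : ℍ → ℂ
  /-- denominator -/
  g : ℍ → ℂ
  p_ne_zero : p ≠ 0
  mdiff_a : MDiff a
  mdiff_g : MDiff g
  a_ne_zero : a ≠ 0
  g_ne_zero : g ≠ 0
  pow_inv : ∀ γ ∈ Γ, ∀ τ : ℍ, (a (γ • τ) * g τ) ^ p = (a τ * g (γ • τ)) ^ p

namespace RootData

variable {Γ : Subgroup SL(2, ℤ)} {p : ℕ}

theorem exists_mult (D : RootData Γ p) (γ : Γ) :
    ∃ ζ : ℂ, ζ ^ p = 1 ∧ IsMultiplier (γ : SL(2, ℤ)) D.a D.g ζ :=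
  exists_isMultiplier D.p_ne_zero D.mdiff_a D.mdiff_g (D.pow_inv γ γ.2)

/-- The value of the multiplier character, as a complex number. -/
def multVal (D : RootData Γ p) (γ : Γ) : ℂ := (D.exists_mult γ).choose

theorem multVal_pow (D : RootData Γ p) (γ : Γ) : D.multVal γ ^ p = 1 :=
  (D.exists_mult γ).choose_spec.1

theorem multVal_spec (D : RootData Γ p) (γ : Γ) :
    IsMultiplier (γ : SL(2, ℤ)) D.a D.g (D.multVal γ) :=
  (D.exists_mult γ).choose_spec.2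

theorem multVal_eq (D : RootData Γ p) (γ : Γ) {ζ : ℂ}
    (h : IsMultiplier (γ : SL(2, ℤ)) D.a D.g ζ) : D.multVal γ = ζ :=
  IsMultiplier.unique D.mdiff_a D.mdiff_g D.a_ne_zero D.g_ne_zero (D.multVal_spec γ) h

theorem multVal_ne_zero (D : RootData Γ p) (γ : Γ) : D.multVal γ ≠ 0 :=
  (D.multVal_spec γ).ne_zero D.mdiff_a D.mdiff_g D.a_ne_zero D.g_ne_zero

/-- **The multiplier character** `χ : Γ →* ℂˣ` of `a / g`:
`(a/g)(γ τ) = χ(γ) · (a/g)(τ)`. -/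
def mult (D : RootData Γ p) : Γ →* ℂˣ where
  toFun γ := Units.mk0 (D.multVal γ) (D.multVal_ne_zero γ)
  map_one' := by
    apply Units.ext
    show D.multVal 1 = 1
    exact D.multVal_eq 1 (IsMultiplier.one _ _)
  map_mul' γ δ := by
    apply Units.ext
    show D.multVal (γ * δ) = D.multVal γ * D.multVal δ
    exact D.multVal_eq (γ * δ)
      (IsMultiplier.mul D.mdiff_a D.mdiff_g D.a_ne_zero D.g_ne_zero (D.multVal_spec γ)
        (D.multVal_spec δ))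

@[simp] theorem coe_mult (D : RootData Γ p) (γ : Γ) : ((D.mult γ : ℂˣ) : ℂ) = D.multVal γ := rfl

theorem mult_spec (D : RootData Γ p) (γ : Γ) (τ : ℍ) :
    D.a ((γ : SL(2, ℤ)) • τ) * D.g τ = (D.mult γ : ℂ) * (D.a τ * D.g ((γ : SL(2, ℤ)) • τ)) :=
  D.multVal_spec γ τ

theorem mult_pow (D : RootData Γ p) (γ : Γ) : D.mult γ ^ p = 1 := by
  apply Units.ext
  simpa using D.multVal_pow γ

theorem mult_mem_rootsOfUnity (D : RootData Γ p) (γ : Γ) : D.mult γ ∈ rootsOfUnity p ℂ := by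
  rw [mem_rootsOfUnity]
  exact D.mult_pow γ

/-- The multiplier character, with values in `μ_p`. -/
def multRoots (D : RootData Γ p) : Γ →* rootsOfUnity p ℂ :=
  D.mult.codRestrict _ D.mult_mem_rootsOfUnity

/-- The multiplier character in additive form (the shape of `IsParabolicHom`). -/
def multAdd (D : RootData Γ p) : Additive Γ →+ Additive ℂˣ := MonoidHom.toAdditive D.mult

@[simp] theorem multAdd_apply (D : RootData Γ p) (γ : Γ) :
    D.multAdd (Additive.ofMul γ) = Additive.ofMul (D.mult γ) := rfl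

theorem mult_eq_iff (D : RootData Γ p) (γ : Γ) (ζ : ℂˣ) :
    D.mult γ = ζ ↔ IsMultiplier (γ : SL(2, ℤ)) D.a D.g ζ := by
  constructor
  · rintro rfl
    exact D.multVal_spec γ
  · intro h
    apply Units.ext
    exact D.multVal_eq γ h

/-- `χ(γ) = 1` iff `a / g` is `γ`-invariant. -/
theorem mult_eq_one_iff (D : RootData Γ p) (γ : Γ) :
    D.mult γ = 1 ↔ ∀ τ : ℍ, D.a ((γ : SL(2, ℤ)) • τ) * D.g τ = D.a τ * D.g ((γ : SL(2, ℤ)) • τ) := by
  rw [mult_eq_iff, Units.val_one, isMultiplier_one_iff]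

/-- `χ = 1` iff `a / g` is `Γ`-invariant. -/
theorem mult_eq_one_iff_invariant (D : RootData Γ p) :
    D.mult = 1 ↔ ∀ γ ∈ Γ, ∀ τ : ℍ, D.a (γ • τ) * D.g τ = D.a τ * D.g (γ • τ) := by
  constructor
  · intro h γ hγ τ
    have := (D.mult_eq_one_iff ⟨γ, hγ⟩).mp (by rw [h]; rfl)
    exact this τ
  · intro h
    ext1 γ
    exact (D.mult_eq_one_iff γ).mpr (h γ γ.2)

/-- `-1` acts trivially: `χ(γ') = χ(γ)` if `γ' = -γ`. -/
theorem mult_eq_of_eq_neg (D : RootData Γ p) {γ γ' : Γ} (h : (γ' : SL(2, ℤ)) = -γ) :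
    D.mult γ' = D.mult γ := by
  rw [mult_eq_iff, h, isMultiplier_neg_iff]
  exact D.multVal_spec γ

/-- The multiplier character depends only on the `p`-th power `(a/g)^p`. -/
theorem mult_eq_of_pow_eq (D D' : RootData Γ p)
    (h : ∀ τ : ℍ, (D.a τ * D'.g τ) ^ p = (D'.a τ * D.g τ) ^ p) : D.mult = D'.mult := by
  obtain ⟨ζ, -, hζ⟩ := exists_rootOfUnity_mul_of_pow_eq D.p_ne_zero (D.mdiff_a.mul D'.mdiff_g)
    (D'.mdiff_a.mul D.mdiff_g) h
  ext1 γ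
  rw [mult_eq_iff]
  have h1 := (D'.multVal_spec γ).const_mul ζ
  refine IsMultiplier.congr_fun D'.mdiff_g D.mdiff_a D.mdiff_g D'.g_ne_zero (fun τ => ?_) h1
  have := hζ τ
  simp only [Pi.mul_apply] at this
  show ζ * D'.a τ * D.g τ = D.a τ * D'.g τ
  linear_combination -this

/-- The product of two root data. -/
def mul (D D' : RootData Γ p) : RootData Γ p where
  a := fun τ => D.a τ * D'.a τ
  g := fun τ => D.g τ * D'.g τ
  p_ne_zero := D.p_ne_zero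
  mdiff_a := D.mdiff_a.mul D'.mdiff_a
  mdiff_g := D.mdiff_g.mul D'.mdiff_g
  a_ne_zero := mdiff_mul_ne_zero D.mdiff_a D'.mdiff_a D.a_ne_zero D'.a_ne_zero
  g_ne_zero := mdiff_mul_ne_zero D.mdiff_g D'.mdiff_g D.g_ne_zero D'.g_ne_zero
  pow_inv γ hγ τ := by
    have h1 := D.pow_inv γ hγ τ
    have h2 := D'.pow_inv γ hγ τ
    calc (D.a (γ • τ) * D'.a (γ • τ) * (D.g τ * D'.g τ)) ^ p
        = (D.a (γ • τ) * D.g τ) ^ p * (D'.a (γ • τ) * D'.g τ) ^ p := by ring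
      _ = (D.a τ * D.g (γ • τ)) ^ p * (D'.a τ * D'.g (γ • τ)) ^ p := by rw [h1, h2]
      _ = (D.a τ * D'.a τ * (D.g (γ • τ) * D'.g (γ • τ))) ^ p := by ring

theorem mult_mul (D D' : RootData Γ p) : (D.mul D').mult = D.mult * D'.mult := by
  ext1 γ
  rw [mult_eq_iff]
  have := (D.multVal_spec γ).mul_fun (D'.multVal_spec γ)
  simpa [mul] using this

/-- The inverse `g / a` of a root datum. -/
def inv (D : RootData Γ p) : RootData Γ p where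
  a := D.g
  g := D.a
  p_ne_zero := D.p_ne_zero
  mdiff_a := D.mdiff_g
  mdiff_g := D.mdiff_a
  a_ne_zero := D.g_ne_zero
  g_ne_zero := D.a_ne_zero
  pow_inv γ hγ τ := by
    have h1 := D.pow_inv γ hγ τ
    calc (D.g (γ • τ) * D.a τ) ^ p = (D.a τ * D.g (γ • τ)) ^ p := by ring
      _ = (D.a (γ • τ) * D.g τ) ^ p := h1.symm
      _ = (D.g τ * D.a (γ • τ)) ^ p := by ring

theorem mult_inv (D : RootData Γ p) : D.inv.mult = D.mult⁻¹ := by
  ext1 γ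
  rw [mult_eq_iff]
  have := (D.multVal_spec γ).inv_fun (D.multVal_ne_zero γ)
  simpa [inv] using this

/-- **Elliptic elements.**  If `γ ∈ Γ` fixes `τ₀`, its derivative `ν` at `τ₀` satisfies
`ν ^ e = 1` and `e ∣ ord_τ₀ (a/g)`, then `χ(γ) = 1`. -/
theorem mult_eq_one_of_fixed (D : RootData Γ p) (γ : Γ) {τ₀ : ℍ}
    (hfix : (γ : SL(2, ℤ)) • τ₀ = τ₀) {e : ℕ} (hν : (denom (γ : SL(2, ℤ)) τ₀ ^ 2) ^ e = 1)
    (hdvd : (e : ℤ) ∣ ((ordAt τ₀ D.a).toNat : ℤ) - ((ordAt τ₀ D.g).toNat : ℤ)) :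
    D.mult γ = 1 := by
  apply Units.ext
  exact (D.multVal_spec γ).eq_one_of_fixed D.mdiff_a D.mdiff_g D.a_ne_zero D.g_ne_zero hfix hν hdvd

/-- The multiplier at a fixed point: `χ(γ) · ν ^ ord g = ν ^ ord a`. -/
theorem mult_mul_pow_eq_of_fixed (D : RootData Γ p) (γ : Γ) {τ₀ : ℍ}
    (hfix : (γ : SL(2, ℤ)) • τ₀ = τ₀) :
    (D.mult γ : ℂ) * (1 / denom (γ : SL(2, ℤ)) τ₀ ^ 2) ^ (ordAt τ₀ D.g).toNat
      = (1 / denom (γ : SL(2, ℤ)) τ₀ ^ 2) ^ (ordAt τ₀ D.a).toNat :=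
  (D.multVal_spec γ).mul_pow_eq_of_fixed D.mdiff_a D.mdiff_g D.a_ne_zero D.g_ne_zero hfix

end RootData

end Fermat.Agent.ES
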