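/-
ESpkg-G1, piece A3 (helper83): `hChi χ` at the cusps, in the language of S24's `cuspFn`.

For `δ ∈ SL(2,ℤ)` and `h > 0` with `δ T^h δ⁻¹ ∈ Γ₀(M)` (e.g. `h` = the width of the cusp `δ∞`),
`W := hChi χ ∘ δ` is `h`-periodic, its cusp function `cuspFn h W` (a function of
`q_h = exp(2πi z / h)`) is meromorphic at `0` of finite order, and the order of
`cuspFn h (W ^ p)` is `p` times the order of `cuspFn h W`: the `p`-divisibility of the order of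
`u_χ = hChi χ ^ p` at the cusp `δ∞` in the local parameter `q_h`.
-/
import Fermat.Agent.ES.EisCharOrd
import Fermat.Agent.S24.CuspAnalysis

set_option autoImplicit false

open EisensteinSeries UpperHalfPlane ModularForm CongruenceSubgroup Matrix Filter Topology
open scoped MatrixGroups Manifold

noncomputable section

namespace Fermat.Agent.ES

open Fermat.Agent.S24

variable {M : ℕ} (χ : Gamma0 M →* ℂˣ)

local notation "Δ" => ModularForm.discriminant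

/-- A holomorphic, `N`-periodic function on `ℍ` that is bounded at `i∞` has a cusp function
which agrees near `0` with a function analytic at `0`. -/
theorem eis_exists_analyticAt_cuspFn {N : ℕ} (hN : 0 < N) {f : ℍ → ℂ} (hf : MDiff f)
    (hper : IsPer N f) (hb : IsBoundedAtImInfty f) :
    ∃ g : ℂ → ℂ, AnalyticAt ℂ g 0 ∧ ∀ᶠ q in 𝓝[≠] (0 : ℂ), cuspFn N f q = g q := by
  have hN' : (0 : ℝ) < N := by exact_mod_cast hN
  have han : AnalyticAt ℂ (UpperHalfPlane.cuspFunction (N : ℝ) f) 0 :=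
    UpperHalfPlane.analyticAt_cuspFunction_zero hN' hper.periodic_comp_ofComplex hf hb
  refine ⟨_, han, ?_⟩
  filter_upwards [eventually_punctured_disc] with q hq
  rw [UpperHalfPlane.cuspFunction, Function.Periodic.cuspFunction_eq_of_nonzero _ _ hq.1]
  rfl

theorem eis_meromorphicAt_cuspFn {N : ℕ} (hN : 0 < N) {f : ℍ → ℂ} (hf : MDiff f)
    (hper : IsPer N f) (hb : IsBoundedAtImInfty f) : MeromorphicAt (cuspFn N f) 0 := by
  obtain ⟨g, hg, h⟩ := eis_exists_analyticAt_cuspFn hN hf hper hb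
  exact hg.meromorphicAt.congr (h.mono fun q hq => hq.symm)

theorem eis_meromorphicOrderAt_cuspFn_ne_top {N : ℕ} (hN : 0 < N) {f : ℍ → ℂ} (hf : MDiff f)
    (hper : IsPer N f) (hf0 : f ≠ 0) : meromorphicOrderAt (cuspFn N f) 0 ≠ ⊤ := by
  intro h
  rw [meromorphicOrderAt_eq_top_iff] at h
  exact hf0 (eq_zero_of_cuspFn_eventually_zero hN hf hper h)

/-- `Δ` is periodic under every integer translation. -/
lemma eis_discriminant_vadd (n : ℤ) (z : ℍ) : Δ ((n : ℝ) +ᵥ z) = Δ z := by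
  have h := eis_discriminant_smul (ModularGroup.T ^ n) z
  rw [modular_T_zpow_smul] at h
  rw [h]
  have hd : denom (ModularGroup.T ^ n : SL(2, ℤ)) z = 1 := by
    rw [ModularGroup.denom_apply, ModularGroup.coe_T_zpow]
    simp
  rw [hd, one_pow, one_mul]

lemma eis_isPer_discriminant (N : ℕ) : IsPer N (fun z => Δ z) := by
  intro z
  have := eis_discriminant_vadd (N : ℤ) z
  simpa using this

lemma eis_discriminant_ne_zero_fun : (fun z : ℍ => Δ z) ≠ 0 :=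
  fun h => discriminant_ne_zero UpperHalfPlane.I (congrFun h UpperHalfPlane.I)

lemma eis_isBoundedAtImInfty_discriminant : IsBoundedAtImInfty (fun z : ℍ => Δ z) :=
  (discriminant_isZeroAtImInfty : Tendsto (fun τ : ℍ => Δ τ) atImInfty (𝓝 0)).isBigO_one ℝ

variable [NeZero M]

/-- the numerator `z ↦ hChi χ (δ • z) · Δ z` at the cusp `δ∞`. -/
def hChiNum (δ : SL(2, ℤ)) (z : ℍ) : ℂ := hChi χ (δ • z) * Δ z

lemma hChiNum_mdiff (hχ : ∀ γ : Gamma0 M, ‖((χ γ : ℂˣ) : ℂ)‖ = 1)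
    (hpar : ∀ γ : Gamma0 M, IsPar γ → χ γ = 1) (δ : SL(2, ℤ)) : MDiff (hChiNum χ δ) :=
  (hChi_cusp χ hχ hpar δ).1

lemma hChiNum_bounded (hχ : ∀ γ : Gamma0 M, ‖((χ γ : ℂˣ) : ℂ)‖ = 1)
    (hpar : ∀ γ : Gamma0 M, IsPar γ → χ γ = 1) (δ : SL(2, ℤ)) :
    IsBoundedAtImInfty (hChiNum χ δ) :=
  (hChi_cusp χ hχ hpar δ).2.1

lemma hChiNum_isPer (hχ : ∀ γ : Gamma0 M, ‖((χ γ : ℂˣ) : ℂ)‖ = 1)
    (hpar : ∀ γ : Gamma0 M, IsPar γ → χ γ = 1) (δ : SL(2, ℤ)) {h : ℕ}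
    (hh : δ * ModularGroup.T ^ (h : ℤ) * δ⁻¹ ∈ Gamma0 M) : IsPer h (hChiNum χ δ) := by
  intro z
  have := (hChi_cusp χ hχ hpar δ).2.2 (h : ℤ) hh z
  simpa [hChiNum] using this

lemma hChiNum_ne_zero (hχ : ∀ γ : Gamma0 M, ‖((χ γ : ℂˣ) : ℂ)‖ = 1)
    (hpar : ∀ γ : Gamma0 M, IsPar γ → χ γ = 1) (δ : SL(2, ℤ)) : hChiNum χ δ ≠ 0 := by
  intro h
  obtain ⟨z, hz⟩ := hChi_ne_zero χ hχ hpar
  have h1 := congrFun h (δ⁻¹ • z)
  simp only [hChiNum, Pi.zero_apply, smul_inv_smul] at h1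
  rcases mul_eq_zero.1 h1 with h2 | h2
  · exact hz h2
  · exact discriminant_ne_zero _ h2

/-- `hChi χ ∘ δ` is `h`-periodic when `δ T^h δ⁻¹ ∈ Γ₀(M)`. -/
theorem hChi_comp_isPer (hχ : ∀ γ : Gamma0 M, ‖((χ γ : ℂˣ) : ℂ)‖ = 1)
    (hpar : ∀ γ : Gamma0 M, IsPar γ → χ γ = 1) (δ : SL(2, ℤ)) {h : ℕ}
    (hh : δ * ModularGroup.T ^ (h : ℤ) * δ⁻¹ ∈ Gamma0 M) :
    IsPer h (fun z => hChi χ (δ • z)) := by
  intro z
  have h1 := hChiNum_isPer χ hχ hpar δ hh z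
  have h2 := eis_isPer_discriminant h z
  simp only [hChiNum] at h1
  simp only at h2
  rw [h2] at h1
  exact mul_right_cancel₀ (discriminant_ne_zero z) h1

omit [NeZero M] in
/-- pointwise: `cuspFn h (hChi χ ∘ δ) = cuspFn h (hChiNum χ δ) / cuspFn h Δ`. -/
lemma cuspFn_hChi_comp (δ : SL(2, ℤ)) (h : ℕ) (q : ℂ) :
    cuspFn h (fun z => hChi χ (δ • z)) q
      = cuspFn h (hChiNum χ δ) q / cuspFn h (fun z => Δ z) q := by
  simp only [cuspFn_apply, hChiNum]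
  rw [mul_div_assoc, div_self (discriminant_ne_zero _), mul_one]

/-- **Meromorphy at the cusp `δ∞`** (in `q_h`). -/
theorem hChi_comp_meromorphicAt (hχ : ∀ γ : Gamma0 M, ‖((χ γ : ℂˣ) : ℂ)‖ = 1)
    (hpar : ∀ γ : Gamma0 M, IsPar γ → χ γ = 1) (δ : SL(2, ℤ)) {h : ℕ} (hpos : 0 < h)
    (hh : δ * ModularGroup.T ^ (h : ℤ) * δ⁻¹ ∈ Gamma0 M) :
    MeromorphicAt (cuspFn h (fun z => hChi χ (δ • z))) 0 := by
  have h1 : MeromorphicAt (cuspFn h (hChiNum χ δ)) 0 :=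
    eis_meromorphicAt_cuspFn hpos (hChiNum_mdiff χ hχ hpar δ) (hChiNum_isPer χ hχ hpar δ hh)
      (hChiNum_bounded χ hχ hpar δ)
  have h2 : MeromorphicAt (cuspFn h (fun z => Δ z)) 0 :=
    eis_meromorphicAt_cuspFn hpos eis_discriminant_mdiff (eis_isPer_discriminant h)
      eis_isBoundedAtImInfty_discriminant
  have h3 : cuspFn h (fun z => hChi χ (δ • z))
      = cuspFn h (hChiNum χ δ) / cuspFn h (fun z => Δ z) := by
    funext q
    exact cuspFn_hChi_comp χ δ h q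
  rw [h3]
  exact h1.div h2

/-- the order at the cusp is finite. -/
theorem hChi_comp_order_ne_top (hχ : ∀ γ : Gamma0 M, ‖((χ γ : ℂˣ) : ℂ)‖ = 1)
    (hpar : ∀ γ : Gamma0 M, IsPar γ → χ γ = 1) (δ : SL(2, ℤ)) {h : ℕ} (hpos : 0 < h)
    (hh : δ * ModularGroup.T ^ (h : ℤ) * δ⁻¹ ∈ Gamma0 M) :
    meromorphicOrderAt (cuspFn h (fun z => hChi χ (δ • z))) 0 ≠ ⊤ := by
  have h1 : MeromorphicAt (cuspFn h (hChiNum χ δ)) 0 :=
    eis_meromorphicAt_cuspFn hpos (hChiNum_mdiff χ hχ hpar δ) (hChiNum_isPer χ hχ hpar δ hh)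
      (hChiNum_bounded χ hχ hpar δ)
  have h2 : MeromorphicAt (cuspFn h (fun z => Δ z)) 0 :=
    eis_meromorphicAt_cuspFn hpos eis_discriminant_mdiff (eis_isPer_discriminant h)
      eis_isBoundedAtImInfty_discriminant
  have h3 : cuspFn h (fun z => hChi χ (δ • z))
      = cuspFn h (hChiNum χ δ) / cuspFn h (fun z => Δ z) := by
    funext q
    exact cuspFn_hChi_comp χ δ h q
  have e1 := eis_meromorphicOrderAt_cuspFn_ne_top hpos (hChiNum_mdiff χ hχ hpar δ)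
    (hChiNum_isPer χ hχ hpar δ hh) (hChiNum_ne_zero χ hχ hpar δ)
  have e2 := eis_meromorphicOrderAt_cuspFn_ne_top hpos eis_discriminant_mdiff
    (eis_isPer_discriminant h) eis_discriminant_ne_zero_fun
  rw [h3, meromorphicOrderAt_div h1 h2]
  obtain ⟨a, ha⟩ := WithTop.ne_top_iff_exists.1 e1
  obtain ⟨b, hb⟩ := WithTop.ne_top_iff_exists.1 e2
  rw [← ha, ← hb]
  exact WithTop.coe_ne_top (a := a - b)

/-- **`p`-divisibility at the cusp `δ∞`**, in the local parameter `q_h`: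
`ord_{q_h} ((hChi χ) ^ p ∘ δ) = p · ord_{q_h} (hChi χ ∘ δ)`. -/
theorem hChi_pow_comp_order (hχ : ∀ γ : Gamma0 M, ‖((χ γ : ℂˣ) : ℂ)‖ = 1)
    (hpar : ∀ γ : Gamma0 M, IsPar γ → χ γ = 1) (δ : SL(2, ℤ)) {h : ℕ} (hpos : 0 < h)
    (hh : δ * ModularGroup.T ^ (h : ℤ) * δ⁻¹ ∈ Gamma0 M) (p : ℕ) :
    meromorphicOrderAt (cuspFn h (fun z => hChi χ (δ • z) ^ p)) 0
      = (p : WithTop ℤ) * meromorphicOrderAt (cuspFn h (fun z => hChi χ (δ • z))) 0 := by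
  have h3 : cuspFn h (fun z => hChi χ (δ • z) ^ p)
      = (cuspFn h (fun z => hChi χ (δ • z))) ^ p := by
    funext q
    rfl
  rw [h3, meromorphicOrderAt_pow (hChi_comp_meromorphicAt χ hχ hpar δ hpos hh)]

/-- existence form: the order of `u_χ ∘ δ` in `q_h` is `p * n` for an integer `n`. -/
theorem hChi_pow_comp_order_eq (hχ : ∀ γ : Gamma0 M, ‖((χ γ : ℂˣ) : ℂ)‖ = 1)
    (hpar : ∀ γ : Gamma0 M, IsPar γ → χ γ = 1) (δ : SL(2, ℤ)) {h : ℕ} (hpos : 0 < h)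
    (hh : δ * ModularGroup.T ^ (h : ℤ) * δ⁻¹ ∈ Gamma0 M) (p : ℕ) :
    ∃ n : ℤ, meromorphicOrderAt (cuspFn h (fun z => hChi χ (δ • z) ^ p)) 0
      = (((p : ℤ) * n : ℤ) : WithTop ℤ) := by
  obtain ⟨n, hn⟩ := WithTop.ne_top_iff_exists.1 (hChi_comp_order_ne_top χ hχ hpar δ hpos hh)
  refine ⟨n, ?_⟩
  rw [hChi_pow_comp_order χ hχ hpar δ hpos hh, ← hn]
  push_cast
  rfl

end Fermat.Agent.ES
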