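/-
ESpkg-G1, piece A3 (helper83): `u_χ = (E₁₂^χ / Δ)^p` is a modular function for `Γ₀(M)`
(in the sense `IsModFun` of S28/NormPoly).
-/
import Fermat.Agent.ES.EisCharFun
import Fermat.Agent.S28.NormPoly

set_option autoImplicit false

open UpperHalfPlane ModularForm CongruenceSubgroup Matrix Filter Topology
open scoped MatrixGroups Manifold

noncomputable section

namespace Fermat.Agent.ES

variable {M : ℕ} (χ : Gamma0 M →* ℂˣ)

local notation "Δ" => ModularForm.discriminant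

/-- `u_χ = hChi χ ^ n` is a modular function for `Γ₀(M)` when `χ ^ n = 1`. -/
theorem isModFun_hChi_pow [NeZero M] (hχ : ∀ γ : Gamma0 M, ‖((χ γ : ℂˣ) : ℂ)‖ = 1)
    (hpar : ∀ γ : Gamma0 M, IsPar γ → χ γ = 1) (n : ℕ) (hn : ∀ γ : Gamma0 M, χ γ ^ n = 1) :
    Fermat.Agent.S28.IsModFun M (fun z => hChi χ z ^ n) := by
  refine ⟨n, ModularForm.mcast (by ring) (eisCharPow χ hχ hpar (k := 12) (by norm_num) n hn), ?_⟩
  funext z
  show eisChar χ 12 z ^ n = hChi χ z ^ n * Δ z ^ n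
  rw [hChi_apply, div_pow, div_mul_cancel₀ _ (pow_ne_zero _ (discriminant_ne_zero z))]

end Fermat.Agent.ES
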