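import Fermat.Agent.ES.EigenSupport
import Fermat.Agent.S31.FaithLattice

/-!
# The faithfulness clause `S31.ESFaith` from the multiplier contract of ESpkg-G1 (helper31)

`Λ = intHoms (Gamma0 N) (parabolicSet N)` is the lattice of integral parabolic homomorphisms, on
which the words in the good Hecke operators act (`wordOp (heckeOp N p) ℤ`).

* `period_wordForms` : the period map intertwines `heckeEvalForms (wordPoly w)` with `wordOp w`;
* `heckeEvalForms_eq_zero_of_wordOp` (**faithfulness**, from S21): a word which kills `Λ` kills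
  the cusp forms of weight 2 and level `N`;
* `esFaith_of_contract` : `S31.ESFaith N p J` for every Hecke module `J` satisfying the
  contract `FaithContract N p J e`: for every `n` and every `φ ∈ Λ` there is `x ∈ J[pⁿ]` such
  that every word `w` with `wordPoly w • x = 0` kills `e n ∘ φ ∈ Hom(Γ₀(N), A)`, where
  `e n : ℤ →+ A` has kernel `pⁿ ℤ`.
  (From a multiplier map `μ : J → Hom(Γ₀(N), A)`, equivariant for the good Hecke operators on
  `J[pⁿ]`, with `μ x = e n ∘ φ`: `faithContract_of_multiplier`.)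
-/

set_option autoImplicit false

namespace Fermat.Agent.ES

open CongruenceSubgroup ModularCurve ModularCurve.Period
open scoped MatrixGroups

variable {N p : ℕ}

/-! ### Words and the period map -/

/-- the operator on cusp forms of a word -/
noncomputable def wordForms (N p : ℕ) [NeZero N] :
    FreeAlgebra ℤ (GoodPrime N p) →ₐ[ℤ] Module.End ℂ (CuspForm (Gamma0 N) 2) :=
  (CuspForm.heckeAlgebra N 2 ∅).val.comp
    ((MvPolynomial.aeval (CuspForm.heckeFormsGen N 2)).comp (wordPoly N p))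

theorem wordForms_apply [NeZero N] (w : FreeAlgebra ℤ (GoodPrime N p)) :
    wordForms N p w = ((CuspForm.heckeEvalForms N 2 (wordPoly N p w) :
      CuspForm.heckeAlgebra N 2 ∅) : Module.End ℂ (CuspForm (Gamma0 N) 2)) := rfl

theorem wordForms_ι [NeZero N] (ℓ : GoodPrime N p) :
    wordForms N p (FreeAlgebra.ι ℤ ℓ) = CuspForm.heckeTLin 2 ℓ.1.2 (GoodPrime.not_dvd ℓ) := by
  rw [wordForms_apply, wordPoly_ι,
    CuspForm.heckeEvalForms_heckeGen_of_not_dvd (GoodPrime.not_dvd ℓ), CuspForm.heckeAlgebra.coe_T]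

/-- words act `ℂ`-linearly on `Hom(Γ₀(N), ℂ)` -/
theorem wordOp_smul (w : FreeAlgebra ℤ (GoodPrime N p)) (c : ℂ)
    (φ : Additive (Gamma0 N) →+ ℂ) :
    wordOp (heckeOp N p) ℂ w (c • φ) = c • wordOp (heckeOp N p) ℂ w φ := by
  have hsmul : ∀ ψ : Additive (Gamma0 N) →+ ℂ, c • ψ = (AddMonoidHom.mulLeft c).comp ψ := by
    intro ψ
    refine DFunLike.ext _ _ (fun g => ?_)
    rfl
  rw [hsmul, hsmul, wordOp_natural (fun ℓ A A' _ _ f ψ => heckeOp_natural ℓ A A' f ψ)]

/-- the period map intertwines the action of words -/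
theorem period_wordForms [NeZero N] (w : FreeAlgebra ℤ (GoodPrime N p))
    (f : CuspForm (Gamma0 N) 2) :
    periodMap N (wordForms N p w f) = wordOp (heckeOp N p) ℂ w (periodMap N f) := by
  induction w using FreeAlgebra.induction generalizing f with
  | grade0 r =>
    rw [AlgHom.commutes, AlgHom.commutes, Module.algebraMap_end_apply,
      Module.algebraMap_end_apply]
    exact map_zsmul (Fermat.Agent.S21.periodMapLinear N) r f
  | grade1 ℓ =>
    have : Fact ((ℓ : Nat.Primes) : ℕ).Prime := ⟨ℓ.1.2⟩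
    rw [wordForms_ι, wordOp_ι, heckeOp_apply]
    exact periodMap_heckeTLin_eq_heckeP (GoodPrime.not_dvd ℓ) f
  | mul a b ha hb =>
    rw [map_mul, map_mul, Module.End.mul_apply, Module.End.mul_apply, ha, hb]
  | add a b ha hb =>
    rw [map_add, map_add, LinearMap.add_apply, LinearMap.add_apply,
      Fermat.Agent.S21.periodMap_add, ha, hb]

/-- **Faithfulness.** A word which kills the integral parabolic homomorphisms kills the cusp
forms. -/
theorem wordForms_eq_zero_of_wordOp [NeZero N] (w : FreeAlgebra ℤ (GoodPrime N p))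
    (hw : ∀ φ : Additive (Gamma0 N) →+ ℤ, IsParabolicHom (Gamma0 N) φ →
      wordOp (heckeOp N p) ℤ w φ = 0) :
    wordForms N p w = 0 := by
  have : Group.FG (Gamma0 N) := (Group.fg_iff_subgroup_fg _).mpr (Fermat.Agent.S22.gamma0_fg N)
  refine LinearMap.ext fun f => ?_
  rw [LinearMap.zero_apply, ← periodMap_eq_zero_iff, period_wordForms]
  -- the period class is a combination of integral parabolic classes
  have hmem := mem_span_range_castHomC (G := Gamma0 N) (P := parabolicSet N) (periodMap N f)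
    (fun γ hγ => Fermat.Agent.S21.periodMap_mem_parabolicHoms N f γ hγ)
  refine Submodule.span_induction (p := fun v _ => wordOp (heckeOp N p) ℂ w v = 0)
    ?_ ?_ ?_ ?_ hmem
  · rintro _ ⟨x, rfl⟩
    have h1 := wordOp_natural (T := heckeOp N p)
      (fun ℓ A A' _ _ f ψ => heckeOp_natural ℓ A A' f ψ) w ℤ ℂ (Int.castAddHom ℂ)
      (x : Additive (Gamma0 N) →+ ℤ)
    have h2 : castHomC (x : Additive (Gamma0 N) →+ ℤ) =
        (Int.castAddHom ℂ).comp (x : Additive (Gamma0 N) →+ ℤ) := by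
      refine DFunLike.ext _ _ (fun g => ?_)
      rfl
    show wordOp (heckeOp N p) ℂ w (castHomC (x : Additive (Gamma0 N) →+ ℤ)) = 0
    rw [h2, h1, hw _ x.2, AddMonoidHom.comp_zero]
  · exact map_zero _
  · intro u v _ _ hu hv
    rw [map_add, hu, hv, add_zero]
  · intro c v _ hv
    rw [wordOp_smul, hv, smul_zero]

/-- the element of the Hecke algebra of a word vanishes if the word kills the lattice -/
theorem heckeEvalForms_eq_zero_of_wordOp [NeZero N] (w : FreeAlgebra ℤ (GoodPrime N p))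
    (hw : ∀ φ : Additive (Gamma0 N) →+ ℤ, IsParabolicHom (Gamma0 N) φ →
      wordOp (heckeOp N p) ℤ w φ = 0) :
    CuspForm.heckeEvalForms N 2 (wordPoly N p w) = 0 := by
  apply Subtype.ext
  rw [← wordForms_apply, wordForms_eq_zero_of_wordOp w hw]
  rfl

/-! ### The words in a set of letters -/

/-- the words in the letters of `Sg` -/
def wordsIn (N p : ℕ) (Sg : Set Nat.Primes) : Subalgebra ℤ (FreeAlgebra ℤ (GoodPrime N p)) :=
  Algebra.adjoin ℤ ((FreeAlgebra.ι ℤ) '' {ℓ : GoodPrime N p | (ℓ : Nat.Primes) ∈ Sg})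

theorem map_wordPoly_wordsIn {Sg : Set Nat.Primes} (hSg : Sg ⊆ goodPrimes N p) :
    (wordsIn N p Sg).map (wordPoly N p) = MvPolynomial.supported ℤ Sg := by
  rw [wordsIn, AlgHom.map_adjoin, MvPolynomial.supported_eq_adjoin_X, Set.image_image]
  congr 1
  ext t
  constructor
  · rintro ⟨ℓ, hℓ, rfl⟩
    exact ⟨(ℓ : Nat.Primes), hℓ, (wordPoly_ι ℓ).symm⟩
  · rintro ⟨ℓ, hℓ, rfl⟩
    exact ⟨⟨ℓ, hSg hℓ⟩, hℓ, wordPoly_ι _⟩

/-! ### The lattice and the action of words -/

/-- the good Hecke operators preserve the integral parabolic homomorphisms -/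
theorem heckeOp_mem_intHoms (ℓ : GoodPrime N p) (φ : Additive (Gamma0 N) →+ ℤ)
    (hφ : φ ∈ intHoms (Gamma0 N) (parabolicSet N)) :
    heckeOp N p ℓ ℤ φ ∈ intHoms (Gamma0 N) (parabolicSet N) := by
  have : Fact ((ℓ : Nat.Primes) : ℕ).Prime := ⟨ℓ.1.2⟩
  rw [mem_intHoms_parabolicSet] at hφ ⊢
  rw [heckeOp_apply]
  exact HeckeP.heckeHom_isParabolicHom (GoodPrime.not_dvd ℓ) hφ

theorem wordOp_mem_intHoms (w : FreeAlgebra ℤ (GoodPrime N p)) (φ : Additive (Gamma0 N) →+ ℤ)
    (hφ : φ ∈ intHoms (Gamma0 N) (parabolicSet N)) :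
    wordOp (heckeOp N p) ℤ w φ ∈ intHoms (Gamma0 N) (parabolicSet N) :=
  wordOp_mem (intHoms (Gamma0 N) (parabolicSet N)).toAddSubgroup heckeOp_mem_intHoms w φ hφ

/-- the action of the words on the lattice of integral parabolic homomorphisms -/
noncomputable def wordLattice (N p : ℕ) (Sg : Set Nat.Primes) :
    ↥(wordsIn N p Sg) →+ Module.End ℤ ↥(intHoms (Gamma0 N) (parabolicSet N)) where
  toFun w := (wordOp (heckeOp N p) ℤ (w : FreeAlgebra ℤ (GoodPrime N p))).restrict
    (fun φ hφ => wordOp_mem_intHoms _ φ hφ)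
  map_zero' := by
    refine LinearMap.ext fun φ => Subtype.ext ?_
    simp
  map_add' a b := by
    refine LinearMap.ext fun φ => Subtype.ext ?_
    simp

theorem wordLattice_apply (Sg : Set Nat.Primes) (w : ↥(wordsIn N p Sg))
    (φ : ↥(intHoms (Gamma0 N) (parabolicSet N))) :
    ((wordLattice N p Sg w φ : ↥(intHoms (Gamma0 N) (parabolicSet N))) :
        Additive (Gamma0 N) →+ ℤ) =
      wordOp (heckeOp N p) ℤ (w : FreeAlgebra ℤ (GoodPrime N p)) (φ : Additive (Gamma0 N) →+ ℤ) :=
  rfl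

/-! ### The contract and the faithfulness clause -/

/-- **The contract for faithfulness** (to be provided by ESpkg-G1): for every `n` and every
integral parabolic homomorphism `φ` there is `x ∈ J[pⁿ]` such that every word `w` in the good
Hecke operators with `wordPoly w • x = 0` kills `e n ∘ φ`. -/
def FaithContract (N p : ℕ) (J : Type) [AddCommGroup J] [Module HeckeAlg J] {A : Type}
    [AddCommGroup A] (e : ℕ → ℤ →+ A) : Prop :=
  ∀ n : ℕ, ∀ φ : Additive (Gamma0 N) →+ ℤ, IsParabolicHom (Gamma0 N) φ →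
    ∃ x : J, p ^ n • x = 0 ∧ ∀ w : FreeAlgebra ℤ (GoodPrime N p), wordPoly N p w • x = 0 →
      wordOp (heckeOp N p) A w ((e n).comp φ) = 0

/-- a multiplier map intertwines polynomials with words on the `pⁿ`-torsion -/
theorem multiplier_wordPoly_torsion {J : Type} [AddCommGroup J] [Module HeckeAlg J] {A : Type}
    [AddCommGroup A] (μ : J →+ (Additive (Gamma0 N) →+ A)) (n : ℕ)
    (hμT : ∀ (ℓ : GoodPrime N p) (x : J), p ^ n • x = 0 →
      μ (heckeGen (ℓ : Nat.Primes) • x) = heckeOp N p ℓ A (μ x))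
    (w : FreeAlgebra ℤ (GoodPrime N p)) (x : J) (hx : p ^ n • x = 0) :
    μ (wordPoly N p w • x) = wordOp (heckeOp N p) A w (μ x) := by
  have htors : ∀ (t : HeckeAlg) (y : J), p ^ n • y = 0 → p ^ n • (t • y) = 0 := by
    intro t y hy
    rw [smul_comm, hy, smul_zero]
  induction w using FreeAlgebra.induction generalizing x with
  | grade0 r =>
    simp only [AlgHom.commutes, Module.algebraMap_end_apply, algebraMap_smul]
    exact map_zsmul μ r x
  | grade1 ℓ => rw [wordPoly_ι, wordOp_ι, hμT ℓ x hx]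
  | mul a b ha hb =>
    simp only [map_mul, Module.End.mul_apply]
    rw [mul_smul, ha _ (htors _ x hx), hb x hx]
  | add a b ha hb =>
    simp only [map_add, LinearMap.add_apply]
    rw [add_smul, map_add, ha x hx, hb x hx]

/-- **The contract from a multiplier map** `μ : J → Hom(Γ₀(N), A)`, equivariant for the good
Hecke operators on `J[pⁿ]`, whose values on `J[pⁿ]` contain `e n ∘ φ` for every integral parabolic
`φ`. -/
theorem faithContract_of_multiplier {J : Type} [AddCommGroup J] [Module HeckeAlg J] {A : Type}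
    [AddCommGroup A] (e : ℕ → ℤ →+ A) (μ : J →+ (Additive (Gamma0 N) →+ A))
    (hμT : ∀ (n : ℕ) (ℓ : GoodPrime N p) (x : J), p ^ n • x = 0 →
      μ (heckeGen (ℓ : Nat.Primes) • x) = heckeOp N p ℓ A (μ x))
    (hμS : ∀ n : ℕ, ∀ φ : Additive (Gamma0 N) →+ ℤ, IsParabolicHom (Gamma0 N) φ →
      ∃ x : J, p ^ n • x = 0 ∧ μ x = (e n).comp φ) :
    FaithContract N p J e := by
  intro n φ hφ
  obtain ⟨x, hx, hμx⟩ := hμS n φ hφ
  refine ⟨x, hx, fun w hw => ?_⟩
  rw [← hμx, ← multiplier_wordPoly_torsion μ n (hμT n) w x hx, hw, map_zero]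

/-- **The faithfulness clause from the contract.** -/
theorem esFaith_of_contract [NeZero N] {J : Type} [AddCommGroup J] [Module HeckeAlg J]
    {A : Type} [AddCommGroup A] (e : ℕ → ℤ →+ A)
    (he : ∀ (n : ℕ) (k : ℤ), e n k = 0 → ((p ^ n : ℕ) : ℤ) ∣ k) (hp0 : p ≠ 0)
    (hc : FaithContract N p J e) : Fermat.Agent.S31.ESFaith N p J := by
  have hfg : Group.FG (Gamma0 N) :=
    (Group.fg_iff_subgroup_fg _).mpr (Fermat.Agent.S22.gamma0_fg N)
  have hfin := finite_intHoms (Gamma0 N) (parabolicSet N)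
  have hfree := free_intHoms (Gamma0 N) (parabolicSet N)
  intro Sg hSg
  have hmap := map_wordPoly_wordsIn (N := N) (p := p) hSg
  refine Fermat.Agent.S31.esFaithOn_of_words Sg
    (ab := (wordPoly N p).toRingHom.toAddMonoidHom.comp (wordsIn N p Sg).toSubring.subtype.toAddMonoidHom)
    (op := wordLattice N p Sg) ?_ ?_ ?_ ?_
  · intro t ht
    rw [← hmap] at ht
    obtain ⟨w, hw, rfl⟩ := ht
    exact ⟨⟨w, hw⟩, rfl⟩
  · intro w
    rw [← hmap]
    exact ⟨w.1, w.2, rfl⟩
  · intro w hw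
    apply heckeEvalForms_eq_zero_of_wordOp
    intro φ hφ
    have := congrArg (fun f : Module.End ℤ ↥(intHoms (Gamma0 N) (parabolicSet N)) =>
      ((f ⟨φ, hφ⟩ : ↥(intHoms (Gamma0 N) (parabolicSet N))) : Additive (Gamma0 N) →+ ℤ)) hw
    exact this
  · intro n w hkill v
    obtain ⟨x, hx, hxw⟩ := hc n v.1 v.2
    have h1 := hxw w.1 (hkill x hx)
    rw [wordOp_natural (fun ℓ A A' _ _ f ψ => heckeOp_natural ℓ A A' f ψ)] at h1
    -- the values of `ψ = w φ` are divisible by `pⁿ`
    set ψ : Additive (Gamma0 N) →+ ℤ := wordOp (heckeOp N p) ℤ w.1 v.1 with hψ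
    have hψmem : ψ ∈ intHoms (Gamma0 N) (parabolicSet N) := wordOp_mem_intHoms _ _ v.2
    have hred : (Int.castAddHom (ZMod (p ^ n))).comp ψ = 0 := by
      refine DFunLike.ext _ _ (fun g => ?_)
      have h2 : e n (ψ g) = 0 := DFunLike.congr_fun h1 g
      have h3 := he n (ψ g) h2
      show ((ψ g : ℤ) : ZMod (p ^ n)) = 0
      exact (ZMod.intCast_zmod_eq_zero_iff_dvd _ _).mpr h3
    obtain ⟨y, hy, hψy⟩ := exists_eq_nsmul_of_castHom_eq_zero (p ^ n) (pow_ne_zero n hp0) ψ
      hψmem hred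
    refine ⟨⟨y, hy⟩, Subtype.ext ?_⟩
    rw [wordLattice_apply, ← hψ, hψy]
    rfl

end Fermat.Agent.ES
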