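import Mathlib
import Fermat.Agent.ES.TopWords
import Fermat.Prelude.Def_ModularCurve_ArithmeticGalois

/-!
# ESpkg clause `JFiniteLevel` / `StmtFiniteLevel`: torsion classes have finite level

Every `x ∈ J₀(M)(ℚ̄)` killed by some `m ≠ 0` is fixed by `Gal(ℚ̄/E)` for a number field `E`.

Proof: `x = [D]`, `m D = div u`, `u ∈ F_M = ℚ̄(j(q^d) : d ∣ M)`; `u` lies in the subfield generated
by finitely many constants and series with rational coefficients, so it is fixed by the
coefficientwise action of `Gal(ℚ̄/E)`, `E` a number field; then `m (σD − D) = div (σu/u) = 0` and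
the divisor group is torsion free.
-/

set_option autoImplicit false
set_option linter.style.haveILetI false
set_option linter.unusedSectionVars false

noncomputable section

namespace Fermat.Agent.ES

open ModularCurve AlgebraicCurve AlgebraicCurve.SemilinearAut HahnSeries IntermediateField

section Field

variable {L : Type*} [Field L] [Algebra ℚ L] [Algebra.IsAlgebraic ℚ L]
  {F₀ : IntermediateField ℚ (LaurentSeries ℚ)}

/-- every element of `L · F₀` is fixed by the coefficientwise action of an open subgroup -/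
theorem exists_field_fixing {x : LaurentSeries L} (hx : x ∈ laurentBaseChange L F₀) :
    ∃ E : IntermediateField ℚ L, FiniteDimensional ℚ E ∧
      ∀ σ : L ≃ₐ[ℚ] L, (∀ a ∈ E, σ a = a) → coeffMap (σ : L →+* L) x = x := by
  rw [mem_laurentBaseChange_iff] at hx
  induction hx using Subfield.closure_induction with
  | mem y hy =>
      rcases hy with ⟨a, rfl⟩ | ⟨z, hz, rfl⟩
      · refine ⟨ℚ⟮a⟯, IntermediateField.adjoin.finiteDimensional
          (Algebra.IsIntegral.isIntegral a), fun σ hσ => ?_⟩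
        rw [coeffMap_algebraMap]
        congr 1
        exact hσ a (IntermediateField.mem_adjoin_simple_self ℚ a)
      · exact ⟨⊥, inferInstance, fun σ _ => coeffMap_coeffEmb σ z⟩
  | one => exact ⟨⊥, inferInstance, fun σ _ => map_one _⟩
  | add x y _ _ hx hy =>
      obtain ⟨E₁, h₁, hx⟩ := hx
      obtain ⟨E₂, h₂, hy⟩ := hy
      refine ⟨E₁ ⊔ E₂, IntermediateField.finiteDimensional_sup E₁ E₂, fun σ hσ => ?_⟩
      rw [map_add, hx σ fun a ha => hσ a (le_sup_left (a := E₁) ha),
        hy σ fun a ha => hσ a (le_sup_right (b := E₂) ha)]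
  | neg x _ hx =>
      obtain ⟨E₁, h₁, hx⟩ := hx
      exact ⟨E₁, h₁, fun σ hσ => by rw [map_neg, hx σ hσ]⟩
  | inv x _ hx =>
      obtain ⟨E₁, h₁, hx⟩ := hx
      exact ⟨E₁, h₁, fun σ hσ => by rw [map_inv₀, hx σ hσ]⟩
  | mul x y _ _ hx hy =>
      obtain ⟨E₁, h₁, hx⟩ := hx
      obtain ⟨E₂, h₂, hy⟩ := hy
      refine ⟨E₁ ⊔ E₂, IntermediateField.finiteDimensional_sup E₁ E₂, fun σ hσ => ?_⟩
      rw [map_mul, hx σ fun a ha => hσ a (le_sup_left (a := E₁) ha),
        hy σ fun a ha => hσ a (le_sup_right (b := E₂) ha)]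

end Field

section Divisors

variable {K F : Type*} [Field K] [Field F] [Algebra K F]

/-- a semilinear automorphism fixing `u` fixes every divisor `D` with `m D = div u`, `m ≠ 0` -/
theorem divisor_smul_eq_of_fix (g : SemilinearAut K F) {u : F} (hu : g • u = u) {m : ℤ}
    (hm : m ≠ 0) {D : Divisor K F} (hD : ∀ v : Place K F, m * D v = v.ord u) : g • D = D := by
  ext w
  rw [SemilinearAut.divisor_smul_apply]
  have h1 := hD (g⁻¹ • w)
  have h2 := SemilinearAut.ord_smul g (g⁻¹ • w) u
  rw [smul_inv_smul, hu] at h2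
  rw [← h2, ← hD w] at h1
  exact mul_left_cancel₀ hm h1

/-- a semilinear automorphism fixing `u` fixes every class `x = [D]` with `m D = div u` -/
theorem pic0_smul_eq_of_torsion (m : ℕ) (hm : m ≠ 0) (x : Pic0 K F) (hx : m • x = 0) :
    ∃ u : F, ∀ g : SemilinearAut K F, g • u = u → g • x = x := by
  obtain ⟨D, rfl⟩ := Pic0.mk_surjective x
  have h1 : Pic0.mk (m • D) = 0 := by
    rw [← hx]
    exact map_nsmul (QuotientAddGroup.mk' _) m D
  have h2 : (m • D) ∈ (Divisor.principal (K := K) (F := F)).addSubgroupOf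
      (Divisor.degZero (K := K) (F := F)) := (QuotientAddGroup.eq_zero_iff _).mp h1
  rw [AddSubgroup.mem_addSubgroupOf] at h2
  obtain ⟨u, -, hu⟩ := h2
  refine ⟨u, fun g hg => ?_⟩
  rw [SemilinearAut.pic0_smul_mk]
  refine congrArg Pic0.mk (Subtype.ext ?_)
  rw [SemilinearAut.coe_degZeroSMulHom]
  refine divisor_smul_eq_of_fix g hg (m := (m : ℤ)) (Nat.cast_ne_zero.mpr hm) fun v => ?_
  rw [← hu v]
  simp

end Divisors

/-- `ℚ̄ / ℚ` is algebraic (for the instance of `Algebra ℚ ℚ̄` found by unification) -/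
theorem qbar_isAlgebraic : Algebra.IsAlgebraic ℚ (AlgebraicClosure ℚ) := by
  have h1 : @Algebra.IsAlgebraic ℚ (AlgebraicClosure ℚ) _ _ (AlgebraicClosure.instAlgebra ℚ) :=
    inferInstance
  convert h1
  exact Subsingleton.elim _ _

/-- **torsion classes of `J₀(M)(ℚ̄)` have finite level** -/
theorem exists_field_fixing_torsion (M : ℕ) (m : ℕ) (hm : m ≠ 0) (x : JZero M)
    (hx : m • x = 0) :
    ∃ E : IntermediateField ℚ (AlgebraicClosure ℚ), FiniteDimensional ℚ E ∧
      ∀ σ : GQ, (∀ a ∈ E, σ a = a) → σ • x = x := by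
  haveI := qbar_isAlgebraic
  obtain ⟨u, hu⟩ := pic0_smul_eq_of_torsion m hm x hx
  obtain ⟨E, hE, hfix⟩ := exists_field_fixing (L := AlgebraicClosure ℚ)
    (F₀ := modularFunctionFieldFull M) u.2
  refine ⟨E, hE, fun σ hσ => ?_⟩
  rw [galois_smul_pic0_def]
  apply hu
  apply Subtype.ext
  rw [coe_arithmeticGalois_smul]
  exact hfix σ hσ

/-- the clause `JFiniteLevel` of `ES/TopWords.lean` -/
theorem jFiniteLevel (M p : ℕ) [NeZero M] (hp : p ≠ 0) : JFiniteLevel M p :=
  fun x hx => exists_field_fixing_torsion M p hp x hx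

/-- the clause `StmtFiniteLevel` of `ES/Top.lean` -/
theorem stmtFiniteLevel (M p : ℕ) [NeZero M] (hp : p ≠ 0) : StmtFiniteLevel M p := by
  rintro x ⟨n, hx⟩
  exact exists_field_fixing_torsion M (p ^ n) (pow_ne_zero n hp) x hx

end Fermat.Agent.ES
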