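import Mathlib
import Fermat.Prelude.Sol.S_ModularForm_heckeT_slash_eq_self_of_mem_Gamma0
import Fermat.Prelude.Def_ModularCurve_PeriodMap

/-!
# ESpkg-G1, piece A4 (part 1): Hecke operators on `Hom(Γ₀(N), A)`

For a prime `p ∤ N` the prelude's coset law
`heckeRep p x * g = g' * heckeRep p (ḡ • x)` (`x ∈ ℙ¹(𝔽_p)`, `g, g' ∈ Γ₀(N)`)
defines `κ(g, x) := g'` with the cocycle identity `κ(gh, x) = κ(g, x) κ(h, x·g)`.  The Hecke
operator on homomorphisms is `(T_p φ)(g) = ∑_x φ(κ(g, x))`.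
-/

set_option autoImplicit false

noncomputable section

namespace Fermat.Agent.ES.HeckeP

open Matrix Matrix.SpecialLinearGroup CongruenceSubgroup
open P2MW.S_ModularForm_heckeT_slash_eq_self_of_mem_Gamma0.ModularForm.HeckeSlashInvariance
open scoped MatrixGroups

variable {p : ℕ} [Fact p.Prime] {N : ℕ}

/-- `g ↦ redMatrix p g` is an anti-homomorphism. -/
theorem redMatrix_mul (g h : SL(2, ℤ)) : redMatrix p (g * h) = redMatrix p h * redMatrix p g := by
  apply Matrix.GeneralLinearGroup.ext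
  intro i j
  rw [Matrix.GeneralLinearGroup.coe_mul, Matrix.mul_apply, Fin.sum_univ_two]
  fin_cases i <;> fin_cases j <;>
    simp [redMatrix, Matrix.SpecialLinearGroup.coe_mul, Matrix.mul_apply, Fin.sum_univ_two] <;>
    ring

theorem redMatrix_one : redMatrix p (1 : SL(2, ℤ)) = 1 := by
  apply Matrix.GeneralLinearGroup.ext
  intro i j
  fin_cases i <;> fin_cases j <;> simp [redMatrix]

/-- The right action of `SL(2,ℤ)` on the index set `ℙ¹(𝔽_p)`. -/
def idx (g : SL(2, ℤ)) (x : OnePoint (ZMod p)) : OnePoint (ZMod p) := redMatrix p g • x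

theorem idx_mul (g h : SL(2, ℤ)) (x : OnePoint (ZMod p)) : idx (g * h) x = idx h (idx g x) := by
  rw [idx, idx, idx, redMatrix_mul, mul_smul]

theorem idx_one (x : OnePoint (ZMod p)) : idx (1 : SL(2, ℤ)) x = x := by
  rw [idx, redMatrix_one, one_smul]

/-- `x ↦ x·g` as a permutation. -/
def idxPerm (g : SL(2, ℤ)) : Equiv.Perm (OnePoint (ZMod p)) := MulAction.toPerm (redMatrix p g)

theorem idxPerm_apply (g : SL(2, ℤ)) (x : OnePoint (ZMod p)) : idxPerm g x = idx g x := rfl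

theorem exists_kap (hpN : ¬ p ∣ N) (g : Gamma0 N) (x : OnePoint (ZMod p)) :
    ∃ g' : Gamma0 N, heckeRep p x * mapGL ℝ (g : SL(2, ℤ)) =
      mapGL ℝ (g' : SL(2, ℤ)) * heckeRep p (idx (g : SL(2, ℤ)) x) := by
  have hcN : (N : ℤ) ∣ (g : SL(2, ℤ)) 1 0 :=
    (ZMod.intCast_zmod_eq_zero_iff_dvd _ _).mp (Gamma0_mem.mp g.2)
  obtain ⟨g', hg', hmul⟩ := heckeRep_mul hpN (g : SL(2, ℤ)) hcN x
  exact ⟨⟨g', Gamma0_mem.mpr ((ZMod.intCast_zmod_eq_zero_iff_dvd _ _).mpr hg')⟩, hmul⟩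

/-- The element `κ(g, x) ∈ Γ₀(N)` with `α_x g = κ(g, x) α_{x·g}`. -/
def kap (hpN : ¬ p ∣ N) (g : Gamma0 N) (x : OnePoint (ZMod p)) : Gamma0 N :=
  Classical.choose (exists_kap hpN g x)

theorem kap_spec (hpN : ¬ p ∣ N) (g : Gamma0 N) (x : OnePoint (ZMod p)) :
    heckeRep p x * mapGL ℝ (g : SL(2, ℤ)) =
      mapGL ℝ (kap hpN g x : SL(2, ℤ)) * heckeRep p (idx (g : SL(2, ℤ)) x) :=
  Classical.choose_spec (exists_kap hpN g x)

theorem kap_unique (hpN : ¬ p ∣ N) (g : Gamma0 N) (x : OnePoint (ZMod p)) (g' : Gamma0 N)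
    (h : heckeRep p x * mapGL ℝ (g : SL(2, ℤ)) =
      mapGL ℝ (g' : SL(2, ℤ)) * heckeRep p (idx (g : SL(2, ℤ)) x)) : kap hpN g x = g' := by
  have h1 := kap_spec hpN g x
  rw [h] at h1
  have h2 := mul_right_cancel h1
  exact (Subtype.ext (mapGL_injective h2)).symm

theorem kap_mul (hpN : ¬ p ∣ N) (g h : Gamma0 N) (x : OnePoint (ZMod p)) :
    kap hpN (g * h) x = kap hpN g x * kap hpN h (idx (g : SL(2, ℤ)) x) := by
  apply kap_unique
  rw [Subgroup.coe_mul, Subgroup.coe_mul, map_mul, map_mul, ← mul_assoc, kap_spec hpN g x,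
    mul_assoc, kap_spec hpN h, ← mul_assoc, idx_mul]

theorem kap_one (hpN : ¬ p ∣ N) (x : OnePoint (ZMod p)) : kap hpN (1 : Gamma0 N) x = 1 := by
  apply kap_unique
  rw [Subgroup.coe_one, map_one, mul_one, one_mul, idx_one]

/-- If `x·g = x` then `κ(g, x) = α_x g α_x⁻¹`. -/
theorem kap_of_idx_eq (hpN : ¬ p ∣ N) (g : Gamma0 N) (x : OnePoint (ZMod p))
    (hx : idx (g : SL(2, ℤ)) x = x) :
    mapGL ℝ (kap hpN g x : SL(2, ℤ)) = heckeRep p x * mapGL ℝ (g : SL(2, ℤ)) * (heckeRep p x)⁻¹ := by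
  have h := kap_spec hpN g x
  rw [hx] at h
  rw [h, mul_inv_cancel_right]

section hom

variable {A : Type*} [AddCommGroup A]

/-- The Hecke operator `T_p` on `Hom(Γ₀(N), A)`. -/
def heckeHom (hpN : ¬ p ∣ N) (φ : Additive (Gamma0 N) →+ A) : Additive (Gamma0 N) →+ A where
  toFun g := ∑ x : OnePoint (ZMod p), φ (Additive.ofMul (kap hpN (Additive.toMul g) x))
  map_zero' := by
    simp only [toMul_zero, kap_one, ofMul_one, map_zero, Finset.sum_const_zero]
  map_add' g h := by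
    simp only [toMul_add, kap_mul, ofMul_mul, map_add, Finset.sum_add_distrib]
    congr 1
    exact Equiv.sum_comp (idxPerm ((Additive.toMul g : Gamma0 N) : SL(2, ℤ)))
      (fun x => φ (Additive.ofMul (kap hpN (Additive.toMul h) x)))

theorem heckeHom_apply (hpN : ¬ p ∣ N) (φ : Additive (Gamma0 N) →+ A) (g : Gamma0 N) :
    heckeHom hpN φ (Additive.ofMul g) = ∑ x : OnePoint (ZMod p), φ (Additive.ofMul (kap hpN g x)) :=
  rfl

theorem heckeHom_add (hpN : ¬ p ∣ N) (φ ψ : Additive (Gamma0 N) →+ A) :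
    heckeHom hpN (φ + ψ) = heckeHom hpN φ + heckeHom hpN ψ := by
  refine AddMonoidHom.ext fun g => ?_
  obtain ⟨g, rfl⟩ : ∃ g' : Gamma0 N, Additive.ofMul g' = g := ⟨Additive.toMul g, rfl⟩
  rw [AddMonoidHom.add_apply, heckeHom_apply, heckeHom_apply, heckeHom_apply,
    ← Finset.sum_add_distrib]
  rfl

theorem heckeHom_zero (hpN : ¬ p ∣ N) : heckeHom hpN (0 : Additive (Gamma0 N) →+ A) = 0 := by
  refine AddMonoidHom.ext fun g => ?_
  obtain ⟨g, rfl⟩ : ∃ g' : Gamma0 N, Additive.ofMul g' = g := ⟨Additive.toMul g, rfl⟩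
  rw [heckeHom_apply]
  simp

/-- Naturality in the coefficient group. -/
theorem heckeHom_comp (hpN : ¬ p ∣ N) {B : Type*} [AddCommGroup B] (f : A →+ B)
    (φ : Additive (Gamma0 N) →+ A) : heckeHom hpN (f.comp φ) = f.comp (heckeHom hpN φ) := by
  refine AddMonoidHom.ext fun g => ?_
  obtain ⟨g, rfl⟩ : ∃ g' : Gamma0 N, Additive.ofMul g' = g := ⟨Additive.toMul g, rfl⟩
  rw [AddMonoidHom.comp_apply, heckeHom_apply, heckeHom_apply, map_sum]
  rfl

/-- `T_p` as a linear map. -/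
def heckeHomL (hpN : ¬ p ∣ N) (R : Type*) [Semiring R] [Module R A] :
    (Additive (Gamma0 N) →+ A) →ₗ[R] (Additive (Gamma0 N) →+ A) where
  toFun := heckeHom hpN
  map_add' := heckeHom_add hpN
  map_smul' c φ := by
    refine AddMonoidHom.ext fun g => ?_
    obtain ⟨g, rfl⟩ : ∃ g' : Gamma0 N, Additive.ofMul g' = g := ⟨Additive.toMul g, rfl⟩
    rw [RingHom.id_apply, AddMonoidHom.smul_apply, heckeHom_apply, heckeHom_apply,
      Finset.smul_sum]
    rfl

theorem heckeHomL_apply (hpN : ¬ p ∣ N) (R : Type*) [Semiring R] [Module R A]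
    (φ : Additive (Gamma0 N) →+ A) : heckeHomL hpN R φ = heckeHom hpN φ := rfl

end hom

end Fermat.Agent.ES.HeckeP
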