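import Fermat.Agent.ES.HeckeHom
import Fermat.Agent.ES.HeckeP

/-!
# The two Hecke operators on `Hom(Γ₀(N), B)` agree at prime level

`heckeHom` (helper35, representatives `HeckeRep n`, any `n` coprime to `N`) and `HeckeP.heckeHom`
(helper94, the prelude's representatives `heckeRep p x`, `x ∈ ℙ¹(𝔽_p)`, `p ∤ N` prime) coincide
for `n = p`:  `heckeHom hnM φ = HeckeP.heckeHom hpN φ`.
-/

set_option autoImplicit false

noncomputable section

namespace Fermat.Agent.ES

open Matrix CongruenceSubgroup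
open P2MW.S_ModularForm_heckeT_slash_eq_self_of_mem_Gamma0.ModularForm.HeckeSlashInvariance
  (heckeRep redMatrix)
open scoped MatrixGroups

variable {p : ℕ} [hp : Fact p.Prime]

/-- The representative attached to a point of `ℙ¹(𝔽_p)`. -/
def repOfPoint : OnePoint (ZMod p) → HeckeRep p
  | none => ⟨p, 0, 1, mul_one p, Nat.one_pos⟩
  | some j =>
    haveI : NeZero p := ⟨hp.out.ne_zero⟩
    ⟨1, j.val, p, one_mul p, ZMod.val_lt j⟩

theorem repOfPoint_injective : Function.Injective (repOfPoint (p := p)) := by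
  haveI : NeZero p := ⟨hp.out.ne_zero⟩
  intro x y h
  rcases x with _ | j <;> rcases y with _ | j'
  · rfl
  · exfalso
    have := congrArg HeckeRep.a h
    simp only [repOfPoint] at this
    exact hp.out.one_lt.ne' this
  · exfalso
    have := congrArg HeckeRep.a h
    simp only [repOfPoint] at this
    exact hp.out.one_lt.ne this
  · have := congrArg HeckeRep.b h
    simp only [repOfPoint] at this
    rw [ZMod.val_injective p this]

theorem repOfPoint_surjective : Function.Surjective (repOfPoint (p := p)) := by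
  haveI : NeZero p := ⟨hp.out.ne_zero⟩
  intro A
  have had := A.had
  have hb := A.hb
  rcases (Nat.dvd_prime hp.out).mp ⟨A.d, had.symm⟩ with ha | ha
  · have hd : A.d = p := by rw [ha, one_mul] at had; exact had
    refine ⟨some (A.b : ZMod p), ?_⟩
    apply HeckeRep.ext
    · exact ha.symm
    · show ((A.b : ZMod p)).val = A.b
      exact ZMod.val_natCast_of_lt (lt_of_lt_of_eq hb hd)
    · exact hd.symm
  · have hd : A.d = 1 := by
      rw [ha] at had
      exact Nat.eq_of_mul_eq_mul_left hp.out.pos (by rw [had, mul_one])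
    refine ⟨none, ?_⟩
    apply HeckeRep.ext
    · exact ha.symm
    · show 0 = A.b
      rw [hd] at hb
      omega
    · exact hd.symm

/-- `ℙ¹(𝔽_p) ≃ HeckeRep p`. -/
def repEquiv : OnePoint (ZMod p) ≃ HeckeRep p :=
  Equiv.ofBijective repOfPoint ⟨repOfPoint_injective, repOfPoint_surjective⟩

@[simp] theorem repEquiv_apply (x : OnePoint (ZMod p)) : repEquiv x = repOfPoint x := rfl

/-- The prelude's real matrix `heckeRep p x` is the cast of the integer matrix of `repOfPoint x`. -/
theorem val_heckeRep_eq (x : OnePoint (ZMod p)) :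
    ((heckeRep p x : GL (Fin 2) ℝ) : Matrix (Fin 2) (Fin 2) ℝ)
      = (repOfPoint x).mat.map (Int.cast : ℤ → ℝ) := by
  have hp0 : p ≠ 0 := hp.out.ne_zero
  rcases x with _ | j
  · show ((ModularForm.heckeDiagMatrix p : GL (Fin 2) ℝ) : Matrix (Fin 2) (Fin 2) ℝ) = _
    rw [ModularForm.val_heckeDiagMatrix hp0]
    ext i k
    fin_cases i <;> fin_cases k <;> simp [repOfPoint, HeckeRep.mat]
  · show ((ModularForm.heckeMatrix p j.val : GL (Fin 2) ℝ) : Matrix (Fin 2) (Fin 2) ℝ) = _
    rw [ModularForm.val_heckeMatrix hp0]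
    ext i k
    fin_cases i <;> fin_cases k <;> simp [repOfPoint, HeckeRep.mat]

variable {N : ℕ}

/-- The integer form of the prelude's coset law. -/
theorem repOfPoint_mat_mul (hpN : ¬ p ∣ N) (γ : Gamma0 N) (x : OnePoint (ZMod p)) :
    (repOfPoint x).mat * ((γ : SL(2, ℤ)) : Matrix (Fin 2) (Fin 2) ℤ)
      = (((HeckeP.kap hpN γ x : Gamma0 N) : SL(2, ℤ)) : Matrix (Fin 2) (Fin 2) ℤ)
          * (repOfPoint (HeckeP.idx (γ : SL(2, ℤ)) x)).mat := by
  have h := congrArg (fun g : GL (Fin 2) ℝ => (g : Matrix (Fin 2) (Fin 2) ℝ))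
    (HeckeP.kap_spec hpN γ x)
  simp only [Matrix.GeneralLinearGroup.coe_mul, val_heckeRep_eq,
    Matrix.SpecialLinearGroup.mapGL_coe_matrix] at h
  have hinj : Function.Injective (fun A : Matrix (Fin 2) (Fin 2) ℤ => A.map (Int.cast : ℤ → ℝ)) :=
    Matrix.map_injective Int.cast_injective
  apply hinj
  simp only [Matrix.map_mul_intCast]
  have key : ∀ g : SL(2, ℤ),
      ((SpecialLinearGroup.map (algebraMap ℤ ℝ) g : SL(2, ℝ)) : Matrix (Fin 2) (Fin 2) ℝ)
        = (g : Matrix (Fin 2) (Fin 2) ℤ).map (Int.cast : ℤ → ℝ) := by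
    intro g
    ext i j
    simp
  rw [key, key] at h
  exact h

variable {B : Type*} [AddCommGroup B]

/-- **The two Hecke operators agree.** -/
theorem heckeHom_eq_heckeP (hpN : ¬ p ∣ N) (φ : Additive (Gamma0 N) →+ B) :
    haveI : NeZero p := ⟨hp.out.ne_zero⟩
    heckeHom (n := p) ((Nat.Prime.coprime_iff_not_dvd hp.out).mpr hpN) φ
      = HeckeP.heckeHom hpN φ := by
  haveI : NeZero p := ⟨hp.out.ne_zero⟩
  refine AddMonoidHom.ext fun γ => ?_
  obtain ⟨γ, rfl⟩ : ∃ γ' : Gamma0 N, Additive.ofMul γ' = γ := ⟨Additive.toMul γ, rfl⟩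
  rw [heckeHom_apply, HeckeP.heckeHom_apply, ← Equiv.sum_comp (repEquiv (p := p))]
  refine Finset.sum_congr rfl fun x _ => ?_
  have := (HeckeRep.next_coc_unique ((Nat.Prime.coprime_iff_not_dvd hp.out).mpr hpN)
    (repOfPoint_mat_mul hpN γ x)).2
  rw [repEquiv_apply, this]

end Fermat.Agent.ES
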