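import Fermat.Agent.ES.HeckeComm
import Fermat.Agent.ES.HeckeHomEq
import Fermat.Agent.ES.EigenSupport

/-!
# ESpkg COMM, group side, prime form (helper39)

* `heckeP_comm` : `HeckeP.heckeHom` at two primes `ℓ, ℓ' ∤ M` commute on `Hom(Γ₀(M), B)`;
* `heckeOp_comm` : the operators `heckeOp M p ℓ` (good primes) commute;
* `wordOp_heckeOp_comm` : all words in the good Hecke operators commute.
-/

set_option autoImplicit false

namespace Fermat.Agent.ES

open CongruenceSubgroup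

variable {M : ℕ} {B : Type*} [AddCommGroup B]

/-- the Hecke operators at primes `ℓ, ℓ' ∤ M` commute on `Hom(Γ₀(M), B)` -/
theorem heckeP_comm {ℓ ℓ' : ℕ} [hℓ : Fact ℓ.Prime] [hℓ' : Fact ℓ'.Prime] (hℓM : ¬ ℓ ∣ M)
    (hℓ'M : ¬ ℓ' ∣ M) (φ : Additive (Gamma0 M) →+ B) :
    HeckeP.heckeHom hℓM (HeckeP.heckeHom hℓ'M φ) = HeckeP.heckeHom hℓ'M (HeckeP.heckeHom hℓM φ) := by
  by_cases h : ℓ = ℓ'
  · subst h
    rfl
  · have : NeZero ℓ := ⟨hℓ.out.ne_zero⟩
    have : NeZero ℓ' := ⟨hℓ'.out.ne_zero⟩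
    have hc : Nat.Coprime ℓ ℓ' := (Nat.coprime_primes hℓ.out hℓ'.out).mpr h
    rw [← heckeHom_eq_heckeP hℓM, ← heckeHom_eq_heckeP hℓ'M, ← heckeHom_eq_heckeP hℓM,
      ← heckeHom_eq_heckeP hℓ'M]
    exact heckeHom_comm _ _ hc φ

variable {p : ℕ}

/-- the good Hecke operators commute -/
theorem heckeOp_comm (ℓ ℓ' : GoodPrime M p) (A : Type) [AddCommGroup A]
    (φ : Additive (Gamma0 M) →+ A) :
    heckeOp M p ℓ A (heckeOp M p ℓ' A φ) = heckeOp M p ℓ' A (heckeOp M p ℓ A φ) := by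
  have : Fact ((ℓ : Nat.Primes) : ℕ).Prime := ⟨ℓ.1.2⟩
  have : Fact ((ℓ' : Nat.Primes) : ℕ).Prime := ⟨ℓ'.1.2⟩
  simp only [heckeOp_apply]
  exact heckeP_comm _ _ φ

/-- all words in the good Hecke operators commute -/
theorem wordOp_heckeOp_comm (A : Type) [AddCommGroup A] (w w' : FreeAlgebra ℤ (GoodPrime M p)) :
    wordOp (heckeOp M p) A w * wordOp (heckeOp M p) A w'
      = wordOp (heckeOp M p) A w' * wordOp (heckeOp M p) A w := by
  have hgen : ∀ ℓ ℓ' : GoodPrime M p,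
      wordOp (heckeOp M p) A (FreeAlgebra.ι ℤ ℓ) * wordOp (heckeOp M p) A (FreeAlgebra.ι ℤ ℓ')
        = wordOp (heckeOp M p) A (FreeAlgebra.ι ℤ ℓ') * wordOp (heckeOp M p) A (FreeAlgebra.ι ℤ ℓ) := by
    intro ℓ ℓ'
    apply LinearMap.ext
    intro φ
    simp only [Module.End.mul_apply, wordOp_ι]
    exact heckeOp_comm ℓ ℓ' A φ
  -- first: a generator commutes with every word
  have h1 : ∀ (ℓ : GoodPrime M p) (w : FreeAlgebra ℤ (GoodPrime M p)),
      Commute (wordOp (heckeOp M p) A (FreeAlgebra.ι ℤ ℓ)) (wordOp (heckeOp M p) A w) := by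
    intro ℓ w
    induction w using FreeAlgebra.induction with
    | grade0 r =>
      rw [AlgHom.commutes]
      exact (Algebra.commutes r _).symm
    | grade1 ℓ' => exact hgen ℓ ℓ'
    | mul a b ha hb => rw [map_mul]; exact ha.mul_right hb
    | add a b ha hb => rw [map_add]; exact ha.add_right hb
  have h2 : Commute (wordOp (heckeOp M p) A w) (wordOp (heckeOp M p) A w') := by
    induction w using FreeAlgebra.induction with
    | grade0 r =>
      rw [AlgHom.commutes]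
      exact Algebra.commutes r _
    | grade1 ℓ => exact h1 ℓ w'
    | mul a b ha hb => rw [map_mul]; exact ha.mul_left hb
    | add a b ha hb => rw [map_add]; exact ha.add_left hb
  exact h2

end Fermat.Agent.ES
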