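import Mathlib
import Fermat.Agent.ES.Top
import Fermat.Agent.ES.EigenSupport

/-!
# ESpkg, G1: the contract `TorsionUnif` (uniformization of the `p`-power torsion of `J₀(M)(ℚ̄)`)
and the package on `J := ` the `p`-divisible part of the `p`-power torsion of `JZero M`

`TorsionUnif M p`: there is `μ : J[p^∞] → Hom(Γ₀(M), ℂˣ)` (the multiplier of a root of the Kummer
function), additive, injective, Hecke-equivariant for the good primes, and onto the classes
`e(φ / pⁿ)`, `φ ∈ Hom_par(Γ₀(M), ℤ)`.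
-/

set_option autoImplicit false

noncomputable section

namespace Fermat.Agent.ES

open ModularCurve AlgebraicCurve CongruenceSubgroup ModularCurve.Period
open scoped MatrixGroups

/-! ## Generalities on towers -/

section Tower

variable (p : ℕ) {J : Type*} [AddCommGroup J]

/-- `x` is the bottom of a `p`-divisible tower -/
def HasPTower (x : J) : Prop := ∃ y : ℕ → J, y 0 = x ∧ ∀ n, p • y (n + 1) = y n

variable (J) in
/-- the `p`-divisible part of the `p`-power torsion -/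
def pDivTors : AddSubgroup J where
  carrier := {x | IsPPowerTorsion p x ∧ HasPTower p x}
  zero_mem' := ⟨⟨0, by simp⟩, fun _ => 0, rfl, fun _ => by simp⟩
  add_mem' := by
    rintro x y ⟨⟨a, ha⟩, u, hu0, hu⟩ ⟨⟨b, hb⟩, v, hv0, hv⟩
    refine ⟨⟨a + b, ?_⟩, fun n => u n + v n, by simp only [hu0, hv0],
      fun n => by simp only [smul_add, hu, hv]⟩
    have h1 : p ^ (a + b) • x = 0 := by rw [pow_add, mul_comm, mul_smul, ha, smul_zero]
    have h2 : p ^ (a + b) • y = 0 := by rw [pow_add, mul_smul, hb, smul_zero]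
    rw [smul_add, h1, h2, add_zero]
  neg_mem' := by
    rintro x ⟨⟨a, ha⟩, u, hu0, hu⟩
    exact ⟨⟨a, by rw [smul_neg, ha, neg_zero]⟩, fun n => - u n, by simp only [hu0],
      fun n => by simp only [smul_neg, hu]⟩

variable {p}

theorem mem_pDivTors {x : J} : x ∈ pDivTors p J ↔ IsPPowerTorsion p x ∧ HasPTower p x := Iff.rfl

theorem IsPPowerTorsion.map {J' : Type*} [AddCommGroup J'] (f : J →+ J') {x : J}
    (hx : IsPPowerTorsion p x) : IsPPowerTorsion p (f x) := by
  obtain ⟨a, ha⟩ := hx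
  exact ⟨a, by rw [← map_nsmul, ha, map_zero]⟩

theorem HasPTower.map {J' : Type*} [AddCommGroup J'] (f : J →+ J') {x : J}
    (hx : HasPTower p x) : HasPTower p (f x) := by
  obtain ⟨u, hu0, hu⟩ := hx
  exact ⟨fun n => f (u n), by simp only [hu0], fun n => by simp only [← map_nsmul, hu]⟩

theorem map_mem_pDivTors (f : J →+ J) {x : J} (hx : x ∈ pDivTors p J) : f x ∈ pDivTors p J :=
  ⟨hx.1.map f, hx.2.map f⟩

theorem exists_mem_pDivTors_smul_eq {x : J} (hx : x ∈ pDivTors p J) :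
    ∃ y ∈ pDivTors p J, p • y = x := by
  obtain ⟨⟨a, ha⟩, u, hu0, hu⟩ := hx
  refine ⟨u 1, ⟨⟨a + 1, ?_⟩, fun n => u (n + 1), rfl, fun n => hu (n + 1)⟩, by rw [hu 0, hu0]⟩
  rw [pow_succ, mul_smul, hu 0, hu0, ha]

end Tower

/-! ## The characters `e(φ / n)` -/

section ExpChar

/-- the standard primitive `n`-th root of unity `exp(2πi/n)`, as a unit -/
def zetaUnit (n : ℕ) : ℂˣ :=
  Units.mk0 (Complex.exp (2 * Real.pi * Complex.I / n)) (Complex.exp_ne_zero _)

theorem zetaUnit_val (n : ℕ) :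
    ((zetaUnit n : ℂˣ) : ℂ) = Complex.exp (2 * Real.pi * Complex.I / n) := rfl

theorem zetaUnit_isPrimitiveRoot {n : ℕ} (hn : n ≠ 0) : IsPrimitiveRoot (zetaUnit n) n := by
  have h := Complex.isPrimitiveRoot_exp n hn
  rw [← zetaUnit_val] at h
  exact IsPrimitiveRoot.coe_units_iff.mp h

theorem zetaUnit_pow_mul (m n : ℕ) (hm : m ≠ 0) : zetaUnit (m * n) ^ m = zetaUnit n := by
  apply Units.ext
  rw [Units.val_pow_eq_pow_val, zetaUnit_val, zetaUnit_val, ← Complex.exp_nat_mul]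
  congr 1
  push_cast
  have hm' : (m : ℂ) ≠ 0 := Nat.cast_ne_zero.mpr hm
  by_cases hn : (n : ℂ) = 0
  · rw [hn]; simp
  · field_simp

/-- `k ↦ exp(2πi k/n)`, additively -/
def expHom (n : ℕ) : ℤ →+ Additive ℂˣ :=
  zmultiplesHom (Additive ℂˣ) (Additive.ofMul (zetaUnit n))

theorem expHom_apply (n : ℕ) (k : ℤ) : expHom n k = Additive.ofMul (zetaUnit n ^ k) := by
  rw [expHom, zmultiplesHom_apply, ← ofMul_zpow]

theorem expHom_eq_zero_iff {n : ℕ} (hn : n ≠ 0) (k : ℤ) : expHom n k = 0 ↔ (n : ℤ) ∣ k := by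
  rw [expHom_apply]
  show zetaUnit n ^ k = 1 ↔ _
  exact (zetaUnit_isPrimitiveRoot hn).zpow_eq_one_iff_dvd k

theorem nsmul_expHom (m n : ℕ) (hm : m ≠ 0) (k : ℤ) : m • expHom (m * n) k = expHom n k := by
  rw [expHom_apply, expHom_apply, ← ofMul_pow]
  congr 1
  have h : (zetaUnit (m * n) ^ k) ^ m = (zetaUnit (m * n) ^ m) ^ k := by
    rw [← zpow_natCast (zetaUnit (m * n) ^ k) m, ← zpow_mul, mul_comm k (m : ℤ), zpow_mul,
      zpow_natCast]
  rw [h, zetaUnit_pow_mul m n hm]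

variable (M : ℕ)

/-- the group of characters of `Γ₀(M)`, additively -/
abbrev CharGrp : Type := Additive (Gamma0 M) →+ Additive ℂˣ

/-- the character `e(φ/n) : γ ↦ exp(2πi φ(γ)/n)` -/
def expChar (n : ℕ) (φ : Additive (Gamma0 M) →+ ℤ) : CharGrp M := (expHom n).comp φ

variable {M}

theorem expChar_apply (n : ℕ) (φ : Additive (Gamma0 M) →+ ℤ) (γ : Additive (Gamma0 M)) :
    expChar M n φ γ = expHom n (φ γ) := rfl

theorem nsmul_expChar (m n : ℕ) (hm : m ≠ 0) (φ : Additive (Gamma0 M) →+ ℤ) :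
    m • expChar M (m * n) φ = expChar M n φ := by
  refine DFunLike.ext _ _ fun γ => ?_
  rw [AddMonoidHom.nsmul_apply, expChar_apply, expChar_apply, nsmul_expHom m n hm]

theorem expChar_eq_zero_iff {n : ℕ} (hn : n ≠ 0) (φ : Additive (Gamma0 M) →+ ℤ) :
    expChar M n φ = 0 ↔ ∀ γ, (n : ℤ) ∣ φ γ := by
  rw [DFunLike.ext_iff]
  exact forall_congr' fun γ => by rw [expChar_apply, AddMonoidHom.zero_apply, expHom_eq_zero_iff hn]

end ExpChar

/-! ## The contract of G1 -/

section Contract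

variable (M p : ℕ) [NeZero M]

/-- **The G1 contract**: `μ` is the multiplier map on the `p`-power torsion of `J₀(M)(ℚ̄)`. -/
structure TorsionUnifData (μ : JZero M → CharGrp M) : Prop where
  /-- additive on `p`-power torsion -/
  map_add : ∀ x y : JZero M, IsPPowerTorsion p x → IsPPowerTorsion p y → μ (x + y) = μ x + μ y
  /-- injective on `p`-power torsion -/
  inj : ∀ x : JZero M, IsPPowerTorsion p x → μ x = 0 → x = 0
  /-- Hecke-equivariant for the good primes (`T_ℓ` on `Hom(Γ₀(M), A)` is `heckeOp`) -/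
  hecke : ∀ (ℓ : GoodPrime M p) (x : JZero M), IsPPowerTorsion p x →
    μ (heckeOperatorBar M (ℓ : Nat.Primes) x) = heckeOp M p ℓ (Additive ℂˣ) (μ x)
  /-- onto the classes `e(φ/pⁿ)`, `φ` integral and parabolic -/
  surj : ∀ φ : Additive (Gamma0 M) →+ ℤ, IsParabolicHom (Gamma0 M) φ → ∀ n : ℕ,
    ∃ x : JZero M, p ^ n • x = 0 ∧ μ x = expChar M (p ^ n) φ

/-- **The G1 contract** (existence form). -/
def TorsionUnif : Prop := ∃ μ : JZero M → CharGrp M, TorsionUnifData M p μ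

/-- the Hecke operators `heckeOp` commute on `Hom(Γ₀(M), A)` (helper39, `ES/HeckeComm.lean`) -/
def HeckeOpComm : Prop :=
  ∀ (ℓ ℓ' : GoodPrime M p) (φ : CharGrp M),
    heckeOp M p ℓ (Additive ℂˣ) (heckeOp M p ℓ' (Additive ℂˣ) φ) =
      heckeOp M p ℓ' (Additive ℂˣ) (heckeOp M p ℓ (Additive ℂˣ) φ)

/-- Galois commutes with the good Hecke operators on `p`-power torsion. -/
def TorsGaloisHecke : Prop :=
  ∀ (σ : GQ) (ℓ : GoodPrime M p) (x : JZero M), IsPPowerTorsion p x →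
    σ • heckeOperatorBar M (ℓ : Nat.Primes) x = heckeOperatorBar M (ℓ : Nat.Primes) (σ • x)

end Contract

end Fermat.Agent.ES
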