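import Mathlib
import Fermat.Agent.ES.Top2
import Fermat.Agent.ES.Faith
import Fermat.Agent.ES.GaloisHecke
import Fermat.Agent.ES.HeckeCommP
import Fermat.Agent.ES.EigenSupportGen
import Fermat.Agent.S31.Plan

/-!
# ESpkg, assembly on the `p`-divisible torsion: `TorsionUnif` ⇒ `S31.ESPkgFaith` (helper31)

`J := PDiv M p = pDivTors p (JZero M)`, the `p`-divisible part of the `p`-power torsion of
`J₀(M)(ℚ̄)`, with

* the Galois action restricted from `JZero M` (`pDivGalois`);
* the Hecke module structure `pDivModule M p`: `T_ℓ` = restriction of the prelude operator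
  `heckeOperatorBar M ℓ` for the good primes `ℓ ∤ M p`, `0` for the bad primes.  The operators
  commute on `PDiv M p` as soon as the G1 contract `TorsionUnif M p` holds (`μ` injective and
  equivariant, and the operators `heckeOp` on `Hom(Γ₀(M), ℂˣ)` commute: `heckeOp_comm`).

Main results:

* `esDataInf_pDiv` : `TorsionUnifData M p μ → StmtFiniteLevel M p → StmtFrob M p → StmtUnram M p →
  ESDataInf M p (PDiv M p)`;
* `esFaith_pDiv` : `TorsionUnifData M p μ → S31.ESFaith M p (PDiv M p)`;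
* `esPkgFaith_of_torsionUnif` : `TorsionUnif M p → StmtFiniteLevel M p → StmtFrob M p →
  StmtUnram M p → S31.ESPkgFaith M p`;
* `esPkgInf_of_torsionUnif` : the same hypotheses give `ESPkgInf M p`.

The clauses `finite`, `divisible`, `smul_comm`, `supp` and the faithfulness clause need nothing
beyond the contract.
-/

set_option autoImplicit false
set_option linter.style.haveILetI false
set_option linter.unusedSectionVars false

noncomputable section

namespace Fermat.Agent.ES

open ModularCurve AlgebraicCurve CongruenceSubgroup ModularCurve.Period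
open scoped MatrixGroups

/-! ## Generic: a Hecke module from a family of endomorphisms -/

section Family

variable {J : Type} [AddCommGroup J]

/-- the family of endomorphisms commutes -/
def TfComm (T : Nat.Primes → Module.End ℤ J) : Prop := ∀ ℓ ℓ' : Nat.Primes, T ℓ * T ℓ' = T ℓ' * T ℓ

theorem isMulCommutative_adjoin_tf {T : Nat.Primes → Module.End ℤ J} (h : TfComm T) :
    IsMulCommutative (Algebra.adjoin ℤ (Set.range T)) :=
  Algebra.isMulCommutative_adjoin ℤ (by
    rintro _ ⟨ℓ, rfl⟩ _ ⟨ℓ', rfl⟩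
    exact h ℓ ℓ')

open scoped IsMulCommutative in
/-- evaluation of Hecke polynomials at a commuting family (into the commutative subalgebra) -/
def tfEvalSub {T : Nat.Primes → Module.End ℤ J} (h : TfComm T) :
    HeckeAlg →ₐ[ℤ] (Algebra.adjoin ℤ (Set.range T) : Subalgebra ℤ (Module.End ℤ J)) :=
  haveI := isMulCommutative_adjoin_tf h
  MvPolynomial.aeval fun ℓ =>
    (⟨T ℓ, Algebra.subset_adjoin (Set.mem_range_self ℓ)⟩ : Algebra.adjoin ℤ (Set.range T))

/-- evaluation of Hecke polynomials at a commuting family -/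
def tfEval {T : Nat.Primes → Module.End ℤ J} (h : TfComm T) : HeckeAlg →+* Module.End ℤ J :=
  ((Algebra.adjoin ℤ (Set.range T)).val.comp (tfEvalSub h)).toRingHom

open scoped IsMulCommutative in
theorem tfEval_heckeGen {T : Nat.Primes → Module.End ℤ J} (h : TfComm T) (ℓ : Nat.Primes) :
    tfEval h (heckeGen ℓ) = T ℓ := by
  have := isMulCommutative_adjoin_tf h
  show ((tfEvalSub h (heckeGen ℓ) : Algebra.adjoin ℤ (Set.range T)) : Module.End ℤ J) = _
  have : tfEvalSub h (heckeGen ℓ) = ⟨T ℓ, Algebra.subset_adjoin (Set.mem_range_self ℓ)⟩ :=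
    MvPolynomial.aeval_X _ ℓ
  rw [this]

theorem tfEval_X {T : Nat.Primes → Module.End ℤ J} (h : TfComm T) (ℓ : Nat.Primes) :
    tfEval h (MvPolynomial.X ℓ) = T ℓ := tfEval_heckeGen h ℓ

theorem tfEval_C {T : Nat.Primes → Module.End ℤ J} (h : TfComm T) (a : ℤ) :
    tfEval h (MvPolynomial.C a) = (a : Module.End ℤ J) := by
  rw [← MvPolynomial.algebraMap_eq, eq_intCast, map_intCast]

open Classical in
/-- the Hecke module structure of a family of endomorphisms (genuine if the family commutes) -/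
@[implicit_reducible]
def tfModule (T : Nat.Primes → Module.End ℤ J) : Module HeckeAlg J :=
  if h : TfComm T then Module.compHom J (tfEval h)
  else Module.compHom J (MvPolynomial.eval₂Hom (Int.castRingHom ℤ) (0 : Nat.Primes → ℤ))

theorem tfModule_smul_def {T : Nat.Primes → Module.End ℤ J} (h : TfComm T) (t : HeckeAlg)
    (x : J) : (letI := tfModule T; t • x) = tfEval h t x := by
  have e : tfModule T = Module.compHom J (tfEval h) := dif_pos h
  rw [e]
  rfl

theorem tfModule_heckeGen_smul {T : Nat.Primes → Module.End ℤ J} (h : TfComm T)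
    (ℓ : Nat.Primes) (x : J) : (letI := tfModule T; heckeGen ℓ • x) = T ℓ x := by
  rw [tfModule_smul_def h, tfEval_heckeGen]

/-- an additive map commuting with the family commutes with all Hecke polynomials -/
theorem tfEval_comm_of_comm {T : Nat.Primes → Module.End ℤ J} (h : TfComm T) (f : J →+ J)
    (hf : ∀ (ℓ : Nat.Primes) (x : J), f (T ℓ x) = T ℓ (f x)) (t : HeckeAlg) (x : J) :
    f (tfEval h t x) = tfEval h t (f x) := by
  induction t using MvPolynomial.induction_on generalizing x with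
  | C a =>
      rw [tfEval_C, Module.End.intCast_apply, Module.End.intCast_apply]
      exact map_zsmul f a x
  | add s t hs ht =>
      rw [map_add, LinearMap.add_apply, LinearMap.add_apply, map_add, hs, ht]
  | mul_X s ℓ hs =>
      rw [map_mul, Module.End.mul_apply, Module.End.mul_apply, hs, tfEval_X, hf]

end Family

/-! ## Torsion generalities -/

section Torsion

variable {p : ℕ} {J : Type*} [AddCommGroup J]

theorem isPPowerTorsion_zero : IsPPowerTorsion p (0 : J) := ⟨0, smul_zero _⟩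

theorem IsPPowerTorsion.add {x y : J} (hx : IsPPowerTorsion p x) (hy : IsPPowerTorsion p y) :
    IsPPowerTorsion p (x + y) := by
  obtain ⟨a, ha⟩ := hx
  obtain ⟨b, hb⟩ := hy
  refine ⟨a + b, ?_⟩
  have h1 : p ^ (a + b) • x = 0 := by rw [pow_add, mul_comm, mul_smul, ha, smul_zero]
  have h2 : p ^ (a + b) • y = 0 := by rw [pow_add, mul_smul, hb, smul_zero]
  rw [smul_add, h1, h2, add_zero]

theorem IsPPowerTorsion.neg {x : J} (hx : IsPPowerTorsion p x) : IsPPowerTorsion p (-x) := by
  obtain ⟨a, ha⟩ := hx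
  exact ⟨a, by rw [smul_neg, ha, neg_zero]⟩

theorem IsPPowerTorsion.nsmul {x : J} (hx : IsPPowerTorsion p x) (k : ℕ) :
    IsPPowerTorsion p (k • x) := by
  obtain ⟨a, ha⟩ := hx
  exact ⟨a, by rw [smul_comm, ha, smul_zero]⟩

theorem isPPowerTorsion_of_pow_smul {x : J} {n : ℕ} (hx : p ^ n • x = 0) :
    IsPPowerTorsion p x := ⟨n, hx⟩

end Torsion

/-! ## The multiplier contract, for a general coefficient group -/

section Raw

variable (M p : ℕ) [NeZero M]

/-- The multiplier contract for a general coefficient group `A` and a compatible system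
`e n : ℤ → A` with kernel `pⁿ ℤ` (`TorsionUnifData M p μ` is the case `A = ℂˣ`,
`e n = exp(2πi · / pⁿ)`). -/
structure MultData {A : Type} [AddCommGroup A] (e : ℕ → ℤ →+ A)
    (μ : JZero M → (Additive (Gamma0 M) →+ A)) : Prop where
  /-- additive on `p`-power torsion -/
  map_add : ∀ x y : JZero M, IsPPowerTorsion p x → IsPPowerTorsion p y → μ (x + y) = μ x + μ y
  /-- injective on `p`-power torsion -/
  inj : ∀ x : JZero M, IsPPowerTorsion p x → μ x = 0 → x = 0
  /-- Hecke-equivariant for the good primes -/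
  hecke : ∀ (ℓ : GoodPrime M p) (x : JZero M), IsPPowerTorsion p x →
    μ (heckeOperatorBar M (ℓ : Nat.Primes) x) = heckeOp M p ℓ A (μ x)
  /-- onto the classes `e n ∘ φ`, `φ` integral and parabolic -/
  surj : ∀ φ : Additive (Gamma0 M) →+ ℤ, IsParabolicHom (Gamma0 M) φ → ∀ n : ℕ,
    ∃ x : JZero M, p ^ n • x = 0 ∧ μ x = (e n).comp φ
  /-- the system `e` is compatible -/
  tower : ∀ (n : ℕ) (k : ℤ), p • e (n + 1) k = e n k
  /-- `e 0 = 0` -/
  zero : ∀ k : ℤ, e 0 k = 0
  /-- the kernel of `e n` is `pⁿ ℤ` -/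
  ker : ∀ (n : ℕ) (k : ℤ), e n k = 0 → ((p ^ n : ℕ) : ℤ) ∣ k
  /-- the `pⁿ`-torsion of `A` is finite -/
  fin : ∀ n : ℕ, {a : A | p ^ n • a = 0}.Finite

variable {M p} {A : Type} [AddCommGroup A] {e : ℕ → ℤ →+ A}
  {μ : JZero M → (Additive (Gamma0 M) →+ A)}

theorem MultData.map_zero (hμ : MultData M p e μ) : μ 0 = 0 := by
  have h := hμ.map_add 0 0 isPPowerTorsion_zero isPPowerTorsion_zero
  rw [add_zero] at h
  exact left_eq_add.mp h

theorem MultData.map_neg (hμ : MultData M p e μ) {x : JZero M}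
    (hx : IsPPowerTorsion p x) : μ (-x) = - μ x := by
  have h := hμ.map_add x (-x) hx hx.neg
  rw [add_neg_cancel, hμ.map_zero] at h
  exact eq_neg_of_add_eq_zero_right h.symm

theorem MultData.map_sub (hμ : MultData M p e μ) {x y : JZero M}
    (hx : IsPPowerTorsion p x) (hy : IsPPowerTorsion p y) : μ (x - y) = μ x - μ y := by
  rw [sub_eq_add_neg, hμ.map_add x (-y) hx hy.neg, hμ.map_neg hy, sub_eq_add_neg]

theorem MultData.map_nsmul (hμ : MultData M p e μ) {x : JZero M}
    (hx : IsPPowerTorsion p x) (k : ℕ) : μ (k • x) = k • μ x := by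
  induction k with
  | zero => rw [zero_nsmul, zero_nsmul, hμ.map_zero]
  | succ k ih => rw [succ_nsmul, succ_nsmul, hμ.map_add _ _ (hx.nsmul k) hx, ih]

theorem MultData.eq_of_eq (hμ : MultData M p e μ) {x y : JZero M}
    (hx : IsPPowerTorsion p x) (hy : IsPPowerTorsion p y) (h : μ x = μ y) : x = y := by
  have h1 : μ (x - y) = 0 := by rw [hμ.map_sub hx hy, h, sub_self]
  exact sub_eq_zero.mp (hμ.inj (x - y) (by simpa [sub_eq_add_neg] using hx.add hy.neg) h1)

theorem MultData.pow_smul_e (hμ : MultData M p e μ) (n : ℕ) (k : ℤ) : p ^ n • e n k = 0 := by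
  induction n with
  | zero => rw [hμ.zero, smul_zero]
  | succ n ih => rw [pow_succ, mul_smul, hμ.tower, ih]

/-- the tower over `e n ∘ φ`: the solution of `μ x = e n ∘ φ` is `p`-divisible -/
theorem MultData.surj_pDiv (hμ : MultData M p e μ)
    (φ : Additive (Gamma0 M) →+ ℤ) (hφ : IsParabolicHom (Gamma0 M) φ) (n : ℕ) :
    ∃ x ∈ pDivTors p (JZero M), p ^ n • x = 0 ∧ μ x = (e n).comp φ := by
  choose x hx hμx using hμ.surj φ hφ
  have hstep : ∀ k, p • x (k + 1) = x k := by
    intro k
    refine hμ.eq_of_eq ((isPPowerTorsion_of_pow_smul (hx (k + 1))).nsmul p)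
      (isPPowerTorsion_of_pow_smul (hx k)) ?_
    rw [hμ.map_nsmul (isPPowerTorsion_of_pow_smul (hx (k + 1))), hμx, hμx]
    refine DFunLike.ext _ _ fun γ => ?_
    rw [AddMonoidHom.nsmul_apply, AddMonoidHom.comp_apply, AddMonoidHom.comp_apply, hμ.tower]
  exact ⟨x n, ⟨isPPowerTorsion_of_pow_smul (hx n), fun j => x (n + j), rfl,
    fun j => hstep (n + j)⟩, hx n, hμx n⟩

/-- the character `ZMod p → A` induced by `e 1` -/
def MultData.eps (hμ : MultData M p e μ) : ZMod p →+ A :=
  ZMod.lift p ⟨e 1, by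
    have h := hμ.pow_smul_e 1 1
    rw [pow_one] at h
    have h2 : ((p : ℕ) : ℤ) = p • (1 : ℤ) := by simp
    show e 1 ((p : ℕ) : ℤ) = 0
    rw [h2, _root_.map_nsmul (e 1) p (1 : ℤ), h]⟩

theorem MultData.eps_intCast (hμ : MultData M p e μ) (k : ℤ) :
    hμ.eps ((k : ℤ) : ZMod p) = e 1 k := ZMod.lift_coe p _ k

theorem MultData.eps_injective (hμ : MultData M p e μ) : Function.Injective hμ.eps := by
  rw [injective_iff_map_eq_zero]
  intro a ha
  obtain ⟨k, rfl⟩ := ZMod.intCast_surjective a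
  rw [hμ.eps_intCast] at ha
  have h := hμ.ker 1 k ha
  rw [pow_one] at h
  exact (ZMod.intCast_zmod_eq_zero_iff_dvd k p).mpr h

/-- the set of homomorphisms `Γ₀(M) → A` killed by `pⁿ` is finite -/
theorem MultData.finite_hom (hμ : MultData M p e μ) (n : ℕ) :
    {χ : Additive (Gamma0 M) →+ A | p ^ n • χ = 0}.Finite := by
  have hfg : Group.FG (Gamma0 M) :=
    (Group.fg_iff_subgroup_fg _).mpr (Fermat.Agent.S22.gamma0_fg M)
  obtain ⟨S, hS⟩ := Group.fg_def.mp hfg
  -- evaluation at the generators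
  let ev : (Additive (Gamma0 M) →+ A) → (S → A) := fun χ s => χ (Additive.ofMul (s : Gamma0 M))
  have hinj : Function.Injective ev := by
    intro χ χ' h
    have h1 : AddMonoidHom.toMultiplicative χ = AddMonoidHom.toMultiplicative χ' := by
      refine MonoidHom.eq_of_eqOn_dense hS ?_
      intro s hs
      exact congrFun h ⟨s, hs⟩
    exact AddMonoidHom.toMultiplicative.injective h1
  have hfin : {f : S → A | ∀ s : S, f s ∈ {a : A | p ^ n • a = 0}}.Finite :=
    Set.Finite.pi' (fun _ => hμ.fin n)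
  refine Set.Finite.of_finite_image (f := ev) (hfin.subset ?_) hinj.injOn
  rintro _ ⟨χ, hχ, rfl⟩ s
  show p ^ n • χ (Additive.ofMul (s : Gamma0 M)) = 0
  rw [← AddMonoidHom.nsmul_apply, show p ^ n • χ = 0 from hχ, AddMonoidHom.zero_apply]

end Raw

/-! ## The `p`-divisible torsion `PDiv M p` with its Galois action and Hecke operators -/

section PDiv

variable (M p : ℕ) [NeZero M]

/-- the `p`-divisible part of the `p`-power torsion of `J₀(M)(ℚ̄)` -/
abbrev PDiv : Type := ↥(pDivTors p (JZero M))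

/-- the Galois action on `PDiv M p` -/
@[implicit_reducible]
def pDivGalois : DistribMulAction GQ (PDiv M p) where
  smul σ x := ⟨σ • (x : JZero M),
    map_mem_pDivTors (DistribSMul.toAddMonoidHom (JZero M) σ) x.2⟩
  one_smul x := Subtype.ext (one_smul GQ (x : JZero M))
  mul_smul σ τ x := Subtype.ext (mul_smul σ τ (x : JZero M))
  smul_zero σ := Subtype.ext (smul_zero σ)
  smul_add σ x y := Subtype.ext (smul_add σ (x : JZero M) (y : JZero M))

theorem pDivGalois_coe (σ : GQ) (x : PDiv M p) :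
    ((letI := pDivGalois M p; σ • x : PDiv M p) : JZero M) = σ • (x : JZero M) := rfl

/-- restriction of an additive endomorphism of `JZero M` to `PDiv M p` -/
def pDivRestrict (f : JZero M →+ JZero M) : Module.End ℤ (PDiv M p) :=
  AddMonoidHom.toIntLinearMap
    { toFun := fun x => (⟨f x, map_mem_pDivTors f x.2⟩ : PDiv M p)
      map_zero' := Subtype.ext (map_zero f)
      map_add' := fun _ _ => Subtype.ext (map_add f _ _) }

theorem pDivRestrict_coe (f : JZero M →+ JZero M) (x : PDiv M p) :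
    (pDivRestrict M p f x : JZero M) = f x := rfl

open Classical in
/-- `T_ℓ` on `PDiv M p` for a good prime, `0` for a bad prime -/
def pDivOp (ℓ : Nat.Primes) : Module.End ℤ (PDiv M p) :=
  if (ℓ : ℕ) ∣ M * p then 0 else pDivRestrict M p (heckeOperatorBar M ℓ).toAddMonoidHom

variable {M p}

theorem pDivOp_of_bad {ℓ : Nat.Primes} (h : (ℓ : ℕ) ∣ M * p) : pDivOp M p ℓ = 0 := by
  classical
  rw [pDivOp, if_pos h]

theorem pDivOp_of_good {ℓ : Nat.Primes} (h : ¬ (ℓ : ℕ) ∣ M * p) (x : PDiv M p) :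
    (pDivOp M p ℓ x : JZero M) = heckeOperatorBar M ℓ x := by
  classical
  rw [pDivOp, if_neg h]
  rfl

theorem coe_nsmul_pDiv (k : ℕ) (x : PDiv M p) : ((k • x : PDiv M p) : JZero M) = k • (x : JZero M) :=
  AddSubgroup.coe_nsmul _ _ _

theorem pDiv_smul_eq_zero_iff (k : ℕ) (x : PDiv M p) : k • x = 0 ↔ k • (x : JZero M) = 0 := by
  rw [← coe_nsmul_pDiv, ← AddSubgroup.coe_zero (pDivTors p (JZero M))]
  exact Subtype.ext_iff

theorem isPPowerTorsion_coe (x : PDiv M p) : IsPPowerTorsion p (x : JZero M) := x.2.1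

theorem isPPowerTorsion_pDiv (x : PDiv M p) : IsPPowerTorsion p x := by
  obtain ⟨a, ha⟩ := x.2.1
  exact ⟨a, (pDiv_smul_eq_zero_iff _ _).mpr ha⟩

/-- Galois commutes with the Hecke operators on `PDiv M p` -/
theorem pDivOp_galois (σ : GQ) (ℓ : Nat.Primes) (x : PDiv M p) :
    (letI := pDivGalois M p; σ • pDivOp M p ℓ x) = pDivOp M p ℓ (letI := pDivGalois M p; σ • x) := by
  letI := pDivGalois M p
  by_cases h : (ℓ : ℕ) ∣ M * p
  · rw [pDivOp_of_bad h, LinearMap.zero_apply, LinearMap.zero_apply, smul_zero]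
  · apply Subtype.ext
    rw [pDivOp_of_good h, pDivGalois_coe, pDivOp_of_good h, pDivGalois_coe]
    exact galois_heckeOperatorBar M σ ℓ x

variable {A : Type} [AddCommGroup A] {e : ℕ → ℤ →+ A}
  {μ : JZero M → (Additive (Gamma0 M) →+ A)}

/-- the multiplier map on `PDiv M p`, as an additive map -/
def MultData.toHom (hμ : MultData M p e μ) : PDiv M p →+ (Additive (Gamma0 M) →+ A) where
  toFun x := μ x
  map_zero' := hμ.map_zero
  map_add' x y := hμ.map_add x y x.2.1 y.2.1

theorem MultData.toHom_apply (hμ : MultData M p e μ) (x : PDiv M p) : hμ.toHom x = μ x := rfl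

theorem MultData.toHom_injective (hμ : MultData M p e μ) : Function.Injective hμ.toHom := by
  rw [injective_iff_map_eq_zero]
  intro x hx
  exact Subtype.ext (hμ.inj x x.2.1 hx)

theorem MultData.toHom_pDivOp (hμ : MultData M p e μ) (ℓ : GoodPrime M p) (x : PDiv M p) :
    hμ.toHom (pDivOp M p (ℓ : Nat.Primes) x) = heckeOp M p ℓ A (hμ.toHom x) := by
  rw [hμ.toHom_apply, hμ.toHom_apply, pDivOp_of_good ℓ.2]
  exact hμ.hecke ℓ x x.2.1

/-- the Hecke operators commute on `PDiv M p` -/
theorem MultData.tfComm (hμ : MultData M p e μ) : TfComm (pDivOp M p) := by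
  intro ℓ ℓ'
  by_cases h : (ℓ : ℕ) ∣ M * p
  · rw [pDivOp_of_bad h, zero_mul, mul_zero]
  by_cases h' : (ℓ' : ℕ) ∣ M * p
  · rw [pDivOp_of_bad h', zero_mul, mul_zero]
  refine LinearMap.ext fun x => hμ.toHom_injective ?_
  rw [Module.End.mul_apply, Module.End.mul_apply]
  have e1 := hμ.toHom_pDivOp ⟨ℓ, h⟩
  have e2 := hμ.toHom_pDivOp ⟨ℓ', h'⟩
  simp only at e1 e2
  rw [e1, e2, e2, e1]
  exact heckeOp_comm ⟨ℓ, h⟩ ⟨ℓ', h'⟩ A (hμ.toHom x)

variable (M p)

/-- the Hecke module structure on `PDiv M p` -/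
@[implicit_reducible]
def pDivModule : Module HeckeAlg (PDiv M p) := tfModule (pDivOp M p)

variable {M p}

theorem MultData.heckeGen_smul (hμ : MultData M p e μ) (ℓ : Nat.Primes) (x : PDiv M p) :
    (letI := pDivModule M p; heckeGen ℓ • x) = pDivOp M p ℓ x :=
  tfModule_heckeGen_smul hμ.tfComm ℓ x

/-! ## The clauses of `ESDataInf M p (PDiv M p)` -/

theorem MultData.pDiv_smul_def (hμ : MultData M p e μ) (t : HeckeAlg) (x : PDiv M p) :
    (letI := pDivModule M p; t • x) = tfEval hμ.tfComm t x :=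
  tfModule_smul_def hμ.tfComm t x

theorem MultData.pDiv_finite (hμ : MultData M p e μ) (n : ℕ) :
    {x : PDiv M p | p ^ n • x = 0}.Finite := by
  refine Set.Finite.of_finite_image (f := hμ.toHom) ((hμ.finite_hom n).subset ?_)
    hμ.toHom_injective.injOn
  rintro _ ⟨x, hx, rfl⟩
  show p ^ n • hμ.toHom x = 0
  rw [← _root_.map_nsmul, show p ^ n • x = 0 from hx, _root_.map_zero]

theorem pDiv_divisible (x : PDiv M p) : ∃ y : PDiv M p, IsPPowerTorsion p y ∧ p • y = x := by
  obtain ⟨y, hy, hyx⟩ := exists_mem_pDivTors_smul_eq x.2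
  exact ⟨⟨y, hy⟩, isPPowerTorsion_pDiv _, Subtype.ext (by rw [coe_nsmul_pDiv]; exact hyx)⟩

theorem MultData.pDiv_smul_comm (hμ : MultData M p e μ) (σ : GQ) (t : HeckeAlg)
    (x : PDiv M p) :
    (letI := pDivModule M p; letI := pDivGalois M p; σ • t • x) =
      (letI := pDivModule M p; letI := pDivGalois M p; t • σ • x) := by
  letI := pDivGalois M p
  rw [hμ.pDiv_smul_def, hμ.pDiv_smul_def]
  exact tfEval_comm_of_comm hμ.tfComm (DistribSMul.toAddMonoidHom (PDiv M p) σ)
    (fun ℓ y => pDivOp_galois σ ℓ y) t x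

/-- **The `p`-adic Eichler–Shimura data on `PDiv M p`** from the multiplier contract and the
clauses `StmtFiniteLevel`, `StmtFrob`, `StmtUnram` about `J₀(M)(ℚ̄)`. -/
theorem MultData.esDataInf [Fact p.Prime] (hμ : MultData M p e μ)
    (hlev : StmtFiniteLevel M p) (hfrob : StmtFrob M p) (hunr : StmtUnram M p) :
    letI := pDivModule M p
    letI := pDivGalois M p
    ESDataInf M p (PDiv M p) := by
  letI := pDivModule M p
  letI := pDivGalois M p
  refine
    { finite := hμ.pDiv_finite
      divisible := fun x _ => pDiv_divisible x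
      smul_comm := hμ.pDiv_smul_comm
      finite_level := ?_
      frob := ?_
      unram := ?_
      supp := ?_ }
  · intro x _
    obtain ⟨E, hE, h⟩ := hlev x x.2.1
    exact ⟨E, hE, fun σ hσ => Subtype.ext (h σ hσ)⟩
  · intro ℓ hℓ hgood A' hA τ hτ x _
    have h1 := hfrob ℓ hℓ hgood A' hA τ hτ x x.2.1
    have h2 := hμ.heckeGen_smul ⟨ℓ, hℓ⟩ (τ • x)
    rw [h2]
    apply Subtype.ext
    rw [AddSubgroup.coe_add, AddSubgroup.coe_sub, coe_nsmul_pDiv,
      pDivOp_of_good (ℓ := ⟨ℓ, hℓ⟩) hgood]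
    exact h1
  · intro ℓ hℓ hgood A' hA σ hσ x _
    exact Subtype.ext (hunr ℓ hℓ hgood A' hA σ hσ x x.2.1)
  · refine supp_of_multiplier_gen hμ.toHom hμ.toHom_injective ?_ hμ.eps hμ.eps_injective ?_
    · intro ℓ v
      rw [hμ.heckeGen_smul]
      exact hμ.toHom_pDivOp ℓ v
    · intro φ hφ
      obtain ⟨x, hx, hpx, hμx⟩ := hμ.surj_pDiv φ hφ 1
      rw [pow_one] at hpx
      refine ⟨⟨x, hx⟩, (pDiv_smul_eq_zero_iff _ _).mpr hpx, ?_⟩
      rw [hμ.toHom_apply]
      show μ x = _
      rw [hμx]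
      refine DFunLike.ext _ _ fun γ => ?_
      rw [AddMonoidHom.comp_apply, AddMonoidHom.comp_apply, AddMonoidHom.comp_apply]
      exact (hμ.eps_intCast (φ γ)).symm

/-- **The faithfulness clause on `PDiv M p`** from the multiplier contract. -/
theorem MultData.esFaith (hμ : MultData M p e μ) (hp0 : p ≠ 0) :
    letI := pDivModule M p
    Fermat.Agent.S31.ESFaith M p (PDiv M p) := by
  letI := pDivModule M p
  refine esFaith_of_contract e hμ.ker hp0 (faithContract_of_multiplier e hμ.toHom ?_ ?_)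
  · intro n ℓ x _
    rw [hμ.heckeGen_smul]
    exact hμ.toHom_pDivOp ℓ x
  · intro n φ hφ
    obtain ⟨x, hx, hpx, hμx⟩ := hμ.surj_pDiv φ hφ n
    exact ⟨⟨x, hx⟩, (pDiv_smul_eq_zero_iff _ _).mpr hpx, hμx⟩

end PDiv

/-! ## The case `A = ℂˣ`: from the G1 contract `TorsionUnif` -/

section Final

variable {M p : ℕ} [NeZero M]

/-- the `k`-torsion of `ℂˣ` is finite -/
theorem finite_torsion_additive_units (k : ℕ) (hk : k ≠ 0) :
    {a : Additive ℂˣ | k • a = 0}.Finite := by
  haveI : NeZero k := ⟨hk⟩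
  have h : ((rootsOfUnity k ℂ : Subgroup ℂˣ) : Set ℂˣ).Finite :=
    Set.finite_coe_iff.mp (inferInstanceAs (Finite (rootsOfUnity k ℂ)))
  refine (h.preimage (f := Additive.toMul) Additive.toMul.injective.injOn).subset ?_
  intro a ha
  show Additive.toMul a ∈ rootsOfUnity k ℂ
  rw [mem_rootsOfUnity]
  have h1 : Additive.toMul (k • a) = 1 := by
    rw [show k • a = 0 from ha]
    rfl
  rwa [toMul_nsmul] at h1

/-- the G1 contract is the multiplier contract for `A = ℂˣ`, `e n = exp(2πi · / pⁿ)` -/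
theorem multData_of_torsionUnifData {μ : JZero M → CharGrp M} (hp0 : p ≠ 0)
    (h : TorsionUnifData M p μ) : MultData M p (fun n => expHom (p ^ n)) μ where
  map_add := h.map_add
  inj := h.inj
  hecke := h.hecke
  surj := h.surj
  tower := fun n k => by
    show p • expHom (p ^ (n + 1)) k = expHom (p ^ n) k
    rw [pow_succ']
    exact nsmul_expHom p (p ^ n) hp0 k
  zero := fun k => by
    show expHom (p ^ 0) k = 0
    rw [pow_zero]
    exact (expHom_eq_zero_iff one_ne_zero k).mpr (by simp)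
  ker := fun n k hk => (expHom_eq_zero_iff (pow_ne_zero n hp0) k).mp hk
  fin := fun n => finite_torsion_additive_units (p ^ n) (pow_ne_zero n hp0)

/-- **ASM + FAITH**: the G1 contract `TorsionUnif M p` and the clauses `StmtFiniteLevel`,
`StmtFrob`, `StmtUnram` give the package `S31.ESPkgFaith M p` consumed by S30/S31 (on the
`p`-divisible torsion `PDiv M p` of `J₀(M)(ℚ̄)`). -/
theorem esPkgFaith_of_torsionUnif [Fact p.Prime] (hμ : TorsionUnif M p)
    (hlev : StmtFiniteLevel M p) (hfrob : StmtFrob M p) (hunr : StmtUnram M p) :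
    Fermat.Agent.S31.ESPkgFaith M p := by
  obtain ⟨μ, h⟩ := hμ
  have hp0 : p ≠ 0 := (Fact.out : p.Prime).ne_zero
  have hm := multData_of_torsionUnifData hp0 h
  exact ⟨PDiv M p, inferInstance, pDivModule M p, pDivGalois M p,
    hm.esDataInf hlev hfrob hunr, hm.esFaith hp0⟩

/-- the same hypotheses give the `p`-adic package `ESPkgInf M p` -/
theorem esPkgInf_of_torsionUnif [Fact p.Prime] (hμ : TorsionUnif M p)
    (hlev : StmtFiniteLevel M p) (hfrob : StmtFrob M p) (hunr : StmtUnram M p) :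
    ESPkgInf M p := by
  obtain ⟨J, i1, i2, i3, h, -⟩ := esPkgFaith_of_torsionUnif hμ hlev hfrob hunr
  exact ⟨J, i1, i2, i3, h⟩

end Final

end Fermat.Agent.ES
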