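import Mathlib
import Fermat.Agent.ES.TopFaith
import Fermat.Agent.ES.FiniteLevel
import Fermat.Agent.ES.G2.Main

/-!
# The faithful `p`-adic Eichler–Shimura package from the two remaining inputs

`esPkgFaith_of_inputs` : `S31.ESPkgFaith N p` (what S30, S31 consume) from

* `Fermat.Agent.INJ.StmtINJAll` (G2: injectivity of reduction on prime-to-`ℓ` torsion), and
* `Fermat.Agent.ES.TorsionUnif N p` (G1: the multiplier map on the `p`-power torsion).
-/

set_option autoImplicit false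

namespace Fermat.Agent.ES

theorem esPkgFaith_of_inputs (hINJ : Fermat.Agent.INJ.StmtINJAll) {N p : ℕ} [NeZero N]
    (hp : p.Prime) (hUT : TorsionUnif N p) : Fermat.Agent.S31.ESPkgFaith N p :=
  haveI : Fact p.Prime := ⟨hp⟩
  esPkgFaith_of_torsionUnif hUT (stmtFiniteLevel N p hp.ne_zero)
    (G2.stmtFrob_of_stmtINJAll hINJ N p) (G2.stmtUnram_of_stmtINJAll hINJ N p)

theorem esPkgInf_of_inputs (hINJ : Fermat.Agent.INJ.StmtINJAll) {N p : ℕ} [NeZero N]
    (hp : p.Prime) (hUT : TorsionUnif N p) : ESPkgInf N p :=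
  haveI : Fact p.Prime := ⟨hp⟩
  esPkgInf_of_torsionUnif hUT (stmtFiniteLevel N p hp.ne_zero)
    (G2.stmtFrob_of_stmtINJAll hINJ N p) (G2.stmtUnram_of_stmtINJAll hINJ N p)

end Fermat.Agent.ES
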