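import Fermat.Agent.ES.JSupp
import Fermat.Agent.ES.Top2
import Fermat.Agent.ES.FiniteLevel
import Fermat.Agent.ES.GaloisHecke

/-!
# ESpkg-G1, assembly for the `J[p]` route (helper39)

From the G1 contract `TorsionUnif M p` (`ES/Top2.lean`: the multiplier map
`μ : J₀(M)(ℚ̄) → Hom(Γ₀(M), ℂˣ)` on `p`-power torsion) to the clauses of `ES/TopWords.lean`:

* `jFinite_of_torsionUnif    : TorsionUnif M p → JFinite M p`     (`μ` injective, `Γ₀(M)` f.g.);
* `jSuppWords_of_torsionUnif : TorsionUnif M p → JSuppWords M p`  (`ES/JSupp.lean`, A5);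
* `esPkg_of_torsionUnif : TorsionUnif M p → JFrob M p → JUnram M p → ESPkg M p`
  (with `jGaloisHecke`, `jFiniteLevel`, which are unconditional).
-/

set_option autoImplicit false

noncomputable section

namespace Fermat.Agent.ES

open CongruenceSubgroup ModularCurve ModularCurve.Period
open scoped MatrixGroups

variable {M p : ℕ} [NeZero M]

namespace TorsionUnifData

variable {μ : JZero M → CharGrp M}

theorem mu_zero (h : TorsionUnifData M p μ) : μ 0 = 0 := by
  have h0 : IsPPowerTorsion p (0 : JZero M) := ⟨0, smul_zero _⟩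
  have h1 := h.map_add 0 0 h0 h0
  rw [add_zero] at h1
  have h2 : μ 0 + μ 0 = μ 0 + 0 := h1.symm.trans (add_zero (μ 0)).symm
  exact add_left_cancel h2

/-- the restriction of `μ` to `J₀(M)[p]`, as an additive map -/
def muP (h : TorsionUnifData M p μ) : torsPart p (JZero M) →+ CharGrp M where
  toFun x := μ (x : JZero M)
  map_zero' := h.mu_zero
  map_add' x y := h.map_add x y (isPPowerTorsion_of_smul_eq_zero (mem_torsPart.mp x.2))
    (isPPowerTorsion_of_smul_eq_zero (mem_torsPart.mp y.2))

@[simp] theorem muP_apply (h : TorsionUnifData M p μ) (x : torsPart p (JZero M)) :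
    h.muP x = μ (x : JZero M) := rfl

theorem muP_injective (h : TorsionUnifData M p μ) : Function.Injective h.muP := by
  rw [injective_iff_map_eq_zero]
  intro x hx
  exact Subtype.ext
    (h.inj (x : JZero M) (isPPowerTorsion_of_smul_eq_zero (mem_torsPart.mp x.2)) hx)

theorem muP_hecke (h : TorsionUnifData M p μ) (ℓ : goodPrimes M p)
    (x : torsPart p (JZero M)) :
    h.muP (torsOp M p (jOp M) ℓ x) = heckeOp M p ℓ (Additive ℂˣ) (h.muP x) :=
  h.hecke ℓ (x : JZero M) (isPPowerTorsion_of_smul_eq_zero (mem_torsPart.mp x.2))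

end TorsionUnifData

/-! ## The embedding `ZMod p → ℂˣ`, `k ↦ e(k/p)` -/

/-- `k mod p ↦ e(k / p)` -/
def expZMod (p : ℕ) : ZMod p →+ Additive ℂˣ :=
  ZMod.lift p ⟨expHom p, by
    rcases Nat.eq_zero_or_pos p with h0 | hpos
    · subst h0; simp
    · exact (expHom_eq_zero_iff hpos.ne' _).mpr dvd_rfl⟩

theorem expZMod_intCast (p : ℕ) (k : ℤ) : expZMod p (k : ZMod p) = expHom p k := by
  rw [expZMod, ZMod.lift_coe]

theorem expZMod_injective {p : ℕ} (hp : p ≠ 0) : Function.Injective (expZMod p) := by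
  rw [expZMod, ZMod.lift_injective]
  intro k hk
  exact (ZMod.intCast_zmod_eq_zero_iff_dvd k p).mpr ((expHom_eq_zero_iff hp k).mp hk)

theorem expZMod_comp (M p : ℕ) (φ : Additive (Gamma0 M) →+ ℤ) :
    (expZMod p).comp ((Int.castAddHom (ZMod p)).comp φ) = expChar M p φ := by
  refine DFunLike.ext _ _ (fun γ => ?_)
  simp only [AddMonoidHom.comp_apply, Int.coe_castAddHom, expZMod_intCast]
  rfl

/-! ## The clauses -/

/-- **`JSuppWords M p` from the G1 contract.** -/
theorem jSuppWords_of_torsionUnif [Fact p.Prime] (h : TorsionUnif M p) : JSuppWords M p := by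
  obtain ⟨μ, hμ⟩ := h
  have hp : p ≠ 0 := (Fact.out : p.Prime).ne_zero
  refine jSuppWords_of_multiplier hμ.muP hμ.muP_injective hμ.muP_hecke (expZMod p)
    (expZMod_injective hp) ?_
  intro φ hφ
  obtain ⟨x, hx, hxμ⟩ := hμ.surj φ hφ 1
  rw [pow_one] at hx hxμ
  exact ⟨⟨x, mem_torsPart.mpr hx⟩, by rw [expZMod_comp]; exact hxμ⟩

/-- **`J₀(M)[p]` is finite, from the G1 contract.** -/
theorem jFinite_of_torsionUnif (hp : p ≠ 0) (h : TorsionUnif M p) : JFinite M p := by
  classical
  obtain ⟨μ, hμ⟩ := h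
  have hfg : Group.FG (Gamma0 M) :=
    (Group.fg_iff_subgroup_fg _).mpr (Fermat.Agent.S22.gamma0_fg M)
  obtain ⟨S, hS, hSfin⟩ := AddGroup.fg_iff.mp (AddGroup.fg_of_group_fg (G := Gamma0 M))
  have : Finite S := hSfin
  have : NeZero p := ⟨hp⟩
  have hpow : ∀ (x : torsPart p (JZero M)) (s : Additive (Gamma0 M)),
      (hμ.muP x s).toMul ^ p = 1 := by
    intro x s
    have h1 : p • hμ.muP x = 0 := by
      have h0 : p • x = 0 := Subtype.ext (mem_torsPart.mp x.2)
      rw [← map_nsmul hμ.muP p x, h0, map_zero]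
    have h2 : p • (hμ.muP x s) = 0 := by
      have := DFunLike.congr_fun h1 s
      simpa using this
    have h3 := congrArg Additive.toMul h2
    simpa using h3
  let ev : torsPart p (JZero M) → (S → rootsOfUnity p ℂ) := fun x s =>
    ⟨(hμ.muP x (s : Additive (Gamma0 M))).toMul, (mem_rootsOfUnity _ _).mpr (hpow x s)⟩
  have hev : Function.Injective ev := by
    intro x y hxy
    apply hμ.muP_injective
    refine AddMonoidHom.eq_of_eqOn_dense hS (fun s hs => ?_)
    have h1 := congrArg Subtype.val (congrFun hxy ⟨s, hs⟩)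
    exact h1
  have hfin : Finite (torsPart p (JZero M)) := Finite.of_injective ev hev
  exact (Set.finite_coe_iff (s := {x : JZero M | p • x = 0})).mp hfin

/-- **The Eichler–Shimura package from the G1 contract and the two G2 clauses.** -/
theorem esPkg_of_torsionUnif [Fact p.Prime] (h : TorsionUnif M p) (hfrob : JFrob M p)
    (hunr : JUnram M p) : ESPkg M p :=
  have hp : p ≠ 0 := (Fact.out : p.Prime).ne_zero
  esPkg_of_clauses (jFinite_of_torsionUnif hp h) (jGaloisHecke M p) (jFiniteLevel M p hp)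
    hfrob hunr (jSuppWords_of_torsionUnif h)

end Fermat.Agent.ES
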