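import Mathlib
import Fermat.Agent.ES.JOfUnif
import Fermat.Agent.ES.G2.Main

/-!
# ESpkg: FINAL ASSEMBLY of the mod-`p` Eichler–Shimura package

`ESPkg M p` (what S42 and S29 consume) from the two remaining inputs

* `Fermat.Agent.INJ.StmtINJAll`  (G2: injectivity of reduction on prime-to-`ℓ` torsion), and
* `Fermat.Agent.ES.TorsionUnif M p` (G1: the multiplier map `μ` on the `p`-power torsion).

Everything else is proved: `jGaloisHecke`, `jFiniteLevel`, `stmtFrob_of_stmtINJAll`,
`stmtUnram_of_stmtINJAll`, `esPkg_of_torsionUnif` (helper39, `ES/JOfUnif.lean`),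
`esPkg_of_clauses` (word form: no commutativity of Hecke operators, no divisibility).
-/

set_option autoImplicit false
set_option linter.style.haveILetI false
set_option linter.unusedSectionVars false

noncomputable section

namespace Fermat.Agent.ES

open ModularCurve

section Assembly

variable {M p : ℕ} [NeZero M]

/-- **FINAL ASSEMBLY.**  The mod-`p` Eichler–Shimura package from `(INJ)` and the multiplier
map. -/
theorem esPkg_of_inj_of_torsionUnif (hINJ : Fermat.Agent.INJ.StmtINJAll) (hp : p.Prime)
    (hUT : TorsionUnif M p) : ESPkg M p :=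
  haveI : Fact p.Prime := ⟨hp⟩
  esPkg_of_torsionUnif hUT
    (jFrob_of_stmt (Fermat.Agent.ES.G2.stmtFrob_of_stmtINJAll hINJ M p))
    (jUnram_of_stmt (Fermat.Agent.ES.G2.stmtUnram_of_stmtINJAll hINJ M p))

/-- the form consumed by `S42/Reduced.lean` and `S29/Final.lean` -/
theorem esPkg_all (hINJ : Fermat.Agent.INJ.StmtINJAll)
    (hUT : ∀ (M p : ℕ) [NeZero M], p.Prime → TorsionUnif M p) :
    ∀ M p : ℕ, 0 < M → p.Prime → ESPkg M p := by
  intro M p hM hp
  haveI : NeZero M := ⟨hM.ne'⟩
  exact esPkg_of_inj_of_torsionUnif hINJ hp (hUT M p hp)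

end Assembly

end Fermat.Agent.ES
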