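import Mathlib

/-!
# ES (H), piece Hb (abstract part): valuation of a norm in an extension of a DVR

`A` a discrete valuation ring with fraction field `F`, `B` a Dedekind domain, finite and torsion-free
over `A`, with fraction field `F'`.  Then `B` has finitely many nonzero primes and for `f ≠ 0` in `F'`
`v_𝔪 (N_{F'/F} f) = ∏_P v_P(f) ^ f(P|𝔪)`.
-/

set_option autoImplicit false
set_option linter.unusedSectionVars false
set_option linter.overlappingInstances false
set_option linter.style.haveILetI false

open IsDedekindDomain WithZero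

namespace Fermat.Agent.ES.H

section

variable {A B : Type*} [CommRing A] [IsDomain A] [IsDiscreteValuationRing A]
  [CommRing B] [IsDomain B] [IsDedekindDomain B] [Algebra A B] [Module.Finite A B]
  [Module.IsTorsionFree A B]

/-- Every nonzero prime of `B` lies over the maximal ideal of `A`. -/
theorem liesOver_maximalIdeal (P : HeightOneSpectrum B) :
    P.asIdeal.LiesOver (IsLocalRing.maximalIdeal A) := by
  constructor
  have hint : Algebra.IsIntegral A B := inferInstance
  have hprime : (P.asIdeal.under A).IsPrime := inferInstance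
  have hne : P.asIdeal.under A ≠ ⊥ := by
    intro h
    have := Ideal.eq_bot_of_comap_eq_bot (R := A) (I := P.asIdeal) h
    exact P.ne_bot this
  have hmax : (P.asIdeal.under A).IsMaximal := Ring.DimensionLEOne.maximalOfPrime hne hprime
  exact (IsLocalRing.eq_maximalIdeal hmax).symm

/-- `B` has finitely many nonzero primes. -/
theorem finite_heightOneSpectrum (A : Type*) {B : Type*} [CommRing A] [IsDomain A]
    [IsDiscreteValuationRing A] [CommRing B] [IsDomain B] [IsDedekindDomain B] [Algebra A B]
    [Module.Finite A B] [Module.IsTorsionFree A B] : Finite (HeightOneSpectrum B) := by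
  have hfin : ((IsLocalRing.maximalIdeal A).primesOver B).Finite :=
    Algebra.QuasiFinite.finite_primesOver (IsLocalRing.maximalIdeal A)
  haveI : Finite ((IsLocalRing.maximalIdeal A).primesOver B) := hfin
  let g : HeightOneSpectrum B → (IsLocalRing.maximalIdeal A).primesOver B :=
    fun P => ⟨P.asIdeal, P.isPrime, liesOver_maximalIdeal P⟩
  have hg : Function.Injective g := by
    intro P Q h
    have h' : P.asIdeal = Q.asIdeal := congrArg Subtype.val h
    exact HeightOneSpectrum.ext h'
  exact Finite.of_injective g hg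

/-- If `(a) = 𝔪 ^ k` then `v_𝔪 (a) = exp (-k)`. -/
theorem intValuation_eq_of_span_eq_pow (v : HeightOneSpectrum A) {a : A} {k : ℕ}
    (h : Ideal.span {a} = v.asIdeal ^ k) : v.intValuation a = exp (-(k : ℤ)) := by
  have ha0 : a ≠ 0 := by
    rintro rfl
    rw [Ideal.span_singleton_eq_bot.mpr rfl] at h
    exact (pow_ne_zero k v.ne_bot) h.symm
  rw [v.intValuation_if_neg ha0, h]
  congr 2
  rw [Associates.mk_pow, Associates.count_pow (Associates.mk_ne_zero.mpr v.ne_bot)
    v.associates_irreducible, Associates.count_self v.associates_irreducible, mul_one]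

theorem exp_sum_eq_prod {ι : Type*} (s : Finset ι) (f : ι → ℤ) :
    (exp (∑ i ∈ s, f i) : ℤᵐ⁰) = ∏ i ∈ s, exp (f i) := by
  classical
  induction s using Finset.induction_on with
  | empty => simp
  | insert i s hi ih => rw [Finset.sum_insert hi, Finset.prod_insert hi, exp_add, ih]

/-- The valuation of the integral norm of `b ≠ 0`. -/
theorem intValuation_intNorm [PerfectField (FractionRing A)] [Fintype (HeightOneSpectrum B)]
    (b : B) (hb : b ≠ 0) :
    (IsDiscreteValuationRing.maximalIdeal A).intValuation (Algebra.intNorm A B b)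
      = ∏ P : HeightOneSpectrum B, (P.intValuation b) ^ (P.asIdeal.inertiaDeg A) := by
  classical
  set 𝔪 := IsDiscreteValuationRing.maximalIdeal A with h𝔪
  have h𝔪ideal : 𝔪.asIdeal = IsLocalRing.maximalIdeal A := rfl
  have hI : (Ideal.span {b} : Ideal B) ≠ 0 := by
    rw [Ne, Ideal.zero_eq_bot, Ideal.span_singleton_eq_bot]
    exact hb
  let n : HeightOneSpectrum B → ℕ := fun P =>
    (Associates.mk P.asIdeal).count (Associates.mk (Ideal.span {b} : Ideal B)).factors
  have hfact : ∏ P : HeightOneSpectrum B, P.asIdeal ^ n P = Ideal.span {b} := by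
    have := Ideal.finprod_heightOneSpectrum_factorization hI
    rw [finprod_eq_prod_of_fintype] at this
    exact this
  have hrel : ∀ P : HeightOneSpectrum B,
      Ideal.relNorm A P.asIdeal = 𝔪.asIdeal ^ (P.asIdeal.inertiaDeg A) := by
    intro P
    haveI : P.asIdeal.LiesOver 𝔪.asIdeal := liesOver_maximalIdeal P
    haveI : P.asIdeal.IsMaximal := P.isMaximal
    haveI : 𝔪.asIdeal.IsMaximal := 𝔪.isMaximal
    exact Ideal.relNorm_eq_pow_of_isMaximal P.asIdeal 𝔪.asIdeal
  have hspan : Ideal.span {Algebra.intNorm A B b} =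
      𝔪.asIdeal ^ (∑ P : HeightOneSpectrum B, P.asIdeal.inertiaDeg A * n P) := by
    rw [← Ideal.relNorm_singleton, ← hfact, map_prod, ← Finset.prod_pow_eq_pow_sum]
    refine Finset.prod_congr rfl fun P _ => ?_
    rw [map_pow, hrel P, pow_mul]
  rw [intValuation_eq_of_span_eq_pow 𝔪 hspan]
  have hP : ∀ P : HeightOneSpectrum B,
      (P.intValuation b) ^ (P.asIdeal.inertiaDeg A) =
        exp (-((P.asIdeal.inertiaDeg A * n P : ℕ) : ℤ)) := by
    intro P
    rw [P.intValuation_if_neg hb, ← exp_nsmul]
    congr 1
    simp only [n]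
    push_cast
    ring
  simp_rw [hP]
  rw [← exp_sum_eq_prod]
  congr 1
  push_cast
  rw [Finset.sum_neg_distrib]

end

/-- **Norm formula** for an extension `B/A` of a discrete valuation ring by a Dedekind domain:
`B` has finitely many nonzero primes and `v_𝔪 (N f) = ∏_P v_P(f) ^ f(P|𝔪)`. -/
theorem valuation_norm_eq_finprod
    {A B F F' : Type*} [CommRing A] [IsDomain A] [IsDiscreteValuationRing A]
    [CommRing B] [IsDomain B] [IsDedekindDomain B] [Algebra A B] [Module.Finite A B]
    [Module.IsTorsionFree A B]
    [Field F] [Field F'] [Algebra A F] [IsFractionRing A F] [Algebra B F'] [IsFractionRing B F']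
    [Algebra F F'] [Algebra A F'] [IsScalarTower A F F'] [IsScalarTower A B F'] [CharZero F]
    (f : F') (hf : f ≠ 0) :
    (Set.univ : Set (HeightOneSpectrum B)).Finite ∧
    (IsDiscreteValuationRing.maximalIdeal A).valuation F (Algebra.norm F f)
      = ∏ᶠ P : HeightOneSpectrum B, (P.valuation F' f) ^ (P.asIdeal.inertiaDeg A) := by
  classical
  haveI hfin : Finite (HeightOneSpectrum B) := finite_heightOneSpectrum A
  letI : Fintype (HeightOneSpectrum B) := Fintype.ofFinite _
  refine ⟨Set.finite_univ, ?_⟩
  rw [finprod_eq_prod_of_fintype]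
  -- characteristic zero, perfect
  haveI : CharZero A := (algebraMap A F).charZero
  haveI : CharZero (FractionRing A) :=
    charZero_of_injective_algebraMap (IsFractionRing.injective A (FractionRing A))
  haveI : PerfectField (FractionRing A) := inferInstance
  haveI : IsIntegralClosure B A F' := IsIntegralClosure.of_isIntegrallyClosed B A F'
  haveI : FiniteDimensional F F' := Module.Finite.of_isLocalization A B (nonZeroDivisors A)
  set 𝔪 := IsDiscreteValuationRing.maximalIdeal A
  -- the right-hand side as a function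
  let Φ : F' → ℤᵐ⁰ := fun g =>
    ∏ P : HeightOneSpectrum B, (P.valuation F' g) ^ (P.asIdeal.inertiaDeg A)
  have hΦmul : ∀ g h : F', Φ (g * h) = Φ g * Φ h := by
    intro g h
    simp only [Φ, map_mul, mul_pow, Finset.prod_mul_distrib]
  -- the case of an element of `B`
  have hB : ∀ b : B, b ≠ 0 →
      𝔪.valuation F (Algebra.norm F (algebraMap B F' b)) = Φ (algebraMap B F' b) := by
    intro b hb
    rw [← Algebra.algebraMap_intNorm (A := A) (B := B) (K := F) (L := F') b,
      HeightOneSpectrum.valuation_of_algebraMap, intValuation_intNorm b hb]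
    refine Finset.prod_congr rfl fun P _ => ?_
    rw [HeightOneSpectrum.valuation_of_algebraMap]
  obtain ⟨b₁, b₂, hb₂, hfb⟩ := IsFractionRing.div_surjective (A := B) f
  have hb₂0 : b₂ ≠ 0 := nonZeroDivisors.ne_zero hb₂
  have hβ₂0 : algebraMap B F' b₂ ≠ 0 := by
    rw [Ne, map_eq_zero_iff _ (IsFractionRing.injective B F')]
    exact hb₂0
  have hb₁0 : b₁ ≠ 0 := by
    rintro rfl
    rw [map_zero, zero_div] at hfb
    exact hf hfb.symm
  have hmul : f * algebraMap B F' b₂ = algebraMap B F' b₁ := by
    rw [← hfb]
    field_simp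
  have h1 : 𝔪.valuation F (Algebra.norm F f) * 𝔪.valuation F (Algebra.norm F (algebraMap B F' b₂))
      = 𝔪.valuation F (Algebra.norm F (algebraMap B F' b₁)) := by
    rw [← map_mul, ← map_mul, hmul]
  have h2 : Φ f * Φ (algebraMap B F' b₂) = Φ (algebraMap B F' b₁) := by
    rw [← hΦmul, hmul]
  rw [hB b₁ hb₁0, hB b₂ hb₂0, ← h2] at h1
  have hne : Φ (algebraMap B F' b₂) ≠ 0 := by
    simp only [Φ]
    rw [Finset.prod_ne_zero_iff]
    intro P _
    apply pow_ne_zero
    rw [Valuation.ne_zero_iff]
    exact hβ₂0
  exact mul_right_cancel₀ hne h1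

end Fermat.Agent.ES.H
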