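import Fermat.Agent.ES.HbLocal
import Fermat.Agent.ES.HbNormAbs
import Fermat.Agent.S24.PolyClosure

/-!
# ESpkg (H), piece Hb — `Σ e·f = n` and the norm formula for finite extensions of function fields

`K` algebraically closed of characteristic `0`, `F'/F` a finite extension of fields over `K` such
that all residue fields of places of `F` and `F'` are `K`.
-/

set_option autoImplicit false
set_option linter.unusedSectionVars false
set_option linter.style.haveILetI false

noncomputable section

open AlgebraicCurve IsDedekindDomain WithZero

namespace Fermat.Agent.ES.H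

open Fermat.Agent.S24

variable {K F F' : Type*} [Field K] [Field F] [Field F'] [Algebra K F] [Algebra K F']
  [Algebra F F'] [IsScalarTower K F F']

section Inertia

/-- The prelude's inertia degree is `1` when both residue fields are `K`. -/
theorem inertiaDeg_eq_one [Algebra.IsIntegral F F']
    (hresF' : ∀ w : Place K F', Function.Bijective (algebraMap K w.ResidueField))
    (w : Place K F') : w.inertiaDeg F = 1 := by
  have hcomp : ∀ a : K, algebraMap (w.restrict F).ResidueField w.ResidueField
      (algebraMap K (w.restrict F).ResidueField a) = algebraMap K w.ResidueField a := fun a =>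
    (IsScalarTower.algebraMap_apply K (w.restrict F).ResidueField w.ResidueField a).symm
  have hsurj : Function.Surjective (algebraMap (w.restrict F).ResidueField w.ResidueField) := by
    intro y
    obtain ⟨a, ha⟩ := (hresF' w).2 y
    exact ⟨algebraMap K _ a, by rw [hcomp, ha]⟩
  have hinj : Function.Injective (algebraMap (w.restrict F).ResidueField w.ResidueField) :=
    (algebraMap (w.restrict F).ResidueField w.ResidueField).injective
  unfold Place.inertiaDeg
  rw [← (LinearEquiv.ofBijective (Algebra.linearMap (w.restrict F).ResidueField w.ResidueField)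
    ⟨hinj, hsurj⟩).finrank_eq, Module.finrank_self]

end Inertia

section Main

variable [IsAlgClosed K] [FiniteDimensional F F'] [CharZero F]

/-- Mathlib's inertia degree of a prime of `B_v` over `O_v` is `1`. -/
theorem ideal_inertiaDeg_eq_one
    (hresF : ∀ v : Place K F, Function.Bijective (algebraMap K v.ResidueField))
    (v : Place K F) (P : HeightOneSpectrum (Bv F' v)) :
    P.asIdeal.inertiaDeg v.toValuationSubring = 1 := by
  haveI := liesOver_maximalIdeal (A := v.toValuationSubring) P
  haveI : P.asIdeal.IsMaximal := P.isMaximal
  haveI : (IsLocalRing.maximalIdeal v.toValuationSubring).IsMaximal :=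
    IsLocalRing.maximalIdeal.isMaximal _
  rw [Ideal.inertiaDeg_eq_of_isMaximal (IsLocalRing.maximalIdeal v.toValuationSubring) P.asIdeal]
  let e : K ≃+* (v.toValuationSubring ⧸ IsLocalRing.maximalIdeal v.toValuationSubring) :=
    RingEquiv.ofBijective (algebraMap K v.ResidueField) (hresF v)
  exact polyClosure_finrank_eq_one
    (k' := v.toValuationSubring ⧸ IsLocalRing.maximalIdeal v.toValuationSubring)
    (L := (Bv F' v) ⧸ P.asIdeal)
    ((Ideal.Quotient.maximal_ideal_iff_isField_quotient _).mp inferInstance) e

theorem log_prod_ne_zero {ι : Type*} (s : Finset ι) (g : ι → ℤᵐ⁰) (hg : ∀ i ∈ s, g i ≠ 0) :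
    log (∏ i ∈ s, g i) = ∑ i ∈ s, log (g i) := by
  classical
  induction s using Finset.induction_on with
  | empty => simp
  | insert a s ha ih =>
    rw [Finset.prod_insert ha, Finset.sum_insert ha,
      log_mul (hg a (Finset.mem_insert_self a s))
        (Finset.prod_ne_zero_iff.mpr fun i hi => hg i (Finset.mem_insert_of_mem hi)),
      ih fun i hi => hg i (Finset.mem_insert_of_mem hi)]

/-- The norm formula in terms of the primes of `B_v`. -/
theorem ord_norm_eq_sum
    (hresF : ∀ v : Place K F, Function.Bijective (algebraMap K v.ResidueField))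
    (v : Place K F) [Fintype (HeightOneSpectrum (Bv F' v))] (f : F') (hf : f ≠ 0) :
    v.ord (Algebra.norm F f) = ∑ P : HeightOneSpectrum (Bv F' v), (placeOf v P).ord f := by
  have h := (valuation_norm_eq_finprod (A := v.toValuationSubring) (B := Bv F' v) (F := F)
    (F' := F') f hf).2
  rw [finprod_eq_prod_of_fintype] at h
  have h1 : v.adicValuation (Algebra.norm F f) =
      ∏ P : HeightOneSpectrum (Bv F' v), P.valuation F' f := by
    refine h.trans (Finset.prod_congr rfl fun P _ => ?_)
    rw [ideal_inertiaDeg_eq_one hresF v P, pow_one]
  unfold Place.ord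
  rw [h1, log_prod_ne_zero _ _ fun P _ => (Valuation.ne_zero_iff _).mpr hf, ← Finset.sum_neg_distrib]
  exact Finset.sum_congr rfl fun P _ => (placeOf_ord v P hf).symm

/-- The finite set of places over `v`. -/
theorem sum_placeOf_eq_sum_image (v : Place K F) [Fintype (HeightOneSpectrum (Bv F' v))]
    [DecidableEq (Place K F')] (g : Place K F' → ℤ) :
    ∑ P : HeightOneSpectrum (Bv F' v), g (placeOf v P) =
      ∑ w ∈ Finset.univ.image (placeOf (F' := F') v), g w :=
  (Finset.sum_image fun _ _ _ _ h => placeOf_injective v h).symm

theorem mem_image_placeOf_iff (v : Place K F) [Fintype (HeightOneSpectrum (Bv F' v))]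
    [DecidableEq (Place K F')] (w : Place K F') :
    w ∈ Finset.univ.image (placeOf (F' := F') v) ↔ w.restrict F = v := by
  rw [restrict_eq_iff, Finset.mem_image]
  simp

end Main

section Final

variable [IsAlgClosed K] [CharZero K] [FiniteDimensional F F']

/-- **Norm formula**: `div (N_{F'/F} f)` is the push-forward of `div f`. -/
theorem pushforwardNormFormula
    (hresF : ∀ v : Place K F, Function.Bijective (algebraMap K v.ResidueField))
    (hresF' : ∀ w : Place K F', Function.Bijective (algebraMap K w.ResidueField)) :
    Divisor.PushforwardNormFormula K F F' := by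
  classical
  haveI : CharZero F := charZero_of_injective_algebraMap (algebraMap K F).injective
  intro f hf D hD v
  haveI : Finite (HeightOneSpectrum (Bv F' v)) := finite_heightOneSpectrum v.toValuationSubring
  haveI : Fintype (HeightOneSpectrum (Bv F' v)) := Fintype.ofFinite _
  rw [Divisor.pushforward_apply, ord_norm_eq_sum hresF v f hf,
    sum_placeOf_eq_sum_image v fun w => w.ord f]
  have h1 : ∀ w ∈ D.support, (if w.restrict F = v then D w * (w.inertiaDeg F : ℤ) else 0) =
      if w ∈ Finset.univ.image (placeOf (F' := F') v) then w.ord f else 0 := by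
    intro w _
    simp only [mem_image_placeOf_iff, inertiaDeg_eq_one hresF' w, hD w, Nat.cast_one, mul_one]
  rw [Finset.sum_congr rfl h1, Finset.sum_ite_mem]
  refine Finset.sum_subset Finset.inter_subset_right fun w hw hnot => ?_
  have : w ∉ D.support := fun h => hnot (Finset.mem_inter.mpr ⟨h, hw⟩)
  rw [Finsupp.notMem_support_iff, hD w] at this
  exact this

/-- **Fundamental identity** `Σ e·f = n`. -/
theorem sumRamificationInertia [HasPrincipalDivisors K F']
    (hresF : ∀ v : Place K F, Function.Bijective (algebraMap K v.ResidueField))
    (hresF' : ∀ w : Place K F', Function.Bijective (algebraMap K w.ResidueField)) :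
    SumRamificationInertia K F F' := by
  classical
  haveI : CharZero F := charZero_of_injective_algebraMap (algebraMap K F).injective
  refine ⟨fun v => ?_⟩
  haveI : Finite (HeightOneSpectrum (Bv F' v)) := finite_heightOneSpectrum v.toValuationSubring
  haveI : Fintype (HeightOneSpectrum (Bv F' v)) := Fintype.ofFinite _
  obtain ⟨π, hπ⟩ := IsDiscreteValuationRing.exists_irreducible v.toValuationSubring
  have hπord : v.ord (π : F) = 1 := v.ord_coe_irreducible hπ
  have hπ0 : (π : F) ≠ 0 := by
    intro h
    rw [h, v.ord_zero] at hπord
    exact zero_ne_one hπord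
  have hfib : v.fiber F' = Finset.univ.image (placeOf (F' := F') v) := by
    ext w
    rw [Place.mem_fiber, mem_image_placeOf_iff]
  have hterm : ∀ w ∈ v.fiber F', (w.ramificationIndex F : ℤ) * (w.inertiaDeg F : ℤ) =
      w.ord (algebraMap F F' (π : F)) := by
    intro w hw
    rw [w.ord_restrict (π : F), Place.mem_fiber.mp hw, hπord, inertiaDeg_eq_one hresF' w]
    simp
  rw [Finset.sum_congr rfl hterm, hfib,
    ← sum_placeOf_eq_sum_image v fun w => w.ord (algebraMap F F' (π : F)),
    ← ord_norm_eq_sum hresF v _ ((map_ne_zero _).mpr hπ0), Algebra.norm_algebraMap,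
    ← zpow_natCast, v.ord_zpow, hπord, mul_one]

end Final

end Fermat.Agent.ES.H
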