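import Fermat.Agent.ES.HFinal
import Fermat.Agent.ES.Hb

/-!
# ESpkg, piece (H): `HeckeInputsAlong ℚ̄ N ℓ`

The Hecke operator `T_ℓ` on `J₀(N)` of the prelude (`ModularCurve.heckeOperatorAlong`) is the
genuine push-pull correspondence: all inputs of `ModularCurve.HeckeInputsAlong` hold.
-/

set_option autoImplicit false

noncomputable section

open AlgebraicCurve ModularCurve IntermediateField

namespace Fermat.Agent.ES.H

open Fermat.Agent.S24

variable (N ℓ : ℕ) [NeZero N] [NeZero ℓ]

/-- The fundamental identity along `β`. -/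
theorem fundamentalIdentityAlong_heckeBetaBar :
    haveI := hasPrincipalDivisors_FF (N * ℓ)
    FundamentalIdentityAlong Kb (heckeBetaBar Kb N ℓ) (heckeBetaBarIntegral N ℓ) := by
  have hP := hasPrincipalDivisors_FF (N * ℓ)
  refine fundamentalIdentityAlong_of_sumRamificationInertia (heckeBetaBar Kb N ℓ)
    (heckeBetaBarIntegral N ℓ) ?_
  let _ := algebraAlong (heckeBetaBar Kb N ℓ)
  have := isScalarTower_along (heckeBetaBar Kb N ℓ)
  have : FiniteDimensional (FF N) (FF (N * ℓ)) := finiteAlong_heckeBetaBar N ℓ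
  exact sumRamificationInertia (residue_bijective_FF N) (residue_bijective_FF (N * ℓ))

/-- The norm formula along `α`. -/
theorem normFormulaAlong_heckeAlphaBar :
    NormFormulaAlong Kb (heckeAlphaBar Kb N ℓ) (finiteAlong_heckeAlphaBar N ℓ) := by
  let _ := algebraAlong (heckeAlphaBar Kb N ℓ)
  have := isScalarTower_along (heckeAlphaBar Kb N ℓ)
  have : FiniteDimensional (FF N) (FF (N * ℓ)) := finiteAlong_heckeAlphaBar N ℓ
  exact pushforwardNormFormula (residue_bijective_FF N) (residue_bijective_FF (N * ℓ))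

/-- **Piece (H)**: all inputs of the prelude's Hecke operator `T_ℓ` on `J₀(N)` hold. -/
theorem heckeInputsAlong : HeckeInputsAlong (AlgebraicClosure ℚ) N ℓ :=
  heckeInputsAlong_of N ℓ (fundamentalIdentityAlong_heckeBetaBar N ℓ)
    (normFormulaAlong_heckeAlphaBar N ℓ)

/-- The prelude's Hecke operator is the push-pull correspondence. -/
theorem heckeOperatorAlong_eq_heckePic0Bar :
    haveI := hasPrincipalDivisors_FF (N * ℓ)
    heckeOperatorAlong (AlgebraicClosure ℚ) N ℓ =
      heckePic0Bar (heckeAlphaBarIntegral N ℓ) (heckeBetaBarIntegral N ℓ)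
        (fundamentalIdentityAlong_heckeBetaBar N ℓ) (finiteAlong_heckeAlphaBar N ℓ)
        (normFormulaAlong_heckeAlphaBar N ℓ) :=
  haveI := hasPrincipalDivisors_FF (N * ℓ)
  heckeOperatorAlong_eq _ _ _ _ _

end Fermat.Agent.ES.H
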