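import Fermat.Agent.ES.HModular

/-!
# ESpkg, piece (H): `HeckeInputsAlong ℚ̄ N ℓ`, assembly

`heckeInputsAlong_of` reduces `ModularCurve.HeckeInputsAlong (AlgebraicClosure ℚ) N ℓ` to the two
generic function-field statements (fundamental identity along `β`, norm formula along `α`);
everything else (integrality and finiteness of `α`, `β`, principal divisors) is proved in
`HModular.lean`.
-/

set_option autoImplicit false

noncomputable section

open AlgebraicCurve ModularCurve IntermediateField

namespace Fermat.Agent.ES.H

open Fermat.Agent.S24

variable {K F F' : Type*} [Field K] [Field F] [Field F'] [Algebra K F] [Algebra K F']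

/-- Glue: the fundamental identity along `φ` from the sum formula `Σ e·f = n` for the algebra
structure along `φ`. -/
theorem fundamentalIdentityAlong_of_sumRamificationInertia (φ : F →ₐ[K] F')
    (hφ : φ.toRingHom.IsIntegral) [HasPrincipalDivisors K F']
    (h : letI := algebraAlong φ
      haveI := isScalarTower_along φ
      haveI := isIntegral_along φ hφ
      SumRamificationInertia K F F') :
    FundamentalIdentityAlong K φ hφ := by
  let _ := algebraAlong φ
  have := isScalarTower_along φ
  have := isIntegral_along φ hφ
  have : SumRamificationInertia K F F' := h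
  show FundamentalIdentity K F F'
  infer_instance

variable (N ℓ : ℕ) [NeZero N] [NeZero ℓ]

/-- Assembly of `HeckeInputsAlong` from the two generic function-field statements. -/
theorem heckeInputsAlong_of
    (hFI : haveI := hasPrincipalDivisors_FF (N * ℓ)
      FundamentalIdentityAlong Kb (heckeBetaBar Kb N ℓ) (heckeBetaBarIntegral N ℓ))
    (hN : NormFormulaAlong Kb (heckeAlphaBar Kb N ℓ) (finiteAlong_heckeAlphaBar N ℓ)) :
    HeckeInputsAlong (AlgebraicClosure ℚ) N ℓ :=
  ⟨heckeAlphaBarIntegral N ℓ, heckeBetaBarIntegral N ℓ, hasPrincipalDivisors_FF (N * ℓ),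
    finiteAlong_heckeAlphaBar N ℓ, hFI, hN⟩

end Fermat.Agent.ES.H
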