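import Fermat.Prelude.Def_AlgebraicCurve_DivisorPushPull
import Fermat.Agent.S24.PlaceDict
import Mathlib

/-!
# ESpkg (H), piece Hb — local dictionary at a place `v` of `F`

For a finite extension `F'/F` of function fields over `K` (characteristic `0`) and a place `v` of
`F`, let `A = O_v` and `B` the integral closure of `A` in `F'`. Then `B` is a Dedekind domain with
fraction field `F'`, and the places of `F'` restricting to `v` are exactly the places
`placeOf v P`, `P` a nonzero prime of `B`.
-/

set_option autoImplicit false
set_option linter.unusedSectionVars false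
set_option linter.style.haveILetI false

noncomputable section

open AlgebraicCurve IsDedekindDomain WithZero

namespace Fermat.Agent.ES.H

open Fermat.Agent.S24

variable {K F F' : Type*} [Field K] [Field F] [Field F'] [Algebra K F] [Algebra K F']
  [Algebra F F'] [IsScalarTower K F F']

/-- The integral closure of `O_v` in `F'`. -/
abbrev Bv (F' : Type*) [Field F'] [Algebra F F'] (v : Place K F) :
    Subalgebra v.toValuationSubring F' :=
  integralClosure v.toValuationSubring F'

theorem algebraMap_Ov_apply (v : Place K F) (a : v.toValuationSubring) :
    algebraMap v.toValuationSubring F' a = algebraMap F F' (a : F) := rfl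

theorem hK_Bv (v : Place K F) :
    ∀ a : K, ∃ r : Bv F' v, algebraMap (Bv F' v) F' r = algebraMap K F' a := by
  intro a
  have h : algebraMap K F' a =
      algebraMap v.toValuationSubring F' (algebraMap K v.toValuationSubring a) := by
    rw [algebraMap_Ov_apply, Place.coe_algebraMap, ← IsScalarTower.algebraMap_apply]
  exact ⟨⟨algebraMap K F' a, by rw [h]; exact isIntegral_algebraMap⟩, rfl⟩

section Finite

variable [FiniteDimensional F F'] [CharZero F]

instance isDedekindDomain_Bv (v : Place K F) : IsDedekindDomain (Bv F' v) :=
  integralClosure.isDedekindDomain v.toValuationSubring F F'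

instance isFractionRing_Bv (v : Place K F) : IsFractionRing (Bv F' v) F' :=
  integralClosure.isFractionRing_of_finite_extension F F'

instance finite_Bv (v : Place K F) : Module.Finite v.toValuationSubring (Bv F' v) :=
  IsIntegralClosure.finite v.toValuationSubring F F' (Bv F' v)

instance isTorsionFree_Bv (v : Place K F) :
    Module.IsTorsionFree v.toValuationSubring (Bv F' v) :=
  IsIntegralClosure.isTorsionFree v.toValuationSubring F'

/-- The place of `F'` attached to a nonzero prime of `B_v`. -/
def placeOf (v : Place K F) (P : HeightOneSpectrum (Bv F' v)) : Place K F' :=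
  placeOfPrime (hK_Bv v) P

theorem placeOf_ord (v : Place K F) (P : HeightOneSpectrum (Bv F' v)) {f : F'} (hf : f ≠ 0) :
    (placeOf v P).ord f = - log (P.valuation F' f) :=
  placeOfPrime_ord (hK_Bv v) P hf

theorem placeOf_injective (v : Place K F) : Function.Injective (placeOf (F' := F') v) :=
  placeOfPrime_injective (hK_Bv v)

theorem placeOf_restrict (v : Place K F) (P : HeightOneSpectrum (Bv F' v)) :
    (placeOf v P).restrict F = v := by
  symm
  apply Place.ext
  refine ValuationSubring.eq_of_le_of_ne_top _ ?_ ((placeOf v P).restrict F).ne_top'
  intro a ha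
  rw [Place.restrict_toValuationSubring, ValuationSubring.mem_comap]
  show algebraMap F F' a ∈ (P.valuation F').valuationSubring
  rw [Valuation.mem_valuationSubring_iff]
  have hint : IsIntegral v.toValuationSubring (algebraMap F F' a) := by
    have : algebraMap F F' a = algebraMap v.toValuationSubring F' ⟨a, ha⟩ := rfl
    rw [this]
    exact isIntegral_algebraMap
  have : algebraMap F F' a = algebraMap (Bv F' v) F' ⟨algebraMap F F' a, hint⟩ := rfl
  rw [this]
  exact P.valuation_le_one _

theorem exists_placeOf_eq (v : Place K F) (w : Place K F') (hw : w.restrict F = v) :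
    ∃ P : HeightOneSpectrum (Bv F' v), placeOf v P = w := by
  refine exists_placeOfPrime_eq (hK_Bv v) w ?_
  rintro ⟨b, hb⟩
  show b ∈ w.toValuationSubring
  -- `b` is integral over `O_v ⊆ O_w`, and `O_w` is integrally closed
  have hle : ∀ a : v.toValuationSubring,
      algebraMap v.toValuationSubring F' a ∈ w.toValuationSubring := by
    intro a
    have ha : (a : F) ∈ (w.restrict F).toValuationSubring := by rw [hw]; exact a.2
    exact ha
  let ι : v.toValuationSubring →+* w.toValuationSubring :=
    (algebraMap v.toValuationSubring F').codRestrict w.toValuationSubring.toSubring hle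
  have hb' : IsIntegral w.toValuationSubring b := by
    obtain ⟨p, hp, hpb⟩ := hb
    refine ⟨p.map ι, hp.map _, ?_⟩
    rw [← hpb, Polynomial.eval₂_map]
    rfl
  obtain ⟨y, hy⟩ := IsIntegrallyClosed.isIntegral_iff.mp hb'
  rw [← hy]
  exact y.2

/-- The places over `v` are exactly the `placeOf v P`. -/
theorem restrict_eq_iff (v : Place K F) (w : Place K F') :
    w.restrict F = v ↔ ∃ P : HeightOneSpectrum (Bv F' v), placeOf v P = w :=
  ⟨exists_placeOf_eq v w, fun ⟨P, hP⟩ => hP ▸ placeOf_restrict v P⟩

end Finite

end Fermat.Agent.ES.H
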