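import Mathlib
import Fermat.Prelude.Def_ModularCurve_PeriodMap
import Fermat.Agent.S22.Decomp

/-!
# ESpkg-G1 piece A4, part 1: the Hecke operator `T_n` on `Hom(Γ₀(M), A)`

For `n ≥ 1` coprime to `M`, `HeckeRep n` is the set of matrices `[[a, b], [0, d]]`, `a d = n`,
`0 ≤ b < d`: a full set of representatives of `Γ₀(M) \ Δ_n`.  For `γ ∈ Γ₀(M)` and a representative
`A` there are unique `A' = next A γ` and `γ' = coc A γ ∈ Γ₀(M)` with `A γ = γ' A'`, and

  `(heckeHom n φ)(γ) = ∑_A φ (coc A γ)`.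

* `heckeHom hnM : (Additive (Gamma0 M) →+ B) →+ (Additive (Gamma0 M) →+ B)`
* `heckeHom_comp` (naturality in `B`), `heckeHom_isParabolicHom` (parabolic homs are preserved).
-/

set_option autoImplicit false

noncomputable section

open Matrix CongruenceSubgroup
open scoped MatrixGroups

namespace Fermat.Agent.ES

/-- Representatives `[[a, b], [0, d]]`, `a d = n`, `0 ≤ b < d`. -/
@[ext] structure HeckeRep (n : ℕ) where
  a : ℕ
  b : ℕ
  d : ℕ
  had : a * d = n
  hb : b < d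

namespace HeckeRep

variable {n : ℕ}

/-- The integer matrix of a representative. -/
def mat (A : HeckeRep n) : Matrix (Fin 2) (Fin 2) ℤ := !![(A.a : ℤ), (A.b : ℤ); 0, (A.d : ℤ)]

@[simp] theorem mat_zero_zero (A : HeckeRep n) : A.mat 0 0 = (A.a : ℤ) := rfl
@[simp] theorem mat_zero_one (A : HeckeRep n) : A.mat 0 1 = (A.b : ℤ) := rfl
@[simp] theorem mat_one_zero (A : HeckeRep n) : A.mat 1 0 = 0 := rfl
@[simp] theorem mat_one_one (A : HeckeRep n) : A.mat 1 1 = (A.d : ℤ) := rfl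

theorem d_pos (A : HeckeRep n) : 0 < A.d := by
  have := A.hb; omega

theorem a_pos [NeZero n] (A : HeckeRep n) : 0 < A.a := by
  rcases Nat.eq_zero_or_pos A.a with h | h
  · have := A.had
    rw [h, zero_mul] at this
    exact absurd this.symm (NeZero.ne n)
  · exact h

theorem det_mat (A : HeckeRep n) : A.mat.det = (n : ℤ) := by
  have h := A.had
  rw [mat, Matrix.det_fin_two_of]
  have : ((A.a * A.d : ℕ) : ℤ) = (n : ℤ) := by rw [h]
  push_cast at this
  linarith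

theorem a_le [NeZero n] (A : HeckeRep n) : A.a ≤ n := by
  have := A.had
  have hd := A.d_pos
  calc A.a = A.a * 1 := (mul_one _).symm
    _ ≤ A.a * A.d := Nat.mul_le_mul_left _ hd
    _ = n := this

theorem d_le [NeZero n] (A : HeckeRep n) : A.d ≤ n := by
  have := A.had
  have ha := A.a_pos
  calc A.d = 1 * A.d := (one_mul _).symm
    _ ≤ A.a * A.d := Nat.mul_le_mul_right _ ha
    _ = n := this

instance instFinite [NeZero n] : Finite (HeckeRep n) := by
  refine Finite.of_injective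
    (fun A : HeckeRep n => ((⟨A.a, Nat.lt_succ_of_le A.a_le⟩ : Fin (n + 1)),
      (⟨A.b, Nat.lt_succ_of_le (le_trans A.hb.le A.d_le)⟩ : Fin (n + 1)),
      (⟨A.d, Nat.lt_succ_of_le A.d_le⟩ : Fin (n + 1)))) ?_
  intro A B h
  simp only [Prod.mk.injEq, Fin.mk.injEq] at h
  exact HeckeRep.ext h.1 h.2.1 h.2.2

instance instFintype [NeZero n] : Fintype (HeckeRep n) := Fintype.ofFinite _

/-- Uniqueness of the decomposition `γ A`. -/
theorem decomp_unique [NeZero n] {A₁ A₂ : HeckeRep n} {γ₁ γ₂ : SL(2, ℤ)}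
    (h : (γ₁ : Matrix (Fin 2) (Fin 2) ℤ) * A₁.mat = (γ₂ : Matrix (Fin 2) (Fin 2) ℤ) * A₂.mat) :
    A₁ = A₂ ∧ γ₁ = γ₂ := by
  -- `δ A₁ = A₂` with `δ = γ₂⁻¹ γ₁`
  set δ : SL(2, ℤ) := γ₂⁻¹ * γ₁ with hδ
  have h1 : (δ : Matrix (Fin 2) (Fin 2) ℤ) * A₁.mat = A₂.mat := by
    rw [hδ, Matrix.SpecialLinearGroup.coe_mul, Matrix.mul_assoc, h, ← Matrix.mul_assoc,
      ← Matrix.SpecialLinearGroup.coe_mul, inv_mul_cancel, Matrix.SpecialLinearGroup.coe_one,
      Matrix.one_mul]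
  have e00 := congrFun (congrFun h1 0) 0
  have e01 := congrFun (congrFun h1 0) 1
  have e10 := congrFun (congrFun h1 1) 0
  have e11 := congrFun (congrFun h1 1) 1
  simp only [mat, Matrix.mul_apply, Fin.sum_univ_two, Matrix.of_apply, Matrix.cons_val_zero,
    Matrix.cons_val_one, Matrix.cons_val', Matrix.cons_val_fin_one, mul_zero, add_zero] at e00 e01 e10 e11
  have ha1 : (0 : ℤ) < A₁.a := by exact_mod_cast A₁.a_pos
  have ha2 : (0 : ℤ) < A₂.a := by exact_mod_cast A₂.a_pos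
  have hd1 : (0 : ℤ) < A₁.d := by exact_mod_cast A₁.d_pos
  have hd2 : (0 : ℤ) < A₂.d := by exact_mod_cast A₂.d_pos
  have hz : δ 1 0 = 0 := by
    rcases mul_eq_zero.mp e10 with h0 | h0
    · exact h0
    · exact absurd h0 ha1.ne'
  have hdet := δ.det_coe
  rw [Matrix.det_fin_two, hz, mul_zero, sub_zero] at hdet
  have hx : δ 0 0 = 1 := by
    have hpos : 0 < δ 0 0 := by
      by_contra hneg
      rw [not_lt] at hneg
      have : δ 0 0 * A₁.a ≤ 0 := mul_nonpos_of_nonpos_of_nonneg hneg ha1.le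
      rw [e00] at this
      omega
    rcases Int.eq_one_or_neg_one_of_mul_eq_one' hdet with ⟨h1', -⟩ | ⟨h1', -⟩
    · exact h1'
    · omega
  have hw : δ 1 1 = 1 := by rw [hx, one_mul] at hdet; exact hdet
  rw [hx, one_mul] at e00
  rw [hz, zero_mul, zero_add, hw, one_mul] at e11
  rw [hx, one_mul] at e01
  have hb1 : (A₁.b : ℤ) < A₁.d := by exact_mod_cast A₁.hb
  have hb2 : (A₂.b : ℤ) < A₁.d := by rw [e11]; exact_mod_cast A₂.hb
  have hb1' : (0 : ℤ) ≤ A₁.b := by positivity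
  have hb2' : (0 : ℤ) ≤ A₂.b := by positivity
  have hy : δ 0 1 = 0 := by
    by_contra hne
    rcases lt_or_gt_of_ne hne with hlt | hgt
    · have : δ 0 1 * A₁.d ≤ -A₁.d := by nlinarith
      omega
    · have : (A₁.d : ℤ) ≤ δ 0 1 * A₁.d := by nlinarith
      omega
  rw [hy, zero_mul, add_zero] at e01
  have hA : A₁ = A₂ := HeckeRep.ext (by exact_mod_cast e00) (by exact_mod_cast e01)
    (by exact_mod_cast e11)
  refine ⟨hA, ?_⟩
  have hδ1 : δ = 1 := by
    ext i j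
    fin_cases i <;> fin_cases j <;> simp [hx, hy, hz, hw]
  rw [hδ] at hδ1
  have := congrArg (fun t => γ₂ * t) hδ1
  simpa [mul_assoc] using this

/-- Existence of the decomposition `A γ = γ' A'` with `γ' ∈ Γ₀(M)`. -/
theorem exists_decomp [NeZero n] {M : ℕ} (hnM : Nat.Coprime n M) (A : HeckeRep n)
    (γ : Gamma0 M) :
    ∃ (A' : HeckeRep n) (γ' : Gamma0 M),
      A.mat * ((γ : SL(2, ℤ)) : Matrix (Fin 2) (Fin 2) ℤ)
        = ((γ' : SL(2, ℤ)) : Matrix (Fin 2) (Fin 2) ℤ) * A'.mat := by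
  have hn0 : 0 < n := Nat.pos_of_ne_zero (NeZero.ne n)
  set B : Matrix (Fin 2) (Fin 2) ℤ := A.mat * ((γ : SL(2, ℤ)) : Matrix (Fin 2) (Fin 2) ℤ) with hB
  have hdetB : B.det = (n : ℤ) := by
    rw [hB, Matrix.det_mul, A.det_mat, Matrix.SpecialLinearGroup.det_coe, mul_one]
  have hdetpos : 0 < B.det := by rw [hdetB]; exact_mod_cast hn0
  obtain ⟨δ, a', b', d', ha', hd', hBδ⟩ := Fermat.Agent.S22.exists_SL2_mul_upper B hdetpos
  have had' : a' * d' = (n : ℤ) := by
    have := congrArg Matrix.det hBδ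
    rw [hdetB, Matrix.det_mul, Matrix.SpecialLinearGroup.det_coe, one_mul,
      Matrix.det_fin_two_of] at this
    linarith
  -- reduce `b'` modulo `d'`
  obtain ⟨q, r, hr0, hrd, hbqr⟩ : ∃ q r : ℤ, 0 ≤ r ∧ r < d' ∧ b' = r + q * d' := by
    refine ⟨b' / d', b' % d', Int.emod_nonneg _ hd'.ne', Int.emod_lt_of_pos _ hd', ?_⟩
    have := Int.emod_add_mul_ediv b' d'
    linarith [mul_comm d' (b' / d')]
  -- the new representative
  lift a' to ℕ using ha'.le
  lift d' to ℕ using hd'.le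
  lift r to ℕ using hr0
  have hadn : a' * d' = n := by exact_mod_cast had'
  set A' : HeckeRep n := ⟨a', r, d', hadn, by exact_mod_cast hrd⟩ with hA'
  -- `T ^ q`
  set Tq : SL(2, ℤ) := ⟨!![1, q; 0, 1], by simp [Matrix.det_fin_two_of]⟩ with hTq
  have hsplit : (!![(a' : ℤ), b'; 0, (d' : ℤ)] : Matrix (Fin 2) (Fin 2) ℤ)
      = (Tq : Matrix (Fin 2) (Fin 2) ℤ) * A'.mat := by
    ext i j
    rw [Matrix.mul_apply, Fin.sum_univ_two]
    fin_cases i <;> fin_cases j <;> simp [hTq, hA', hbqr]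
  set δ' : SL(2, ℤ) := δ * Tq with hδ'
  have hfinal : B = (δ' : Matrix (Fin 2) (Fin 2) ℤ) * A'.mat := by
    rw [hBδ, hsplit, hδ', Matrix.SpecialLinearGroup.coe_mul, Matrix.mul_assoc]
  -- membership in `Γ₀(M)`
  have hmem : δ' ∈ Gamma0 M := by
    rw [Gamma0_mem]
    have e10 := congrFun (congrFun hfinal 1) 0
    have hγ := γ.2
    rw [Gamma0_mem] at hγ
    have hB10 : B 1 0 = (A.d : ℤ) * ((γ : SL(2, ℤ)) 1 0) := by
      rw [hB, Matrix.mul_apply, Fin.sum_univ_two, mat_one_zero, mat_one_one, zero_mul, zero_add]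
    have hR10 : ((δ' : Matrix (Fin 2) (Fin 2) ℤ) * A'.mat) 1 0 = δ' 1 0 * (a' : ℤ) := by
      rw [Matrix.mul_apply, Fin.sum_univ_two, mat_one_zero, mat_zero_zero, mul_zero, add_zero]
    rw [hB10, hR10] at e10
    have h1 : ((δ' 1 0 * (a' : ℤ) : ℤ) : ZMod M) = 0 := by
      rw [← e10]; push_cast; rw [hγ, mul_zero]
    have hcop : IsCoprime (a' : ℤ) (M : ℤ) := by
      have h2 : Nat.Coprime a' M := Nat.Coprime.coprime_dvd_left ⟨d', hadn.symm⟩ hnM
      exact Nat.isCoprime_iff_coprime.mpr h2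
    have hdvd : (M : ℤ) ∣ δ' 1 0 * (a' : ℤ) := (ZMod.intCast_zmod_eq_zero_iff_dvd _ _).mp h1
    have hdvd' : (M : ℤ) ∣ δ' 1 0 := hcop.symm.dvd_of_dvd_mul_right hdvd
    exact (ZMod.intCast_zmod_eq_zero_iff_dvd _ _).mpr hdvd'
  exact ⟨A', ⟨δ', hmem⟩, hfinal⟩

variable {M : ℕ}

/-- The representative `A'` with `A γ ∈ Γ₀(M) A'`. -/
def next [NeZero n] (hnM : Nat.Coprime n M) (A : HeckeRep n) (γ : Gamma0 M) : HeckeRep n :=
  (exists_decomp hnM A γ).choose

/-- The element `γ' ∈ Γ₀(M)` with `A γ = γ' (next A γ)`. -/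
def coc [NeZero n] (hnM : Nat.Coprime n M) (A : HeckeRep n) (γ : Gamma0 M) : Gamma0 M :=
  (exists_decomp hnM A γ).choose_spec.choose

theorem mat_mul [NeZero n] (hnM : Nat.Coprime n M) (A : HeckeRep n) (γ : Gamma0 M) :
    A.mat * ((γ : SL(2, ℤ)) : Matrix (Fin 2) (Fin 2) ℤ)
      = (((coc hnM A γ : Gamma0 M) : SL(2, ℤ)) : Matrix (Fin 2) (Fin 2) ℤ) * (next hnM A γ).mat :=
  (exists_decomp hnM A γ).choose_spec.choose_spec

/-- Characterisation of `next` and `coc`. -/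
theorem next_coc_unique [NeZero n] (hnM : Nat.Coprime n M) {A A' : HeckeRep n}
    {γ γ' : Gamma0 M}
    (h : A.mat * ((γ : SL(2, ℤ)) : Matrix (Fin 2) (Fin 2) ℤ)
      = ((γ' : SL(2, ℤ)) : Matrix (Fin 2) (Fin 2) ℤ) * A'.mat) :
    next hnM A γ = A' ∧ coc hnM A γ = γ' := by
  have h2 := (mat_mul hnM A γ).symm.trans h
  obtain ⟨h3, h4⟩ := decomp_unique h2
  exact ⟨h3, Subtype.ext h4⟩

@[simp] theorem next_one [NeZero n] (hnM : Nat.Coprime n M) (A : HeckeRep n) :
    next hnM A (1 : Gamma0 M) = A :=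
  (next_coc_unique hnM (A := A) (A' := A) (γ := 1) (γ' := 1) (by simp)).1

@[simp] theorem coc_one [NeZero n] (hnM : Nat.Coprime n M) (A : HeckeRep n) :
    coc hnM A (1 : Gamma0 M) = 1 :=
  (next_coc_unique hnM (A := A) (A' := A) (γ := 1) (γ' := 1) (by simp)).2

theorem next_coc_mul [NeZero n] (hnM : Nat.Coprime n M) (A : HeckeRep n) (γ δ : Gamma0 M) :
    next hnM A (γ * δ) = next hnM (next hnM A γ) δ ∧
      coc hnM A (γ * δ) = coc hnM A γ * coc hnM (next hnM A γ) δ := by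
  apply next_coc_unique hnM
  have e1 : (((γ * δ : Gamma0 M) : SL(2, ℤ)) : Matrix (Fin 2) (Fin 2) ℤ)
      = ((γ : SL(2, ℤ)) : Matrix (Fin 2) (Fin 2) ℤ) * ((δ : SL(2, ℤ)) : Matrix (Fin 2) (Fin 2) ℤ) := by
    simp
  have e2 : (((coc hnM A γ * coc hnM (next hnM A γ) δ : Gamma0 M) : SL(2, ℤ)) :
      Matrix (Fin 2) (Fin 2) ℤ)
      = (((coc hnM A γ : Gamma0 M) : SL(2, ℤ)) : Matrix (Fin 2) (Fin 2) ℤ) *
        (((coc hnM (next hnM A γ) δ : Gamma0 M) : SL(2, ℤ)) : Matrix (Fin 2) (Fin 2) ℤ) := by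
    simp
  rw [e1, e2, ← Matrix.mul_assoc, mat_mul hnM A γ, Matrix.mul_assoc, mat_mul hnM (next hnM A γ) δ,
    Matrix.mul_assoc]

theorem next_mul [NeZero n] (hnM : Nat.Coprime n M) (A : HeckeRep n) (γ δ : Gamma0 M) :
    next hnM A (γ * δ) = next hnM (next hnM A γ) δ := (next_coc_mul hnM A γ δ).1

theorem coc_mul [NeZero n] (hnM : Nat.Coprime n M) (A : HeckeRep n) (γ δ : Gamma0 M) :
    coc hnM A (γ * δ) = coc hnM A γ * coc hnM (next hnM A γ) δ := (next_coc_mul hnM A γ δ).2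

/-- `A ↦ next A γ` as a permutation of the representatives. -/
def perm [NeZero n] (hnM : Nat.Coprime n M) (γ : Gamma0 M) : Equiv.Perm (HeckeRep n) where
  toFun A := next hnM A γ
  invFun A := next hnM A γ⁻¹
  left_inv A := by
    show next hnM (next hnM A γ) γ⁻¹ = A
    rw [← next_mul, mul_inv_cancel, next_one]
  right_inv A := by
    show next hnM (next hnM A γ⁻¹) γ = A
    rw [← next_mul, inv_mul_cancel, next_one]

@[simp] theorem perm_apply [NeZero n] (hnM : Nat.Coprime n M) (γ : Gamma0 M) (A : HeckeRep n) :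
    perm hnM γ A = next hnM A γ := rfl

end HeckeRep

/-! ### The Hecke operator on homomorphisms -/

variable {n M : ℕ} {B : Type*} [AddCommGroup B]

/-- The Hecke operator `T_n` on `Hom(Γ₀(M), B)`: `(T_n φ)(γ) = ∑_A φ (coc A γ)`. -/
def heckeHomFun [NeZero n] (hnM : Nat.Coprime n M) (φ : Additive (Gamma0 M) →+ B) :
    Additive (Gamma0 M) →+ B where
  toFun γ := ∑ A : HeckeRep n, φ (Additive.ofMul (HeckeRep.coc hnM A (Additive.toMul γ)))
  map_zero' := by
    show ∑ A : HeckeRep n, φ (Additive.ofMul (HeckeRep.coc hnM A 1)) = 0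
    simp
  map_add' γ δ := by
    show ∑ A : HeckeRep n, φ (Additive.ofMul (HeckeRep.coc hnM A
      (Additive.toMul γ * Additive.toMul δ))) = _
    simp only [HeckeRep.coc_mul, ofMul_mul, map_add, Finset.sum_add_distrib]
    congr 1
    exact Equiv.sum_comp (HeckeRep.perm hnM (Additive.toMul γ))
      (fun A => φ (Additive.ofMul (HeckeRep.coc hnM A (Additive.toMul δ))))

theorem heckeHomFun_apply [NeZero n] (hnM : Nat.Coprime n M) (φ : Additive (Gamma0 M) →+ B)
    (γ : Gamma0 M) :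
    heckeHomFun hnM φ (Additive.ofMul γ)
      = ∑ A : HeckeRep n, φ (Additive.ofMul (HeckeRep.coc hnM A γ)) := rfl

/-- The Hecke operator `T_n` on `Hom(Γ₀(M), B)`, as an additive endomorphism. -/
def heckeHom [NeZero n] (hnM : Nat.Coprime n M) :
    (Additive (Gamma0 M) →+ B) →+ (Additive (Gamma0 M) →+ B) where
  toFun := heckeHomFun hnM
  map_zero' := by
    ext γ
    simp [heckeHomFun]
  map_add' φ ψ := by
    ext γ
    simp [heckeHomFun, Finset.sum_add_distrib]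

theorem heckeHom_apply [NeZero n] (hnM : Nat.Coprime n M) (φ : Additive (Gamma0 M) →+ B)
    (γ : Gamma0 M) :
    heckeHom hnM φ (Additive.ofMul γ)
      = ∑ A : HeckeRep n, φ (Additive.ofMul (HeckeRep.coc hnM A γ)) := rfl

/-- Naturality in the coefficient group. -/
theorem heckeHom_comp [NeZero n] (hnM : Nat.Coprime n M) {B' : Type*} [AddCommGroup B']
    (f : B →+ B') (φ : Additive (Gamma0 M) →+ B) :
    heckeHom hnM (f.comp φ) = f.comp (heckeHom hnM φ) := by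
  ext γ
  show ∑ A : HeckeRep n, f (φ _) = f (∑ A : HeckeRep n, φ _)
  rw [map_sum]

/-- `heckeHom` is linear for every module structure on the coefficient group. -/
theorem heckeHom_smul [NeZero n] (hnM : Nat.Coprime n M) {R : Type*} [Semiring R] [Module R B]
    (c : R) (φ : Additive (Gamma0 M) →+ B) :
    heckeHom hnM (c • φ) = c • heckeHom hnM φ := by
  ext γ
  show ∑ A : HeckeRep n, c • (φ _) = c • (∑ A : HeckeRep n, φ _)
  rw [Finset.smul_sum]

end Fermat.Agent.ES
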