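import Mathlib
import Fermat.Agent.ES.HeckeHom

/-!
# ESpkg COMM, group side: the Hecke operators on `Hom(Γ₀(M), B)` commute (helper39)

For `m, n` coprime to `M` and to each other, `T_m ∘ T_n = T_{mn}` on `Hom(Γ₀(M), B)`
(`heckeHom_mul`), hence `T_m ∘ T_n = T_n ∘ T_m` (`heckeHom_comm`).

Proof.  For representatives `A ∈ R_m`, `B ∈ R_n` the product `B A` is upper triangular; reducing
its upper right entry gives `B A = U(A,B) · C(A,B)` with `C(A,B) ∈ R_{mn}` and `U(A,B)` a
translation.  `(A, B) ↦ C(A, B)` is injective (`gcd(m, n) = 1`), hence bijective by counting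
(`|R_n| = σ(n)`), and the `φ(U)`-terms telescope.
-/

set_option autoImplicit false

noncomputable section

open Matrix CongruenceSubgroup
open scoped MatrixGroups

namespace Fermat.Agent.ES

namespace HeckeRep

variable {m n : ℕ}

/-! ### Counting -/

/-- `R_n ≃ Σ_{d ∣ n} Fin d` -/
def equivSigma (n : ℕ) [NeZero n] : HeckeRep n ≃ Σ d : n.divisors, Fin (d : ℕ) where
  toFun A := ⟨⟨A.d, Nat.mem_divisors.mpr ⟨⟨A.a, by rw [mul_comm]; exact A.had.symm⟩, NeZero.ne n⟩⟩,
    ⟨A.b, A.hb⟩⟩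
  invFun x := ⟨n / x.1, x.2, x.1, Nat.div_mul_cancel (Nat.dvd_of_mem_divisors x.1.2), x.2.2⟩
  left_inv A := by
    apply HeckeRep.ext
    · show n / A.d = A.a
      exact Nat.div_eq_of_eq_mul_left A.d_pos A.had.symm
    · rfl
    · rfl
  right_inv x := by
    rcases x with ⟨⟨d, hd⟩, b⟩
    rfl

theorem card_eq_sigma (n : ℕ) [NeZero n] :
    Fintype.card (HeckeRep n) = ArithmeticFunction.sigma 1 n := by
  rw [Fintype.card_congr (equivSigma n), Fintype.card_sigma]
  simp only [Fintype.card_fin]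
  rw [ArithmeticFunction.sigma_one_apply]
  exact Finset.sum_coe_sort n.divisors (fun d => d)

theorem card_mul (hmn : Nat.Coprime m n) [NeZero m] [NeZero n] [NeZero (m * n)] :
    Fintype.card (HeckeRep (m * n)) = Fintype.card (HeckeRep m) * Fintype.card (HeckeRep n) := by
  rw [card_eq_sigma, card_eq_sigma, card_eq_sigma]
  exact ArithmeticFunction.isMultiplicative_sigma.map_mul_of_coprime hmn

/-! ### Composition of representatives -/

/-- the representative of `Γ B A` in `R_{mn}` -/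
def comp (A : HeckeRep m) (B : HeckeRep n) : HeckeRep (m * n) where
  a := A.a * B.a
  b := (B.a * A.b + B.b * A.d) % (A.d * B.d)
  d := A.d * B.d
  had := by
    have h1 := A.had
    have h2 := B.had
    calc A.a * B.a * (A.d * B.d) = (A.a * A.d) * (B.a * B.d) := by ring
      _ = m * n := by rw [h1, h2]
  hb := Nat.mod_lt _ (Nat.mul_pos A.d_pos B.d_pos)

/-- the translation amount in `B A = U C` -/
def shift (A : HeckeRep m) (B : HeckeRep n) : ℕ := (B.a * A.b + B.b * A.d) / (A.d * B.d)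

theorem mat_mul_mat (A : HeckeRep m) (B : HeckeRep n) :
    B.mat * A.mat = !![1, (shift A B : ℤ); 0, 1] * (comp A B).mat := by
  have h := Nat.mod_add_div (B.a * A.b + B.b * A.d) (A.d * B.d)
  have h' : ((B.a * A.b + B.b * A.d : ℕ) : ℤ)
      = (((B.a * A.b + B.b * A.d) % (A.d * B.d) : ℕ) : ℤ)
        + ((A.d * B.d : ℕ) : ℤ) * (((B.a * A.b + B.b * A.d) / (A.d * B.d) : ℕ) : ℤ) := by
    exact_mod_cast h.symm
  push_cast at h'
  ext i j
  fin_cases i <;> fin_cases j
  · simp [mat, comp, Matrix.mul_apply, Fin.sum_univ_two]; ring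
  · simp only [mat, comp, shift, Matrix.mul_apply, Fin.sum_univ_two, Fin.zero_eta, Fin.mk_one,
      Matrix.of_apply, Matrix.cons_val_zero, Matrix.cons_val_one, Matrix.cons_val', 
      Matrix.cons_val_fin_one]
    push_cast
    linarith
  · simp [mat, comp, Matrix.mul_apply, Fin.sum_univ_two]
  · simp [mat, comp, Matrix.mul_apply, Fin.sum_univ_two]; ring

theorem comp_injective (hmn : Nat.Coprime m n) [NeZero m] [NeZero n] :
    Function.Injective (fun x : HeckeRep m × HeckeRep n => comp x.1 x.2) := by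
  rintro ⟨A, B⟩ ⟨A', B'⟩ h
  have ha : A.a * B.a = A'.a * B'.a := congrArg HeckeRep.a h
  have hd : A.d * B.d = A'.d * B'.d := congrArg HeckeRep.d h
  have hb : (B.a * A.b + B.b * A.d) % (A.d * B.d) = (B'.a * A'.b + B'.b * A'.d) % (A'.d * B'.d) :=
    congrArg HeckeRep.b h
  -- divisibility facts
  have hAa : A.a ∣ m := ⟨A.d, A.had.symm⟩
  have hA'a : A'.a ∣ m := ⟨A'.d, A'.had.symm⟩
  have hBa : B.a ∣ n := ⟨B.d, B.had.symm⟩
  have hB'a : B'.a ∣ n := ⟨B'.d, B'.had.symm⟩
  have hAd : A.d ∣ m := ⟨A.a, by rw [mul_comm]; exact A.had.symm⟩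
  have hA'd : A'.d ∣ m := ⟨A'.a, by rw [mul_comm]; exact A'.had.symm⟩
  have hBd : B.d ∣ n := ⟨B.a, by rw [mul_comm]; exact B.had.symm⟩
  have hB'd : B'.d ∣ n := ⟨B'.a, by rw [mul_comm]; exact B'.had.symm⟩
  -- `A.a = A'.a`
  have haA : A.a = A'.a := by
    apply Nat.dvd_antisymm
    · have h1 : A.a ∣ A'.a * B'.a := ⟨B.a, ha.symm⟩
      exact (Nat.Coprime.coprime_dvd_left hAa (Nat.Coprime.coprime_dvd_right hB'a hmn)).dvd_of_dvd_mul_right h1
    · have h1 : A'.a ∣ A.a * B.a := ⟨B'.a, ha⟩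
      exact (Nat.Coprime.coprime_dvd_left hA'a (Nat.Coprime.coprime_dvd_right hBa hmn)).dvd_of_dvd_mul_right h1
  have haB : B.a = B'.a := by
    rw [haA] at ha
    exact Nat.eq_of_mul_eq_mul_left A'.a_pos ha
  have hdA : A.d = A'.d := by
    have h1 := A.had
    have h2 := A'.had
    rw [haA] at h1
    exact Nat.eq_of_mul_eq_mul_left A'.a_pos (h1.trans h2.symm)
  have hdB : B.d = B'.d := by
    have h1 := B.had
    have h2 := B'.had
    rw [haB] at h1
    exact Nat.eq_of_mul_eq_mul_left B'.a_pos (h1.trans h2.symm)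
  -- the `b`-entries
  rw [← haB, ← hdA, ← hdB] at hb
  have hmodeq : (B.a * A.b + B.b * A.d) ≡ (B.a * A'.b + B'.b * A.d) [MOD A.d * B.d] := hb
  have hcop : Nat.Coprime B.a A.d :=
    (Nat.Coprime.coprime_dvd_left hAd (Nat.Coprime.coprime_dvd_right hBa hmn)).symm
  have hbA : A.b = A'.b := by
    have h1 : (B.a * A.b + B.b * A.d) ≡ (B.a * A'.b + B'.b * A.d) [MOD A.d] :=
      hmodeq.of_mul_right B.d
    have h2 : B.a * A.b ≡ B.a * A'.b [MOD A.d] := by
      have e1 : (B.a * A.b + B.b * A.d) ≡ B.a * A.b [MOD A.d] := by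
        simp [Nat.ModEq]
      have e2 : (B.a * A'.b + B'.b * A.d) ≡ B.a * A'.b [MOD A.d] := by
        simp [Nat.ModEq]
      exact e1.symm.trans (h1.trans e2)
    have h3 : A.b ≡ A'.b [MOD A.d] := Nat.ModEq.cancel_left_of_coprime (by
      rw [Nat.coprime_comm] at hcop
      exact hcop) h2
    have h4 := A.hb
    have h5 := A'.hb
    rw [← hdA] at h5
    exact Nat.ModEq.eq_of_lt_of_lt h3 h4 h5
  have hbB : B.b = B'.b := by
    rw [← hbA] at hmodeq
    have h1 : B.b * A.d ≡ B'.b * A.d [MOD A.d * B.d] := Nat.ModEq.add_left_cancel' _ hmodeq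
    have h2 : B.b * A.d ≡ B'.b * A.d [MOD B.d * A.d] := by rwa [mul_comm B.d A.d]
    have h3 : B.b ≡ B'.b [MOD B.d] := Nat.ModEq.mul_right_cancel' A.d_pos.ne' h2
    have h4 := B.hb
    have h5 := B'.hb
    rw [← hdB] at h5
    exact Nat.ModEq.eq_of_lt_of_lt h3 h4 h5
  have eA : A = A' := HeckeRep.ext haA hbA hdA
  have eB : B = B' := HeckeRep.ext haB hbB hdB
  rw [eA, eB]

theorem comp_bijective (hmn : Nat.Coprime m n) [NeZero m] [NeZero n] [NeZero (m * n)] :
    Function.Bijective (fun x : HeckeRep m × HeckeRep n => comp x.1 x.2) := by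
  rw [Fintype.bijective_iff_injective_and_card]
  refine ⟨comp_injective hmn, ?_⟩
  rw [Fintype.card_prod, card_mul hmn]


end HeckeRep

/-! ### The product formula -/

section Product

variable {m n M : ℕ}

/-- the translation `[[1, k], [0, 1]]` in `SL(2, ℤ)` -/
def translSL (k : ℤ) : SL(2, ℤ) := ⟨!![1, k; 0, 1], by simp [Matrix.det_fin_two_of]⟩

theorem translSL_mem (M : ℕ) (k : ℤ) : translSL k ∈ Gamma0 M := by
  rw [Gamma0_mem]
  simp [translSL]

/-- the translation `[[1, k], [0, 1]]` in `Γ₀(M)` -/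
def transl (M : ℕ) (k : ℤ) : Gamma0 M := ⟨translSL k, translSL_mem M k⟩

@[simp] theorem transl_coe (k : ℤ) :
    (((transl M k : Gamma0 M) : SL(2, ℤ)) : Matrix (Fin 2) (Fin 2) ℤ) = !![1, k; 0, 1] := rfl

/-- the matrix of an element of `Γ₀(M)` -/
abbrev cm (g : Gamma0 M) : Matrix (Fin 2) (Fin 2) ℤ := ((g : SL(2, ℤ)) : Matrix (Fin 2) (Fin 2) ℤ)

theorem cm_mul (g h : Gamma0 M) : cm (g * h) = cm g * cm h := by
  simp [cm]

theorem cm_inv_mul (g : Gamma0 M) : cm g⁻¹ * cm g = 1 := by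
  rw [← cm_mul, inv_mul_cancel]
  simp [cm]

namespace HeckeRep

theorem next_coc_comp [NeZero m] [NeZero n] [NeZero (m * n)] (hm : Nat.Coprime m M)
    (hn : Nat.Coprime n M) (hmn' : Nat.Coprime (m * n) M) (A : HeckeRep m) (Bn : HeckeRep n)
    (γ : Gamma0 M) :
    next hmn' (comp A Bn) γ = comp (next hm A γ) (next hn Bn (coc hm A γ)) ∧
      coc hmn' (comp A Bn) γ = (transl M (shift A Bn))⁻¹ * coc hn Bn (coc hm A γ) *
        transl M (shift (next hm A γ) (next hn Bn (coc hm A γ))) := by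
  apply next_coc_unique hmn'
  set A' := next hm A γ with hA'
  set cA := coc hm A γ with hcA
  set B' := next hn Bn cA with hB'
  set cB := coc hn Bn cA with hcB
  have h1 : Bn.mat * A.mat = cm (transl M (shift A Bn)) * (comp A Bn).mat := mat_mul_mat A Bn
  have h2 : B'.mat * A'.mat = cm (transl M (shift A' B')) * (comp A' B').mat := mat_mul_mat A' B'
  have h3 : A.mat * cm γ = cm cA * A'.mat := mat_mul hm A γ
  have h4 : Bn.mat * cm cA = cm cB * B'.mat := mat_mul hn Bn cA
  have key : cm (transl M (shift A Bn)) * ((comp A Bn).mat * cm γ)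
      = cm cB * (cm (transl M (shift A' B')) * (comp A' B').mat) := by
    rw [← Matrix.mul_assoc, ← h1, Matrix.mul_assoc, h3, ← Matrix.mul_assoc, h4, Matrix.mul_assoc,
      h2]
  show (comp A Bn).mat * cm γ
    = cm ((transl M (shift A Bn))⁻¹ * cB * transl M (shift A' B')) * (comp A' B').mat
  rw [cm_mul, cm_mul]
  calc (comp A Bn).mat * cm γ
      = (cm (transl M (shift A Bn))⁻¹ * cm (transl M (shift A Bn))) * ((comp A Bn).mat * cm γ) := by
        rw [cm_inv_mul, Matrix.one_mul]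
    _ = cm (transl M (shift A Bn))⁻¹ * (cm (transl M (shift A Bn)) * ((comp A Bn).mat * cm γ)) := by
        rw [Matrix.mul_assoc]
    _ = cm (transl M (shift A Bn))⁻¹ * (cm cB * (cm (transl M (shift A' B')) * (comp A' B').mat)) := by
        rw [key]
    _ = cm (transl M (shift A Bn))⁻¹ * cm cB * cm (transl M (shift A' B')) * (comp A' B').mat := by
        simp only [Matrix.mul_assoc]

end HeckeRep

variable {Co : Type*} [AddCommGroup Co]

/-- **`T_m ∘ T_n = T_{mn}`** for coprime `m`, `n` (both prime to `M`). -/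
theorem heckeHom_mul [NeZero m] [NeZero n] [NeZero (m * n)] (hm : Nat.Coprime m M)
    (hn : Nat.Coprime n M) (hmn : Nat.Coprime m n) (hmn' : Nat.Coprime (m * n) M)
    (φ : Additive (Gamma0 M) →+ Co) :
    heckeHom hm (heckeHom hn φ) = heckeHom hmn' φ := by
  classical
  refine AddMonoidHom.ext fun γ => ?_
  obtain ⟨γ, rfl⟩ : ∃ γ' : Gamma0 M, Additive.ofMul γ' = γ := ⟨Additive.toMul γ, rfl⟩
  rw [heckeHom_apply, heckeHom_apply]
  simp only [heckeHom_apply]
  -- the bijection `R_m × R_n ≃ R_{mn}`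
  let e : HeckeRep m × HeckeRep n ≃ HeckeRep (m * n) :=
    Equiv.ofBijective _ (HeckeRep.comp_bijective hmn)
  have he : ∀ x : HeckeRep m × HeckeRep n, e x = HeckeRep.comp x.1 x.2 := fun _ => rfl
  -- the permutation of pairs induced by `γ`
  let σ : HeckeRep m × HeckeRep n → HeckeRep m × HeckeRep n := fun x =>
    (HeckeRep.next hm x.1 γ, HeckeRep.next hn x.2 (HeckeRep.coc hm x.1 γ))
  have hσ : ∀ x, e (σ x) = HeckeRep.perm hmn' γ (e x) := by
    intro x
    rw [he, he, HeckeRep.perm_apply]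
    exact (HeckeRep.next_coc_comp hm hn hmn' x.1 x.2 γ).1.symm
  let τ : Equiv.Perm (HeckeRep m × HeckeRep n) := (e.trans (HeckeRep.perm hmn' γ)).trans e.symm
  have hτ : ∀ x, τ x = σ x := by
    intro x
    show e.symm (HeckeRep.perm hmn' γ (e x)) = σ x
    rw [← hσ, Equiv.symm_apply_apply]
  let ψ : HeckeRep m × HeckeRep n → Co := fun x =>
    φ (Additive.ofMul (transl M (HeckeRep.shift x.1 x.2)))
  have hcoc : ∀ x : HeckeRep m × HeckeRep n,
      φ (Additive.ofMul (HeckeRep.coc hmn' (e x) γ))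
        = φ (Additive.ofMul (HeckeRep.coc hn x.2 (HeckeRep.coc hm x.1 γ))) + (ψ (τ x) - ψ x) := by
    intro x
    rw [he, (HeckeRep.next_coc_comp hm hn hmn' x.1 x.2 γ).2, hτ]
    simp only [ofMul_mul, ofMul_inv, map_add, map_neg, ψ, σ]
    abel
  rw [← Equiv.sum_comp e (fun C => φ (Additive.ofMul (HeckeRep.coc hmn' C γ)))]
  rw [Finset.sum_congr rfl (fun x _ => hcoc x), Finset.sum_add_distrib, Finset.sum_sub_distrib,
    Equiv.sum_comp τ ψ, sub_self, add_zero, Fintype.sum_prod_type]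

/-- `T_n` does not depend on the way `n` is written -/
theorem heckeHom_congr {n n' : ℕ} [NeZero n] [NeZero n'] (h : n = n') (hn : Nat.Coprime n M)
    (hn' : Nat.Coprime n' M) (φ : Additive (Gamma0 M) →+ Co) :
    heckeHom hn φ = heckeHom hn' φ := by
  subst h
  rfl

/-- **The Hecke operators on `Hom(Γ₀(M), Co)` commute** (coprime indices). -/
theorem heckeHom_comm [NeZero m] [NeZero n] (hm : Nat.Coprime m M) (hn : Nat.Coprime n M)
    (hmn : Nat.Coprime m n) (φ : Additive (Gamma0 M) →+ Co) :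
    heckeHom hm (heckeHom hn φ) = heckeHom hn (heckeHom hm φ) := by
  have : NeZero (m * n) := ⟨Nat.mul_ne_zero (NeZero.ne m) (NeZero.ne n)⟩
  have : NeZero (n * m) := ⟨Nat.mul_ne_zero (NeZero.ne n) (NeZero.ne m)⟩
  rw [heckeHom_mul hm hn hmn (Nat.Coprime.mul_left hm hn),
    heckeHom_mul hn hm hmn.symm (Nat.Coprime.mul_left hn hm)]
  exact heckeHom_congr (mul_comm m n) _ _ φ

end Product

end Fermat.Agent.ES
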