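import Fermat.Agent.ES.HeckeHom

/-!
# ESpkg-G1 piece A4, part 2: `heckeHom` preserves parabolic homomorphisms

`heckeHom_isParabolicHom`: if `φ : Γ₀(M) → B` kills every `γ` with `tr γ ^ 2 = 4`, so does `T_n φ`
(for every abelian group `B`, torsion allowed: the sum is organised along the cycles of `γ` on the
representatives).
-/

set_option autoImplicit false

noncomputable section

open Matrix CongruenceSubgroup
open scoped MatrixGroups

namespace Fermat.Agent.ES

/-- A sum over a finite type vanishes if it vanishes along every cycle of a permutation. -/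
theorem sum_eq_zero_of_cycles {I : Type*} [Fintype I] {B : Type*} [AddCommGroup B]
    (π : Equiv.Perm I) (g : I → B)
    (h : ∀ A : I, ∑ k ∈ Finset.range (Function.minimalPeriod π A), g ((π ^ k) A) = 0) :
    ∑ A, g A = 0 := by
  classical
  -- strong induction on `π`-invariant finsets
  have key : ∀ (m : ℕ) (S : Finset I), S.card = m → (∀ A ∈ S, π A ∈ S) → ∑ A ∈ S, g A = 0 := by
    intro m
    induction m using Nat.strong_induction_on with
    | _ m ih =>
      intro S hS hinv
      rcases S.eq_empty_or_nonempty with rfl | ⟨A, hA⟩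
      · simp
      set p := Function.minimalPeriod π A with hp
      have hper : Function.IsPeriodicPt π p A := Function.isPeriodicPt_minimalPeriod π A
      have hp0 : 0 < p := by
        apply Function.minimalPeriod_pos_of_mem_periodicPts
        obtain ⟨k, hk0, hk⟩ := (isOfFinOrder_of_finite π).exists_pow_eq_one
        refine Function.mk_mem_periodicPts hk0 ?_
        rw [Function.IsPeriodicPt, Function.IsFixedPt, ← Equiv.Perm.coe_pow, hk]
        rfl
      have hinvpow : ∀ k : ℕ, (π ^ k) A ∈ S := by
        intro k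
        induction k with
        | zero => simpa using hA
        | succ k ihk =>
          rw [pow_succ', Equiv.Perm.mul_apply]
          exact hinv _ ihk
      set O : Finset I := (Finset.range p).image (fun k => (π ^ k) A) with hO
      have hOS : O ⊆ S := by
        intro B hB
        obtain ⟨k, -, rfl⟩ := Finset.mem_image.mp hB
        exact hinvpow k
      have hinj : Set.InjOn (fun k => (π ^ k) A) (Finset.range p : Set ℕ) := by
        intro i hi j hj hij
        have hi' : i < p := Finset.mem_range.mp hi
        have hj' : j < p := Finset.mem_range.mp hj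
        simp only [Equiv.Perm.coe_pow] at hij
        exact Function.iterate_injOn_Iio_minimalPeriod (f := π) (x := A) hi' hj' hij
      have hOsum : ∑ B ∈ O, g B = 0 := by
        rw [hO, Finset.sum_image hinj]
        exact h A
      have hAO : A ∈ O := by
        refine Finset.mem_image.mpr ⟨0, Finset.mem_range.mpr hp0, by simp⟩
      have hOinv : ∀ B ∈ O, π B ∈ O := by
        intro B hB
        obtain ⟨k, hk, rfl⟩ := Finset.mem_image.mp hB
        rw [Finset.mem_range] at hk
        rcases Nat.lt_or_ge (k + 1) p with h1 | h1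
        · refine Finset.mem_image.mpr ⟨k + 1, Finset.mem_range.mpr h1, ?_⟩
          simp only [pow_succ', Equiv.Perm.mul_apply]
        · have hk1 : k + 1 = p := le_antisymm (by omega) h1
          refine Finset.mem_image.mpr ⟨0, Finset.mem_range.mpr hp0, ?_⟩
          have : π ((π ^ k) A) = (π ^ (k + 1)) A := by
            simp only [pow_succ', Equiv.Perm.mul_apply]
          rw [this, hk1, pow_zero, Equiv.Perm.coe_one, id_eq, Equiv.Perm.coe_pow]
          exact (hper : (π : I → I)^[p] A = A).symm
      have hSdiff_inv : ∀ B ∈ S \ O, π B ∈ S \ O := by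
        intro B hB
        rw [Finset.mem_sdiff] at hB ⊢
        refine ⟨hinv B hB.1, fun hπB => hB.2 ?_⟩
        -- `O` is stable under `π⁻¹`
        have hsymm : ∀ C ∈ O, π.symm C ∈ O := by
          intro C hC
          obtain ⟨k, hk, rfl⟩ := Finset.mem_image.mp hC
          rw [Finset.mem_range] at hk
          rcases Nat.eq_zero_or_pos k with hk0 | hk0
          · subst hk0
            refine Finset.mem_image.mpr ⟨p - 1, Finset.mem_range.mpr (by omega), ?_⟩
            rw [Equiv.eq_symm_apply]
            have : π ((π ^ (p - 1)) A) = (π ^ (p - 1 + 1)) A := by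
              simp only [pow_succ', Equiv.Perm.mul_apply]
            rw [this, Nat.sub_add_cancel hp0, pow_zero, Equiv.Perm.coe_one, id_eq,
              Equiv.Perm.coe_pow]
            exact hper
          · refine Finset.mem_image.mpr ⟨k - 1, Finset.mem_range.mpr (by omega), ?_⟩
            rw [Equiv.eq_symm_apply]
            have : π ((π ^ (k - 1)) A) = (π ^ (k - 1 + 1)) A := by
              simp only [pow_succ', Equiv.Perm.mul_apply]
            rw [this, Nat.sub_add_cancel hk0]
        have := hsymm _ hπB
        simpa using this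
      have hcard : (S \ O).card < m := by
        rw [← hS]
        exact Finset.card_lt_card (Finset.sdiff_ssubset hOS ⟨A, hAO⟩)
      have h2 := ih _ hcard (S \ O) rfl hSdiff_inv
      rw [← Finset.sum_sdiff hOS, h2, hOsum, add_zero]
  have := key _ Finset.univ rfl (fun A _ => Finset.mem_univ _)
  simpa using this

/-! ### Traces -/

theorem sl2_mul_self (X : Matrix (Fin 2) (Fin 2) ℤ) (hX : X.det = 1) :
    X * X = X.trace • X - 1 := by
  rw [Matrix.det_fin_two] at hX
  have htr : X.trace = X 0 0 + X 1 1 := Matrix.trace_fin_two X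
  ext i j
  rw [Matrix.sub_apply, Matrix.smul_apply, htr, Matrix.mul_apply, Fin.sum_univ_two, smul_eq_mul]
  fin_cases i <;> fin_cases j
  · simp only [Fin.zero_eta, Fin.isValue, Matrix.one_apply_eq]
    linear_combination (-1 : ℤ) * hX
  · simp only [Fin.zero_eta, Fin.isValue, Fin.mk_one, ne_eq, zero_ne_one, not_false_eq_true,
      Matrix.one_apply_ne, sub_zero]
    ring
  · simp only [Fin.mk_one, Fin.isValue, Fin.zero_eta, ne_eq, one_ne_zero, not_false_eq_true,
      Matrix.one_apply_ne, sub_zero]
    ring
  · simp only [Fin.mk_one, Fin.isValue, Matrix.one_apply_eq]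
    linear_combination (-1 : ℤ) * hX

theorem sl2_trace_pow_succ_succ (X : Matrix (Fin 2) (Fin 2) ℤ) (hX : X.det = 1) (m : ℕ) :
    (X ^ (m + 2)).trace = X.trace * (X ^ (m + 1)).trace - (X ^ m).trace := by
  have h : X ^ (m + 2) = X.trace • X ^ (m + 1) - X ^ m := by
    rw [pow_add, pow_two, sl2_mul_self X hX, mul_sub, mul_one, Matrix.mul_smul, ← pow_succ]
  rw [h, Matrix.trace_sub, Matrix.trace_smul, smul_eq_mul]

/-- Powers of a matrix of `SL₂(ℤ)` with `tr² = 4` have `tr² = 4`. -/
theorem sl2_trace_pow_sq (X : Matrix (Fin 2) (Fin 2) ℤ) (hX : X.det = 1)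
    (ht : X.trace ^ 2 = 4) (m : ℕ) : (X ^ m).trace ^ 2 = 4 := by
  have key : ∀ m : ℕ, 2 * (X ^ (m + 1)).trace = X.trace * (X ^ m).trace ∧
      (X ^ m).trace ^ 2 = 4 := by
    intro m
    induction m with
    | zero =>
      refine ⟨?_, ?_⟩
      · simp only [pow_zero, zero_add, pow_one, Matrix.trace_one, Fintype.card_fin]
        push_cast
        ring
      · simp only [pow_zero, Matrix.trace_one, Fintype.card_fin]
        norm_num
    | succ m ih =>
      obtain ⟨h1, h2⟩ := ih
      have h3 : (X ^ (m + 1)).trace ^ 2 = 4 := by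
        have : (2 * (X ^ (m + 1)).trace) ^ 2 = 16 := by
          rw [h1, mul_pow, ht, h2]; norm_num
        nlinarith
      refine ⟨?_, h3⟩
      rw [sl2_trace_pow_succ_succ X hX m]
      have : X.trace * (2 * (X ^ (m + 1)).trace) = 4 * (X ^ m).trace := by
        rw [h1, ← mul_assoc, ← pow_two, ht]
      linarith
  exact (key m).2

/-- Conjugate matrices (by a representative) have the same trace. -/
theorem HeckeRep.trace_eq {n : ℕ} [NeZero n] (A : HeckeRep n) {X Y : Matrix (Fin 2) (Fin 2) ℤ}
    (h : A.mat * X = Y * A.mat) : X.trace = Y.trace := by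
  have e00 := congrFun (congrFun h 0) 0
  have e10 := congrFun (congrFun h 1) 0
  have e11 := congrFun (congrFun h 1) 1
  simp only [Matrix.mul_apply, Fin.sum_univ_two, HeckeRep.mat_zero_zero, HeckeRep.mat_zero_one,
    HeckeRep.mat_one_zero, HeckeRep.mat_one_one, zero_mul, zero_add, mul_zero, add_zero]
    at e00 e10 e11
  have hn : ((A.a : ℤ) * A.d) ≠ 0 := by
    have := A.had
    have hn0 : (n : ℤ) ≠ 0 := by exact_mod_cast NeZero.ne n
    rw [← this] at hn0
    exact_mod_cast hn0
  have key : (A.a : ℤ) * A.d * X.trace = (A.a : ℤ) * A.d * Y.trace := by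
    simp only [Matrix.trace, Matrix.diag, Fin.sum_univ_two]
    linear_combination (A.d : ℤ) * e00 + (A.a : ℤ) * e11 - (A.b : ℤ) * e10
  exact mul_left_cancel₀ hn key

/-! ### Iterating the cocycle -/

variable {n M : ℕ} {B : Type*} [AddCommGroup B]

theorem HeckeRep.next_pow [NeZero n] (hnM : Nat.Coprime n M) (A : HeckeRep n) (γ : Gamma0 M)
    (m : ℕ) : HeckeRep.next hnM A (γ ^ m) = ((HeckeRep.perm hnM γ) ^ m) A := by
  induction m with
  | zero => simp
  | succ m ih =>
    rw [pow_succ, HeckeRep.next_mul, ih, pow_succ', Equiv.Perm.mul_apply, HeckeRep.perm_apply]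

theorem HeckeRep.map_coc_pow [NeZero n] (hnM : Nat.Coprime n M) (φ : Additive (Gamma0 M) →+ B)
    (A : HeckeRep n) (γ : Gamma0 M) (m : ℕ) :
    φ (Additive.ofMul (HeckeRep.coc hnM A (γ ^ m)))
      = ∑ k ∈ Finset.range m, φ (Additive.ofMul
          (HeckeRep.coc hnM (((HeckeRep.perm hnM γ) ^ k) A) γ)) := by
  induction m with
  | zero => simp
  | succ m ih =>
    rw [pow_succ, HeckeRep.coc_mul, ofMul_mul, map_add, ih, HeckeRep.next_pow,
      Finset.sum_range_succ]

/-- **`T_n` preserves parabolic homomorphisms.** -/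
theorem heckeHom_isParabolicHom [NeZero n] (hnM : Nat.Coprime n M)
    {φ : Additive (Gamma0 M) →+ B} (hφ : ModularCurve.Period.IsParabolicHom (Gamma0 M) φ) :
    ModularCurve.Period.IsParabolicHom (Gamma0 M) (heckeHom hnM φ) := by
  intro γ hγ
  rw [heckeHom_apply]
  apply sum_eq_zero_of_cycles (HeckeRep.perm hnM γ)
  intro A
  set p := Function.minimalPeriod (HeckeRep.perm hnM γ) A with hp
  rw [← HeckeRep.map_coc_pow]
  apply hφ
  -- `A γ^p = coc · A`
  have hnext : HeckeRep.next hnM A (γ ^ p) = A := by
    rw [HeckeRep.next_pow, Equiv.Perm.coe_pow]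
    exact Function.isPeriodicPt_minimalPeriod _ A
  have hmul := HeckeRep.mat_mul hnM A (γ ^ p)
  rw [hnext] at hmul
  rw [← A.trace_eq hmul]
  have e : (((γ ^ p : Gamma0 M) : SL(2, ℤ)) : Matrix (Fin 2) (Fin 2) ℤ)
      = (((γ : Gamma0 M) : SL(2, ℤ)) : Matrix (Fin 2) (Fin 2) ℤ) ^ p := by
    simp
  rw [e]
  exact sl2_trace_pow_sq _ (Matrix.SpecialLinearGroup.det_coe _) hγ p

/-- `T_n` as an endomorphism of the module of parabolic homomorphisms is obtained by
restriction; this is the membership statement. -/
theorem heckeHom_mem_parabolicHoms [NeZero n] (hnM : Nat.Coprime n M) (R : Type*) [Semiring R]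
    [Module R B] {φ : Additive (Gamma0 M) →+ B}
    (hφ : φ ∈ ModularCurve.Period.parabolicHoms R (Gamma0 M) B) :
    heckeHom hnM φ ∈ ModularCurve.Period.parabolicHoms R (Gamma0 M) B :=
  heckeHom_isParabolicHom hnM hφ

end Fermat.Agent.ES
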