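import Mathlib
import Fermat.Prelude.Def_AlgebraicCurve_BaseChangeGalois

/-!
# ESpkg-G1 piece KB: the Kummer bridge `J[n] ↔ functions with divisor in n·Div` (helper39)

Generic function field `F / K` (prelude `Place`, `Divisor`, `Pic0`), namespace `Fermat.Agent.ES`.
`ES/Mu.lean` uses this `KummerRel n x u` with `K = ℚ̄`, `F = modularFunctionFieldBar M`
(`x : JZero M`); the Galois form for `GQ` is `KummerRel.galois` in `ES/KummerMu.lean`.

`KummerRel n x u` : the class `x ∈ Pic⁰` is represented by a degree-zero divisor `D` with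
`n · D = div u`.

* `exists_kummerRel`       (1) `n • x = 0 ⇒ ∃ u, KummerRel n x u`;
* `KummerRel.nsmul_eq_zero`    `KummerRel n x u ⇒ n • x = 0`;
* `KummerRel.zero/add/neg/sub/pow_left` (2) additivity, compatibility with `n ∣ m`;
* `KummerRel.exists_eq_mul_pow` (3) two Kummer functions of `x` differ by `c · kⁿ`, `c` a "constant";
* `KummerRel.eq_zero_of_pow` (4) `KummerRel n x (c · kⁿ) ⇒ x = 0`;
* `exists_kummerRel_of_dvd` (5) converse, from `HasPrincipalDivisors`;
* `KummerRel.smul`          (6) semilinear automorphisms (Galois);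
* `KummerRel.unique`        (7) `x` is determined by `u` (divisors are torsion free).
-/

set_option autoImplicit false

namespace Fermat.Agent.ES

open AlgebraicCurve

variable {K F : Type*} [Field K] [Field F] [Algebra K F]

/-- `u` is a Kummer function of the class `x`: `x = [D]`, `n · D = div u`. -/
def KummerRel (n : ℕ) (x : Pic0 K F) (u : F) : Prop :=
  ∃ D : Divisor.degZero (K := K) (F := F), Pic0.mk D = x ∧ u ≠ 0 ∧
    ∀ v : Place K F, (n : ℤ) * (D : Divisor K F) v = v.ord u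

namespace KummerRel

variable {n : ℕ} {x y : Pic0 K F} {u u' : F}

theorem ne_zero (h : KummerRel n x u) : u ≠ 0 := by
  obtain ⟨_, _, hu, _⟩ := h
  exact hu

/-- a principal degree-zero divisor has class zero -/
theorem _root_.Fermat.Agent.ES.pic0_mk_eq_zero_iff (D : Divisor.degZero (K := K) (F := F)) :
    Pic0.mk D = 0 ↔ ∃ f : F, f ≠ 0 ∧ ∀ v : Place K F, (D : Divisor K F) v = v.ord f := by
  rw [Pic0.mk, QuotientAddGroup.eq_zero_iff, AddSubgroup.mem_addSubgroupOf]
  rfl

theorem nsmul_eq_zero (h : KummerRel n x u) : n • x = 0 := by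
  obtain ⟨D, rfl, hu, hD⟩ := h
  have h1 : n • Pic0.mk D = Pic0.mk (n • D) := rfl
  rw [h1, pic0_mk_eq_zero_iff]
  refine ⟨u, hu, fun v => ?_⟩
  rw [← hD v]
  simp

theorem zero : KummerRel n (0 : Pic0 K F) 1 :=
  ⟨0, rfl, one_ne_zero, fun v => by simp⟩

theorem add (h : KummerRel n x u) (h' : KummerRel n y u') : KummerRel n (x + y) (u * u') := by
  obtain ⟨D, rfl, hu, hD⟩ := h
  obtain ⟨D', rfl, hu', hD'⟩ := h'
  refine ⟨D + D', rfl, mul_ne_zero hu hu', fun v => ?_⟩
  rw [v.ord_mul hu hu', ← hD v, ← hD' v]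
  simp [mul_add]

theorem neg (h : KummerRel n x u) : KummerRel n (-x) u⁻¹ := by
  obtain ⟨D, rfl, hu, hD⟩ := h
  refine ⟨-D, rfl, inv_ne_zero hu, fun v => ?_⟩
  rw [v.ord_inv, ← hD v]
  simp

theorem sub (h : KummerRel n x u) (h' : KummerRel n y u') : KummerRel n (x - y) (u / u') := by
  rw [sub_eq_add_neg, div_eq_mul_inv]
  exact h.add h'.neg

/-- compatibility with `n ∣ m` -/
theorem pow_left (h : KummerRel n x u) (m : ℕ) : KummerRel (m * n) x (u ^ m) := by
  obtain ⟨D, rfl, hu, hD⟩ := h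
  refine ⟨D, rfl, pow_ne_zero m hu, fun v => ?_⟩
  have h1 : v.ord (u ^ m) = (m : ℤ) * v.ord u := by
    have := v.ord_zpow u (m : ℤ)
    rwa [zpow_natCast] at this
  rw [h1, ← hD v]
  push_cast
  ring

/-- multiplying a Kummer function by a function without zeros and poles -/
theorem const_mul (h : KummerRel n x u) {c : F} (hc0 : c ≠ 0) (hc : ∀ v : Place K F, v.ord c = 0) :
    KummerRel n x (c * u) := by
  obtain ⟨D, rfl, hu, hD⟩ := h
  refine ⟨D, rfl, mul_ne_zero hc0 hu, fun v => ?_⟩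
  rw [v.ord_mul hc0 hu, hc v, zero_add, hD v]

/-- (3) two Kummer functions of the same class differ by `c · kⁿ` -/
theorem exists_eq_mul_pow (h : KummerRel n x u) (h' : KummerRel n x u') :
    ∃ k c : F, k ≠ 0 ∧ c ≠ 0 ∧ (∀ v : Place K F, v.ord c = 0) ∧ u' = c * u * k ^ n := by
  obtain ⟨D, hDx, hu, hD⟩ := h
  obtain ⟨D', hD'x, hu', hD'⟩ := h'
  have h1 : Pic0.mk (D' - D) = 0 := by
    have : Pic0.mk (D' - D) = Pic0.mk D' - Pic0.mk D := rfl
    rw [this, hDx, hD'x, sub_self]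
  obtain ⟨k, hk, hkD⟩ := (pic0_mk_eq_zero_iff _).mp h1
  have hkn : ∀ v : Place K F, v.ord (k ^ n) = (n : ℤ) * v.ord k := by
    intro v
    have := v.ord_zpow k (n : ℤ)
    rwa [zpow_natCast] at this
  have hkn0 : k ^ n ≠ 0 := pow_ne_zero n hk
  refine ⟨k, u' / (u * k ^ n), hk, div_ne_zero hu' (mul_ne_zero hu hkn0), fun v => ?_, ?_⟩
  · rw [div_eq_mul_inv, v.ord_mul hu' (inv_ne_zero (mul_ne_zero hu hkn0)), v.ord_inv,
      v.ord_mul hu hkn0, hkn v, ← hD v, ← hD' v, ← hkD v]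
    simp only [AddSubgroup.coe_sub, Finsupp.coe_sub, Pi.sub_apply]
    ring
  · field_simp

/-- (4) a Kummer function of the form `c · kⁿ` belongs to the zero class -/
theorem eq_zero_of_pow (hn : n ≠ 0) {c k : F} (hc : ∀ v : Place K F, v.ord c = 0)
    (h : KummerRel n x (c * k ^ n)) : x = 0 := by
  obtain ⟨D, rfl, hu, hD⟩ := h
  have hc0 : c ≠ 0 := left_ne_zero_of_mul hu
  have hkn0 : k ^ n ≠ 0 := right_ne_zero_of_mul hu
  have hk : k ≠ 0 := by
    rintro rfl
    exact hkn0 (zero_pow hn)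
  rw [pic0_mk_eq_zero_iff]
  refine ⟨k, hk, fun v => ?_⟩
  have h1 := hD v
  have hkn : v.ord (k ^ n) = (n : ℤ) * v.ord k := by
    have := v.ord_zpow k (n : ℤ)
    rwa [zpow_natCast] at this
  rw [v.ord_mul hc0 hkn0, hc v, zero_add, hkn] at h1
  have hn' : (n : ℤ) ≠ 0 := by exact_mod_cast hn
  exact mul_left_cancel₀ hn' h1

/-- (7) the class is determined by the Kummer function -/
theorem unique (hn : n ≠ 0) (h : KummerRel n x u) (h' : KummerRel n y u) : x = y := by
  obtain ⟨D, rfl, hu, hD⟩ := h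
  obtain ⟨D', rfl, -, hD'⟩ := h'
  have : D = D' := by
    apply Subtype.ext
    ext v
    have hn' : (n : ℤ) ≠ 0 := by exact_mod_cast hn
    exact mul_left_cancel₀ hn' ((hD v).trans (hD' v).symm)
  rw [this]

/-- (6) semilinear automorphisms -/
theorem smul (g : SemilinearAut K F) (h : KummerRel n x u) : KummerRel n (g • x) (g • u) := by
  obtain ⟨D, rfl, hu, hD⟩ := h
  refine ⟨SemilinearAut.degZeroSMulHom g D, (SemilinearAut.pic0_smul_mk g D).symm, ?_, fun w => ?_⟩
  · simpa using hu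
  · rw [SemilinearAut.coe_degZeroSMulHom, SemilinearAut.divisor_smul_apply, hD (g⁻¹ • w)]
    have h1 := SemilinearAut.ord_smul g (g⁻¹ • w) u
    rw [smul_inv_smul] at h1
    exact h1.symm

end KummerRel

/-- (1) every `n`-torsion class has a Kummer function -/
theorem exists_kummerRel {n : ℕ} {x : Pic0 K F} (hx : n • x = 0) : ∃ u : F, KummerRel n x u := by
  obtain ⟨D, rfl⟩ := Pic0.mk_surjective x
  have h1 : n • Pic0.mk D = Pic0.mk (n • D) := rfl
  rw [h1, pic0_mk_eq_zero_iff] at hx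
  obtain ⟨f, hf, hfD⟩ := hx
  refine ⟨f, D, rfl, hf, fun v => ?_⟩
  rw [← hfD v]
  simp

/-- (5) converse: a function all of whose orders are divisible by `n` is a Kummer function -/
theorem exists_kummerRel_of_dvd [HasPrincipalDivisors K F] {n : ℕ} (hn : n ≠ 0) {u : F}
    (hu : u ≠ 0) (hdvd : ∀ v : Place K F, (n : ℤ) ∣ v.ord u) :
    ∃ x : Pic0 K F, n • x = 0 ∧ KummerRel n x u := by
  obtain ⟨Du, hDu, hdeg⟩ := HasPrincipalDivisors.exists_divisor (K := K) u hu
  have hn' : (n : ℤ) ≠ 0 := by exact_mod_cast hn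
  -- divide the divisor by `n`
  let D : Divisor K F := Finsupp.mapRange (fun a : ℤ => a / (n : ℤ)) (by simp) Du
  have hD : ∀ v : Place K F, (n : ℤ) * D v = v.ord u := by
    intro v
    show (n : ℤ) * (Du v / (n : ℤ)) = v.ord u
    rw [hDu v]
    exact Int.mul_ediv_cancel' (hdvd v)
  have hnD : (n : ℤ) • D = Du := by
    ext v
    rw [Finsupp.smul_apply, smul_eq_mul, hD v, hDu v]
  have hdegD : Divisor.degree D = 0 := by
    have h1 : (n : ℤ) • Divisor.degree D = 0 := by rw [← map_zsmul, hnD, hdeg]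
    rw [smul_eq_mul] at h1
    rcases mul_eq_zero.mp h1 with h2 | h2
    · exact absurd h2 hn'
    · exact h2
  have hrel : KummerRel n (Pic0.mk ⟨D, hdegD⟩) u := ⟨⟨D, hdegD⟩, rfl, hu, hD⟩
  exact ⟨_, hrel.nsmul_eq_zero, hrel⟩

end Fermat.Agent.ES
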