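import Fermat.Agent.ES.G2.Frob
import Fermat.Agent.ES.KummerBridge

/-!
# ESpkg-G1, piece HKa: the Kummer function of `T_ℓ x` is the norm of `β u` (helper92)

If `x = [D] ∈ J₀(N)`, `n · D = div u` (`u` is a Kummer function of `x`), then
`T_ℓ x = [D']` with `n · D' = div (N_α (β u))`, where `β u = u(q^ℓ) ∈ F_{Nℓ}` and `N_α` is the
norm of `F_{Nℓ}` over `F_N` (along the inclusion `α`).

Pure algebra on top of piece (H) (`heckeOperatorAlong_eq_heckePic0Bar`): pull-back of a principal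
divisor along `β`, push-forward (norm formula) along `α`
(`G2.FrobAux.correspondence_apply_of_ord`).

* `KummerRel.correspondence` : generic form, for a correspondence `ψ_* φ^*` on `Pic⁰`;
* `heckeNormFun N ℓ u = N_α (β u)`, `heckeNormFun_coe` (its `q`-expansion is `kronHecke ℓ ζ u`,
  from `G2.StmtHeckeNorm`);
* `KummerRel.hecke` : `KummerRel n x u → KummerRel n (T_ℓ x) (heckeNormFun N ℓ u)`.
-/

set_option autoImplicit false
set_option linter.style.haveILetI false

noncomputable section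

open AlgebraicCurve ModularCurve IntermediateField

namespace Fermat.Agent.ES

open Fermat.Agent.ES.G2 Fermat.Agent.ES.G2.FrobAux

section Generic

variable {K F F' : Type*} [Field K] [Field F] [Field F'] [Algebra K F] [Algebra K F']
variable [HasPrincipalDivisors K F']

/-- **HKa, generic form.**  If `u` is a Kummer function of `x` then `N_ψ (φ u)` is a Kummer
function of `ψ_* φ^* x`. -/
theorem KummerRel.correspondence (φ ψ : F →ₐ[K] F') (hφ : φ.toRingHom.IsIntegral)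
    (hψ : ψ.toRingHom.IsIntegral) (hFI : FundamentalIdentityAlong K φ hφ)
    (hfin : FiniteAlong K ψ) (hN : NormFormulaAlong K ψ hfin)
    {n : ℕ} {x : Pic0 K F} {u : F} (h : KummerRel n x u) :
    KummerRel n (Pic0.correspondence φ ψ hφ hψ hFI hfin hN x) (frobNorm φ ψ u) := by
  obtain ⟨D, rfl, hu, hD⟩ := h
  refine ⟨Pic0.degZeroCorrespondence φ ψ hφ hψ hFI D, (Pic0.correspondence_mk ..).symm,
    frobNorm_ne_zero φ ψ hfin hu, fun v => ?_⟩
  have hnD : ∀ w : Place K F, ((n : ℤ) • (D : Divisor K F)) w = w.ord u := by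
    intro w
    rw [Finsupp.smul_apply, smul_eq_mul]
    exact hD w
  have h1 := correspondence_apply_of_ord φ ψ hφ hψ hfin hN hu hnD v
  rw [map_zsmul, Finsupp.smul_apply, smul_eq_mul] at h1
  rw [Pic0.coe_degZeroCorrespondence]
  exact h1

end Generic

section Concrete

variable (N : ℕ) [NeZero N]

/-- the norm of `β u = u(q^ℓ)` from `F_{Nℓ}` down to `F_N` (along the inclusion `α`) -/
def heckeNormFun (ℓ : ℕ) [NeZero ℓ] (u : modularFunctionFieldBar N) : modularFunctionFieldBar N :=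
  frobNorm (heckeBetaBar Qb N ℓ) (heckeAlphaBar Qb N ℓ) u

theorem heckeNormFun_mul (ℓ : ℕ) [NeZero ℓ] (u v : modularFunctionFieldBar N) :
    heckeNormFun N ℓ (u * v) = heckeNormFun N ℓ u * heckeNormFun N ℓ v :=
  frobNorm_mul _ _ u v

theorem heckeNormFun_ne_zero (ℓ : ℕ) [NeZero ℓ] {u : modularFunctionFieldBar N} (hu : u ≠ 0) :
    heckeNormFun N ℓ u ≠ 0 :=
  frobNorm_ne_zero _ _ (Fermat.Agent.ES.H.finiteAlong_heckeAlphaBar N ℓ) hu

/-- the `q`-expansion of `N_α (β u)` is `kronHecke ℓ ζ u` -/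
theorem heckeNormFun_coe (hHN : StmtHeckeNorm) (ℓ : ℕ) [NeZero ℓ] (hℓ : ℓ.Prime) (hℓN : ¬ ℓ ∣ N)
    (ζ : Qbˣ) (hζ : IsPrimitiveRoot ζ ℓ) (u : modularFunctionFieldBar N) :
    ((heckeNormFun N ℓ u : modularFunctionFieldBar N) : LaurentSeries Qb)
      = kronHecke ℓ ζ (u : LaurentSeries Qb) :=
  hHN N ℓ hℓ hℓN ζ hζ u

/-- **HKa.**  If `u` is a Kummer function of `x ∈ J₀(N)` then `N_α (β u)` is a Kummer function of
`T_ℓ x`. -/
theorem KummerRel.hecke (ℓ : Nat.Primes) {n : ℕ} {x : JZero N}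
    {u : modularFunctionFieldBar N} (h : KummerRel n x u) :
    haveI : NeZero (ℓ : ℕ) := ⟨ℓ.2.ne_zero⟩
    KummerRel n (heckeOperatorBar N ℓ x) (heckeNormFun N (ℓ : ℕ) u) := by
  haveI : NeZero (ℓ : ℕ) := ⟨ℓ.2.ne_zero⟩
  haveI := Fermat.Agent.ES.H.hasPrincipalDivisors_FF (N * (ℓ : ℕ))
  have h1 := frob_heckeOperatorBar_eq N (ℓ : ℕ) ℓ.2 x
  have h2 : heckeOperatorBar N ℓ x = heckeOperatorBar N ⟨(ℓ : ℕ), ℓ.2⟩ x := rfl
  rw [h2, h1]
  exact KummerRel.correspondence _ _ _ _ _ _ _ h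

end Concrete

end Fermat.Agent.ES
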