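import Fermat.Agent.ES.HeckeP
import Fermat.Agent.S21.Period
import Fermat.Prelude.Def_ModularForm_HeckeOperatorForms

/-!
# ESpkg-G1, piece A4 (part 3): the period map is Hecke-equivariant

For a prime `p ∤ N` and `f ∈ S₂(Γ₀(N))`:
`periodMap N (T_p f) = heckeHom (periodMap N f)`, where `heckeHom` is the group-theoretic Hecke
operator of `ES/HeckeP.lean`.  If `F` is a primitive of `f` then `∑_x F ∘ α_x` is a primitive of
`T_p f`, and its periods are computed by the coset law `α_x γ = κ(γ,x) α_{x·γ}`.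
-/

set_option autoImplicit false

noncomputable section

namespace Fermat.Agent.ES.HeckeP

open Matrix Matrix.SpecialLinearGroup CongruenceSubgroup UpperHalfPlane ModularForm
open P2MW.S_ModularForm_heckeT_slash_eq_self_of_mem_Gamma0.ModularForm.HeckeSlashInvariance
open Fermat.Agent.S21 ModularCurve ModularCurve.Period
open scoped MatrixGroups

variable {p : ℕ} [Fact p.Prime] {N : ℕ}

omit [Fact p.Prime] in
theorem det_heckeRep_pos (x : OnePoint (ZMod p)) : 0 < (heckeRep p x).val.det := by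
  induction x using OnePoint.rec with
  | infty =>
    have := det_heckeDiagMatrix_pos p
    rwa [Matrix.GeneralLinearGroup.val_det_apply] at this
  | coe j =>
    have := det_heckeMatrix_pos p j.val
    rwa [Matrix.GeneralLinearGroup.val_det_apply] at this

/-- Chain rule in slash form for `GL(2,ℝ)⁺`, weight 2. -/
theorem isPrimitive_comp_smul_slash {F f : ℍ → ℂ} (hF : IsPrimitive F f) {g : GL (Fin 2) ℝ}
    (hg : 0 < g.val.det) : IsPrimitive (fun w => F (g • w)) (f ∣[(2 : ℤ)] g) := by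
  refine (hF.comp_smul_GL hg).congr fun τ => ?_
  have hg' : 0 < g.det.val := by rwa [Matrix.GeneralLinearGroup.val_det_apply]
  rw [ModularForm.slash_apply, UpperHalfPlane.σ, if_pos hg']
  simp only [ContinuousAlgEquiv.refl_apply]
  rw [abs_of_pos hg', Matrix.GeneralLinearGroup.val_det_apply]
  have h2 : denom g τ ^ (-2 : ℤ) = (denom g τ ^ 2)⁻¹ := by
    rw [_root_.zpow_neg]
    norm_cast
  rw [show (2 : ℤ) - 1 = 1 by norm_num, zpow_one, h2, mul_assoc, div_eq_mul_inv]

theorem isPrimitive_sum {ι : Type*} (s : Finset ι) (F f : ι → ℍ → ℂ)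
    (h : ∀ i ∈ s, IsPrimitive (F i) (f i)) :
    IsPrimitive (fun w => ∑ i ∈ s, F i w) (fun τ => ∑ i ∈ s, f i τ) := by
  classical
  induction s using Finset.induction_on with
  | empty =>
    simp only [Finset.sum_empty]
    exact isPrimitive_const 0
  | insert a s ha ih =>
    have h1 := (h a (Finset.mem_insert_self a s)).add
      (ih fun i hi => h i (Finset.mem_insert_of_mem hi))
    have e1 : (fun w => ∑ i ∈ insert a s, F i w) = F a + fun w => ∑ i ∈ s, F i w := by
      funext w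
      simp [Finset.sum_insert ha]
    have e2 : (fun τ => ∑ i ∈ insert a s, f i τ) = f a + fun τ => ∑ i ∈ s, f i τ := by
      funext w
      simp [Finset.sum_insert ha]
    rw [e1, e2]
    exact h1

/-- `∑_x F ∘ α_x` is a primitive of `T_p f`. -/
theorem isPrimitive_heckeSum {F f : ℍ → ℂ} (hF : IsPrimitive F f) :
    IsPrimitive (fun w => ∑ x : OnePoint (ZMod p), F (heckeRep p x • w)) (heckeT 2 p f) := by
  have h := isPrimitive_sum (Finset.univ : Finset (OnePoint (ZMod p)))
    (fun x w => F (heckeRep p x • w)) (fun x => f ∣[(2 : ℤ)] heckeRep p x)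
    (fun x _ => isPrimitive_comp_smul_slash hF (det_heckeRep_pos x))
  refine h.congr fun τ => ?_
  rw [heckeT_eq_sum_onePoint, Finset.sum_apply]

/-- The periods of `∑_x F ∘ α_x`. -/
theorem heckeSum_smul_sub (hpN : ¬ p ∣ N) {F : ℍ → ℂ} (φ : Additive (Gamma0 N) →+ ℂ)
    (hF : ∀ (γ : Gamma0 N) (z : ℍ), F ((γ : SL(2, ℤ)) • z) - F z = φ (Additive.ofMul γ))
    (γ : Gamma0 N) (w : ℍ) :
    (∑ x : OnePoint (ZMod p), F (heckeRep p x • ((γ : SL(2, ℤ)) • w))) -
      ∑ x : OnePoint (ZMod p), F (heckeRep p x • w) = heckeHom hpN φ (Additive.ofMul γ) := by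
  have h1 : ∀ x : OnePoint (ZMod p), F (heckeRep p x • ((γ : SL(2, ℤ)) • w)) =
      F (heckeRep p (idx (γ : SL(2, ℤ)) x) • w) + φ (Additive.ofMul (kap hpN γ x)) := by
    intro x
    have e : heckeRep p x • ((γ : SL(2, ℤ)) • w) =
        ((kap hpN γ x : Gamma0 N) : SL(2, ℤ)) • (heckeRep p (idx (γ : SL(2, ℤ)) x) • w) := by
      show heckeRep p x • (mapGL ℝ (γ : SL(2, ℤ)) • w) =
        mapGL ℝ ((kap hpN γ x : Gamma0 N) : SL(2, ℤ)) • (heckeRep p (idx (γ : SL(2, ℤ)) x) • w)
      rw [← mul_smul, ← mul_smul, kap_spec hpN γ x]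
    rw [e]
    have := hF (kap hpN γ x) (heckeRep p (idx (γ : SL(2, ℤ)) x) • w)
    linear_combination this
  simp only [h1, Finset.sum_add_distrib]
  rw [heckeHom_apply]
  have h2 : ∑ x : OnePoint (ZMod p), F (heckeRep p (idx (γ : SL(2, ℤ)) x) • w) =
      ∑ x : OnePoint (ZMod p), F (heckeRep p x • w) :=
    Equiv.sum_comp (idxPerm (γ : SL(2, ℤ))) (fun x => F (heckeRep p x • w))
  rw [h2]
  ring

/-- **Hecke-equivariance of the period map** (prime `p ∤ N`). -/
theorem periodMap_heckeTLin [NeZero N] (hp : p.Prime) (hpN : ¬ p ∣ N)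
    (f : CuspForm (Gamma0 N) 2) :
    periodMap N (CuspForm.heckeTLin 2 hp hpN f) = heckeHom hpN (periodMap N f) := by
  obtain ⟨F, hF, hF0⟩ := exists_isPrimitive N f
  have hFe := hasEquivariantPrimitive_of_isPrimitive f hF hF0
  obtain ⟨G₀, hG₀, hG₀0⟩ := exists_isPrimitive N (CuspForm.heckeTLin 2 hp hpN f)
  have hG₀e := hasEquivariantPrimitive_of_isPrimitive _ hG₀ hG₀0
  have hG : IsPrimitive (fun w => ∑ x : OnePoint (ZMod p), F (heckeRep p x • w))
      (CuspForm.heckeTLin 2 hp hpN f) := isPrimitive_heckeSum hF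
  refine AddMonoidHom.ext fun γ => ?_
  obtain ⟨γ, rfl⟩ : ∃ γ' : Gamma0 N, Additive.ofMul γ' = γ := ⟨Additive.toMul γ, rfl⟩
  rw [periodMap_apply _ hG₀e γ]
  have h1 := hG₀.sub_eq_sub hG ((γ : SL(2, ℤ)) • UpperHalfPlane.I) UpperHalfPlane.I
  have h2 := heckeSum_smul_sub hpN (periodMap N f)
    (fun δ z => by
      rw [hFe.2.2.1.sub_eq_period δ z, periodMap_eq f hFe]
      rfl) γ UpperHalfPlane.I
  rw [← h2]
  linear_combination h1

end Fermat.Agent.ES.HeckeP
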