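import Fermat.Agent.ES.EigenSupportGen
import Fermat.Agent.ES.TopWords

/-!
# ESpkg-G1: the support clause `JSuppWords M p` from a multiplier map (helper39)

`suppWords_of_multiplier` : for any `(J, T)` the `supp` clause of `ESTorsWords M p J T` follows from
a multiplier map `μ : J[p] → Hom(Γ₀(M), Co)` (`Co` any abelian group, e.g. `Additive ℂˣ`) which is
additive, injective, equivariant for the good `T_ℓ` (`heckeOp M p ℓ = HeckeP.heckeHom`), and whose
image contains `ε ∘ (x mod p)` for every integral parabolic homomorphism `x` (`ε : ZMod p → Co`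
injective).

`jSuppWords_of_multiplier` : the same for `J = JZero M`, `T = heckeOperatorBar M`, giving
`JSuppWords M p` of `TopWords.lean`.
-/

set_option autoImplicit false

namespace Fermat.Agent.ES

open CongruenceSubgroup ModularCurve ModularCurve.Period ModularFormClass
open scoped MatrixGroups

variable {M p : ℕ}

section Generic

variable {J : Type} [AddCommGroup J] [DistribMulAction GQ J] (T : Nat.Primes → J →+ J)
  {Co : Type} [AddCommGroup Co]

/-- `μ` intertwines words on `J[p]` with words on `Hom(Γ₀(M), Co)` -/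
lemma multiplier_wordAct (μ : torsPart p J →+ (Additive (Gamma0 M) →+ Co))
    (hμT : ∀ (ℓ : goodPrimes M p) (x : torsPart p J),
      μ (torsOp M p T ℓ x) = heckeOp M p ℓ Co (μ x))
    (w : FreeAlgebra ℤ (goodPrimes M p)) (x : torsPart p J) :
    μ (wordAct (torsOp M p T) w x) = wordOp (heckeOp M p) Co w (μ x) := by
  induction w using FreeAlgebra.induction generalizing x with
  | grade0 r =>
    simp only [AlgHom.commutes, Module.algebraMap_end_apply]
    exact map_zsmul μ r x
  | grade1 ℓ => rw [wordAct_ι, wordOp_ι, hμT]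
  | mul a b ha hb =>
    simp only [map_mul, Module.End.mul_apply]
    rw [ha, hb]
  | add a b ha hb =>
    simp only [map_add, LinearMap.add_apply]
    rw [ha, hb]

/-- **The support clause (word form) from a multiplier map on `J[p]`.** -/
theorem suppWords_of_multiplier [NeZero M] [Fact p.Prime]
    (μ : torsPart p J →+ (Additive (Gamma0 M) →+ Co)) (hμ : Function.Injective μ)
    (hμT : ∀ (ℓ : goodPrimes M p) (x : torsPart p J),
      μ (torsOp M p T ℓ x) = heckeOp M p ℓ Co (μ x))
    (ε : ZMod p →+ Co) (hε : Function.Injective ε)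
    (hμS : ∀ x : Additive (Gamma0 M) →+ ℤ, IsParabolicHom (Gamma0 M) x →
      ∃ v : torsPart p J, μ v = ε.comp ((Int.castAddHom (ZMod p)).comp x)) :
    ∀ g : CuspForm (CongruenceSubgroup.Gamma0 M) 2, g.IsNormalizedEigenform →
      ∀ 𝔪 : Ideal Zbar, 𝔪.IsMaximal → (p : Zbar) ∈ 𝔪 →
        ∃ v : J, v ≠ 0 ∧ p • v = 0 ∧ ∀ w : FreeAlgebra ℤ (goodPrimes M p),
          (∃ z ∈ 𝔪, (z : ℂ) = wordValue p g w) →
            FreeAlgebra.lift ℤ (fun ℓ : goodPrimes M p => (T ℓ).toIntLinearMap) w v = 0 := by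
  intro g hg 𝔪 h𝔪 hp
  obtain ⟨x, hxP, hx0, hx⟩ := eigenSupport_words g hg 𝔪 h𝔪.ne_top hp
  obtain ⟨v, hv⟩ := hμS x hxP
  refine ⟨(v : J), ?_, v.2, ?_⟩
  · intro h0
    have hv0 : v = 0 := Subtype.ext h0
    rw [hv0, map_zero] at hv
    apply hx0
    refine DFunLike.ext _ _ (fun γ => ?_)
    apply hε
    have h1 := (DFunLike.congr_fun hv γ).symm
    simp only [AddMonoidHom.zero_apply, map_zero] at h1 ⊢
    exact h1
  · intro w hw
    rw [← coe_wordAct_torsOp]
    have h1 : wordAct (torsOp M p T) w v = 0 := by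
      apply hμ
      rw [map_zero, multiplier_wordAct T μ hμT, hv,
        wordOp_natural (fun ℓ A A' _ _ f φ => heckeOp_natural ℓ A A' f φ) w (ZMod p) Co ε]
      have h0 : wordOp (heckeOp M p) (ZMod p) w ((Int.castAddHom (ZMod p)).comp x) = 0 :=
        hx w hw
      rw [h0]
      refine DFunLike.ext _ _ (fun γ => ?_)
      simp
    rw [h1]
    rfl

end Generic

section JZero

variable [NeZero M] {Co : Type} [AddCommGroup Co]

/-- **`JSuppWords M p` from a multiplier map on `J₀(M)[p]`.** -/
theorem jSuppWords_of_multiplier [Fact p.Prime]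
    (μ : torsPart p (JZero M) →+ (Additive (Gamma0 M) →+ Co)) (hμ : Function.Injective μ)
    (hμT : ∀ (ℓ : goodPrimes M p) (x : torsPart p (JZero M)),
      μ (torsOp M p (jOp M) ℓ x) = heckeOp M p ℓ Co (μ x))
    (ε : ZMod p →+ Co) (hε : Function.Injective ε)
    (hμS : ∀ x : Additive (Gamma0 M) →+ ℤ, IsParabolicHom (Gamma0 M) x →
      ∃ v : torsPart p (JZero M), μ v = ε.comp ((Int.castAddHom (ZMod p)).comp x)) :
    JSuppWords M p := by
  intro g hg 𝔪 h𝔪 hp
  obtain ⟨v, hv0, hpv, hv⟩ := suppWords_of_multiplier (jOp M) μ hμ hμT ε hε hμS g hg 𝔪 h𝔪 hp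
  exact ⟨v, hv0, hpv, fun w hw => hv w hw⟩

end JZero

end Fermat.Agent.ES
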