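import Fermat.Agent.ES.Kronecker

/-!
# The multiplicative Hecke operators on `q`-expansions commute

For coprime `ℓ`, `ℓ'` and primitive roots of unity `ζ`, `ζ'` of orders `ℓ`, `ℓ'`:
`kronHecke ℓ ζ (kronHecke ℓ' ζ' f) = kronHecke ℓ' ζ' (kronHecke ℓ ζ f)`  (`kronHecke_comm`).
-/

set_option autoImplicit false

noncomputable section

namespace Fermat.Agent.ES

open ModularCurve HahnSeries

section Comm

variable {R : Type*} [CommRing R]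

theorem kron_qExpand_comm (ℓ ℓ' : ℕ) [NeZero ℓ] [NeZero ℓ'] (f : LaurentSeries R) :
    qExpand R ℓ (qExpand R ℓ' f) = qExpand R ℓ' (qExpand R ℓ f) := by
  have : NeZero (ℓ * ℓ') := ⟨Nat.mul_ne_zero (NeZero.ne ℓ) (NeZero.ne ℓ')⟩
  have : NeZero (ℓ' * ℓ) := ⟨Nat.mul_ne_zero (NeZero.ne ℓ') (NeZero.ne ℓ)⟩
  rw [qExpand_qExpand, qExpand_qExpand]
  exact qExpand_congr (mul_comm ℓ ℓ') f

theorem kronRotProd_qExpand (ℓ ℓ' : ℕ) [NeZero ℓ] (ζ' : Rˣ) (f : LaurentSeries R) :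
    kronRotProd ℓ' ζ' (qExpand R ℓ f) = qExpand R ℓ (kronRotProd ℓ' (ζ' ^ ℓ) f) := by
  simp only [kronRotProd, map_prod]
  refine Finset.prod_congr rfl fun b _ => ?_
  rw [qExpand_kronRot_pow, ← pow_mul, ← pow_mul, mul_comm]

/-- `N_{ℓ'}` commutes with `q ↦ q^ℓ` for coprime `ℓ`, `ℓ'` -/
theorem kronNorm_qExpand (ℓ ℓ' : ℕ) [NeZero ℓ] [NeZero ℓ'] (hcop : Nat.Coprime ℓ ℓ') (ζ' : Rˣ)
    (hζ' : ζ' ^ ℓ' = 1) (f : LaurentSeries R) :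
    kronNorm ℓ' ζ' (qExpand R ℓ f) = qExpand R ℓ (kronNorm ℓ' ζ' f) := by
  ext n
  rw [kronNorm, kronCompress_coeff, kronRotProd_qExpand, kronRotProd_pow_left ℓ' ζ' hζ' ℓ hcop]
  by_cases hn : (ℓ : ℤ) ∣ n
  · obtain ⟨m, rfl⟩ := hn
    rw [qExpand_coeff_mul, show (ℓ' : ℤ) * ((ℓ : ℤ) * m) = (ℓ : ℤ) * ((ℓ' : ℤ) * m) by ring,
      qExpand_coeff_mul, kronNorm, kronCompress_coeff]
  · rw [qExpand_coeff_of_not_dvd ℓ _ hn, qExpand_coeff_of_not_dvd]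
    intro hdvd
    apply hn
    have hc : IsCoprime (ℓ : ℤ) (ℓ' : ℤ) := Nat.isCoprime_iff_coprime.2 hcop
    exact hc.dvd_of_dvd_mul_left hdvd

/-- `q ↦ q^{ℓ'}` commutes with `∏_{b<ℓ} f(ζ^b q)` for coprime `ℓ`, `ℓ'` -/
theorem kron_qExpand_kronRotProd (ℓ ℓ' : ℕ) [NeZero ℓ'] (hcop : Nat.Coprime ℓ ℓ') (ζ : Rˣ)
    (hζ : ζ ^ ℓ = 1) (g : LaurentSeries R) :
    qExpand R ℓ' (kronRotProd ℓ ζ g) = kronRotProd ℓ ζ (qExpand R ℓ' g) := by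
  rw [kronRotProd_qExpand, kronRotProd_pow_left ℓ ζ hζ ℓ' hcop.symm]

theorem kronRotProd_comm (ℓ ℓ' : ℕ) (ζ ζ' : Rˣ) (f : LaurentSeries R) :
    kronRotProd ℓ ζ (kronRotProd ℓ' ζ' f) = kronRotProd ℓ' ζ' (kronRotProd ℓ ζ f) := by
  simp only [kronRotProd, map_prod, kronRot_kronRot]
  rw [Finset.prod_comm]
  refine Finset.prod_congr rfl fun b' _ => Finset.prod_congr rfl fun b _ => ?_
  rw [mul_comm]

/-- the norms `N_ℓ`, `N_{ℓ'}` commute for coprime `ℓ`, `ℓ'` -/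
theorem kronNorm_comm [IsDomain R] (ℓ ℓ' : ℕ) [NeZero ℓ] [NeZero ℓ'] (hcop : Nat.Coprime ℓ ℓ')
    (ζ ζ' : Rˣ) (hζ : IsPrimitiveRoot ζ ℓ) (hζ' : IsPrimitiveRoot ζ' ℓ') (f : LaurentSeries R) :
    kronNorm ℓ ζ (kronNorm ℓ' ζ' f) = kronNorm ℓ' ζ' (kronNorm ℓ ζ f) := by
  have h1 : qExpand R ℓ' (qExpand R ℓ (kronNorm ℓ ζ (kronNorm ℓ' ζ' f)))
      = kronRotProd ℓ ζ (kronRotProd ℓ' ζ' f) := by
    rw [qExpand_kronNorm ℓ ζ hζ, kron_qExpand_kronRotProd ℓ ℓ' hcop ζ hζ.pow_eq_one,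
      qExpand_kronNorm ℓ' ζ' hζ']
  have h2 : qExpand R ℓ (qExpand R ℓ' (kronNorm ℓ' ζ' (kronNorm ℓ ζ f)))
      = kronRotProd ℓ' ζ' (kronRotProd ℓ ζ f) := by
    rw [qExpand_kronNorm ℓ' ζ' hζ', kron_qExpand_kronRotProd ℓ' ℓ hcop.symm ζ' hζ'.pow_eq_one,
      qExpand_kronNorm ℓ ζ hζ]
  apply qExpand_injective ℓ
  apply qExpand_injective ℓ'
  rw [h1, kron_qExpand_comm ℓ' ℓ, h2, kronRotProd_comm]

/-- **The multiplicative Hecke operators `T_ℓ`, `T_{ℓ'}` on `q`-expansions commute.** -/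
theorem kronHecke_comm {L : Type*} [Field L] (ℓ ℓ' : ℕ) [NeZero ℓ] [NeZero ℓ']
    (hcop : Nat.Coprime ℓ ℓ') (ζ ζ' : Lˣ) (hζ : IsPrimitiveRoot ζ ℓ)
    (hζ' : IsPrimitiveRoot ζ' ℓ') (f : LaurentSeries L) :
    kronHecke ℓ ζ (kronHecke ℓ' ζ' f) = kronHecke ℓ' ζ' (kronHecke ℓ ζ f) := by
  simp only [kronHecke, map_mul, kronNorm_mul ℓ ζ hζ, kronNorm_mul ℓ' ζ' hζ']
  rw [kronNorm_qExpand ℓ' ℓ hcop.symm ζ hζ.pow_eq_one, kronNorm_qExpand ℓ ℓ' hcop ζ' hζ'.pow_eq_one,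
    kronNorm_comm ℓ ℓ' hcop ζ ζ' hζ hζ', kron_qExpand_comm ℓ ℓ']
  ring

end Comm

end Fermat.Agent.ES
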