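import Mathlib
import Fermat.Agent.ES.Top2
import Fermat.Agent.ES.Multiplier
import Fermat.Agent.ES.RC.FracField
import Fermat.Agent.ES.KummerBridge

/-!
# ESpkg-G1: the multiplier map `μ`, relational form

`MuRel M n x χ` : the class `x ∈ J₀(M)(ℚ̄)` has a Kummer function `u ∈ K_ℚ̄` (`n D = div u`,
`x = [D]`), `u = a / g` analytically (`a`, `g` holomorphic modular functions of level `Γ₀(M)`),
and an `n`-th root `w = R.a / R.g` of `a / g` on `ℍ` has multiplier character `χ`.
`KummerRel` is the generic relation of `ES/KummerBridge.lean`.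

The pieces of G1 are the six statements `MuExists`, `MuUnique`, `MuAdd`, `MuInj`, `MuHecke`,
`MuSurj` about this relation; `torsionUnif_of_muRel` assembles them into the contract
`TorsionUnif M p` of `ES/Top2.lean`.
-/

set_option autoImplicit false

noncomputable section

namespace Fermat.Agent.ES

open ModularCurve AlgebraicCurve CongruenceSubgroup ModularCurve.Period UpperHalfPlane
open Fermat.Agent.S24 Fermat.Agent.S28
open scoped MatrixGroups Manifold

variable (M : ℕ) [NeZero M]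

/-- `u = a / g` analytically: `a`, `g` are holomorphic modular functions of level `Γ₀(M)` and the
`q`-expansion of `u` (coefficients embedded in `ℂ`) times that of `g` is that of `a`. -/
def IsAnFrac (u : modularFunctionFieldBar M) (a g : ℍ → ℂ) : Prop :=
  IsModFun M a ∧ IsModFun M g ∧ g ≠ 0 ∧
    coeffMap embC (u : LaurentSeries (AlgebraicClosure ℚ)) * laurentOf g = laurentOf a

/-- `χ` is the multiplier character of an `n`-th root of a Kummer function of `x`. -/
def MuRel (n : ℕ) (x : JZero M) (χ : CharGrp M) : Prop :=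
  ∃ (u : modularFunctionFieldBar M) (a g : ℍ → ℂ) (R : RootData (Gamma0 M) n),
    KummerRel n x u ∧ IsAnFrac M u a g ∧
      (∀ τ : ℍ, R.a τ ^ n * g τ = a τ * R.g τ ^ n) ∧ R.multAdd = χ

/-! ## The six pieces -/

/-- (E) every `n`-torsion class has a multiplier.  [KB(1) + BCd + RC-ii `StmtPt` + A1] -/
def MuExists : Prop := ∀ (n : ℕ), 0 < n → ∀ x : JZero M, n • x = 0 → ∃ χ, MuRel M n x χ

/-- (U) the multiplier does not depend on the choices, nor on the exponent. -/
def MuUnique : Prop :=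
  ∀ (n m : ℕ), 0 < n → 0 < m → ∀ (x : JZero M) (χ χ' : CharGrp M),
    MuRel M n x χ → MuRel M m x χ' → χ = χ'

/-- (A) additivity. -/
def MuAdd : Prop :=
  ∀ (n : ℕ), 0 < n → ∀ (x y : JZero M) (χ ψ : CharGrp M),
    MuRel M n x χ → MuRel M n y ψ → MuRel M n (x + y) (χ + ψ)

/-- (I) injectivity.  [A2 kernel lemma + RC-i + DescentInj + KB(4)] -/
def MuInj : Prop := ∀ (n : ℕ), 0 < n → ∀ x : JZero M, MuRel M n x 0 → x = 0

/-- (H) Hecke-equivariance for the primes `ℓ ∤ M`.  [(H) norm formula + analytic norm + `kap`] -/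
def MuHecke : Prop :=
  ∀ (p : ℕ) (ℓ : GoodPrime M p) (n : ℕ), 0 < n → ∀ (x : JZero M) (χ : CharGrp M),
    MuRel M n x χ →
      MuRel M n (heckeOperatorBar M (ℓ : Nat.Primes) x) (heckeOp M p ℓ (Additive ℂˣ) χ)

/-- (S) surjectivity onto the classes of the integral parabolic homs.
[A3 + RC-ii exact + A6 descent + BCu + KB(5)] -/
def MuSurj : Prop :=
  ∀ φ : Additive (Gamma0 M) →+ ℤ, IsParabolicHom (Gamma0 M) φ → ∀ n : ℕ, 0 < n →
    ∃ x : JZero M, n • x = 0 ∧ MuRel M n x (expChar M n φ)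

/-! ## Assembly -/

variable {M}

theorem MuRel.smul_eq_zero {n : ℕ} {x : JZero M} {χ : CharGrp M}
    (h : MuRel M n x χ) : n • x = 0 := by
  obtain ⟨u, a, g, R, hK, -⟩ := h
  exact hK.nsmul_eq_zero

open Classical in
/-- the multiplier map (`0` outside the torsion) -/
def muMap (M : ℕ) [NeZero M] (x : JZero M) : CharGrp M :=
  if h : ∃ (n : ℕ) (χ : CharGrp M), 0 < n ∧ MuRel M n x χ then h.choose_spec.choose else 0

theorem muMap_eq (hU : MuUnique M) {n : ℕ} (hn : 0 < n) {x : JZero M} {χ : CharGrp M}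
    (h : MuRel M n x χ) : muMap M x = χ := by
  classical
  have hex : ∃ (n : ℕ) (χ : CharGrp M), 0 < n ∧ MuRel M n x χ := ⟨n, χ, hn, h⟩
  rw [muMap, dif_pos hex]
  exact hU _ _ hex.choose_spec.choose_spec.1 hn x _ _ hex.choose_spec.choose_spec.2 h

theorem muRel_muMap (hE : MuExists M) (hU : MuUnique M) {n : ℕ} (hn : 0 < n) {x : JZero M}
    (hx : n • x = 0) : MuRel M n x (muMap M x) := by
  obtain ⟨χ, hχ⟩ := hE n hn x hx
  rw [muMap_eq hU hn hχ]
  exact hχ

/-- **Assembly of the G1 contract** from the six pieces. -/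
theorem torsionUnif_of_muRel (p : ℕ) (hp : 0 < p) (hE : MuExists M) (hU : MuUnique M)
    (hA : MuAdd M) (hI : MuInj M) (hH : MuHecke M) (hS : MuSurj M) : TorsionUnif M p := by
  refine ⟨muMap M, ?_, ?_, ?_, ?_⟩
  · rintro x y ⟨a, ha⟩ ⟨b, hb⟩
    have hn : 0 < p ^ (a + b) := pow_pos hp _
    have hx : p ^ (a + b) • x = 0 := by rw [pow_add, mul_comm, mul_smul, ha, smul_zero]
    have hy : p ^ (a + b) • y = 0 := by rw [pow_add, mul_smul, hb, smul_zero]
    exact muMap_eq hU hn (hA _ hn x y _ _ (muRel_muMap hE hU hn hx) (muRel_muMap hE hU hn hy))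
  · rintro x ⟨a, ha⟩ h0
    have hn : 0 < p ^ a := pow_pos hp _
    have := muRel_muMap hE hU hn ha
    rw [h0] at this
    exact hI _ hn x this
  · rintro ℓ x ⟨a, ha⟩
    have hn : 0 < p ^ a := pow_pos hp _
    exact muMap_eq hU hn (hH p ℓ _ hn x _ (muRel_muMap hE hU hn ha))
  · intro φ hφ n
    have hn : 0 < p ^ n := pow_pos hp _
    obtain ⟨x, hx, hrel⟩ := hS φ hφ (p ^ n) hn
    exact ⟨x, hx, muMap_eq hU hn hrel⟩

end Fermat.Agent.ES
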