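import Fermat.Agent.ES.KummerBridge
import Fermat.Agent.ES.Mu

/-!
# ESpkg-G1 piece KB, specialised to `J₀(M)(ℚ̄)` (helper39)

`ES/Mu.lean` uses the generic `KummerRel n x u` of `ES/KummerBridge.lean` (with `x : JZero M`,
`u : modularFunctionFieldBar M`), so the items (1)–(5), (7) apply verbatim:
`exists_kummerRel`, `KummerRel.nsmul_eq_zero`, `KummerRel.zero/add/neg/sub/pow_left/const_mul`,
`KummerRel.exists_eq_mul_pow`, `KummerRel.eq_zero_of_pow`, `exists_kummerRel_of_dvd`,
`KummerRel.unique`.  Here: item (6) for the prelude Galois action of `GQ` on `JZero M`.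
-/

set_option autoImplicit false

namespace Fermat.Agent.ES

open ModularCurve AlgebraicCurve

variable {M : ℕ} {n : ℕ} {x : JZero M} {u : modularFunctionFieldBar M}

/-- (6) Galois: `KummerRel n x u ⇒ KummerRel n (σ • x) (σ u)` for `σ ∈ G_ℚ` acting on the
coefficients. -/
theorem KummerRel.galois (σ : GQ) (h : KummerRel n x u) :
    KummerRel n (σ • x) (arithmeticGalois (modularFunctionFieldFull M) σ • u) :=
  KummerRel.smul (arithmeticGalois (modularFunctionFieldFull M) σ) h

end Fermat.Agent.ES
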