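import Mathlib

/-!
# ESpkg-G1, piece A6-surj (S4): `N`-th roots in `k((q))`

`k` algebraically closed of characteristic `0`.

* `exists_pow_eq_powerSeries`: a power series with nonzero constant coefficient is an `N`-th power
  (`N > 0`).  Proof: solve the linear differential equation `W' = (P' / (N P)) W`,
  `W(0)^N = P(0)`, coefficient by coefficient; `W ^ N` and `P` satisfy the same equation.
* `exists_pow_eq_laurentSeries`: a nonzero Laurent series whose order is divisible by `N` is an
  `N`-th power.
-/

set_option autoImplicit false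

noncomputable section

namespace Fermat.Agent.ES.LaurentRoot

open PowerSeries

variable {k : Type*} [Field k]

/-- the coefficients of the solution of `W' = L W`, `W(0) = b₀`. -/
def odeCoeff [CharZero k] (L : PowerSeries k) (b0 : k) : ℕ → k
  | 0 => b0
  | (n + 1) => (∑ i ∈ (Finset.range (n + 1)).attach,
      coeff (n - i.1) L * odeCoeff L b0 i.1) / ((n : k) + 1)
decreasing_by exact Finset.mem_range.1 i.2

theorem odeCoeff_zero [CharZero k] (L : PowerSeries k) (b0 : k) : odeCoeff L b0 0 = b0 := by
  rw [odeCoeff]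

theorem odeCoeff_succ [CharZero k] (L : PowerSeries k) (b0 : k) (n : ℕ) :
    odeCoeff L b0 (n + 1) =
      (∑ i ∈ Finset.range (n + 1), coeff (n - i) L * odeCoeff L b0 i) / ((n : k) + 1) := by
  rw [odeCoeff]
  congr 1
  exact Finset.sum_attach (Finset.range (n + 1)) (fun i => coeff (n - i) L * odeCoeff L b0 i)

/-- the solution of `W' = L W`, `W(0) = b₀`. -/
def odeSol [CharZero k] (L : PowerSeries k) (b0 : k) : PowerSeries k := PowerSeries.mk (odeCoeff L b0)

theorem constantCoeff_odeSol [CharZero k] (L : PowerSeries k) (b0 : k) :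
    constantCoeff (odeSol L b0) = b0 := by
  rw [← coeff_zero_eq_constantCoeff_apply, odeSol, coeff_mk, odeCoeff_zero]

theorem derivative_odeSol [CharZero k] (L : PowerSeries k) (b0 : k) :
    derivative k (odeSol L b0) = L * odeSol L b0 := by
  ext n
  rw [coeff_derivative, coeff_mul, odeSol, coeff_mk, odeCoeff_succ,
    Finset.Nat.sum_antidiagonal_eq_sum_range_succ (fun i j => coeff i L * coeff j (mk (odeCoeff L b0)))]
  have hn : ((n : k) + 1) ≠ 0 := by exact_mod_cast Nat.succ_ne_zero n
  rw [div_mul_cancel₀ _ hn]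
  rw [← Finset.sum_range_reflect]
  refine Finset.sum_congr rfl fun i hi => ?_
  rw [Finset.mem_range] at hi
  rw [coeff_mk]
  have h1 : n - (n + 1 - 1 - i) = i := by omega
  have h2 : n + 1 - 1 - i = n - i := by omega
  rw [h1, h2]

/-- uniqueness for the equation `Y' = G Y`. -/
theorem eq_of_derivative_eq_mul [CharZero k] {G Y Z : PowerSeries k}
    (hY : derivative k Y = G * Y) (hZ : derivative k Z = G * Z)
    (h0 : constantCoeff Y = constantCoeff Z) : Y = Z := by
  ext n
  induction n using Nat.strong_induction_on with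
  | _ n ih =>
    rcases Nat.eq_zero_or_pos n with rfl | hn
    · simpa using h0
    obtain ⟨m, rfl⟩ := Nat.exists_eq_succ_of_ne_zero hn.ne'
    have e1 := congrArg (coeff m) hY
    have e2 := congrArg (coeff m) hZ
    rw [coeff_derivative, coeff_mul] at e1 e2
    have hsum : ∑ p ∈ Finset.HasAntidiagonal.antidiagonal m, coeff p.1 G * coeff p.2 Y
        = ∑ p ∈ Finset.HasAntidiagonal.antidiagonal m, coeff p.1 G * coeff p.2 Z := by
      refine Finset.sum_congr rfl fun p hp => ?_
      have := Finset.HasAntidiagonal.mem_antidiagonal.1 hp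
      rw [ih p.2 (by omega)]
    rw [hsum, ← e2] at e1
    have hm : ((m : k) + 1) ≠ 0 := by exact_mod_cast Nat.succ_ne_zero m
    exact mul_right_cancel₀ hm e1

/-- A power series with nonzero constant coefficient over an algebraically closed field of
characteristic `0` is an `N`-th power. -/
theorem exists_pow_eq_powerSeries [CharZero k] [IsAlgClosed k] {N : ℕ} (hN : 0 < N)
    (P : PowerSeries k) (hP : constantCoeff P ≠ 0) : ∃ W : PowerSeries k, W ^ N = P := by
  obtain ⟨b0, hb0⟩ := IsAlgClosed.exists_pow_nat_eq (constantCoeff P) hN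
  set L : PowerSeries k := C ((N : k)⁻¹) * (derivative k P * P⁻¹) with hL
  refine ⟨odeSol L b0, ?_⟩
  have hNk : (N : k) ≠ 0 := Nat.cast_ne_zero.2 hN.ne'
  have hNC : (N : PowerSeries k) * C ((N : k)⁻¹) = 1 := by
    rw [← map_natCast (C (R := k)), ← map_mul, mul_inv_cancel₀ hNk, map_one]
  refine eq_of_derivative_eq_mul (G := (N : PowerSeries k) * L) ?_ ?_ ?_
  · rw [derivative_pow, derivative_odeSol]
    obtain ⟨m, rfl⟩ := Nat.exists_eq_succ_of_ne_zero hN.ne'
    simp only [Nat.succ_sub_one, pow_succ]
    ring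
  · have h1 : (N : PowerSeries k) * L * P = derivative k P * (P⁻¹ * P) := by
      rw [hL]
      calc (N : PowerSeries k) * (C ((N : k)⁻¹) * (derivative k P * P⁻¹)) * P
          = ((N : PowerSeries k) * C ((N : k)⁻¹)) * (derivative k P * (P⁻¹ * P)) := by ring
        _ = derivative k P * (P⁻¹ * P) := by rw [hNC, one_mul]
    rw [h1, PowerSeries.inv_mul_cancel P hP, mul_one]
  · rw [map_pow, constantCoeff_odeSol, hb0]

/-- A nonzero Laurent series over an algebraically closed field of characteristic `0` whose order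
is divisible by `N > 0` is an `N`-th power. -/
theorem exists_pow_eq_laurentSeries [CharZero k] [IsAlgClosed k] {N : ℕ} (hN : 0 < N)
    (u : LaurentSeries k) (hu : u ≠ 0) (hdvd : (N : ℤ) ∣ u.order) :
    ∃ w : LaurentSeries k, w ^ N = u := by
  obtain ⟨m, hm⟩ := hdvd
  have hpart : constantCoeff u.powerSeriesPart ≠ 0 := by
    rw [← coeff_zero_eq_constantCoeff_apply, LaurentSeries.powerSeriesPart_coeff]
    simpa using (mt HahnSeries.coeff_order_eq_zero.1 hu)
  obtain ⟨W, hW⟩ := exists_pow_eq_powerSeries hN u.powerSeriesPart hpart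
  refine ⟨HahnSeries.single m (1 : k) * HahnSeries.ofPowerSeries ℤ k W, ?_⟩
  rw [mul_pow, HahnSeries.single_pow, one_pow, ← map_pow, hW, nsmul_eq_mul, ← hm]
  exact LaurentSeries.single_order_mul_powerSeriesPart u

end Fermat.Agent.ES.LaurentRoot
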