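import Fermat.Agent.ES.Multiplier
import Fermat.Agent.ES.PthRoot
import Fermat.Agent.S21.Parabolic

/-!
# ESpkg-G1, piece A2 (cusps): the multiplier of a parabolic element

* `IsMultiplier.eq_one_of_periodic_root` : if `(a/g)^p ∘ σ` has a `k`-periodic holomorphic `p`-th
  root on a half plane `Im τ > Y`, then the multiplier of `a/g` under `σ T^k σ⁻¹` is `1`;
* `RootData.mult_eq_one_of_periodic_root` : the same for the multiplier character;
* `RootData.ofPowEq` : the root datum attached to `a ^ p = f * g ^ (p - 1)`, `f / g` invariant.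
-/

set_option autoImplicit false

noncomputable section

open UpperHalfPlane Filter Topology
open scoped MatrixGroups Manifold

namespace Fermat.Agent.ES

open Fermat.Agent.S24

/-- A nonzero holomorphic function on `ℍ` does not vanish identically on a half plane. -/
theorem exists_ne_zero_im_gt {F : ℍ → ℂ} (hF : MDiff F) (hF0 : F ≠ 0) (Y : ℝ) :
    ∃ τ : ℍ, Y < τ.im ∧ F τ ≠ 0 := by
  by_contra hcon
  have hall : ∀ τ : ℍ, Y < τ.im → F τ = 0 := by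
    intro τ hτ
    by_contra h
    exact hcon ⟨τ, hτ, h⟩
  apply hF0
  -- a base point in the half plane
  have hY : (0 : ℝ) < max Y 0 + 1 := by positivity
  let τ₀ : ℍ := ⟨⟨0, max Y 0 + 1⟩, hY⟩
  have hτ₀ : Y < τ₀.im := by
    show Y < max Y 0 + 1
    have := le_max_left Y 0
    linarith
  refine UpperHalfPlane.eq_zero_of_frequently hF (τ := τ₀) ?_
  have hopen : IsOpen {τ : ℍ | Y < τ.im} :=
    isOpen_lt continuous_const UpperHalfPlane.continuous_im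
  have h1 : ∀ᶠ z in 𝓝 τ₀, F z = 0 := by
    filter_upwards [hopen.mem_nhds hτ₀] with z hz using hall z hz
  exact (h1.filter_mono nhdsWithin_le_nhds).frequently

/-- **Cusp criterion.**  Let `a / g` have multiplier `ζ` under `σ T^k σ⁻¹`.  If `(a/g)^p ∘ σ`
has a holomorphic `k`-periodic `p`-th root `r` on a half plane `Im z > Y`, then `ζ = 1`. -/
theorem IsMultiplier.eq_one_of_periodic_root {p : ℕ} (hp : p ≠ 0) {a g : ℍ → ℂ} (ha : MDiff a)
    (hg : MDiff g) (ha0 : a ≠ 0) (hg0 : g ≠ 0) {σ : SL(2, ℤ)} {k : ℤ} {ζ : ℂ}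
    (h : IsMultiplier (σ * ModularGroup.T ^ k * σ⁻¹) a g ζ)
    {Y : ℝ} {r : ℂ → ℂ} (hr : DifferentiableOn ℂ r {z : ℂ | Y < z.im})
    (hper : ∀ z : ℂ, Y < z.im → r (z + k) = r z)
    (hroot : ∀ τ : ℍ, Y < τ.im → r τ ^ p * g (σ • τ) ^ p = a (σ • τ) ^ p) : ζ = 1 := by
  -- the functions `A = a ∘ σ`, `G = g ∘ σ` and the multiplier relation for `T ^ k`
  set A : ℍ → ℂ := fun τ => a (σ • τ) with hA
  set G : ℍ → ℂ := fun τ => g (σ • τ) with hG
  have hAm : MDiff A := mdiff_comp_SL ha σ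
  have hGm : MDiff G := mdiff_comp_SL hg σ
  have hA0 : A ≠ 0 := fun h0 => ha0 ((comp_SL_eq_zero_iff σ).mp h0)
  have hG0 : G ≠ 0 := fun h0 => hg0 ((comp_SL_eq_zero_iff σ).mp h0)
  have hT : IsMultiplier (ModularGroup.T ^ k) A G ζ := by
    have h1 := h.conj σ
    have e : σ⁻¹ * (σ * ModularGroup.T ^ k * σ⁻¹) * σ = ModularGroup.T ^ k := by group
    rw [e] at h1
    exact h1
  -- the half plane
  set Y' : ℝ := max Y 0 with hY'
  set V : Set ℂ := {z : ℂ | Y' < z.im} with hVdef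
  have hVopen : IsOpen V := isOpen_lt continuous_const Complex.continuous_im
  have hVconn : IsPreconnected V := (convex_halfSpace_im_gt Y').isPreconnected
  have hVpos : ∀ z ∈ V, 0 < z.im := fun z hz => lt_of_le_of_lt (le_max_right Y 0) hz
  have hVY : ∀ z ∈ V, Y < z.im := fun z hz => lt_of_le_of_lt (le_max_left Y 0) hz
  have hVsub : V ⊆ {z : ℂ | 0 < z.im} := fun z hz => hVpos z hz
  have hVk : ∀ z ∈ V, z + (k : ℂ) ∈ V := by
    intro z hz
    have hz' : Y' < z.im := hz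
    show Y' < (z + (k : ℂ)).im
    rw [Complex.add_im, Complex.intCast_im, add_zero]
    exact hz'
  -- a good base point
  have hGk : MDiff (fun τ : ℍ => G (ModularGroup.T ^ k • τ)) := mdiff_comp_SL hGm _
  have hGk0 : (fun τ : ℍ => G (ModularGroup.T ^ k • τ)) ≠ 0 :=
    fun h0 => hG0 ((comp_SL_eq_zero_iff _).mp h0)
  obtain ⟨τ₀, hτ₀Y, hτ₀⟩ := exists_ne_zero_im_gt (hAm.mul hGk) (mdiff_mul_ne_zero hAm hGk hA0 hGk0) Y'
  have hτ₀' : A τ₀ * G (ModularGroup.T ^ k • τ₀) ≠ 0 := hτ₀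
  have hAτ₀ : A τ₀ ≠ 0 := left_ne_zero_of_mul hτ₀'
  have hGkτ₀ : G (ModularGroup.T ^ k • τ₀) ≠ 0 := right_ne_zero_of_mul hτ₀'
  have hz₀V : (τ₀ : ℂ) ∈ V := hτ₀Y
  -- the two `p`-th roots on `V`
  have hAd : DifferentiableOn ℂ (A ∘ ofComplex) V :=
    (UpperHalfPlane.mdifferentiable_iff.mp hAm).mono hVsub
  have hGd : DifferentiableOn ℂ (G ∘ ofComplex) V :=
    (UpperHalfPlane.mdifferentiable_iff.mp hGm).mono hVsub
  have hrd : DifferentiableOn ℂ r V := hr.mono fun z hz => hVY z hz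
  have hof : ∀ z ∈ V, ((ofComplex z : ℍ) : ℂ) = z := fun z hz =>
    congrArg _ (ofComplex_apply_of_im_pos (hVpos z hz))
  have hpowV : ∀ z ∈ V, r z ^ p * (G ∘ ofComplex) z ^ p = (A ∘ ofComplex) z ^ p := by
    intro z hz
    have h1 := hroot (ofComplex z) (by
      show Y < (ofComplex z : ℍ).im
      rw [← UpperHalfPlane.coe_im, hof z hz]; exact hVY z hz)
    rw [hof z hz] at h1
    exact h1
  have hτ₀of : ofComplex (τ₀ : ℂ) = τ₀ := ofComplex_apply τ₀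
  have hrG0 : r τ₀ * G τ₀ ≠ 0 := by
    intro h0
    have h1 := hpowV τ₀ hz₀V
    simp only [Function.comp_apply, hτ₀of] at h1
    rw [← mul_pow, h0, zero_pow hp] at h1
    exact hAτ₀ (pow_eq_zero_iff hp |>.mp h1.symm)
  obtain ⟨ζ', hζ'⟩ : ∃ ζ' : ℂ, A τ₀ = ζ' * (r τ₀ * G τ₀) :=
    ⟨A τ₀ / (r τ₀ * G τ₀), (div_mul_cancel₀ _ hrG0).symm⟩
  have hζ'p : ζ' ^ p = 1 := by
    have h1 := hpowV τ₀ hz₀V
    simp only [Function.comp_apply, hτ₀of] at h1
    rw [hζ', mul_pow, ← mul_pow (r τ₀)] at h1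
    have h2 : (r τ₀ * G τ₀) ^ p ≠ 0 := pow_ne_zero _ hrG0
    have h3 : ζ' ^ p * (r τ₀ * G τ₀) ^ p = 1 * (r τ₀ * G τ₀) ^ p := by rw [one_mul]; exact h1.symm
    exact mul_right_cancel₀ h2 h3
  have hEq : Set.EqOn (A ∘ ofComplex) (fun z => ζ' * (r z * (G ∘ ofComplex) z)) V := by
    refine pthRoot_eqOn hp hVopen hVconn hAd ((hrd.mul hGd).const_smul ζ' |>.congr ?_) ?_ hz₀V ?_ ?_
    · intro z _
      simp [smul_eq_mul]
    · intro z hz
      show (A ∘ ofComplex) z ^ p = (ζ' * (r z * (G ∘ ofComplex) z)) ^ p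
      rw [mul_pow, hζ'p, one_mul, mul_pow, hpowV z hz]
    · show (A ∘ ofComplex) τ₀ = ζ' * (r τ₀ * (G ∘ ofComplex) τ₀)
      simp only [Function.comp_apply, hτ₀of]
      exact hζ'
    · show ζ' * (r τ₀ * (G ∘ ofComplex) τ₀) ≠ 0
      simp only [Function.comp_apply, hτ₀of]
      refine mul_ne_zero ?_ hrG0
      intro h0
      rw [h0, zero_pow hp] at hζ'p
      exact zero_ne_one hζ'p
  -- evaluate at `τ₀` and at `T^k τ₀`
  have hTk : ((ModularGroup.T ^ k • τ₀ : ℍ) : ℂ) = (τ₀ : ℂ) + k :=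
    ModularGroup.coe_T_zpow_smul_eq τ₀
  have hTkof : ofComplex ((τ₀ : ℂ) + k) = ModularGroup.T ^ k • τ₀ := by
    rw [← hTk]; exact ofComplex_apply _
  have e1 : A τ₀ = ζ' * (r τ₀ * G τ₀) := hζ'
  have e2 : A (ModularGroup.T ^ k • τ₀) = ζ' * (r τ₀ * G (ModularGroup.T ^ k • τ₀)) := by
    have := hEq (hVk _ hz₀V)
    simp only [Function.comp_apply, hTkof] at this
    rw [this, hper _ (hVY _ hz₀V)]
  have e3 := hT τ₀
  rw [e2] at e3
  have e4 : (1 - ζ) * (A τ₀ * G (ModularGroup.T ^ k • τ₀)) = 0 := by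
    linear_combination e3 + G (ModularGroup.T ^ k • τ₀) * e1
  rcases mul_eq_zero.mp e4 with h5 | h5
  · exact (sub_eq_zero.mp h5).symm
  · exact absurd h5 (mul_ne_zero hAτ₀ hGkτ₀)

/-! ### Elliptic elements have finite order -/

/-- A matrix of `SL(2,ℤ)` with `X * X = t • X - 1`, `t ∈ {-1, 0, 1}`, has `X ^ 12 = 1`. -/
theorem sl2_pow_twelve_of_trace (X : Matrix (Fin 2) (Fin 2) ℤ) (t : ℤ)
    (hX : X * X = t • X - 1) (ht : t = 0 ∨ t = 1 ∨ t = -1) : X ^ 12 = 1 := by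
  have h2 : X ^ 2 = t • X - 1 := by rw [pow_two, hX]
  rcases ht with rfl | rfl | rfl
  · have h4 : X ^ 4 = 1 := by
      have : X ^ 4 = X ^ 2 * X ^ 2 := by rw [← pow_add]
      rw [this, h2, zero_smul, zero_sub, neg_mul_neg, one_mul]
    calc X ^ 12 = (X ^ 4) ^ 3 := by rw [← pow_mul]
      _ = 1 := by rw [h4, one_pow]
  · have h3 : X ^ 3 = -1 := by
      have : X ^ 3 = X ^ 2 * X := by rw [← pow_succ]
      rw [this, h2, sub_mul, one_mul, one_smul, ← pow_two, h2, one_smul]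
      abel
    calc X ^ 12 = (X ^ 3) ^ 4 := by rw [← pow_mul]
      _ = 1 := by rw [h3, Even.neg_pow ⟨2, rfl⟩, one_pow]
  · have h3 : X ^ 3 = 1 := by
      have : X ^ 3 = X ^ 2 * X := by rw [← pow_succ]
      rw [this, h2, sub_mul, one_mul, smul_mul_assoc, ← pow_two, h2]
      simp
    calc X ^ 12 = (X ^ 3) ^ 4 := by rw [← pow_mul]
      _ = 1 := by rw [h3, one_pow]

theorem sl2_mul_self_entries (X : Matrix (Fin 2) (Fin 2) ℤ) (hX : X.det = 1) :
    X * X = (X 0 0 + X 1 1) • X - 1 := by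
  rw [Matrix.det_fin_two] at hX
  ext i j
  rw [Matrix.sub_apply, Matrix.smul_apply, Matrix.mul_apply, Fin.sum_univ_two, smul_eq_mul]
  fin_cases i <;> fin_cases j
  · simp only [Fin.zero_eta, Fin.isValue, Matrix.one_apply_eq]
    linear_combination (-1 : ℤ) * hX
  · simp only [Fin.zero_eta, Fin.isValue, Fin.mk_one, ne_eq, zero_ne_one, not_false_eq_true,
      Matrix.one_apply_ne, sub_zero]
    ring
  · simp only [Fin.mk_one, Fin.isValue, Fin.zero_eta, ne_eq, one_ne_zero, not_false_eq_true,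
      Matrix.one_apply_ne, sub_zero]
    ring
  · simp only [Fin.mk_one, Fin.isValue, Matrix.one_apply_eq]
    linear_combination (-1 : ℤ) * hX

/-- **Elliptic elements have finite order**: an element of `SL(2,ℤ)` with a fixed point in `ℍ`
satisfies `γ ^ 12 = 1`. -/
theorem pow_twelve_eq_one_of_fixed (γ : SL(2, ℤ)) (τ₀ : ℍ) (hfix : γ • τ₀ = τ₀) : γ ^ 12 = 1 := by
  have hdet : γ 0 0 * γ 1 1 - γ 0 1 * γ 1 0 = 1 := by
    have h := γ.det_coe
    rwa [Matrix.det_fin_two] at h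
  -- the fixed point equation
  have hden : ((γ 1 0 : ℤ) : ℂ) * τ₀ + (γ 1 1 : ℤ) ≠ 0 := by
    have := UpperHalfPlane.denom_ne_zero (γ : GL (Fin 2) ℝ) τ₀
    rwa [ModularGroup.denom_apply] at this
  have hE : ((γ 0 0 : ℤ) : ℂ) * τ₀ + (γ 0 1 : ℤ) = τ₀ * (((γ 1 0 : ℤ) : ℂ) * τ₀ + (γ 1 1 : ℤ)) := by
    have h1 := UpperHalfPlane.coe_specialLinearGroup_apply γ τ₀
    rw [hfix] at h1
    simp only [algebraMap_int_eq, Int.coe_castRingHom, Complex.ofReal_intCast] at h1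
    rw [eq_div_iff hden] at h1
    exact h1.symm
  set x : ℝ := (τ₀ : ℂ).re with hx
  set y : ℝ := (τ₀ : ℂ).im with hy
  have hy0 : 0 < y := τ₀.im_pos
  have hτ : (τ₀ : ℂ) = ⟨x, y⟩ := by
    apply Complex.ext <;> rfl
  have him : (γ 1 0 : ℝ) * (2 * x) + (γ 1 1 : ℝ) - (γ 0 0 : ℝ) = 0 := by
    have h := congrArg Complex.im hE
    rw [hτ] at h
    simp only [Complex.add_im, Complex.mul_im, Complex.intCast_re, Complex.intCast_im,
      Complex.add_re, Complex.mul_re, zero_mul, add_zero, sub_zero] at h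
    have h' : y * ((γ 1 0 : ℝ) * (2 * x) + (γ 1 1 : ℝ) - (γ 0 0 : ℝ)) = 0 := by
      linear_combination -h
    rcases mul_eq_zero.mp h' with h0 | h0
    · exact absurd h0 hy0.ne'
    · exact h0
  have hre : (γ 0 1 : ℝ) = -(γ 1 0 : ℝ) * (x ^ 2 + y ^ 2) := by
    have h := congrArg Complex.re hE
    rw [hτ] at h
    simp only [Complex.add_im, Complex.mul_im, Complex.intCast_re, Complex.intCast_im,
      Complex.add_re, Complex.mul_re, zero_mul, add_zero, sub_zero] at h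
    linear_combination h + x * him
  have hdetR : (γ 0 0 : ℝ) * γ 1 1 - (γ 0 1 : ℝ) * γ 1 0 = 1 := by exact_mod_cast hdet
  have htrR : ((γ 0 0 : ℝ) + γ 1 1) ^ 2 = 4 - 4 * (γ 1 0 : ℝ) ^ 2 * y ^ 2 := by
    rw [hre] at hdetR
    linear_combination 4 * hdetR + ((γ 1 1 : ℝ) - γ 0 0 - γ 1 0 * (2 * x)) * him
  apply Subtype.ext
  rw [Matrix.SpecialLinearGroup.coe_pow, Matrix.SpecialLinearGroup.coe_one]
  by_cases hc : γ 1 0 = 0
  · -- `γ = ± 1`
    have had : γ 0 0 = γ 1 1 := by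
      have : (γ 1 1 : ℝ) - (γ 0 0 : ℝ) = 0 := by rw [hc] at him; simpa using him
      have : (γ 1 1 : ℝ) = (γ 0 0 : ℝ) := by linarith
      exact_mod_cast this.symm
    have hb : γ 0 1 = 0 := by
      have : (γ 0 1 : ℝ) = 0 := by rw [hre, hc]; simp
      exact_mod_cast this
    have hsq : γ 0 0 * γ 0 0 = 1 := by
      rw [hb, ← had] at hdet
      linarith
    have hX2 : (γ : Matrix (Fin 2) (Fin 2) ℤ) ^ 2 = 1 := by
      ext i j
      rw [pow_two, Matrix.mul_apply, Fin.sum_univ_two]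
      fin_cases i <;> fin_cases j
      · simp [hb, hsq]
      · simp [hb]
      · simp [hc]
      · simp [hc, ← had, hsq]
    calc (γ : Matrix (Fin 2) (Fin 2) ℤ) ^ 12 = ((γ : Matrix (Fin 2) (Fin 2) ℤ) ^ 2) ^ 6 := by
          rw [← pow_mul]
      _ = 1 := by rw [hX2, one_pow]
  · have hcR : (γ 1 0 : ℝ) ^ 2 * y ^ 2 > 0 := by
      have : (γ 1 0 : ℝ) ≠ 0 := by exact_mod_cast hc
      positivity
    have hlt : ((γ 0 0 : ℝ) + γ 1 1) ^ 2 < 4 := by rw [htrR]; linarith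
    have hltZ : (γ 0 0 + γ 1 1) ^ 2 < 4 := by exact_mod_cast hlt
    have ht : γ 0 0 + γ 1 1 = 0 ∨ γ 0 0 + γ 1 1 = 1 ∨ γ 0 0 + γ 1 1 = -1 := by
      have h1 : -2 < γ 0 0 + γ 1 1 := by nlinarith
      have h2 : γ 0 0 + γ 1 1 < 2 := by nlinarith
      omega
    exact sl2_pow_twelve_of_trace _ _ (sl2_mul_self_entries _ γ.det_coe) ht

/-! ### Parabolic elements -/

/-- The multiplier relation only depends on the action of `γ` on `ℍ`. -/
theorem IsMultiplier.congr_smul {γ γ' : SL(2, ℤ)} {a g : ℍ → ℂ} {ζ : ℂ}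
    (hγ : ∀ τ : ℍ, γ • τ = γ' • τ) (h : IsMultiplier γ a g ζ) : IsMultiplier γ' a g ζ := by
  intro τ
  have := h τ
  rwa [hγ τ] at this

/-- An element of `SL(2,ℤ)` with `tr² = 4` acts on `ℍ` as a conjugate `σ T^k σ⁻¹` of a power
of `T`. -/
theorem exists_conj_T_zpow_smul (γ : SL(2, ℤ))
    (hγ : ((γ : SL(2, ℤ)) : Matrix (Fin 2) (Fin 2) ℤ).trace ^ 2 = 4) :
    ∃ (σ : SL(2, ℤ)) (k : ℤ), ∀ τ : ℍ, γ • τ = (σ * ModularGroup.T ^ k * σ⁻¹) • τ := by
  obtain ⟨δ, β, hβ, hγδ⟩ := Fermat.Agent.S21.parabolic_exists_conj_upper γ hγ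
  obtain ⟨n, hn⟩ := ModularGroup.exists_eq_T_zpow_of_c_eq_zero hβ
  refine ⟨δ, n, fun τ => ?_⟩
  have e : γ = δ * β * δ⁻¹ := by
    rw [← hγδ]; group
  rw [e, mul_smul, mul_smul, hn, mul_smul, mul_smul]

namespace RootData

variable {Γ : Subgroup SL(2, ℤ)} {p : ℕ}

/-- **Cusp criterion for the multiplier character.**  If `γ ∈ Γ` acts as `σ T^k σ⁻¹` and
`(a/g)^p ∘ σ` has a holomorphic `k`-periodic `p`-th root on a half plane, then `χ(γ) = 1`. -/
theorem mult_eq_one_of_periodic_root (D : RootData Γ p) (γ : Γ) {σ : SL(2, ℤ)} {k : ℤ}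
    (hγ : ∀ τ : ℍ, (γ : SL(2, ℤ)) • τ = (σ * ModularGroup.T ^ k * σ⁻¹) • τ)
    {Y : ℝ} {r : ℂ → ℂ} (hr : DifferentiableOn ℂ r {z : ℂ | Y < z.im})
    (hper : ∀ z : ℂ, Y < z.im → r (z + k) = r z)
    (hroot : ∀ τ : ℍ, Y < τ.im → r τ ^ p * D.g (σ • τ) ^ p = D.a (σ • τ) ^ p) :
    D.mult γ = 1 := by
  apply Units.ext
  exact ((D.multVal_spec γ).congr_smul hγ).eq_one_of_periodic_root D.p_ne_zero D.mdiff_a D.mdiff_g
    D.a_ne_zero D.g_ne_zero hr hper hroot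

/-- **Parabolic elements.**  If `(a/g)^p ∘ σ` has a periodic holomorphic `p`-th root near `i∞`
for every conjugate `σ T^k σ⁻¹` acting as an element of `Γ`, then the multiplier character is
trivial on all elements of `Γ` of trace `±2`. -/
theorem mult_eq_one_of_trace (D : RootData Γ p)
    (hcusp : ∀ (γ : Γ) (σ : SL(2, ℤ)) (k : ℤ),
      (∀ τ : ℍ, (γ : SL(2, ℤ)) • τ = (σ * ModularGroup.T ^ k * σ⁻¹) • τ) →
      ∃ (Y : ℝ) (r : ℂ → ℂ), DifferentiableOn ℂ r {z : ℂ | Y < z.im} ∧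
        (∀ z : ℂ, Y < z.im → r (z + k) = r z) ∧
        ∀ τ : ℍ, Y < τ.im → r τ ^ p * D.g (σ • τ) ^ p = D.a (σ • τ) ^ p)
    (γ : Γ) (hγ : ((γ : SL(2, ℤ)) : Matrix (Fin 2) (Fin 2) ℤ).trace ^ 2 = 4) : D.mult γ = 1 := by
  obtain ⟨σ, k, hσ⟩ := exists_conj_T_zpow_smul (γ : SL(2, ℤ)) hγ
  obtain ⟨Y, r, hr, hper, hroot⟩ := hcusp γ σ k hσ
  exact D.mult_eq_one_of_periodic_root γ hσ hr hper hroot

/-- The additive multiplier character is a parabolic homomorphism (prelude's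
`IsParabolicHom`) as soon as the cusp condition holds. -/
theorem isParabolicHom_multAdd (D : RootData Γ p)
    (hcusp : ∀ (γ : Γ) (σ : SL(2, ℤ)) (k : ℤ),
      (∀ τ : ℍ, (γ : SL(2, ℤ)) • τ = (σ * ModularGroup.T ^ k * σ⁻¹) • τ) →
      ∃ (Y : ℝ) (r : ℂ → ℂ), DifferentiableOn ℂ r {z : ℂ | Y < z.im} ∧
        (∀ z : ℂ, Y < z.im → r (z + k) = r z) ∧
        ∀ τ : ℍ, Y < τ.im → r τ ^ p * D.g (σ • τ) ^ p = D.a (σ • τ) ^ p) :
    ModularCurve.Period.IsParabolicHom Γ D.multAdd := by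
  intro γ hγ
  rw [multAdd_apply, D.mult_eq_one_of_trace hcusp γ hγ]
  rfl

/-- **Elliptic elements, `p` prime to `6`.**  The multiplier character is trivial on every
element of `Γ` with a fixed point in `ℍ`. -/
theorem mult_eq_one_of_fixed_of_coprime (D : RootData Γ p) (hp6 : Nat.Coprime p 6) (γ : Γ)
    {τ₀ : ℍ} (hfix : (γ : SL(2, ℤ)) • τ₀ = τ₀) : D.mult γ = 1 := by
  have h12 : γ ^ 12 = 1 := by
    apply Subtype.ext
    rw [Subgroup.coe_pow, Subgroup.coe_one]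
    exact pow_twelve_eq_one_of_fixed _ τ₀ hfix
  have h1 : D.mult γ ^ 12 = 1 := by rw [← map_pow, h12, map_one]
  have h2 := D.mult_pow γ
  have h3 : D.mult γ ^ Nat.gcd p 12 = 1 := pow_gcd_eq_one.mpr ⟨h2, h1⟩
  have hcop : Nat.gcd p 12 = 1 := by
    have : Nat.Coprime p (2 * 6) := Nat.Coprime.mul_right (hp6.coprime_dvd_right (by norm_num)) hp6
    exact this
  rwa [hcop, pow_one] at h3

/-- The root datum attached to a holomorphic solution `a` of `a ^ p = f * g ^ (p - 1)`, where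
`f / g` is `Γ`-invariant: `a / g` is a `p`-th root of `f / g`. -/
def ofPowEq (hp : p ≠ 0) {a f g : ℍ → ℂ} (ha : MDiff a) (hg : MDiff g) (ha0 : a ≠ 0)
    (hg0 : g ≠ 0) (hpow : ∀ τ, a τ ^ p = f τ * g τ ^ (p - 1))
    (hinv : ∀ γ ∈ Γ, ∀ τ : ℍ, f (γ • τ) * g τ = f τ * g (γ • τ)) : RootData Γ p where
  a := a
  g := g
  p_ne_zero := hp
  mdiff_a := ha
  mdiff_g := hg
  a_ne_zero := ha0
  g_ne_zero := hg0
  pow_inv γ hγ τ := by
    obtain ⟨n, rfl⟩ : ∃ n, p = n + 1 := Nat.exists_eq_succ_of_ne_zero hp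
    have h1 := hinv γ hγ τ
    have h2 := hpow τ
    have h3 := hpow (γ • τ)
    simp only [Nat.add_sub_cancel] at h2 h3
    rw [mul_pow, mul_pow, h2, h3, pow_succ (g τ), pow_succ (g (γ • τ))]
    linear_combination (g (γ • τ) ^ n * g τ ^ n) * h1

@[simp] theorem ofPowEq_a (hp : p ≠ 0) {a f g : ℍ → ℂ} (ha : MDiff a) (hg : MDiff g)
    (ha0 : a ≠ 0) (hg0 : g ≠ 0) (hpow : ∀ τ, a τ ^ p = f τ * g τ ^ (p - 1))
    (hinv : ∀ γ ∈ Γ, ∀ τ : ℍ, f (γ • τ) * g τ = f τ * g (γ • τ)) :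
    (ofPowEq (Γ := Γ) hp ha hg ha0 hg0 hpow hinv).a = a := rfl

@[simp] theorem ofPowEq_g (hp : p ≠ 0) {a f g : ℍ → ℂ} (ha : MDiff a) (hg : MDiff g)
    (ha0 : a ≠ 0) (hg0 : g ≠ 0) (hpow : ∀ τ, a τ ^ p = f τ * g τ ^ (p - 1))
    (hinv : ∀ γ ∈ Γ, ∀ τ : ℍ, f (γ • τ) * g τ = f τ * g (γ • τ)) :
    (ofPowEq (Γ := Γ) hp ha hg ha0 hg0 hpow hinv).g = g := rfl

/-- **Existence of the root datum** (A1 + A2): if `f / g` is `Γ`-invariant and all its orders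
on `ℍ` are divisible by `p`, there is a root datum `a / g` with `(a/g)^p = f/g`. -/
theorem exists_ofDiv (hp : p ≠ 0) {f g : ℍ → ℂ} (hf : MDiff f) (hg : MDiff g) (hf0 : f ≠ 0)
    (hg0 : g ≠ 0)
    (hord : ∀ τ : ℍ, ∃ k : ℤ, ((ordAt τ f).toNat : ℤ) - ((ordAt τ g).toNat : ℤ) = p * k)
    (hinv : ∀ γ ∈ Γ, ∀ τ : ℍ, f (γ • τ) * g τ = f τ * g (γ • τ)) :
    ∃ D : RootData Γ p, D.g = g ∧ ∀ τ, D.a τ ^ p = f τ * g τ ^ (p - 1) := by
  obtain ⟨a, ha, ha0, hpow⟩ := exists_mdiff_pow_eq_div hp hf hg hf0 hg0 hord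
  exact ⟨ofPowEq hp ha hg ha0 hg0 hpow hinv, rfl, hpow⟩

end RootData

end Fermat.Agent.ES
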