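import Fermat.Agent.S28.NormPoly
import Fermat.Agent.ES.Multiplier

/-!
# ESpkg-G1, piece A2 (kernel): a `p`-th root of a modular function is a modular function

* `isModFun_of_pow` : `a` holomorphic on `ℍ`, `Γ₀(M)`-invariant, `a ^ p` a modular function
  (`IsModFun M`, i.e. meromorphic at the cusps) ⟹ `a` is a modular function.
* `RootData.isModFun_a` : if the multiplier character of `a / g` is trivial, `g` is a modular
  function and `a ^ p` is one, then `a` is a modular function.  Hence `u = (a/g)^p` is a `p`-th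
  power in `Frac (modFunAlg M)`: the multiplier map is injective.
-/

set_option autoImplicit false

noncomputable section

open UpperHalfPlane ModularForm CongruenceSubgroup Filter Topology
open scoped MatrixGroups Manifold

namespace Fermat.Agent.ES

open Fermat.Agent.S23 Fermat.Agent.S28

local notation "Δ" => ModularForm.discriminant

/-- The slash action of weight `12 m` on `f · Δ ^ m` is precomposition on `f`. -/
theorem slash_mul_discPow (f : ℍ → ℂ) (m : ℕ) (γ : SL(2, ℤ)) :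
    (fun τ => f τ * Δ τ ^ m) ∣[(12 * (m : ℤ))] γ = fun τ => f (γ • τ) * Δ τ ^ m := by
  ext τ
  rw [SL_slash_apply]
  have hγ : (γ : GL (Fin 2) ℝ) ∈ 𝒮ℒ := ⟨γ, rfl⟩
  have h := SlashInvariantForm.slash_action_eqn'' CuspForm.discriminant hγ τ
  have hd : denom (γ : GL (Fin 2) ℝ) τ ≠ 0 := denom_ne_zero _ _
  have h' : Δ (γ • τ) = denom (γ : GL (Fin 2) ℝ) τ ^ (12 : ℤ) * Δ τ := h
  rw [h', mul_pow, ← zpow_natCast (denom (γ : GL (Fin 2) ℝ) τ ^ (12 : ℤ)) m, ← zpow_mul,
    zpow_neg]
  field_simp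

/-- A function whose `p`-th power is bounded at `i∞` is bounded at `i∞`. -/
theorem isBoundedAtImInfty_of_pow {p : ℕ} (hp : p ≠ 0) {H : ℍ → ℂ}
    (h : IsBoundedAtImInfty (fun z => H z ^ p)) : IsBoundedAtImInfty H := by
  rw [UpperHalfPlane.isBoundedAtImInfty_iff] at h ⊢
  obtain ⟨C, A, hCA⟩ := h
  refine ⟨max 1 C, A, fun z hz => ?_⟩
  have h1 := hCA z hz
  rw [norm_pow] at h1
  by_cases h2 : ‖H z‖ ≤ 1
  · exact h2.trans (le_max_left _ _)
  · push Not at h2
    have h3 : ‖H z‖ ≤ ‖H z‖ ^ p := le_self_pow₀ h2.le hp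
    exact (h3.trans h1).trans (le_max_right _ _)

theorem isBoundedAtImInfty_discPow (n : ℕ) : IsBoundedAtImInfty (fun z : ℍ => Δ z ^ n) := by
  have h1 : IsBoundedAtImInfty (fun z : ℍ => Δ z) :=
    (discriminant_isZeroAtImInfty : Tendsto (fun τ : ℍ => Δ τ) atImInfty (𝓝 0)).isBigO_one ℝ
  induction n with
  | zero =>
    simp only [pow_zero]
    exact Filter.const_boundedAtFilter _ (1 : ℂ)
  | succ n ih =>
    have := ih.mul h1
    have e : ((fun z : ℍ => Δ z ^ n) * fun z : ℍ => Δ z) = fun z : ℍ => Δ z ^ (n + 1) := by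
      funext z
      simp [pow_succ]
    rwa [e] at this

/-- **A `p`-th root of a modular function is a modular function.**  If `a` is holomorphic on
`ℍ` and `Γ₀(M)`-invariant and `a ^ p` is a modular function for `Γ₀(M)` (meromorphic at the
cusps), then so is `a`. -/
theorem isModFun_of_pow {M p : ℕ} [NeZero M] (hp : p ≠ 0) {a : ℍ → ℂ} (ha : MDiff a)
    (hinv : ∀ γ ∈ Gamma0 M, ∀ τ : ℍ, a (γ • τ) = a τ)
    (hpow : IsModFun M (fun z => a z ^ p)) : IsModFun M a := by
  obtain ⟨m, F, hF⟩ := hpow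
  have hΔ : MDiff (fun z : ℍ => Δ z ^ m) := by
    have h : MDiff (CuspForm.discriminant : ℍ → ℂ) := CuspForm.discriminant.holo'
    exact h.pow m
  refine ⟨m, ⟨{ toFun := fun z => a z * Δ z ^ m
                slash_action_eq' := ?_
                holo' := ha.mul hΔ
                bdd_at_cusps' := ?_ }, rfl⟩⟩
  · rintro _ ⟨γ, hγ, rfl⟩
    have h1 := slash_mul_discPow a m γ
    rw [SL_slash] at h1
    refine h1.trans ?_
    funext τ
    rw [hinv γ hγ τ]
  · intro c hc
    rw [Subgroup.IsArithmetic.isCusp_iff_isCusp_SL2Z] at hc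
    rw [OnePoint.isBoundedAt_iff_forall_SL2Z hc]
    intro γ _
    rw [slash_mul_discPow]
    apply isBoundedAtImInfty_of_pow hp
    -- `(a∘γ · Δ^m)^p = (F ∣ γ) · Δ^((p-1) m)`
    have h1 : IsBoundedAtImInfty ((F : ℍ → ℂ) ∣[(12 * (m : ℤ))] γ) :=
      ModularFormClass.bdd_at_infty_slash F γ
    rw [hF, slash_mul_discPow] at h1
    have h2 := h1.mul (isBoundedAtImInfty_discPow ((p - 1) * m))
    refine h2.congr_left fun z => ?_
    obtain ⟨n, rfl⟩ : ∃ n, p = n + 1 := Nat.exists_eq_succ_of_ne_zero hp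
    simp only [Pi.mul_apply, Nat.add_sub_cancel]
    ring

/-- A modular function for `Γ₀(M)` is `Γ₀(M)`-invariant. -/
theorem isModFun_comp_smul {M : ℕ} {f : ℍ → ℂ} (hf : IsModFun M f) {γ : SL(2, ℤ)}
    (hγ : γ ∈ Gamma0 M) (τ : ℍ) : f (γ • τ) = f τ := by
  obtain ⟨m, F, hF⟩ := hf
  have h1 : (F : ℍ → ℂ) ∣[(12 * (m : ℤ))] (Matrix.SpecialLinearGroup.mapGL ℝ γ) = F :=
    F.slash_action_eq' _ ⟨γ, hγ, rfl⟩
  have h2 := slash_mul_discPow f m γ
  rw [SL_slash, ← hF] at h2
  have h3 : (F : ℍ → ℂ) τ = f (γ • τ) * Δ τ ^ m := by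
    have := congrFun (h1.symm.trans h2) τ
    exact this
  rw [hF] at h3
  exact (mul_right_cancel₀ (pow_ne_zero m (discriminant_ne_zero τ)) h3).symm

namespace RootData

variable {M p : ℕ}

/-- **Kernel of the multiplier map.**  Let `a / g` be a root datum for `Γ₀(M)` with trivial
multiplier character, `g` a modular function and `a ^ p` a modular function.  Then `a` is a
modular function (so `(a/g)^p` is a `p`-th power in `Frac (modFunAlg M)`). -/
theorem isModFun_a_of_mult_eq_one [NeZero M] (D : RootData (Gamma0 M) p) (hmult : D.mult = 1)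
    (hg : IsModFun M D.g) (hpow : IsModFun M (fun z => D.a z ^ p)) : IsModFun M D.a := by
  refine isModFun_of_pow D.p_ne_zero D.mdiff_a (fun γ hγ => ?_) hpow
  have h1 := (D.mult_eq_one_iff_invariant).mp hmult γ hγ
  have hgγ : MDiff (fun τ => D.g (γ • τ)) := mdiff_comp_SL D.mdiff_g γ
  refine mdiff_mul_right_cancel (mdiff_comp_SL D.mdiff_a γ) D.mdiff_a D.mdiff_g D.g_ne_zero
    fun τ => ?_
  rw [h1 τ, isModFun_comp_smul hg hγ τ]

/-- The same, for the root datum of `u = f / g` with `a ^ p = f * g ^ (p - 1)`, `f`, `g`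
modular functions: trivial multiplier ⟹ `a` is a modular function, and `u = (a / g) ^ p`. -/
theorem isModFun_a_of_pow_eq [NeZero M] (D : RootData (Gamma0 M) p) (hmult : D.mult = 1)
    {f : ℍ → ℂ} (hf : IsModFun M f) (hg : IsModFun M D.g)
    (hpow : ∀ τ, D.a τ ^ p = f τ * D.g τ ^ (p - 1)) : IsModFun M D.a := by
  refine D.isModFun_a_of_mult_eq_one hmult hg ?_
  have h1 : IsModFun M (f * D.g ^ (p - 1)) := hf.mul (hg.pow (p - 1))
  have e : (fun z => D.a z ^ p) = f * D.g ^ (p - 1) := by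
    funext z
    simpa using hpow z
  rw [e]
  exact h1

/-- **`p`-th powers have trivial multiplier.**  If `(a/g)^p = (b/c)^p` with `b / c` invariant
under `Γ`, then the multiplier character of `a / g` is trivial. -/
theorem mult_eq_one_of_pow_eq_invariant {Γ : Subgroup SL(2, ℤ)} (D : RootData Γ p)
    {b c : ℍ → ℂ} (hb : MDiff b) (hc : MDiff c) (hb0 : b ≠ 0) (hc0 : c ≠ 0)
    (hinv : ∀ γ ∈ Γ, ∀ τ : ℍ, b (γ • τ) * c τ = b τ * c (γ • τ))
    (h : ∀ τ : ℍ, (D.a τ * c τ) ^ p = (b τ * D.g τ) ^ p) : D.mult = 1 := by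
  let D' : RootData Γ p :=
    { a := b
      g := c
      p_ne_zero := D.p_ne_zero
      mdiff_a := hb
      mdiff_g := hc
      a_ne_zero := hb0
      g_ne_zero := hc0
      pow_inv := fun γ hγ τ => by rw [hinv γ hγ τ] }
  have h1 : D'.mult = 1 := (D'.mult_eq_one_iff_invariant).mpr hinv
  rw [← h1]
  exact D.mult_eq_of_pow_eq D' h

end RootData

end Fermat.Agent.ES
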