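import Fermat.Agent.ES.RC.PlacePt
import Fermat.Agent.ES.MultiplierCusp
import Fermat.Agent.ES.RootModFun

/-!
# ESpkg-G1, pieces AN + INJ (function/field level): the root datum of a Kummer function

`F` is any field of fractions of `modFunAlg M` (e.g. `K_ℂ = modularFunctionFieldFullC ℂ M` with
helper85's instances `rc_algebra`, `rc_isScalarTower`, `rc_isFractionRing`).

* `dvd_ordPt_sub_of_places` : if `n ∣ w.ord x` for every place `w` of `F / ℂ` and `x = a / g`
  with `a g ∈ modFunAlg M`, then `n ∣ ord_τ a - ord_τ g` for every `τ ∈ ℍ` (uses `RC.StmtPt`);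
* `exists_rootData_of_modFun` : then there is a root datum `D` (`RootData (Gamma0 M) n`) with
  `D.g = g`, `D.a ^ n = a * g ^ (n - 1)`: `D.a / g` is an `n`-th root of `a / g` on `ℍ`;
* `exists_rootData_of_places` : both steps together;
* `exists_pow_eq_of_mult_eq_one` : if the multiplier character of `D` is trivial then `a / g` is
  an `n`-th power in `F`;
* `mult_eq_one_of_pow_eq` : conversely, `n`-th powers in `F` have trivial multiplier.
-/

set_option autoImplicit false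

noncomputable section

open UpperHalfPlane AlgebraicCurve CongruenceSubgroup
open scoped MatrixGroups Manifold

namespace Fermat.Agent.ES

open Fermat.Agent.S24 Fermat.Agent.S28 Fermat.Agent.ES.RC

section Analytic

variable {M n : ℕ}

/-- **AN (analytic step).**  If `a`, `g` are modular functions for `Γ₀(M)` and `n` divides
`ord_τ a - ord_τ g` at every point of `ℍ`, then `a / g` has an `n`-th root `D.a / g` on `ℍ`,
which is a root datum for `Γ₀(M)`. -/
theorem exists_rootData_of_modFun (hn : n ≠ 0) {a g : ℍ → ℂ} (ha : IsModFun M a)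
    (hg : IsModFun M g) (ha0 : a ≠ 0) (hg0 : g ≠ 0)
    (hord : ∀ τ : ℍ, (n : ℤ) ∣ ordPt τ a - ordPt τ g) :
    ∃ D : RootData (Gamma0 M) n, D.g = g ∧ ∀ τ, D.a τ ^ n = a τ * g τ ^ (n - 1) := by
  refine RootData.exists_ofDiv hn (rc_mdiff_of_isModFun ha) (rc_mdiff_of_isModFun hg) ha0 hg0
    (fun τ => ?_) (fun γ hγ τ => ?_)
  · obtain ⟨k, hk⟩ := hord τ
    exact ⟨k, hk⟩
  · rw [isModFun_comp_smul ha hγ τ, isModFun_comp_smul hg hγ τ]

end Analytic

section Field

variable (M : ℕ) [NeZero M] (F : Type) [Field F] [Algebra ℂ F] [Algebra (modFunAlg M) F]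
  [IsFractionRing (modFunAlg M) F] {n : ℕ}

omit [Algebra ℂ F] in
theorem algebraMap_modFunAlg_ne_zero {a : modFunAlg M} (ha : a ≠ 0) :
    algebraMap (modFunAlg M) F a ≠ 0 := by
  intro h
  apply ha
  exact IsFractionRing.injective (modFunAlg M) F (by rw [h, map_zero])

theorem coe_modFunAlg_ne_zero {a : modFunAlg M} (ha : a ≠ 0) : (a : ℍ → ℂ) ≠ 0 :=
  fun h => ha (Subtype.ext h)

/-- **AN (places ⟹ orders).**  If `n` divides the order of `a / g` at every place of `F / ℂ`,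
then `n` divides `ord_τ a - ord_τ g` at every `τ ∈ ℍ`. -/
theorem dvd_ordPt_sub_of_places (hPt : StmtPt M F) {a g : modFunAlg M} (ha0 : a ≠ 0)
    (hg0 : g ≠ 0)
    (hU : ∀ w : Place ℂ F,
      (n : ℤ) ∣ w.ord (algebraMap (modFunAlg M) F a / algebraMap (modFunAlg M) F g))
    (τ : ℍ) : (n : ℤ) ∣ ordPt τ (a : ℍ → ℂ) - ordPt τ (g : ℍ → ℂ) := by
  obtain ⟨v, e, -, h⟩ := hPt τ
  have ha' := algebraMap_modFunAlg_ne_zero M F ha0
  have hg' := algebraMap_modFunAlg_ne_zero M F hg0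
  have h1 : v.ord (algebraMap (modFunAlg M) F a / algebraMap (modFunAlg M) F g)
      = v.ord (algebraMap (modFunAlg M) F a) - v.ord (algebraMap (modFunAlg M) F g) := by
    rw [div_eq_mul_inv, Place.ord_mul v ha' (inv_ne_zero hg'), Place.ord_inv, sub_eq_add_neg]
  rw [h a ha0, h g hg0, ← mul_sub, ← h1]
  exact Dvd.dvd.mul_left (hU v) _

/-- **AN.**  A Kummer function `x = a / g` of `F` (all orders at places divisible by `n`) has a
root datum: a holomorphic `D.a` on `ℍ` with `D.a ^ n = a * g ^ (n - 1)`, i.e.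
`(D.a / g) ^ n = a / g`. -/
theorem exists_rootData_of_places (hn : n ≠ 0) (hPt : StmtPt M F) {a g : modFunAlg M}
    (ha0 : a ≠ 0) (hg0 : g ≠ 0)
    (hU : ∀ w : Place ℂ F,
      (n : ℤ) ∣ w.ord (algebraMap (modFunAlg M) F a / algebraMap (modFunAlg M) F g)) :
    ∃ D : RootData (Gamma0 M) n, D.g = (g : ℍ → ℂ) ∧
      ∀ τ, D.a τ ^ n = (a : ℍ → ℂ) τ * (g : ℍ → ℂ) τ ^ (n - 1) :=
  exists_rootData_of_modFun hn a.2 g.2 (coe_modFunAlg_ne_zero M ha0) (coe_modFunAlg_ne_zero M hg0)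
    (dvd_ordPt_sub_of_places M F hPt ha0 hg0 hU)

omit [Algebra ℂ F] in
/-- **INJ (field step).**  If the multiplier character of the root datum of `a / g` is trivial,
then `a / g` is an `n`-th power in `F`. -/
theorem exists_pow_eq_of_mult_eq_one (D : RootData (Gamma0 M) n) (hmult : D.mult = 1)
    {a g : modFunAlg M} (hg0 : g ≠ 0) (hDg : D.g = (g : ℍ → ℂ))
    (hpow : ∀ τ, D.a τ ^ n = (a : ℍ → ℂ) τ * (g : ℍ → ℂ) τ ^ (n - 1)) :
    ∃ k : F, k ^ n = algebraMap (modFunAlg M) F a / algebraMap (modFunAlg M) F g := by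
  have hDa : IsModFun M D.a :=
    D.isModFun_a_of_pow_eq hmult a.2 (by rw [hDg]; exact g.2) (by
      intro τ
      rw [hDg]
      exact hpow τ)
  set b : modFunAlg M := ⟨D.a, hDa⟩ with hb
  have hg' := algebraMap_modFunAlg_ne_zero M F hg0
  refine ⟨algebraMap (modFunAlg M) F b / algebraMap (modFunAlg M) F g, ?_⟩
  have hn : n ≠ 0 := D.p_ne_zero
  have h1 : b ^ n = a * g ^ (n - 1) := by
    apply Subtype.ext
    funext τ
    exact hpow τ
  rw [div_pow, ← map_pow, h1, map_mul, map_pow]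
  obtain ⟨m, rfl⟩ : ∃ m, n = m + 1 := Nat.exists_eq_succ_of_ne_zero hn
  simp only [Nat.add_sub_cancel]
  field_simp
  ring

omit [Algebra ℂ F] in
/-- **INJ (converse).**  If `a / g = (b / c) ^ n` in `F` with `b c ∈ modFunAlg M`, then the
multiplier character of any root datum of `a / g` is trivial. -/
theorem mult_eq_one_of_pow_eq (D : RootData (Gamma0 M) n) {a g b c : modFunAlg M} (hg0 : g ≠ 0)
    (hb0 : b ≠ 0) (hc0 : c ≠ 0) (hDg : D.g = (g : ℍ → ℂ))
    (hpow : ∀ τ, D.a τ ^ n = (a : ℍ → ℂ) τ * (g : ℍ → ℂ) τ ^ (n - 1))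
    (h : (algebraMap (modFunAlg M) F b / algebraMap (modFunAlg M) F c) ^ n
      = algebraMap (modFunAlg M) F a / algebraMap (modFunAlg M) F g) : D.mult = 1 := by
  have hn : n ≠ 0 := D.p_ne_zero
  have hg' := algebraMap_modFunAlg_ne_zero M F hg0
  have hc' := algebraMap_modFunAlg_ne_zero M F hc0
  -- `b ^ n * g = a * c ^ n` in `modFunAlg M`
  have h1 : b ^ n * g = a * c ^ n := by
    apply IsFractionRing.injective (modFunAlg M) F
    rw [map_mul, map_mul, map_pow, map_pow]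
    rw [div_pow, div_eq_div_iff (pow_ne_zero _ hc') hg'] at h
    exact h
  have h1' : ∀ τ, (b : ℍ → ℂ) τ ^ n * (g : ℍ → ℂ) τ = (a : ℍ → ℂ) τ * (c : ℍ → ℂ) τ ^ n :=
    fun τ => congrFun (congrArg Subtype.val h1) τ
  refine D.mult_eq_one_of_pow_eq_invariant (rc_mdiff M b) (rc_mdiff M c)
    (coe_modFunAlg_ne_zero M hb0) (coe_modFunAlg_ne_zero M hc0) (fun γ hγ τ => ?_) (fun τ => ?_)
  · rw [isModFun_comp_smul b.2 hγ τ, isModFun_comp_smul c.2 hγ τ]
  · -- `(D.a c)^n = a g^(n-1) c^n = b^n g^n`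
    rw [hDg, mul_pow, mul_pow, hpow τ]
    obtain ⟨m, rfl⟩ : ∃ m, n = m + 1 := Nat.exists_eq_succ_of_ne_zero hn
    simp only [Nat.add_sub_cancel]
    have := h1' τ
    linear_combination (-(g : ℍ → ℂ) τ ^ m) * this

end Field

end Fermat.Agent.ES
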