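import Fermat.Agent.ES.Mu
import Fermat.Agent.ES.RootOfKummer
import Fermat.Agent.ES.BaseChangeDown
import Fermat.Agent.ES.DescentInj

/-!
# ESpkg-G1: the pieces `MuExists` (E) and `MuInj` (I) of the multiplier map

* `muExists M : MuExists M` — every `n`-torsion class of `J₀(M)(ℚ̄)` has a multiplier character:
  a Kummer function `u` (KB) is `a / g` analytically (RC-i), its orders at all places of `K_ℂ`
  are divisible by `n` (BCd), hence so are its orders on `ℍ` (RC-ii `stmtPt`), hence `a / g` has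
  a holomorphic `n`-th root on `ℍ` (A1), a root datum (A2).
* `muInj M : MuInj M` — a class with trivial multiplier character is zero: the `n`-th root is a
  modular function (A2 kernel lemma), so `u` is an `n`-th power in `K_ℂ`, hence in `K_ℚ̄`
  (DescentInj), hence the class is zero (KB).
-/

set_option autoImplicit false
set_option linter.style.haveILetI false

noncomputable section

namespace Fermat.Agent.ES

open ModularCurve AlgebraicCurve CongruenceSubgroup UpperHalfPlane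
open Fermat.Agent.S24 Fermat.Agent.S28 Fermat.Agent.ES.RC
open scoped MatrixGroups Manifold

attribute [local instance] algKbC

/-! ### Orders of powers -/

theorem ordAt_pow' {f : ℍ → ℂ} (hf : MDiff f) (n : ℕ) (τ : ℍ) :
    ordAt τ (f ^ n) = n * ordAt τ f := by
  induction n with
  | zero =>
    have h1 : (f ^ 0 : ℍ → ℂ) = fun _ => (1 : ℂ) := by
      funext z
      simp
    rw [h1, ordAt_const one_ne_zero]
    simp
  | succ n ih =>
    rw [pow_succ, ordAt_mul (hf.pow n) hf, ih]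
    push_cast
    ring

theorem ordPt_eq_of_ne_zero {f : ℍ → ℂ} (hf : MDiff f) (hf0 : f ≠ 0) (τ : ℍ) :
    ((ordPt τ f).toNat : ℕ∞) = ordAt τ f := by
  rw [ordPt, Int.toNat_natCast]
  exact ENat.natCast_toNat (ordAt_ne_top hf hf0 τ)

/-- If `r ^ n * g = a * s ^ n` (holomorphic nonzero functions on `ℍ`), then `n` divides
`ord_τ a - ord_τ g`. -/
theorem dvd_ordPt_sub_of_pow_eq {n : ℕ} {a g r s : ℍ → ℂ} (ha : MDiff a) (hg : MDiff g)
    (hr : MDiff r) (hs : MDiff s) (ha0 : a ≠ 0) (hg0 : g ≠ 0) (hr0 : r ≠ 0) (hs0 : s ≠ 0)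
    (h : ∀ τ : ℍ, r τ ^ n * g τ = a τ * s τ ^ n) (τ : ℍ) :
    (n : ℤ) ∣ ordPt τ a - ordPt τ g := by
  have hfun : r ^ n * g = a * s ^ n := funext h
  have h1 := congrArg (ordAt τ) hfun
  rw [ordAt_mul (hr.pow n) hg, ordAt_mul ha (hs.pow n), ordAt_pow' hr, ordAt_pow' hs] at h1
  obtain ⟨ka, hka⟩ := ENat.ne_top_iff_exists.mp (ordAt_ne_top ha ha0 τ)
  obtain ⟨kg, hkg⟩ := ENat.ne_top_iff_exists.mp (ordAt_ne_top hg hg0 τ)
  obtain ⟨kr, hkr⟩ := ENat.ne_top_iff_exists.mp (ordAt_ne_top hr hr0 τ)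
  obtain ⟨ks, hks⟩ := ENat.ne_top_iff_exists.mp (ordAt_ne_top hs hs0 τ)
  rw [← hka, ← hkg, ← hkr, ← hks] at h1
  have h2 : n * kr + kg = ka + n * ks := by exact_mod_cast h1
  have h3 : ordPt τ a = ka := by rw [ordPt, ← hka]; rfl
  have h4 : ordPt τ g = kg := by rw [ordPt, ← hkg]; rfl
  rw [h3, h4]
  refine ⟨(kr : ℤ) - ks, ?_⟩
  have h5 : (n : ℤ) * kr + kg = ka + n * ks := by exact_mod_cast h2
  linear_combination -h5

variable (M : ℕ) [NeZero M]

/-! ### (E) existence -/

/-- **(E)** every `n`-torsion class of `J₀(M)(ℚ̄)` has a multiplier character. -/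
theorem muExists : MuExists M := by
  intro n hn x hx
  obtain ⟨u, hK⟩ := exists_kummerRel hx
  have hu0 : u ≠ 0 := hK.ne_zero
  have hdvd : ∀ v : Place Kb (modularFunctionFieldBar M), (n : ℤ) ∣ v.ord u := by
    obtain ⟨D, -, -, hD⟩ := hK
    intro v
    exact ⟨_, (hD v).symm⟩
  obtain ⟨a, g, ha, hg, hg', h⟩ := rc_exists_frac M (iotaC M u).2
  rw [iotaC_coe] at h
  have hιu : iotaC M u ≠ 0 := fun h0 => hu0 (iotaC_injective M (by rw [h0, map_zero]))
  have hg0 : g ≠ 0 := by
    rintro rfl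
    exact hg' laurentOf_zero
  have ha0 : a ≠ 0 := by
    rintro rfl
    rw [laurentOf_zero] at h
    rcases mul_eq_zero.mp h with h1 | h1
    · exact hιu (Subtype.ext h1)
    · exact hg' h1
  letI := rc_algebra M
  haveI := rc_isScalarTower M
  haveI := rc_isFractionRing M
  set a' : modFunAlg M := ⟨a, ha⟩ with ha'
  set g' : modFunAlg M := ⟨g, hg⟩ with hg''
  have ha'0 : a' ≠ 0 := fun h0 => ha0 (congrArg Subtype.val h0)
  have hg'0 : g' ≠ 0 := fun h0 => hg0 (congrArg Subtype.val h0)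
  have hquot : algebraMap (modFunAlg M) (modularFunctionFieldFullC ℂ M) a' /
      algebraMap (modFunAlg M) (modularFunctionFieldFullC ℂ M) g' = iotaC M u := by
    rw [div_eq_iff (algebraMap_modFunAlg_ne_zero M _ hg'0)]
    apply Subtype.ext
    exact h.symm
  have hU : ∀ w : Place ℂ (modularFunctionFieldFullC ℂ M),
      (n : ℤ) ∣ w.ord (algebraMap (modFunAlg M) (modularFunctionFieldFullC ℂ M) a' /
        algebraMap (modFunAlg M) (modularFunctionFieldFullC ℂ M) g') := by
    intro w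
    rw [hquot]
    rcases baseChangeDown M w with h0 | ⟨v, e, -, hv⟩
    · rw [h0 u]
      exact dvd_zero _
    · rw [hv u]
      exact Dvd.dvd.mul_left (hdvd v) e
  obtain ⟨R, hRg, hRpow⟩ := exists_rootData_of_places M (modularFunctionFieldFullC ℂ M)
    (Nat.pos_iff_ne_zero.mp hn) (stmtPt M (modularFunctionFieldFullC ℂ M)) ha'0 hg'0 hU
  refine ⟨R.multAdd, u, a, g, R, hK, ⟨ha, hg, hg0, h⟩, fun τ => ?_, rfl⟩
  rw [hRg, hRpow τ]
  obtain ⟨m, rfl⟩ : ∃ m, n = m + 1 := Nat.exists_eq_succ_of_ne_zero (Nat.pos_iff_ne_zero.mp hn)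
  simp only [Nat.add_sub_cancel]
  show a τ * g τ ^ m * g τ = a τ * g τ ^ (m + 1)
  ring

/-! ### (I) injectivity -/

/-- **(I)** a torsion class with trivial multiplier character is zero. -/
theorem muInj : MuInj M := by
  rintro n hn x ⟨u, a, g, R, hK, ⟨ha, hg, hg0, h⟩, hpow, hχ⟩
  have hn0 : n ≠ 0 := Nat.pos_iff_ne_zero.mp hn
  have hu0 : u ≠ 0 := hK.ne_zero
  have hιu : iotaC M u ≠ 0 := fun h0 => hu0 (iotaC_injective M (by rw [h0, map_zero]))
  have hg' : laurentOf g ≠ 0 := by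
    intro h0
    exact hg0 ((laurentOf_eq_zero_iff hg.isMerInf).mp h0)
  have ha0 : a ≠ 0 := by
    rintro rfl
    rw [laurentOf_zero] at h
    rcases mul_eq_zero.mp h with h1 | h1
    · exact hιu (Subtype.ext h1)
    · exact hg' h1
  have hRmult : R.mult = 1 := by
    ext1 γ
    have := DFunLike.congr_fun hχ (Additive.ofMul γ)
    exact this
  -- the root datum with denominator `g`
  have hord := dvd_ordPt_sub_of_pow_eq (rc_mdiff_of_isModFun ha) (rc_mdiff_of_isModFun hg)
    R.mdiff_a R.mdiff_g ha0 hg0 R.a_ne_zero R.g_ne_zero hpow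
  obtain ⟨D, hDg, hDpow⟩ := exists_rootData_of_modFun hn0 ha hg ha0 hg0 hord
  have hDR : D.mult = R.mult := by
    refine D.mult_eq_of_pow_eq R fun τ => ?_
    obtain ⟨m, rfl⟩ : ∃ m, n = m + 1 := Nat.exists_eq_succ_of_ne_zero hn0
    have h1 := hDpow τ
    have h2 := hpow τ
    simp only [Nat.add_sub_cancel] at h1
    rw [mul_pow, mul_pow, h1, hDg]
    linear_combination (-(g τ ^ m)) * h2
  have hDmult : D.mult = 1 := hDR.trans hRmult
  letI := rc_algebra M
  haveI := rc_isScalarTower M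
  haveI := rc_isFractionRing M
  set a' : modFunAlg M := ⟨a, ha⟩ with ha'
  set g' : modFunAlg M := ⟨g, hg⟩ with hg''
  have hg'0 : g' ≠ 0 := fun h0 => hg0 (congrArg Subtype.val h0)
  have hquot : algebraMap (modFunAlg M) (modularFunctionFieldFullC ℂ M) a' /
      algebraMap (modFunAlg M) (modularFunctionFieldFullC ℂ M) g' = iotaC M u := by
    rw [div_eq_iff (algebraMap_modFunAlg_ne_zero M _ hg'0)]
    apply Subtype.ext
    exact h.symm
  obtain ⟨k, hk⟩ := exists_pow_eq_of_mult_eq_one M (modularFunctionFieldFullC ℂ M) D hDmult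
    (a := a') (g := g') hg'0 hDg hDpow
  rw [hquot] at hk
  -- descent to `K_ℚ̄`
  have hk' : (k : LaurentSeries ℂ) ^ n
      = coeffMap (algebraMap Kb ℂ) (u : LaurentSeries (AlgebraicClosure ℚ)) := by
    have := congrArg Subtype.val hk
    exact this
  have hkmem : (k : LaurentSeries ℂ) ∈ laurentBaseChange ℂ (modularFunctionFieldFull M) := by
    rw [Fermat.Agent.ES.G2.hdeg_laurentBaseChange_full ℂ M]
    exact k.2
  obtain ⟨w', hw', -, hw'pow⟩ :=
    DescentInj.exists_root_mem_laurentBaseChange (K := Kb) (L := ℂ) (modularFunctionFieldFull M)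
      hn0 hkmem hk'
  have hu : u = 1 * (⟨w', hw'⟩ : modularFunctionFieldBar M) ^ n := by
    rw [one_mul]
    apply Subtype.ext
    exact hw'pow.symm
  rw [hu] at hK
  exact hK.eq_zero_of_pow hn0 (fun v => v.ord_one)

end Fermat.Agent.ES
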