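import Fermat.Agent.ES.Multiplier
import Fermat.Agent.ES.HeckeHom

/-!
# ESpkg-G1 piece A4, part 3: the multiplier of `∏_A w ∘ A` is `T_n χ`

For a representative `A = [[a, b], [0, d]] ∈ HeckeRep n`, `A.act τ = (a τ + b) / d`.
`heckeProd n f τ = ∏_A f (A.act τ)` (for `n = ℓ` prime this is `f(ℓτ) · ∏_{b<ℓ} f((τ+b)/ℓ)`, the
function whose `q`-expansion is the norm `N(f(q^ℓ))`).

* `RootData.hecke hnM D` : the root datum `(∏_A a ∘ A) / (∏_A g ∘ A)`;
* `RootData.hecke_mult` : its multiplier is `γ ↦ ∏_A χ (coc A γ)`;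
* `RootData.hecke_multAdd` : `(D.hecke hnM).multAdd = heckeHom hnM D.multAdd`.
-/

set_option autoImplicit false

noncomputable section

open Matrix CongruenceSubgroup UpperHalfPlane
open scoped MatrixGroups Manifold

namespace Fermat.Agent.ES

variable {n M : ℕ}

/-- A representative as an element of `GL₂(ℝ)`. -/
def HeckeRep.toGL [NeZero n] (A : HeckeRep n) : GL (Fin 2) ℝ :=
  Matrix.GeneralLinearGroup.mkOfDetNeZero (A.mat.map (Int.cast : ℤ → ℝ)) (by
    rw [← Int.cast_det, A.det_mat]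
    exact_mod_cast NeZero.ne n)

theorem HeckeRep.toGL_val [NeZero n] (A : HeckeRep n) :
    (A.toGL : Matrix (Fin 2) (Fin 2) ℝ) = A.mat.map (Int.cast : ℤ → ℝ) := rfl

theorem HeckeRep.toGL_det [NeZero n] (A : HeckeRep n) : A.toGL.det.val = (n : ℝ) := by
  show (A.toGL : Matrix (Fin 2) (Fin 2) ℝ).det = n
  rw [HeckeRep.toGL_val, ← Int.cast_det, A.det_mat]
  simp

theorem HeckeRep.toGL_det_pos [NeZero n] (A : HeckeRep n) : 0 < A.toGL.det.val := by
  rw [A.toGL_det]
  exact_mod_cast Nat.pos_of_ne_zero (NeZero.ne n)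

/-- The action `τ ↦ (a τ + b) / d` of a representative on `ℍ`. -/
def HeckeRep.act [NeZero n] (A : HeckeRep n) (τ : ℍ) : ℍ := A.toGL • τ

theorem HeckeRep.mdiff_act [NeZero n] (A : HeckeRep n) : MDiff (fun τ : ℍ => A.act τ) :=
  UpperHalfPlane.mdifferentiable_smul A.toGL_det_pos

theorem HeckeRep.coe_act [NeZero n] (A : HeckeRep n) (τ : ℍ) :
    ((A.act τ : ℍ) : ℂ) = ((A.a : ℂ) * τ + A.b) / A.d := by
  rw [HeckeRep.act, UpperHalfPlane.coe_smul_of_det_pos A.toGL_det_pos]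
  simp [UpperHalfPlane.num, UpperHalfPlane.denom, HeckeRep.toGL_val]

/-- `A γ = γ' A'` as an identity in `GL₂(ℝ)`. -/
theorem HeckeRep.toGL_mul [NeZero n] (hnM : Nat.Coprime n M) (A : HeckeRep n) (γ : Gamma0 M) :
    A.toGL * Matrix.SpecialLinearGroup.mapGL ℝ (γ : SL(2, ℤ))
      = Matrix.SpecialLinearGroup.mapGL ℝ ((HeckeRep.coc hnM A γ : Gamma0 M) : SL(2, ℤ))
        * (HeckeRep.next hnM A γ).toGL := by
  apply Matrix.GeneralLinearGroup.ext
  intro i j
  have h := congrArg (fun X : Matrix (Fin 2) (Fin 2) ℤ => X.map (Int.cast : ℤ → ℝ))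
    (HeckeRep.mat_mul hnM A γ)
  simp only [Matrix.map_mul_intCast] at h
  have h' := congrFun (congrFun h i) j
  simpa [HeckeRep.toGL_val, Matrix.SpecialLinearGroup.mapGL] using h'

/-- `A (γ τ) = γ' (A' τ)`. -/
theorem HeckeRep.act_smul [NeZero n] (hnM : Nat.Coprime n M) (A : HeckeRep n) (γ : Gamma0 M)
    (τ : ℍ) :
    A.act ((γ : SL(2, ℤ)) • τ)
      = ((HeckeRep.coc hnM A γ : Gamma0 M) : SL(2, ℤ)) • (HeckeRep.next hnM A γ).act τ := by
  show A.toGL • (Matrix.SpecialLinearGroup.mapGL ℝ (γ : SL(2, ℤ)) • τ)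
    = Matrix.SpecialLinearGroup.mapGL ℝ ((HeckeRep.coc hnM A γ : Gamma0 M) : SL(2, ℤ))
      • ((HeckeRep.next hnM A γ).toGL • τ)
  rw [← mul_smul, ← mul_smul, HeckeRep.toGL_mul hnM A γ]

/-! ### The product over the representatives -/

/-- `τ ↦ ∏_A f (A τ)`. -/
def heckeProd (n : ℕ) [NeZero n] (f : ℍ → ℂ) : ℍ → ℂ :=
  fun τ => ∏ A : HeckeRep n, f (A.act τ)

theorem heckeProd_apply (n : ℕ) [NeZero n] (f : ℍ → ℂ) (τ : ℍ) :
    heckeProd n f τ = ∏ A : HeckeRep n, f (A.act τ) := rfl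

theorem heckeProd_mul (n : ℕ) [NeZero n] (f g : ℍ → ℂ) :
    heckeProd n (fun τ => f τ * g τ) = fun τ => heckeProd n f τ * heckeProd n g τ := by
  funext τ
  simp only [heckeProd_apply, Finset.prod_mul_distrib]

theorem heckeProd_pow (n : ℕ) [NeZero n] (f : ℍ → ℂ) (k : ℕ) :
    heckeProd n (fun τ => f τ ^ k) = fun τ => heckeProd n f τ ^ k := by
  funext τ
  simp only [heckeProd_apply, Finset.prod_pow]

theorem mdiff_heckeProd (n : ℕ) [NeZero n] {f : ℍ → ℂ} (hf : MDiff f) : MDiff (heckeProd n f) := by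
  have h : ∀ s : Finset (HeckeRep n), MDiff (fun τ : ℍ => ∏ A ∈ s, f (A.act τ)) := by
    intro s
    classical
    induction s using Finset.induction_on with
    | empty => simpa using (mdifferentiable_const : MDiff (fun _ : ℍ => (1 : ℂ)))
    | insert A s hA ih =>
      simp only [Finset.prod_insert hA]
      exact (hf.comp A.mdiff_act).mul ih
  exact h Finset.univ

theorem HeckeRep.comp_act_ne_zero [NeZero n] (A : HeckeRep n) {f : ℍ → ℂ} (hf0 : f ≠ 0) :
    (fun τ : ℍ => f (A.act τ)) ≠ 0 := by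
  intro h
  apply hf0
  funext τ
  have := congrFun h (A.toGL⁻¹ • τ)
  simpa [HeckeRep.act, smul_smul] using this

theorem heckeProd_ne_zero (n : ℕ) [NeZero n] {f : ℍ → ℂ} (hf : MDiff f) (hf0 : f ≠ 0) :
    heckeProd n f ≠ 0 := by
  have h : ∀ s : Finset (HeckeRep n), (fun τ : ℍ => ∏ A ∈ s, f (A.act τ)) ≠ 0 ∧
      MDiff (fun τ : ℍ => ∏ A ∈ s, f (A.act τ)) := by
    intro s
    classical
    induction s using Finset.induction_on with
    | empty =>
      refine ⟨?_, by simpa using (mdifferentiable_const : MDiff (fun _ : ℍ => (1 : ℂ)))⟩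
      intro h
      have := congrFun h UpperHalfPlane.I
      simp at this
    | insert A s hA ih =>
      simp only [Finset.prod_insert hA]
      exact ⟨mdiff_mul_ne_zero (hf.comp A.mdiff_act) ih.2 (A.comp_act_ne_zero hf0) ih.1,
        (hf.comp A.mdiff_act).mul ih.2⟩
  exact (h Finset.univ).1

/-! ### The multiplier of the product -/

/-- **Multiplier of `∏_A w ∘ A`.**  If `χ` is the multiplier character of `a / g` on `Γ₀(M)`,
then `∏_A (a/g) ∘ A` has multiplier `γ ↦ ∏_A χ (coc A γ)`. -/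
theorem isMultiplier_heckeProd [NeZero n] (hnM : Nat.Coprime n M) {a g : ℍ → ℂ}
    (χ : Gamma0 M → ℂ) (hχ : ∀ γ : Gamma0 M, IsMultiplier (γ : SL(2, ℤ)) a g (χ γ))
    (γ : Gamma0 M) :
    IsMultiplier (γ : SL(2, ℤ)) (heckeProd n a) (heckeProd n g)
      (∏ A : HeckeRep n, χ (HeckeRep.coc hnM A γ)) := by
  intro τ
  simp only [heckeProd_apply]
  have e1 : ∀ f : ℍ → ℂ, ∏ A : HeckeRep n, f (A.act τ)
      = ∏ A : HeckeRep n, f ((HeckeRep.next hnM A γ).act τ) := by
    intro f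
    exact (Equiv.prod_comp (HeckeRep.perm hnM γ) (fun A => f (A.act τ))).symm
  have e2 : ∀ f : ℍ → ℂ, ∏ A : HeckeRep n, f (A.act ((γ : SL(2, ℤ)) • τ))
      = ∏ A : HeckeRep n,
          f (((HeckeRep.coc hnM A γ : Gamma0 M) : SL(2, ℤ)) • (HeckeRep.next hnM A γ).act τ) := by
    intro f
    refine Finset.prod_congr rfl fun A _ => ?_
    rw [HeckeRep.act_smul hnM A γ τ]
  rw [e2 a, e2 g, e1 g, e1 a, ← Finset.prod_mul_distrib, ← Finset.prod_mul_distrib,
    ← Finset.prod_mul_distrib]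
  refine Finset.prod_congr rfl fun A _ => ?_
  exact hχ (HeckeRep.coc hnM A γ) ((HeckeRep.next hnM A γ).act τ)

namespace RootData

variable {p : ℕ}

/-- The Hecke transform `(∏_A a ∘ A) / (∏_A g ∘ A)` of a root datum on `Γ₀(M)`. -/
def hecke [NeZero n] (hnM : Nat.Coprime n M) (D : RootData (Gamma0 M) p) :
    RootData (Gamma0 M) p where
  a := heckeProd n D.a
  g := heckeProd n D.g
  p_ne_zero := D.p_ne_zero
  mdiff_a := mdiff_heckeProd n D.mdiff_a
  mdiff_g := mdiff_heckeProd n D.mdiff_g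
  a_ne_zero := heckeProd_ne_zero n D.mdiff_a D.a_ne_zero
  g_ne_zero := heckeProd_ne_zero n D.mdiff_g D.g_ne_zero
  pow_inv γ hγ τ := by
    have h := isMultiplier_heckeProd hnM (fun δ : Gamma0 M => D.multVal δ)
      (fun δ => D.multVal_spec δ) ⟨γ, hγ⟩ τ
    have h1 : (∏ A : HeckeRep n, D.multVal (HeckeRep.coc hnM A ⟨γ, hγ⟩)) ^ p = 1 := by
      rw [← Finset.prod_pow]
      exact Finset.prod_eq_one fun A _ => D.multVal_pow _
    have h2 : heckeProd n D.a (γ • τ) * heckeProd n D.g τ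
        = (∏ A : HeckeRep n, D.multVal (HeckeRep.coc hnM A ⟨γ, hγ⟩))
          * (heckeProd n D.a τ * heckeProd n D.g (γ • τ)) := h
    rw [h2, mul_pow, h1, one_mul]

@[simp] theorem hecke_a [NeZero n] (hnM : Nat.Coprime n M) (D : RootData (Gamma0 M) p) :
    (D.hecke hnM).a = heckeProd n D.a := rfl

@[simp] theorem hecke_g [NeZero n] (hnM : Nat.Coprime n M) (D : RootData (Gamma0 M) p) :
    (D.hecke hnM).g = heckeProd n D.g := rfl

/-- **The multiplier of the Hecke transform.** -/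
theorem hecke_mult [NeZero n] (hnM : Nat.Coprime n M) (D : RootData (Gamma0 M) p)
    (γ : Gamma0 M) :
    (D.hecke hnM).mult γ = ∏ A : HeckeRep n, D.mult (HeckeRep.coc hnM A γ) := by
  rw [mult_eq_iff]
  have h := isMultiplier_heckeProd hnM (fun δ : Gamma0 M => D.multVal δ)
    (fun δ => D.multVal_spec δ) γ
  have e : ((∏ A : HeckeRep n, D.mult (HeckeRep.coc hnM A γ) : ℂˣ) : ℂ)
      = ∏ A : HeckeRep n, D.multVal (HeckeRep.coc hnM A γ) := by
    rw [Units.coe_prod]
    rfl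
  rw [e]
  exact h

/-- **Hecke equivariance of the multiplier map**: the multiplier character of the Hecke transform
is the group-theoretic Hecke operator applied to the multiplier character. -/
theorem hecke_multAdd [NeZero n] (hnM : Nat.Coprime n M) (D : RootData (Gamma0 M) p) :
    (D.hecke hnM).multAdd = heckeHom hnM D.multAdd := by
  refine DFunLike.ext _ _ fun γ => ?_
  obtain ⟨γ, rfl⟩ := Additive.ofMul.surjective γ
  rw [multAdd_apply, heckeHom_apply, hecke_mult]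
  simp only [multAdd_apply]
  rw [ofMul_prod]

end RootData

end Fermat.Agent.ES
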