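import Fermat.Agent.ES.Mu
import Fermat.Agent.ES.HeckeKummer
import Fermat.Agent.ES.G2.HeckeNorm
import Fermat.Agent.ES.RC.HeckeProdLaurent
import Fermat.Agent.ES.RC.PlacePt
import Fermat.Agent.ES.IotaC
import Fermat.Agent.ES.EigenSupport

/-!
# ESpkg-G1, piece (H) of the multiplier map: `MuHecke M` (helper92)

`muHecke M : MuHecke M` — the multiplier map `μ` is Hecke-equivariant for the primes `ℓ ∤ M`:
if `χ` is the multiplier of an `n`-th root of a Kummer function `u` of `x`, then `T_ℓ χ` is the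
multiplier of an `n`-th root of a Kummer function of `T_ℓ x`.

Proof.  `u' = N_α (β u)` is a Kummer function of `T_ℓ x` (HKa, `KummerRel.hecke`).  Its
`q`-expansion is `kronHecke ℓ ζ u` (`G2.stmtHeckeNorm`), which for `u = a / g` is the `q`-expansion
of `(∏_A a ∘ A) / (∏_A g ∘ A)` (`RC.rc_laurentOf_heckeProd`, multiplicativity of `kronHecke`).
Write `u' = a' / g'` with `a'`, `g'` modular functions (`RC.rc_exists_frac`); then
`a' · ∏_A g ∘ A = g' · ∏_A a ∘ A`, and the root datum `R.hecke` (`w' = ∏_A w ∘ A`) satisfies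
`w'ⁿ = a' / g'`; its multiplier is `T_ℓ χ` (`RootData.hecke_multAdd`, `heckeHom_eq_heckeP`).
-/

set_option autoImplicit false
set_option linter.style.haveILetI false

noncomputable section

namespace Fermat.Agent.ES

open ModularCurve AlgebraicCurve CongruenceSubgroup ModularCurve.Period UpperHalfPlane
open Fermat.Agent.S24 Fermat.Agent.S28 Fermat.Agent.ES.G2
open scoped MatrixGroups Manifold

/-- `kronHecke` commutes with a change of coefficients. -/
theorem coeffMap_kronHecke {L L' : Type*} [Field L] [Field L'] (φ : L →+* L') (ℓ : ℕ) [NeZero ℓ]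
    (ζ : Lˣ) (f : LaurentSeries L) :
    coeffMap φ (kronHecke ℓ ζ f) = kronHecke ℓ (Units.map (φ : L →* L') ζ) (coeffMap φ f) := by
  rw [kronHecke, kronHecke, map_mul, coeffMap_kronNorm, coeffMap_qExpand]

/-- cancellation of a nonzero holomorphic factor -/
theorem mdiff_eq_of_mul_eq {F G H : ℍ → ℂ} (hF : MDiff F) (hG : MDiff G) (hH : MDiff H)
    (hH0 : H ≠ 0) (h : ∀ τ, F τ * H τ = G τ * H τ) : F = G := by
  by_contra hne
  have hd : MDiff (fun τ => F τ - G τ) := hF.sub hG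
  have hd0 : (fun τ => F τ - G τ) ≠ 0 := by
    intro h0
    apply hne
    funext τ
    have := congrFun h0 τ
    simpa [sub_eq_zero] using this
  apply mdiff_mul_ne_zero hd hH hd0 hH0
  funext τ
  simp only [Pi.zero_apply, sub_mul, h τ, sub_self]

variable (M : ℕ) [NeZero M]

/-- **(H): Hecke-equivariance of the multiplier relation**, in terms of `StmtHeckeNorm`. -/
theorem muHecke_of (hHN : G2.StmtHeckeNorm) : MuHecke M := by
  rintro p ℓ n hn x χ ⟨u, a, g, R, hK, ⟨ha, hg, hg0, hq⟩, hroot, hχ⟩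
  have hℓ : ((ℓ : Nat.Primes) : ℕ).Prime := ℓ.1.2
  haveI : NeZero ((ℓ : Nat.Primes) : ℕ) := ⟨hℓ.ne_zero⟩
  haveI : Fact ((ℓ : Nat.Primes) : ℕ).Prime := ⟨hℓ⟩
  have hℓM : ¬ ((ℓ : Nat.Primes) : ℕ) ∣ M := GoodPrime.not_dvd ℓ
  have hcop : Nat.Coprime ((ℓ : Nat.Primes) : ℕ) M :=
    (Nat.Prime.coprime_iff_not_dvd hℓ).mpr hℓM
  -- the roots of unity
  obtain ⟨ζ, hζ⟩ := G2.frob_exists_primitiveRoot ((ℓ : Nat.Primes) : ℕ) hℓ.ne_zero
  obtain ⟨ζC, hζCdef⟩ : ∃ ζC : ℂˣ, ζC = Units.map ((embC : Qb →+* ℂ) : Qb →* ℂ) ζ := ⟨_, rfl⟩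
  have hζC : IsPrimitiveRoot ζC ((ℓ : Nat.Primes) : ℕ) := by
    rw [hζCdef]
    exact hζ.map_of_injective (Units.map_injective (f := ((embC : Qb →+* ℂ) : Qb →* ℂ))
      embC.injective)
  -- the Kummer function of `T_ℓ x`
  obtain ⟨u', hu'def⟩ : ∃ u' : modularFunctionFieldBar M,
      u' = heckeNormFun M ((ℓ : Nat.Primes) : ℕ) u := ⟨_, rfl⟩
  have hK' : KummerRel n (heckeOperatorBar M (ℓ : Nat.Primes) x) u' := by
    rw [hu'def]
    exact KummerRel.hecke M (ℓ : Nat.Primes) hK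
  have hu' : coeffMap embC (u' : LaurentSeries Qb)
      = kronHecke ((ℓ : Nat.Primes) : ℕ) ζC (coeffMap embC (u : LaurentSeries Qb)) := by
    rw [hu'def, heckeNormFun_coe M hHN _ hℓ hℓM ζ hζ u, coeffMap_kronHecke, hζCdef]
  -- the analytic norms
  have hLa := RC.rc_laurentOf_heckeProd _ hℓ ζC hζC ha.isMerInf
  have hLg := RC.rc_laurentOf_heckeProd _ hℓ ζC hζC hg.isMerInf
  have hMa := RC.rc_isMerInf_heckeProd _ hℓ ha.isMerInf
  have hMg := RC.rc_isMerInf_heckeProd _ hℓ hg.isMerInf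
  have hq2 : coeffMap embC (u' : LaurentSeries Qb)
        * laurentOf (heckeProd ((ℓ : Nat.Primes) : ℕ) g)
      = laurentOf (heckeProd ((ℓ : Nat.Primes) : ℕ) a) := by
    rw [hu', hLa, hLg, ← kronHecke_mul ζC hζC, hq]
  -- a fraction for `u'`
  obtain ⟨a', g', ha', hg', hg'0, hq'⟩ := RC.rc_exists_frac M (coeffMap_embC_mem M u'.2)
  have hg'ne : g' ≠ 0 := by
    rintro rfl
    exact hg'0 laurentOf_zero
  -- `a' · ∏ g∘A = g' · ∏ a∘A`
  have hcross : a' * heckeProd ((ℓ : Nat.Primes) : ℕ) g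
      = g' * heckeProd ((ℓ : Nat.Primes) : ℕ) a := by
    apply laurentOf_injective (ha'.isMerInf.mul hMg) (hg'.isMerInf.mul hMa)
    rw [laurentOf_mul ha'.isMerInf hMg, laurentOf_mul hg'.isMerInf hMa, ← hq', ← hq2]
    ring
  -- the root
  have hrootP : ∀ τ : ℍ, heckeProd ((ℓ : Nat.Primes) : ℕ) R.a τ ^ n
        * heckeProd ((ℓ : Nat.Primes) : ℕ) g τ
      = heckeProd ((ℓ : Nat.Primes) : ℕ) a τ * heckeProd ((ℓ : Nat.Primes) : ℕ) R.g τ ^ n := by
    intro τ
    simp only [heckeProd_apply, ← Finset.prod_pow, ← Finset.prod_mul_distrib]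
    exact Finset.prod_congr rfl fun A _ => hroot _
  have hmda' : MDiff a' := RC.rc_mdiff_of_isModFun ha'
  have hmdg' : MDiff g' := RC.rc_mdiff_of_isModFun hg'
  have hmdg : MDiff g := RC.rc_mdiff_of_isModFun hg
  have hmdRa : MDiff (heckeProd ((ℓ : Nat.Primes) : ℕ) R.a) := mdiff_heckeProd _ R.mdiff_a
  have hmdRg : MDiff (heckeProd ((ℓ : Nat.Primes) : ℕ) R.g) := mdiff_heckeProd _ R.mdiff_g
  have hmdPg : MDiff (heckeProd ((ℓ : Nat.Primes) : ℕ) g) := mdiff_heckeProd _ hmdg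
  have hPg0 : heckeProd ((ℓ : Nat.Primes) : ℕ) g ≠ 0 := heckeProd_ne_zero _ hmdg hg0
  have hfin : (fun τ : ℍ => heckeProd ((ℓ : Nat.Primes) : ℕ) R.a τ ^ n * g' τ)
      = fun τ : ℍ => a' τ * heckeProd ((ℓ : Nat.Primes) : ℕ) R.g τ ^ n := by
    refine mdiff_eq_of_mul_eq ((hmdRa.pow n).mul hmdg') (hmda'.mul (hmdRg.pow n)) hmdPg hPg0
      fun τ => ?_
    have h1 := hrootP τ
    have h2 : a' τ * heckeProd ((ℓ : Nat.Primes) : ℕ) g τ
        = g' τ * heckeProd ((ℓ : Nat.Primes) : ℕ) a τ := congrFun hcross τ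
    linear_combination g' τ * h1 - heckeProd ((ℓ : Nat.Primes) : ℕ) R.g τ ^ n * h2
  -- assembly
  refine ⟨u', a', g', R.hecke hcop, hK', ⟨ha', hg', hg'ne, hq'⟩, fun τ => congrFun hfin τ, ?_⟩
  rw [RootData.hecke_multAdd, hχ, heckeOp_apply]
  exact heckeHom_eq_heckeP hℓM χ

/-- **(H): Hecke-equivariance of the multiplier relation.** -/
theorem muHecke : MuHecke M := muHecke_of M G2.stmtHeckeNorm

end Fermat.Agent.ES
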