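/-
ESpkg-G1, piece SUR, analytic half (helper83).

For a parabolic homomorphism `φ : Γ₀(M) → ℤ` and `n > 0`, the character
`χ = expChar M n φ = e(φ / n)` is the multiplier of the holomorphic function `hChi χ` on `ℍ`, and
`U := hChi χ ^ n` is a modular function of level `Γ₀(M)` all of whose orders (at all places of
`F = Frac (modFunAlg M)` over `ℂ`) are divisible by `n`.
-/
import Fermat.Agent.ES.RC.EisCharPlace
import Fermat.Agent.ES.Top2

set_option autoImplicit false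

open UpperHalfPlane CongruenceSubgroup Matrix
open scoped MatrixGroups Manifold

noncomputable section

namespace Fermat.Agent.ES

open Fermat.Agent.S24 Fermat.Agent.S28 Fermat.Agent.ES.RC AlgebraicCurve ModularCurve.Period

variable {M : ℕ}

/-- the multiplicative form of `expChar M n φ` -/
def expCharMul (n : ℕ) (φ : Additive (Gamma0 M) →+ ℤ) : Gamma0 M →* ℂˣ :=
  MonoidHom.toAdditive.symm (expChar M n φ)

lemma expCharMul_apply (n : ℕ) (φ : Additive (Gamma0 M) →+ ℤ) (γ : Gamma0 M) :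
    expCharMul n φ γ = zetaUnit n ^ (φ (Additive.ofMul γ)) := by
  show Additive.toMul (expChar M n φ (Additive.ofMul γ)) = _
  rw [expChar_apply, expHom_apply]
  rfl

lemma toAdditive_expCharMul (n : ℕ) (φ : Additive (Gamma0 M) →+ ℤ) :
    MonoidHom.toAdditive (expCharMul n φ) = expChar M n φ :=
  MonoidHom.toAdditive.apply_symm_apply _

lemma expCharMul_pow {n : ℕ} (hn : n ≠ 0) (φ : Additive (Gamma0 M) →+ ℤ) (γ : Gamma0 M) :
    expCharMul n φ γ ^ n = 1 := by
  rw [expCharMul_apply, ← zpow_natCast, ← _root_.zpow_mul, mul_comm, _root_.zpow_mul,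
    zpow_natCast, (zetaUnit_isPrimitiveRoot hn).pow_eq_one, _root_.one_zpow]

lemma expCharMul_of_eq_zero (n : ℕ) (φ : Additive (Gamma0 M) →+ ℤ) {γ : Gamma0 M}
    (h : φ (Additive.ofMul γ) = 0) : expCharMul n φ γ = 1 := by
  rw [expCharMul_apply, h, zpow_zero]

lemma expCharMul_par (n : ℕ) {φ : Additive (Gamma0 M) →+ ℤ}
    (hφ : IsParabolicHom (Gamma0 M) φ) (γ : Gamma0 M) (hγ : IsPar γ) :
    expCharMul n φ γ = 1 :=
  expCharMul_of_eq_zero n φ (hφ γ hγ)

/-- an integral homomorphism kills the elements with a fixed point (they have finite order). -/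
lemma eis_hom_int_of_fixed (φ : Additive (Gamma0 M) →+ ℤ) (γ : Gamma0 M) (τ : ℍ)
    (hfix : (γ : SL(2, ℤ)) • τ = τ) : φ (Additive.ofMul γ) = 0 := by
  have h12 : γ ^ 12 = 1 := by
    apply Subtype.ext
    rw [Subgroup.coe_pow, Subgroup.coe_one]
    exact pow_twelve_eq_one_of_fixed _ τ hfix
  have h1 : (12 : ℕ) • φ (Additive.ofMul γ) = 0 := by
    rw [← map_nsmul, ← ofMul_pow, h12]
    exact map_zero φ
  simpa using h1

lemma expCharMul_ell (n : ℕ) (φ : Additive (Gamma0 M) →+ ℤ) (γ : Gamma0 M) (τ : ℍ)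
    (hfix : (γ : SL(2, ℤ)) • τ = τ) : expCharMul n φ γ = 1 :=
  expCharMul_of_eq_zero n φ (eis_hom_int_of_fixed φ γ τ hfix)

variable [NeZero M]

/-- **SUR, analytic half.**  For `φ` parabolic and `n > 0` there are a nonzero modular function
`U` of level `Γ₀(M)` and a root datum `R = (hChi χ, 1)` with `R.a ^ n = U`, multiplier
`expChar M n φ`, and `n ∣ v.ord U` at every place `v` of `F = Frac (modFunAlg M)` over `ℂ`. -/
theorem muSurj_an (F : Type) [Field F] [Algebra ℂ F] [Algebra (modFunAlg M) F]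
    [IsFractionRing (modFunAlg M) F]
    (hAll : StmtAll M F) (hPt : StmtPtExact M F) (hCusp : StmtCuspExact M F)
    (φ : Additive (Gamma0 M) →+ ℤ) (hφ : IsParabolicHom (Gamma0 M) φ) (n : ℕ) (hn : 0 < n) :
    ∃ (U : modFunAlg M) (R : RootData (Gamma0 M) n), U ≠ 0 ∧
      (∀ τ : ℍ, R.a τ ^ n = (U : ℍ → ℂ) τ) ∧ (∀ τ : ℍ, R.g τ = 1) ∧
      R.multAdd = expChar M n φ ∧
      ∀ v : Place ℂ F, (n : ℤ) ∣ v.ord (algebraMap (modFunAlg M) F U) := by
  have hn0 : n ≠ 0 := hn.ne'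
  set χ : Gamma0 M →* ℂˣ := expCharMul n φ with hχdef
  have hχp : ∀ γ : Gamma0 M, χ γ ^ n = 1 := expCharMul_pow hn0 φ
  have hpar : ∀ γ : Gamma0 M, IsPar γ → χ γ = 1 := expCharMul_par n hφ
  have hell : ∀ (γ : Gamma0 M) (τ : ℍ), (γ : SL(2, ℤ)) • τ = τ → χ γ = 1 := expCharMul_ell n φ
  refine ⟨uChi χ hn0 hχp hpar, hChiRootData χ hn0 hχp hpar, uChi_ne_zero χ hn0 hχp hpar,
    fun τ => rfl, fun τ => rfl, ?_, fun v => uChi_dvd_ord χ F hAll hPt hCusp hn0 hχp hpar hell v⟩
  show MonoidHom.toAdditive (hChiRootData χ hn0 hχp hpar).mult = expChar M n φ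
  rw [hChiRootData_mult, hχdef, toAdditive_expCharMul]

end Fermat.Agent.ES
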