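import Fermat.Agent.ES.Mu
import Fermat.Agent.ES.DescentSurj
import Fermat.Agent.ES.DescentHyp
import Fermat.Agent.ES.LaurentRoot
import Fermat.Agent.ES.RootModFun
import Fermat.Agent.ES.MultiplierCusp
import Fermat.Agent.ES.RC.PlacePt
import Fermat.Agent.S24.PlaceOfValuation
import Fermat.Agent.S22.Cosets

/-!
# ESpkg-G1, piece SUR (descent half): the group `U_ℂ(n)` of Kummer functions over `ℂ`

`K_ℂ = modularFunctionFieldFullC ℂ M ⊂ ℂ((q))`,
`UC M n = {u ∈ K_ℂ^× : n ∣ w.ord u for every place w of K_ℂ / ℂ}`.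

* `UC_coeffMap`     : `UC M n` is stable under the coefficientwise action of `Aut ℂ`;
* `UC_mul_pow`      : and under multiplication by `n`-th powers of `K_ℂ^×`;
* `UC_exists_root`  : every `u ∈ UC M n` is an `n`-th power in `ℂ((q))` (the cusp `∞` is a place);
* `UC_finite`       : `UC M n / K_ℂ^{×n}` is finite (multiplier characters; `Γ₀(M)` is finitely
                      generated);
* `UC_exists_algebraic` : every class of `UC M n / K_ℂ^{×n}` contains `w ^ n` with `w` of algebraic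
                      coefficients (A6-surj).
-/

set_option autoImplicit false
set_option linter.unusedSectionVars false
set_option linter.unusedVariables false
set_option linter.style.haveILetI false

noncomputable section

namespace Fermat.Agent.ES.Sur

open ModularCurve AlgebraicCurve CongruenceSubgroup UpperHalfPlane IntermediateField
open Fermat.Agent.S24 Fermat.Agent.S28 Fermat.Agent.ES.RRFin
open scoped MatrixGroups Manifold

variable (M : ℕ) [NeZero M]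

/-- the function field of `X₀(M)` over `ℂ`, inside `ℂ((q))`. -/
abbrev KC : IntermediateField ℂ (LaurentSeries ℂ) := modularFunctionFieldFullC ℂ M

/-! ## (a) `Aut ℂ` acts on `K_ℂ` by semilinear automorphisms -/

/-- the coefficientwise action of `σ ∈ Aut ℂ` on `K_ℂ`, as a ring automorphism. -/
def sigmaRingAut (σ : ℂ ≃+* ℂ) : KC M ≃+* KC M where
  toFun x := ⟨coeffMap (σ : ℂ →+* ℂ) (x : LaurentSeries ℂ), coeffMap_mem_full σ M x.2⟩
  invFun x := ⟨coeffMap (σ.symm : ℂ →+* ℂ) (x : LaurentSeries ℂ), coeffMap_mem_full σ.symm M x.2⟩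
  left_inv x := Subtype.ext (coeffMap_symm_coeffMap σ _)
  right_inv x := Subtype.ext (coeffMap_coeffMap_symm σ _)
  map_mul' x y :=
    Subtype.ext (map_mul (coeffMap (σ : ℂ →+* ℂ)) (x : LaurentSeries ℂ) (y : LaurentSeries ℂ))
  map_add' x y :=
    Subtype.ext (map_add (coeffMap (σ : ℂ →+* ℂ)) (x : LaurentSeries ℂ) (y : LaurentSeries ℂ))

/-- the coefficientwise action of `σ ∈ Aut ℂ` on `K_ℂ`, as a semilinear automorphism. -/
def sigmaAut (σ : ℂ ≃+* ℂ) : SemilinearAut ℂ (KC M) :=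
  ⟨(sigmaRingAut M σ, σ), fun a => Subtype.ext (coeffMap_algebraMap (σ : ℂ →+* ℂ) a)⟩

theorem coe_sigmaAut_smul (σ : ℂ ≃+* ℂ) (x : KC M) :
    ((sigmaAut M σ • x : KC M) : LaurentSeries ℂ) = coeffMap (σ : ℂ →+* ℂ) (x : LaurentSeries ℂ) :=
  rfl

/-! ## The group `U_ℂ(n)` -/

/-- `U_ℂ(n)`: nonzero elements of `K_ℂ` all of whose orders are divisible by `n`. -/
def UC (n : ℕ) : Set (LaurentSeries ℂ) :=
  {u | ∃ hu : u ∈ KC M, u ≠ 0 ∧ ∀ w : Place ℂ (KC M), (n : ℤ) ∣ w.ord ⟨u, hu⟩}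

variable {M}

theorem UC_mem {n : ℕ} {u : LaurentSeries ℂ} (h : u ∈ UC M n) : u ∈ KC M := h.1

theorem UC_ne_zero {n : ℕ} {u : LaurentSeries ℂ} (h : u ∈ UC M n) : u ≠ 0 := h.2.1

theorem UC_coeffMap {n : ℕ} (σ : ℂ ≃+* ℂ) {u : LaurentSeries ℂ} (h : u ∈ UC M n) :
    coeffMap (σ : ℂ →+* ℂ) u ∈ UC M n := by
  obtain ⟨hu, hu0, hord⟩ := h
  refine ⟨coeffMap_mem_full σ M hu, ?_, fun w => ?_⟩
  · intro h0
    apply hu0
    have := congrArg (coeffMap (σ.symm : ℂ →+* ℂ)) h0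
    rwa [coeffMap_symm_coeffMap, map_zero] at this
  · have h1 := SemilinearAut.ord_smul (sigmaAut M σ) ((sigmaAut M σ)⁻¹ • w) ⟨u, hu⟩
    rw [smul_inv_smul] at h1
    have h2 : (sigmaAut M σ • (⟨u, hu⟩ : KC M) : KC M) =
        ⟨coeffMap (σ : ℂ →+* ℂ) u, coeffMap_mem_full σ M hu⟩ := rfl
    rw [h2] at h1
    rw [h1]
    exact hord _

theorem UC_mul_pow {n : ℕ} {u c : LaurentSeries ℂ} (h : u ∈ UC M n) (hc : c ∈ KC M)
    (hc0 : c ≠ 0) : u * c ^ n ∈ UC M n := by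
  obtain ⟨hu, hu0, hord⟩ := h
  refine ⟨mul_mem hu (pow_mem hc n), mul_ne_zero hu0 (pow_ne_zero n hc0), fun w => ?_⟩
  have hu0' : (⟨u, hu⟩ : KC M) ≠ 0 := fun h => hu0 (congrArg Subtype.val h)
  have hc0' : (⟨c, hc⟩ : KC M) ≠ 0 := fun h => hc0 (congrArg Subtype.val h)
  have e : (⟨u * c ^ n, mul_mem hu (pow_mem hc n)⟩ : KC M) = ⟨u, hu⟩ * ⟨c, hc⟩ ^ n := rfl
  rw [e, Place.ord_mul w hu0' (pow_ne_zero n hc0'), ← zpow_natCast, Place.ord_zpow]
  exact dvd_add (hord w) (Dvd.intro _ rfl)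

/-! ## (b) the cusp `∞` is a place; `n`-th roots in `ℂ((q))` -/

omit [NeZero M] in
theorem val_eq_exp_neg_order {u : LaurentSeries ℂ} (hu : u ≠ 0) :
    Valued.v u = WithZero.exp (-u.order) := by
  have hv0 : Valued.v u ≠ 0 := (Valuation.ne_zero_iff _).2 hu
  obtain ⟨k, hk⟩ : ∃ k : ℤ, Valued.v u = WithZero.exp k :=
    ⟨WithZero.log (Valued.v u), (WithZero.exp_log hv0).symm⟩
  have h1 : Valued.v u ≤ WithZero.exp (-u.order) := by
    rw [LaurentSeries.valuation_le_iff_coeff_lt_eq_zero]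
    intro m hm
    exact HahnSeries.coeff_eq_zero_of_lt_order hm
  have h2 : ¬ Valued.v u ≤ WithZero.exp (-(u.order + 1)) := by
    rw [LaurentSeries.valuation_le_iff_coeff_lt_eq_zero]
    intro h
    exact (mt HahnSeries.coeff_order_eq_zero.1 hu) (h u.order (by omega))
  rw [hk] at h1 h2 ⊢
  rw [WithZero.exp_le_exp] at h1 h2
  congr 1
  omega

omit [NeZero M] in
theorem order_jqModC : (jqModC ℂ).order = -1 := by
  have hne : jqModC ℂ ≠ 0 := by
    intro h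
    have := coeff_jqModC_neg_one ℂ
    rw [h] at this
    simp at this
  refine le_antisymm ?_ ?_
  · refine HahnSeries.order_le_of_coeff_ne_zero ?_
    rw [coeff_jqModC_neg_one]
    exact one_ne_zero
  · by_contra hlt
    push Not at hlt
    have h1 := coeff_jqModC_of_lt (R := ℂ) (k := (jqModC ℂ).order) (by omega)
    exact (mt HahnSeries.coeff_order_eq_zero.1 hne) h1

variable (M) in
/-- the `q`-adic valuation on `K_ℂ`. -/
def valInf : Valuation (KC M) (WithZero (Multiplicative ℤ)) :=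
  (Valued.v : Valuation (LaurentSeries ℂ) (WithZero (Multiplicative ℤ))).comap
    (algebraMap (KC M) (LaurentSeries ℂ))

theorem valInf_apply (f : KC M) : valInf M f = Valued.v (f : LaurentSeries ℂ) := rfl

variable (M) in
/-- **The cusp `∞` is a place of `K_ℂ`**, with order function the `q`-order. -/
theorem exists_place_inf :
    ∃ w : Place ℂ (KC M), ∀ f : KC M, f ≠ 0 → w.ord f = (f : LaurentSeries ℂ).order := by
  have hK : ∀ a : ℂ, valInf M (algebraMap ℂ (KC M) a) ≤ 1 := by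
    intro a
    by_cases ha : a = 0
    · simp [ha]
    · exact (val_algebraMap_eq_one a ha).le
  have hj : jqModC ℂ ∈ KC M := jqModC_mem_full ℂ M
  have hj0 : (⟨jqModC ℂ, hj⟩ : KC M) ≠ 0 := by
    intro h
    have h1 := congrArg Subtype.val h
    have h2 := one_lt_val_jqModC
    simp only at h1
    rw [h1] at h2
    simp at h2
  have hx : ∃ x : KC M, x ≠ 0 ∧ valInf M x < 1 := by
    refine ⟨(⟨jqModC ℂ, hj⟩ : KC M)⁻¹, inv_ne_zero hj0, ?_⟩
    rw [map_inv₀, valInf_apply]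
    exact inv_lt_one_of_one_lt₀ one_lt_val_jqModC
  obtain ⟨w, e₀, he₀, -, hw⟩ := exists_place_of_valuation (K := ℂ) (valInf M) hK hx
  have hvord : ∀ f : KC M, f ≠ 0 → vord (valInf M) f = (f : LaurentSeries ℂ).order := by
    intro f hf
    have hf' : (f : LaurentSeries ℂ) ≠ 0 := fun h => hf (Subtype.ext h)
    rw [vord, valInf_apply, val_eq_exp_neg_order hf', WithZero.log_exp, neg_neg]
  have he1 : e₀ = 1 := by
    have h1 := hw _ hj0
    rw [hvord _ hj0] at h1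
    simp only at h1
    rw [order_jqModC] at h1
    have hdvd : e₀ ∣ 1 := ⟨-w.ord ⟨jqModC ℂ, hj⟩, by linarith⟩
    exact Int.eq_one_of_dvd_one he₀.le hdvd
  refine ⟨w, fun f hf => ?_⟩
  have h1 := hw f hf
  rw [hvord f hf, he1, one_mul] at h1
  exact h1.symm

theorem UC_exists_root {n : ℕ} (hn : 0 < n) {u : LaurentSeries ℂ} (h : u ∈ UC M n) :
    ∃ w : LaurentSeries ℂ, w ^ n = u := by
  obtain ⟨hu, hu0, hord⟩ := h
  obtain ⟨w, hw⟩ := exists_place_inf M
  have h1 := hord w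
  rw [hw ⟨u, hu⟩ (fun h => hu0 (congrArg Subtype.val h))] at h1
  exact Fermat.Agent.ES.LaurentRoot.exists_pow_eq_laurentSeries hn u hu0 h1

/-! ## (c) finiteness of `U_ℂ(n) / K_ℂ^{×n}` -/

/-- homomorphisms from a finitely generated group to a finite group form a finite set. -/
theorem finite_monoidHom_of_fg (G H : Type*) [Group G] [Group H] [Group.FG G] [Finite H] :
    Finite (G →* H) := by
  obtain ⟨S, hS⟩ := Group.fg_def.1 (inferInstance : Group.FG G)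
  have hinj : Function.Injective (fun (f : G →* H) (s : S) => f (s : G)) := by
    intro f g h
    refine MonoidHom.eq_of_eqOn_dense hS ?_
    intro x hx
    exact congrFun h ⟨x, hx⟩
  exact Finite.of_injective _ hinj

variable (M) in
/-- analytic root data of an element `u` of `K_ℂ`: `u = a / g`, `(D.a / g) ^ n = a / g`. -/
structure AnData (n : ℕ) (u : LaurentSeries ℂ) where
  /-- numerator -/
  a : ℍ → ℂ
  /-- denominator -/
  g : ℍ → ℂ
  /-- the root -/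
  D : RootData (Gamma0 M) n
  ha : IsModFun M a
  hg : IsModFun M g
  hLa : laurentOf a ≠ 0
  hLg : laurentOf g ≠ 0
  hfrac : u * laurentOf g = laurentOf a
  hDg : D.g = g
  hDa : ∀ τ, D.a τ ^ n = a τ * g τ ^ (n - 1)

theorem UC_exists_anData {n : ℕ} (hn : 0 < n) {u : LaurentSeries ℂ} (h : u ∈ UC M n) :
    Nonempty (AnData M n u) := by
  obtain ⟨hu, hu0, hord⟩ := h
  obtain ⟨a, g, ha, hg, hLg, hfrac⟩ := Fermat.Agent.ES.RC.rc_exists_frac M hu
  have hLa : laurentOf a ≠ 0 := by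
    rw [← hfrac]
    exact mul_ne_zero hu0 hLg
  have ha0 : a ≠ 0 := fun h => hLa (by rw [h]; exact laurentOf_zero)
  have hg0 : g ≠ 0 := fun h => hLg (by rw [h]; exact laurentOf_zero)
  letI := Fermat.Agent.ES.RC.rc_algebra M
  haveI := Fermat.Agent.ES.RC.rc_isScalarTower M
  haveI := Fermat.Agent.ES.RC.rc_isFractionRing M
  have hPt := Fermat.Agent.ES.RC.stmtPt M (KC M)
  have hord' : ∀ τ : ℍ, ∃ k : ℤ,
      ((ordAt τ a).toNat : ℤ) - ((ordAt τ g).toNat : ℤ) = n * k := by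
    intro τ
    obtain ⟨v, e, -, hv⟩ := hPt τ
    have ha' : (⟨a, ha⟩ : modFunAlg M) ≠ 0 := fun h => ha0 (congrArg Subtype.val h)
    have hg' : (⟨g, hg⟩ : modFunAlg M) ≠ 0 := fun h => hg0 (congrArg Subtype.val h)
    have h1 := hv ⟨a, ha⟩ ha'
    have h2 := hv ⟨g, hg⟩ hg'
    have hA0 : algebraMap (modFunAlg M) (KC M) ⟨a, ha⟩ ≠ 0 := fun h => hLa (congrArg Subtype.val h)
    have hG0 : algebraMap (modFunAlg M) (KC M) ⟨g, hg⟩ ≠ 0 := fun h => hLg (congrArg Subtype.val h)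
    have hu0' : (⟨u, hu⟩ : KC M) ≠ 0 := fun h => hu0 (congrArg Subtype.val h)
    have hmul : (⟨u, hu⟩ : KC M) * algebraMap (modFunAlg M) (KC M) ⟨g, hg⟩ =
        algebraMap (modFunAlg M) (KC M) ⟨a, ha⟩ := Subtype.ext hfrac
    have h3 := Place.ord_mul v hu0' hG0
    rw [hmul] at h3
    obtain ⟨k, hk⟩ := hord v
    refine ⟨e * k, ?_⟩
    simp only [Fermat.Agent.ES.RC.ordPt] at h1 h2
    rw [h1, h2, h3, hk]
    ring
  have hinv : ∀ γ ∈ Gamma0 M, ∀ τ : ℍ, a (γ • τ) * g τ = a τ * g (γ • τ) := by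
    intro γ hγ τ
    rw [isModFun_comp_smul ha hγ τ, isModFun_comp_smul hg hγ τ]
  obtain ⟨D, hDg, hDa⟩ := RootData.exists_ofDiv (Γ := Gamma0 M) hn.ne'
    (Fermat.Agent.ES.RC.rc_mdiff_of_isModFun ha) (Fermat.Agent.ES.RC.rc_mdiff_of_isModFun hg)
    ha0 hg0 hord' hinv
  exact ⟨⟨a, g, D, ha, hg, hLa, hLg, hfrac, hDg, hDa⟩⟩

theorem AnData.a_smul {n : ℕ} {u : LaurentSeries ℂ} (A : AnData M n u) (γ : Gamma0 M) (τ : ℍ) :
    A.D.a ((γ : SL(2, ℤ)) • τ) = ((A.D.mult γ : ℂˣ) : ℂ) * A.D.a τ := by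
  have hg : MDiff A.g := Fermat.Agent.ES.RC.rc_mdiff_of_isModFun A.hg
  have hg0 : A.g ≠ 0 := fun h => A.hLg (by rw [h]; exact laurentOf_zero)
  have hconst : MDiff (fun _ : ℍ => ((A.D.mult γ : ℂˣ) : ℂ)) := mdifferentiable_const
  refine mdiff_mul_right_cancel (mdiff_comp_SL A.D.mdiff_a γ) (hconst.mul A.D.mdiff_a) hg hg0
    (fun τ => ?_) τ
  have h := A.D.mult_spec γ τ
  rw [A.hDg, isModFun_comp_smul A.hg γ.2 τ] at h
  rw [h]
  simp only [Pi.mul_apply]
  ring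

/-- **Kernel of the multiplier map over `ℂ`**: two elements of `K_ℂ` whose roots have the same
multiplier character differ by an `n`-th power of `K_ℂ^×`. -/
theorem AnData.exists_eq_mul_pow {n : ℕ} (hn : 0 < n) {u t : LaurentSeries ℂ} (A : AnData M n u)
    (B : AnData M n t) (h : A.D.mult = B.D.mult) :
    ∃ c ∈ KC M, c ≠ 0 ∧ u = t * c ^ n := by
  obtain ⟨m, rfl⟩ : ∃ m, n = m + 1 := ⟨n - 1, by omega⟩
  -- the numerator `N = D_A.a · D_B.a^m · g_B`
  set Nf : ℍ → ℂ := fun τ => A.D.a τ * B.D.a τ ^ m * B.g τ with hNf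
  have hBg : MDiff B.g := Fermat.Agent.ES.RC.rc_mdiff_of_isModFun B.hg
  have hNmd : MDiff Nf := (A.D.mdiff_a.mul (B.D.mdiff_a.pow m)).mul hBg
  have hNinv : ∀ γ ∈ Gamma0 M, ∀ τ : ℍ, Nf (γ • τ) = Nf τ := by
    intro γ hγ τ
    have h1 := A.a_smul ⟨γ, hγ⟩ τ
    have h2 := B.a_smul ⟨γ, hγ⟩ τ
    have h3 : ((B.D.mult ⟨γ, hγ⟩ : ℂˣ) : ℂ) ^ (m + 1) = 1 := by
      rw [RootData.coe_mult]
      exact B.D.multVal_pow ⟨γ, hγ⟩
    simp only [hNf]
    simp only at h1 h2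
    rw [h1, h2, isModFun_comp_smul B.hg hγ τ, h]
    calc ((B.D.mult ⟨γ, hγ⟩ : ℂˣ) : ℂ) * A.D.a τ * (((B.D.mult ⟨γ, hγ⟩ : ℂˣ) : ℂ) * B.D.a τ) ^ m
          * B.g τ
        = ((B.D.mult ⟨γ, hγ⟩ : ℂˣ) : ℂ) ^ (m + 1) * (A.D.a τ * B.D.a τ ^ m * B.g τ) := by ring
      _ = A.D.a τ * B.D.a τ ^ m * B.g τ := by rw [h3, one_mul]
  have hNpow : (fun z => Nf z ^ (m + 1)) =
      A.a * A.g ^ m * (B.a * B.g ^ m) ^ m * B.g ^ (m + 1) := by
    funext z
    have h1 : A.D.a z ^ (m + 1) = A.a z * A.g z ^ m := A.hDa z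
    have h2 : B.D.a z ^ (m + 1) = B.a z * B.g z ^ m := B.hDa z
    simp only [hNf, Pi.mul_apply, Pi.pow_apply]
    rw [mul_pow, mul_pow, h1, ← pow_mul, mul_comm m (m + 1), pow_mul, h2]
  have hNmod : IsModFun M Nf := by
    refine isModFun_of_pow (Nat.succ_ne_zero m) hNmd hNinv ?_
    rw [hNpow]
    exact (((A.ha.mul (A.hg.pow m)).mul ((B.ha.mul (B.hg.pow m)).pow m)).mul (B.hg.pow (m + 1)))
  -- Laurent expansions
  have mA := A.ha.isMerInf
  have mAg := A.hg.isMerInf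
  have mB := B.ha.isMerInf
  have mBg := B.hg.isMerInf
  have hLN : laurentOf Nf ^ (m + 1) =
      laurentOf A.a * laurentOf A.g ^ m * (laurentOf B.a * laurentOf B.g ^ m) ^ m
        * laurentOf B.g ^ (m + 1) := by
    rw [← laurentOf_pow hNmod.isMerInf]
    have e : Nf ^ (m + 1) = fun z => Nf z ^ (m + 1) := rfl
    rw [e, hNpow,
      laurentOf_mul (((A.ha.mul (A.hg.pow m)).mul ((B.ha.mul (B.hg.pow m)).pow m))).isMerInf
        (B.hg.pow (m + 1)).isMerInf,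
      laurentOf_mul (A.ha.mul (A.hg.pow m)).isMerInf ((B.ha.mul (B.hg.pow m)).pow m).isMerInf,
      laurentOf_mul mA (A.hg.pow m).isMerInf, laurentOf_pow mAg,
      laurentOf_pow (B.ha.mul (B.hg.pow m)).isMerInf, laurentOf_mul mB (B.hg.pow m).isMerInf,
      laurentOf_pow mBg, laurentOf_pow mBg]
  set LA := laurentOf A.a
  set LAg := laurentOf A.g
  set LB := laurentOf B.a
  set LBg := laurentOf B.g
  have hLA : LA ≠ 0 := A.hLa
  have hLAg : LAg ≠ 0 := A.hLg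
  have hLB : LB ≠ 0 := B.hLa
  have hLBg : LBg ≠ 0 := B.hLg
  have hden : LB * LBg ^ m * LAg ≠ 0 := mul_ne_zero (mul_ne_zero hLB (pow_ne_zero m hLBg)) hLAg
  have hLN0 : laurentOf Nf ≠ 0 := by
    intro h0
    rw [h0, zero_pow (Nat.succ_ne_zero m)] at hLN
    exact (mul_ne_zero (mul_ne_zero (mul_ne_zero hLA (pow_ne_zero m hLAg))
      (pow_ne_zero m (mul_ne_zero hLB (pow_ne_zero m hLBg)))) (pow_ne_zero _ hLBg)) hLN.symm
  refine ⟨laurentOf Nf / (LB * LBg ^ m * LAg), ?_, div_ne_zero hLN0 hden, ?_⟩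
  · refine div_mem (Fermat.Agent.ES.RC.rc_laurentOf_mem_full M hNmod)
      (mul_mem (mul_mem (Fermat.Agent.ES.RC.rc_laurentOf_mem_full M B.ha)
        (pow_mem (Fermat.Agent.ES.RC.rc_laurentOf_mem_full M B.hg) m))
        (Fermat.Agent.ES.RC.rc_laurentOf_mem_full M A.hg))
  · have hu : u = LA / LAg := by rw [eq_div_iff hLAg]; exact A.hfrac
    have ht : t = LB / LBg := by rw [eq_div_iff hLBg]; exact B.hfrac
    rw [hu, ht, div_pow, hLN]
    field_simp
    ring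

/-- **Finiteness of `U_ℂ(n) / K_ℂ^{×n}`.** -/
theorem UC_finite {n : ℕ} (hn : 0 < n) :
    ∃ T : Set (LaurentSeries ℂ), T.Finite ∧ T ⊆ UC M n ∧
      ∀ u ∈ UC M n, ∃ t ∈ T, ∃ c ∈ KC M, c ≠ 0 ∧ u = t * c ^ n := by
  classical
  haveI : NeZero n := ⟨hn.ne'⟩
  haveI : Group.FG (Gamma0 M) := (Group.fg_iff_subgroup_fg _).mpr (Fermat.Agent.S22.gamma0_fg M)
  haveI : Finite (Gamma0 M →* rootsOfUnity n ℂ) := finite_monoidHom_of_fg _ _
  -- the choice of analytic data and the multiplier map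
  let A : ∀ u : UC M n, AnData M n u := fun u => (UC_exists_anData hn u.2).some
  let μ : UC M n → (Gamma0 M →* rootsOfUnity n ℂ) := fun u => (A u).D.multRoots
  have hex : ∀ χ : Set.range μ, ∃ u : UC M n, μ u = χ := fun χ => χ.2
  choose rep hrep using hex
  refine ⟨Set.range (fun χ : Set.range μ => ((rep χ : UC M n) : LaurentSeries ℂ)),
    Set.finite_range _, ?_, ?_⟩
  · rintro _ ⟨χ, rfl⟩
    exact (rep χ).2
  · intro u hu
    set χ : Set.range μ := ⟨μ ⟨u, hu⟩, ⟨⟨u, hu⟩, rfl⟩⟩ with hχ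
    refine ⟨_, ⟨χ, rfl⟩, ?_⟩
    have hμ : μ (rep χ) = μ ⟨u, hu⟩ := hrep χ
    have hmult : (A ⟨u, hu⟩).D.mult = (A (rep χ)).D.mult := by
      ext1 γ
      have h1 := congrArg (fun f : Gamma0 M →* rootsOfUnity n ℂ =>
        ((f γ : rootsOfUnity n ℂ) : ℂˣ)) hμ
      exact h1.symm
    exact AnData.exists_eq_mul_pow hn (A ⟨u, hu⟩) (A (rep χ)) hmult

/-! ## (d) descent -/

/-- **A6-surj for `K_ℂ`**: every class of `U_ℂ(n) / K_ℂ^{×n}` contains `w ^ n` with `w` a Laurent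
series with algebraic coefficients. -/
theorem UC_exists_algebraic {n : ℕ} (hn : 0 < n) {u : LaurentSeries ℂ} (hu : u ∈ UC M n) :
    ∃ c ∈ KC M, c ≠ 0 ∧ ∃ w : LaurentSeries ℂ, w ^ n = u * c ^ n ∧
      ∀ m : ℤ, IsAlgebraic ℚ (w.coeff m) :=
  exists_algebraic_root n hn (jqModC ℂ) one_lt_val_jqModC
    (fun σ => coeffMap_jqModC (σ : ℂ →+* ℂ)) (KC M) (jqModC_mem_full ℂ M)
    (relfinrank_full_ne_zero M) (fun σ _ hy => coeffMap_mem_full σ M hy)
    (UC M n) (fun _ h => UC_ne_zero h) (fun _ h => UC_mem h) (fun σ _ h => UC_coeffMap σ h)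
    (fun _ h => UC_exists_root hn h) (UC_finite hn) u hu

end Fermat.Agent.ES.Sur
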