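import Fermat.Agent.ES.MuSurjDescent
import Fermat.Agent.ES.MuSurjAn
import Fermat.Agent.ES.RC.PtExact
import Fermat.Agent.ES.RC.PlaceAll
import Fermat.Agent.ES.RC.CuspExact
import Fermat.Agent.ES.HModular
import Fermat.Agent.ES.IotaC
import Fermat.Agent.ES.DescentInj
import Fermat.Agent.ES.BaseChangeUp

/-!
# ESpkg-G1, piece SUR: `MuSurj M` from base change up (BCu)

`StmtBCu M` : every place `v` of `K_ℚ̄` extends to a place `w` of `K_ℂ` with
`w.ord (ι f) = v.ord f` (piece BCu, `ES/BaseChangeUp.lean`).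

`muSurj_of_bcu : StmtBCu M → MuSurj M`.

Proof.  Let `φ : Γ₀(M) → ℤ` be parabolic and `n > 0`.  The analytic half (`muSurj_an`) gives a
modular function `U` with all orders divisible by `n` and an `n`-th root of multiplier
`expChar M n φ`.  By descent (`Sur.UC_exists_algebraic`) there is `c ∈ K_ℂ^×` such that
`U c ^ n = w ^ n` with `w ∈ ℚ̄((q))`; so `u₀ = w ^ n ∈ K_ℚ̄` (`DescentInj`), all of whose orders
are divisible by `n` (BCu), hence `u₀` is a Kummer function of some `x ∈ J₀(M)[n]` (KB(5)).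
Analytically `u₀ = U (b/d) ^ n` with root `R.a · b / d`, of the same multiplier.
-/

set_option autoImplicit false
set_option linter.unusedSectionVars false
set_option linter.unusedVariables false
set_option linter.style.haveILetI false

noncomputable section

namespace Fermat.Agent.ES.Sur

open ModularCurve AlgebraicCurve CongruenceSubgroup UpperHalfPlane IntermediateField
open Fermat.Agent.S24 Fermat.Agent.S28 Fermat.Agent.ES.RRFin Fermat.Agent.ES.RC
open scoped MatrixGroups Manifold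

attribute [local instance] algKbC

variable (M : ℕ) [NeZero M]

/-- **BCu** (statement): every place of `K_ℚ̄` extends to a place of `K_ℂ`, unramified. -/
def StmtBCu : Prop :=
  ∀ v : Place Kb (modularFunctionFieldBar M), ∃ w : Place ℂ (modularFunctionFieldFullC ℂ M),
    ∀ f : modularFunctionFieldBar M, w.ord (iotaC M f) = v.ord f

variable {M}

/-- an invariant root datum `b / d` (`b`, `d` modular functions). -/
def invRootData (n : ℕ) (hn : n ≠ 0) {b d : ℍ → ℂ} (hb : IsModFun M b) (hd : IsModFun M d)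
    (hb0 : b ≠ 0) (hd0 : d ≠ 0) : RootData (Gamma0 M) n where
  a := b
  g := d
  p_ne_zero := hn
  mdiff_a := rc_mdiff_of_isModFun hb
  mdiff_g := rc_mdiff_of_isModFun hd
  a_ne_zero := hb0
  g_ne_zero := hd0
  pow_inv γ hγ τ := by rw [isModFun_comp_smul hb hγ τ, isModFun_comp_smul hd hγ τ]

theorem invRootData_mult (n : ℕ) (hn : n ≠ 0) {b d : ℍ → ℂ} (hb : IsModFun M b)
    (hd : IsModFun M d) (hb0 : b ≠ 0) (hd0 : d ≠ 0) :
    (invRootData n hn hb hd hb0 hd0).mult = 1 := by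
  rw [RootData.mult_eq_one_iff_invariant]
  intro γ hγ τ
  show b (γ • τ) * d τ = b τ * d (γ • τ)
  rw [isModFun_comp_smul hb hγ τ, isModFun_comp_smul hd hγ τ]

/-- **SUR** from BCu. -/
theorem muSurj_of_bcu (hBCu : StmtBCu M) : MuSurj M := by
  intro φ hφ n hn
  have hn0 : n ≠ 0 := hn.ne'
  letI := rc_algebra M
  haveI := rc_isScalarTower M
  haveI := rc_isFractionRing M
  obtain ⟨U, R, hU0, hRa, hRg, hRmult, hUord⟩ :=
    muSurj_an (KC M) (stmtAll M (KC M)) (stmtPtExact M (KC M)) (stmtCuspExact M (KC M)) φ hφ n hn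
  -- `laurentOf U ∈ U_ℂ(n)`
  have hUmer : IsMerInf (U : ℍ → ℂ) := U.2.isMerInf
  have hUfun0 : (U : ℍ → ℂ) ≠ 0 := fun h => hU0 (Subtype.ext h)
  have hLU0 : laurentOf (U : ℍ → ℂ) ≠ 0 := fun h => hUfun0 ((laurentOf_eq_zero_iff hUmer).mp h)
  have hLU : laurentOf (U : ℍ → ℂ) ∈ UC M n :=
    ⟨rc_laurentOf_mem_full M U.2, hLU0, fun w => hUord w⟩
  -- descent
  obtain ⟨c, hc, hc0, w, hw, halg⟩ := UC_exists_algebraic hn hLU
  obtain ⟨w₀, hw₀⟩ := exists_coeffMap_eq_of_algebraic w halg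
  have hcm : coeffMap (algebraMap Kb ℂ) (w₀ ^ n) = laurentOf (U : ℍ → ℂ) * c ^ n := by
    rw [map_pow, hw₀, hw]
  have hmemC : laurentOf (U : ℍ → ℂ) * c ^ n ∈ KC M :=
    mul_mem (rc_laurentOf_mem_full M U.2) (pow_mem hc n)
  have hu₀mem : w₀ ^ n ∈ modularFunctionFieldBar M := by
    refine (Fermat.Agent.ES.DescentInj.coeffMap_mem_laurentBaseChange_iff (K := Kb) (L := ℂ)
      (modularFunctionFieldFull M)).1 ?_
    rw [hcm, Fermat.Agent.ES.G2.hdeg_laurentBaseChange_full ℂ M]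
    exact hmemC
  set u₀ : modularFunctionFieldBar M := ⟨w₀ ^ n, hu₀mem⟩ with hu₀
  have hιu : iotaC M u₀ = ⟨laurentOf (U : ℍ → ℂ) * c ^ n, hmemC⟩ := Subtype.ext hcm
  have hu₀0 : u₀ ≠ 0 := by
    intro h0
    have h1 : iotaC M u₀ = 0 := by rw [h0, map_zero]
    rw [hιu] at h1
    exact mul_ne_zero hLU0 (pow_ne_zero n hc0) (congrArg Subtype.val h1)
  -- all orders of `u₀` are divisible by `n`
  have hdvd : ∀ v : Place Kb (modularFunctionFieldBar M), (n : ℤ) ∣ v.ord u₀ := by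
    intro v
    obtain ⟨w', hw'⟩ := hBCu v
    rw [← hw' u₀, hιu]
    exact (UC_mul_pow hLU hc hc0).2.2 w'
  -- the Kummer class
  haveI := Fermat.Agent.ES.H.hasPrincipalDivisors_FF M
  obtain ⟨x, hx, hK⟩ := exists_kummerRel_of_dvd (K := Kb) (F := modularFunctionFieldBar M)
    hn0 hu₀0 hdvd
  -- the analytic description
  obtain ⟨b, d, hb, hd, hLd, hfrac⟩ := rc_exists_frac M hc
  have hLb : laurentOf b ≠ 0 := by
    rw [← hfrac]
    exact mul_ne_zero hc0 hLd
  have hb0 : b ≠ 0 := fun h => hLb (by rw [h]; exact laurentOf_zero)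
  have hd0 : d ≠ 0 := fun h => hLd (by rw [h]; exact laurentOf_zero)
  have hgn : IsModFun M (d ^ n) := hd.pow n
  have han : IsModFun M ((U : ℍ → ℂ) * b ^ n) := U.2.mul (hb.pow n)
  have hLgn : laurentOf (d ^ n) = laurentOf d ^ n := laurentOf_pow hd.isMerInf n
  have hLan : laurentOf ((U : ℍ → ℂ) * b ^ n) = laurentOf (U : ℍ → ℂ) * laurentOf b ^ n := by
    rw [laurentOf_mul hUmer (hb.pow n).isMerInf, laurentOf_pow hb.isMerInf]
  have hgn0 : d ^ n ≠ 0 := by
    intro h0
    have h1 : laurentOf (d ^ n) = 0 := by rw [h0]; exact laurentOf_zero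
    rw [hLgn] at h1
    exact pow_ne_zero n hLd h1
  refine ⟨x, hx, u₀, (U : ℍ → ℂ) * b ^ n, d ^ n,
    R.mul (invRootData n hn0 hb hd hb0 hd0), hK, ⟨han, hgn, hgn0, ?_⟩, fun τ => ?_, ?_⟩
  · show coeffMap embC (w₀ ^ n) * laurentOf (d ^ n) = laurentOf ((U : ℍ → ℂ) * b ^ n)
    have hcm' : coeffMap embC (w₀ ^ n) = laurentOf (U : ℍ → ℂ) * c ^ n := hcm
    rw [hcm', hLgn, hLan, ← hfrac]
    ring
  · show (R.a τ * b τ) ^ n * (d τ) ^ n = ((U : ℍ → ℂ) τ * (b τ) ^ n) * (R.g τ * d τ) ^ n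
    rw [hRg τ, one_mul, mul_pow, hRa τ]
  · rw [← hRmult]
    have h1 : (R.mul (invRootData n hn0 hb hd hb0 hd0)).mult = R.mult := by
      rw [RootData.mult_mul, invRootData_mult]
      ext1 γ
      simp
    show MonoidHom.toAdditive (R.mul (invRootData n hn0 hb hd hb0 hd0)).mult =
      MonoidHom.toAdditive R.mult
    rw [h1]

variable (M) in
/-- **SUR**: surjectivity of the multiplier map onto the classes of the integral parabolic
homomorphisms. -/
theorem muSurj : MuSurj M := muSurj_of_bcu (baseChangeUp M)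

end Fermat.Agent.ES.Sur
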