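import Mathlib
import Fermat.Agent.ES.Mu
import Fermat.Agent.ES.IotaC
import Fermat.Agent.ES.RootModFun
import Fermat.Agent.ES.RC.PlacePt
import Fermat.Agent.S24.PreFinal
import Fermat.Agent.S24.RealizationExists
import Fermat.Agent.S24.PrincipalDegree

/-!
# ESpkg-G1: the pieces `MuAdd` and `MuUnique` of `ES/Mu.lean`

* `muAdd : MuAdd M` — the multiplier relation is additive;
* `muUnique : MuUnique M` — the multiplier does not depend on the Kummer function, on the analytic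
  fraction, on the root, nor on the exponent.
-/

set_option autoImplicit false

noncomputable section

namespace Fermat.Agent.ES

open ModularCurve AlgebraicCurve CongruenceSubgroup UpperHalfPlane IntermediateField
open Fermat.Agent.S24 Fermat.Agent.S28 Fermat.Agent.ES.RC
open scoped MatrixGroups Manifold

variable {M : ℕ} [NeZero M]

/-! ### Constants of `K_ℚ̄` -/

/-- an element of `K_ℚ̄` without zeros and poles is a constant -/
theorem mu_exists_const_of_ord_eq_zero (c : modularFunctionFieldBar M)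
    (hc : ∀ v : Place (AlgebraicClosure ℚ) (modularFunctionFieldBar M), v.ord c = 0) :
    ∃ c₀ : AlgebraicClosure ℚ,
      algebraMap (AlgebraicClosure ℚ) (modularFunctionFieldBar M) c₀ = c := by
  obtain ⟨R⟩ := exists_realization M
  obtain ⟨htr, hfin, hdeg, hsum⟩ := principal_inputs M R
  by_cases halg : IsAlgebraic (AlgebraicClosure ℚ) c
  · have hint : IsIntegral (AlgebraicClosure ℚ) c := halg.isIntegral
    have h1 : (minpoly (AlgebraicClosure ℚ) c).degree = 1 :=
      IsAlgClosed.degree_eq_one_of_irreducible (AlgebraicClosure ℚ) (minpoly.irreducible hint)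
    exact minpoly.mem_range_of_degree_eq_one (AlgebraicClosure ℚ) c h1
  · exfalso
    have hct : Transcendental (AlgebraicClosure ℚ) c := halg
    haveI := hfin
    have hfd := pd_finiteDimensional_adjoin_of_transcendental (jF M) htr c hct
    obtain ⟨V, hV, hs⟩ := hsum c hct hfd
    have hVe : V = ∅ := by
      ext v
      simp [hV v, hc v]
    rw [hVe, Finset.sum_empty] at hs
    haveI := hfd
    have hpos : 0 < Module.finrank (AlgebraicClosure ℚ)⟮c⟯ (modularFunctionFieldBar M) :=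
      Module.finrank_pos
    have h0 : Module.finrank (AlgebraicClosure ℚ)⟮c⟯ (modularFunctionFieldBar M) = 0 := by
      exact_mod_cast hs.symm
    exact hpos.ne' h0

/-! ### Analytic fractions -/

/-- every element of `K_ℚ̄` is analytically a fraction of modular functions -/
theorem exists_isAnFrac (k : modularFunctionFieldBar M) : ∃ a g : ℍ → ℂ, IsAnFrac M k a g := by
  obtain ⟨a, b, ha, hb, hb', h⟩ := rc_exists_frac M (coeffMap_embC_mem M k.2)
  refine ⟨a, b, ha, hb, ?_, h⟩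
  rintro rfl
  exact hb' laurentOf_zero

theorem IsAnFrac.laurentOf_g_ne_zero {u : modularFunctionFieldBar M} {a g : ℍ → ℂ}
    (h : IsAnFrac M u a g) : laurentOf g ≠ 0 := fun h0 =>
  h.2.2.1 ((laurentOf_eq_zero_iff h.2.1.isMerInf).mp h0)

theorem IsAnFrac.a_ne_zero {u : modularFunctionFieldBar M} {a g : ℍ → ℂ}
    (h : IsAnFrac M u a g) (hu : u ≠ 0) : a ≠ 0 := by
  rintro rfl
  have h1 := h.2.2.2
  rw [laurentOf_zero] at h1
  rcases mul_eq_zero.mp h1 with h2 | h2
  · apply hu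
    apply Subtype.ext
    exact (coeffMap embC).injective (h2.trans (map_zero _).symm)
  · exact h.laurentOf_g_ne_zero h2

theorem IsAnFrac.mul {u u' : modularFunctionFieldBar M} {a g a' g' : ℍ → ℂ}
    (h : IsAnFrac M u a g) (h' : IsAnFrac M u' a' g') :
    IsAnFrac M (u * u') (a * a') (g * g') := by
  obtain ⟨ha, hg, hg0, hL⟩ := h
  obtain ⟨ha', hg', hg0', hL'⟩ := h'
  refine ⟨ha.mul ha', hg.mul hg', ?_, ?_⟩
  · exact mdiff_mul_ne_zero (rc_mdiff_of_isModFun hg) (rc_mdiff_of_isModFun hg') hg0 hg0'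
  · rw [laurentOf_mul hg.isMerInf hg'.isMerInf, laurentOf_mul ha.isMerInf ha'.isMerInf, ← hL, ← hL']
    have : ((u * u' : modularFunctionFieldBar M) : LaurentSeries (AlgebraicClosure ℚ)) =
        (u : LaurentSeries (AlgebraicClosure ℚ)) * (u' : LaurentSeries (AlgebraicClosure ℚ)) := rfl
    rw [this, map_mul]
    ring

/-! ### `MuAdd` -/

theorem muAdd : MuAdd M := by
  rintro n hn x y χ ψ ⟨u, a, g, R, hK, hF, hroot, rfl⟩ ⟨u', a', g', R', hK', hF', hroot', rfl⟩
  refine ⟨u * u', a * a', g * g', R.mul R', hK.add hK', hF.mul hF', fun τ => ?_, ?_⟩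
  · have h1 := hroot τ
    have h2 := hroot' τ
    show (R.a τ * R'.a τ) ^ n * (g τ * g' τ) = a τ * a' τ * (R.g τ * R'.g τ) ^ n
    calc (R.a τ * R'.a τ) ^ n * (g τ * g' τ)
        = (R.a τ ^ n * g τ) * (R'.a τ ^ n * g' τ) := by ring
      _ = (a τ * R.g τ ^ n) * (a' τ * R'.g τ ^ n) := by rw [h1, h2]
      _ = a τ * a' τ * (R.g τ * R'.g τ) ^ n := by ring
  · unfold RootData.multAdd
    rw [RootData.mult_mul]
    rfl

/-! ### Root data: change of exponent, invariant factors -/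

section RootData

variable {Γ : Subgroup SL(2, ℤ)} {p : ℕ}

/-- a root datum for the exponent `p` is a root datum for every nonzero multiple of `p` -/
def RootData.castDvd (D : RootData Γ p) (N : ℕ) (hN : N ≠ 0) (h : p ∣ N) : RootData Γ N where
  a := D.a
  g := D.g
  p_ne_zero := hN
  mdiff_a := D.mdiff_a
  mdiff_g := D.mdiff_g
  a_ne_zero := D.a_ne_zero
  g_ne_zero := D.g_ne_zero
  pow_inv γ hγ τ := by
    obtain ⟨q, rfl⟩ := h
    rw [pow_mul, pow_mul, D.pow_inv γ hγ τ]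

theorem RootData.castDvd_mult (D : RootData Γ p) (N : ℕ) (hN : N ≠ 0) (h : p ∣ N) :
    (D.castDvd N hN h).mult = D.mult := by
  ext1 γ
  rw [RootData.mult_eq_iff]
  exact D.multVal_spec γ

/-- the root datum of a `Γ`-invariant fraction `b / c` -/
def RootData.ofInvariant (N : ℕ) (hN : N ≠ 0) (b c : ℍ → ℂ) (hb : MDiff b) (hc : MDiff c)
    (hb0 : b ≠ 0) (hc0 : c ≠ 0)
    (hinv : ∀ γ ∈ Γ, ∀ τ : ℍ, b (γ • τ) * c τ = b τ * c (γ • τ)) : RootData Γ N where
  a := b
  g := c
  p_ne_zero := hN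
  mdiff_a := hb
  mdiff_g := hc
  a_ne_zero := hb0
  g_ne_zero := hc0
  pow_inv γ hγ τ := by rw [hinv γ hγ τ]

theorem RootData.ofInvariant_mult (N : ℕ) (hN : N ≠ 0) (b c : ℍ → ℂ) (hb : MDiff b)
    (hc : MDiff c) (hb0 : b ≠ 0) (hc0 : c ≠ 0)
    (hinv : ∀ γ ∈ Γ, ∀ τ : ℍ, b (γ • τ) * c τ = b τ * c (γ • τ)) :
    (RootData.ofInvariant (Γ := Γ) N hN b c hb hc hb0 hc0 hinv).mult = 1 :=
  (RootData.mult_eq_one_iff_invariant _).mpr hinv

end RootData

theorem mu_mdiff_pow_ne_zero {f : ℍ → ℂ} (hf : MDiff f) (hf0 : f ≠ 0) (n : ℕ) :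
    (fun τ => f τ ^ n) ≠ 0 := by
  induction n with
  | zero =>
    intro h
    have := congrFun h UpperHalfPlane.I
    simp at this
  | succ n ih =>
    have hfn : MDiff (fun τ => f τ ^ n) := hf.pow n
    have h1 := mdiff_mul_ne_zero (F := fun τ => f τ ^ n) (G := f) hfn hf ih hf0
    intro h
    apply h1
    funext τ
    have := congrFun h τ
    simp only [Pi.zero_apply] at this ⊢
    rw [← pow_succ]
    exact this

/-! ### The key identity -/

/-- the analytic form of `u' ^ n = c · u ^ m · k ^ (m n)` -/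
theorem mu_anFrac_rel {u u' k : modularFunctionFieldBar M} (c₀ : AlgebraicClosure ℚ) {n m : ℕ}
    (hrel : u' ^ n =
      algebraMap (AlgebraicClosure ℚ) (modularFunctionFieldBar M) c₀ * u ^ m * k ^ (m * n))
    {a g a' g' ak gk : ℍ → ℂ}
    (h : IsAnFrac M u a g) (h' : IsAnFrac M u' a' g') (hk : IsAnFrac M k ak gk) (τ : ℍ) :
    a' τ ^ n * g τ ^ m * gk τ ^ (m * n) =
      embC c₀ * (a τ ^ m * ak τ ^ (m * n) * g' τ ^ n) := by
  obtain ⟨ha, hg, -, hL⟩ := h
  obtain ⟨ha', hg', -, hL'⟩ := h'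
  obtain ⟨hak, hgk, -, hLk⟩ := hk
  -- elements of `merInf`
  let A : merInf := ⟨a, ha.isMerInf⟩
  let G : merInf := ⟨g, hg.isMerInf⟩
  let A' : merInf := ⟨a', ha'.isMerInf⟩
  let G' : merInf := ⟨g', hg'.isMerInf⟩
  let Ak : merInf := ⟨ak, hak.isMerInf⟩
  let Gk : merInf := ⟨gk, hgk.isMerInf⟩
  have hLA : laurentExp A = coeffMap embC (u : LaurentSeries (AlgebraicClosure ℚ)) * laurentExp G :=
    hL.symm
  have hLA' : laurentExp A' =
      coeffMap embC (u' : LaurentSeries (AlgebraicClosure ℚ)) * laurentExp G' := hL'.symm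
  have hLAk : laurentExp Ak =
      coeffMap embC (k : LaurentSeries (AlgebraicClosure ℚ)) * laurentExp Gk := hLk.symm
  have hrelL : coeffMap embC (u' : LaurentSeries (AlgebraicClosure ℚ)) ^ n =
      algebraMap ℂ (LaurentSeries ℂ) (embC c₀) *
        coeffMap embC (u : LaurentSeries (AlgebraicClosure ℚ)) ^ m *
        coeffMap embC (k : LaurentSeries (AlgebraicClosure ℚ)) ^ (m * n) := by
    let φ : modularFunctionFieldBar M →+* LaurentSeries ℂ :=
      (coeffMap embC).comp (algebraMap (modularFunctionFieldBar M)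
        (LaurentSeries (AlgebraicClosure ℚ)))
    have h1 := congrArg φ hrel
    simp only [map_mul, map_pow] at h1
    have e0 : φ (algebraMap (AlgebraicClosure ℚ) (modularFunctionFieldBar M) c₀) =
        algebraMap ℂ (LaurentSeries ℂ) (embC c₀) := iotaC_coeffMap_algebraMap c₀
    rw [e0] at h1
    exact h1
  have key : A' ^ n * G ^ m * Gk ^ (m * n) =
      algebraMap ℂ merInf (embC c₀) * (A ^ m * Ak ^ (m * n) * G' ^ n) := by
    apply laurentExp_injective
    simp only [map_mul, map_pow, AlgHom.commutes]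
    rw [hLA, hLA', hLAk, mul_pow, hrelL]
    ring
  have h2 := congrArg (fun f : merInf => (f : ℍ → ℂ) τ) key
  simpa [A, G, A', G', Ak, Gk, Algebra.algebraMap_eq_smul_one] using h2

/-- pure algebra: the identity of `mn`-th powers of the two roots, up to the nonzero factor
`g' ^ n * a ^ m` -/
theorem mu_root_identity {n m : ℕ} {x y P Q a g a' g' ak gk c₁ c₂ : ℂ}
    (h1 : P ^ n * g = a * Q ^ n) (h2 : x ^ m * g' = a' * y ^ m)
    (h3 : a' ^ n * g ^ m * gk ^ (m * n) = c₁ * (a ^ m * ak ^ (m * n) * g' ^ n))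
    (hc : c₂ ^ (m * n) = c₁) :
    (x * (Q * gk)) ^ (m * n) * (g' ^ n * a ^ m) =
      (P * (c₂ * ak) * y) ^ (m * n) * (g' ^ n * a ^ m) := by
  have e1 : (x ^ m * g') ^ n = (a' * y ^ m) ^ n := by rw [h2]
  have e2 : (a * Q ^ n) ^ m = (P ^ n * g) ^ m := by rw [h1]
  calc (x * (Q * gk)) ^ (m * n) * (g' ^ n * a ^ m)
      = (x ^ m * g') ^ n * (a * Q ^ n) ^ m * gk ^ (m * n) := by ring
    _ = (a' * y ^ m) ^ n * (P ^ n * g) ^ m * gk ^ (m * n) := by rw [e1, e2]
    _ = (a' ^ n * g ^ m * gk ^ (m * n)) * (y ^ (m * n) * P ^ (m * n)) := by ring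
    _ = c₁ * (a ^ m * ak ^ (m * n) * g' ^ n) * (y ^ (m * n) * P ^ (m * n)) := by rw [h3]
    _ = (P * (c₂ * ak) * y) ^ (m * n) * (g' ^ n * a ^ m) := by rw [← hc]; ring

/-! ### `MuUnique` -/

theorem muUnique : MuUnique M := by
  rintro n m hn hm x χ χ' ⟨u, a, g, R, hK, hF, hroot, rfl⟩ ⟨u', a', g', R', hK', hF', hroot', rfl⟩
  have hN : m * n ≠ 0 := Nat.mul_ne_zero hm.ne' hn.ne'
  -- Kummer functions for the exponent `m * n`
  have hK1 : KummerRel (m * n) x (u ^ m) := hK.pow_left m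
  have hK2 : KummerRel (m * n) x (u' ^ n) := by
    have := hK'.pow_left n
    rwa [Nat.mul_comm] at this
  obtain ⟨k, c, hk0, hc0, hcord, hrel⟩ := hK1.exists_eq_mul_pow hK2
  obtain ⟨c₀, rfl⟩ := mu_exists_const_of_ord_eq_zero c hcord
  obtain ⟨ak, gk, hFk⟩ := exists_isAnFrac k
  have hc₀ : embC c₀ ≠ 0 := by
    intro h
    apply hc0
    rw [(map_eq_zero embC).mp h, map_zero]
  obtain ⟨c₂, hc₂⟩ := IsAlgClosed.exists_pow_nat_eq (embC c₀) (Nat.pos_of_ne_zero hN)
  have hc₂0 : c₂ ≠ 0 := by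
    rintro rfl
    rw [zero_pow hN] at hc₂
    exact hc₀ hc₂.symm
  have ha0 : a ≠ 0 := hF.a_ne_zero hK.ne_zero
  have hak0 : ak ≠ 0 := hFk.a_ne_zero hk0
  -- holomorphy
  have hma := rc_mdiff_of_isModFun hF.1
  have hmg' := rc_mdiff_of_isModFun hF'.2.1
  have hmak := rc_mdiff_of_isModFun hFk.1
  have hmgk := rc_mdiff_of_isModFun hFk.2.1
  -- the invariant factor `c₂ · ak / gk`
  have hmb : MDiff (fun τ => c₂ * ak τ) := mdifferentiable_const.mul hmak
  have hb0 : (fun τ => c₂ * ak τ) ≠ 0 := by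
    intro h
    apply hak0
    funext τ
    have := congrFun h τ
    simp only [Pi.zero_apply] at this ⊢
    exact (mul_eq_zero.mp this).resolve_left hc₂0
  let Dk : RootData (Gamma0 M) (m * n) :=
    RootData.ofInvariant (m * n) hN (fun τ => c₂ * ak τ) gk hmb hmgk hb0 hFk.2.2.1
      (fun γ hγ τ => by
        rw [isModFun_comp_smul hFk.1 hγ τ, isModFun_comp_smul hFk.2.1 hγ τ])
  have hDk : Dk.mult = 1 := RootData.ofInvariant_mult _ _ _ _ _ _ _ _ _
  let D1 : RootData (Gamma0 M) (m * n) := R'.castDvd (m * n) hN (Dvd.intro _ rfl)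
  let D2 : RootData (Gamma0 M) (m * n) := (R.castDvd (m * n) hN (Dvd.intro_left _ rfl)).mul Dk
  have hD1 : D1.mult = R'.mult := RootData.castDvd_mult _ _ _ _
  have hD2 : D2.mult = R.mult := by
    show ((R.castDvd (m * n) hN (Dvd.intro_left _ rfl)).mul Dk).mult = R.mult
    rw [RootData.mult_mul, hDk]
    ext1 γ
    rw [MonoidHom.mul_apply, MonoidHom.one_apply, mul_one, RootData.castDvd_mult]
  have hkey : ∀ τ : ℍ, (D1.a τ * D2.g τ) ^ (m * n) = (D2.a τ * D1.g τ) ^ (m * n) := by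
    have hC : MDiff (fun τ => g' τ ^ n * a τ ^ m) := (hmg'.pow n).mul (hma.pow m)
    have hC0 : (fun τ => g' τ ^ n * a τ ^ m) ≠ 0 :=
      mdiff_mul_ne_zero (F := fun τ => g' τ ^ n) (G := fun τ => a τ ^ m) (hmg'.pow n)
        (hma.pow m) (mu_mdiff_pow_ne_zero hmg' hF'.2.2.1 n) (mu_mdiff_pow_ne_zero hma ha0 m)
    have hFm : MDiff (fun τ => (D1.a τ * D2.g τ) ^ (m * n)) :=
      (D1.mdiff_a.mul D2.mdiff_g).pow (m * n)
    have hGm : MDiff (fun τ => (D2.a τ * D1.g τ) ^ (m * n)) :=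
      (D2.mdiff_a.mul D1.mdiff_g).pow (m * n)
    refine mdiff_mul_right_cancel hFm hGm hC hC0 fun τ => ?_
    exact mu_root_identity (hroot τ) (hroot' τ) (mu_anFrac_rel c₀ hrel hF hF' hFk τ) hc₂
  have hmult : R'.mult = R.mult := by
    rw [← hD1, ← hD2]
    exact RootData.mult_eq_of_pow_eq D1 D2 hkey
  unfold RootData.multAdd
  rw [hmult]

end Fermat.Agent.ES
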