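import Mathlib
import Fermat.Agent.S21.Period
import Fermat.Prelude.Def_ModularForm_HeckeOperatorForms

/-!
# Hecke-equivariance of the period map (bridge S21 ↔ Hecke operators; ESpkg-G1, pieces A4/A5)

For a prime `p ∤ N` the prelude's Hecke operator on weight-2 cusp forms is
`T_p f = ∑_{x ∈ ℙ¹(𝔽_p)} f ∣[2] α_x` with `α_x = heckeRep p x`
(`α_j = [[1, j], [0, p]]`, `α_∞ = [[p, 0], [0, 1]]`).  For `γ ∈ Γ₀(N)` one has
`α_x γ = γ'_x α_{σ x}` with `γ'_x ∈ Γ₀(N)` and `σ = redMatrix p γ` a permutation of `ℙ¹(𝔽_p)`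
(prelude, `heckeRep_mul`).

Main results (`F` a primitive of `f`):
* `isPrimitive_heckeSum` : `τ ↦ ∑ x, F (α_x • τ)` is a primitive of `T_p f`;
* `periodMap_heckeTLin_apply` : `periodMap (T_p f) γ = ∑ x, periodMap f (γ'_x)` for ANY family
  `γ'` with `α_x γ = γ'_x α_{σ x}`;
* `exists_periodMap_heckeTLin` : such a family exists.
-/

set_option autoImplicit false

namespace Fermat.Agent.ES

open UpperHalfPlane ModularForm CongruenceSubgroup ModularCurve ModularCurve.Period
open scoped MatrixGroups ModularForm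
open Fermat.Agent.S21
open P2MW.S_ModularForm_heckeT_slash_eq_self_of_mem_Gamma0.ModularForm.HeckeSlashInvariance
  (heckeRep redMatrix heckeRep_mul heckeT_eq_sum_onePoint)

/-- Chain rule: if `F' = f` and `det g > 0` then `(F ∘ g)' = f ∣[2] g`. -/
theorem isPrimitive_comp_smul_slash {F f : ℍ → ℂ} (hF : IsPrimitive F f) {g : GL (Fin 2) ℝ}
    (hg : 0 < ((Matrix.GeneralLinearGroup.det g : ℝˣ) : ℝ)) :
    IsPrimitive (fun w => F (g • w)) (f ∣[(2 : ℤ)] g) := by
  have hg' : 0 < g.val.det := by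
    rwa [Matrix.GeneralLinearGroup.val_det_apply] at hg
  refine (hF.comp_smul_GL hg').congr (fun τ => ?_)
  rw [ModularForm.slash_apply, UpperHalfPlane.σ, if_pos hg]
  simp only [ContinuousAlgEquiv.refl_apply]
  rw [abs_of_pos hg, Matrix.GeneralLinearGroup.val_det_apply]
  have : (2 : ℤ) - 1 = 1 := by norm_num
  rw [this, zpow_one, zpow_neg, mul_assoc, div_eq_mul_inv]
  rfl

/-- Primitives of finite sums. -/
theorem isPrimitive_finset_sum {ι : Type*} (s : Finset ι) (F f : ι → ℍ → ℂ)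
    (h : ∀ i ∈ s, IsPrimitive (F i) (f i)) :
    IsPrimitive (fun τ => ∑ i ∈ s, F i τ) (∑ i ∈ s, f i) := fun τ => by
  have := HasDerivAt.sum (u := s) (A := fun i => F i ∘ ofComplex) (A' := fun i => f i τ)
    (x := (τ : ℂ)) (fun i hi => h i hi τ)
  rw [Finset.sum_apply]
  refine this.congr_of_eventuallyEq ?_
  filter_upwards with w
  simp [Function.comp]

theorem det_heckeRep_pos (p : ℕ) (x : OnePoint (ZMod p)) :
    0 < ((Matrix.GeneralLinearGroup.det (heckeRep p x) : ℝˣ) : ℝ) := by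
  induction x using OnePoint.rec with
  | infty => exact det_heckeDiagMatrix_pos p
  | coe j => exact det_heckeMatrix_pos p j.val

/-- `τ ↦ ∑ x, F (α_x • τ)` is a primitive of `T_p f`. -/
theorem isPrimitive_heckeSum {p : ℕ} [NeZero p] {F f : ℍ → ℂ} (hF : IsPrimitive F f) :
    IsPrimitive (fun τ => ∑ x : OnePoint (ZMod p), F (heckeRep p x • τ)) (heckeT 2 p f) := by
  rw [heckeT_eq_sum_onePoint]
  exact isPrimitive_finset_sum Finset.univ (fun x τ => F (heckeRep p x • τ))
    (fun x => f ∣[(2 : ℤ)] heckeRep p x)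
    (fun x _ => isPrimitive_comp_smul_slash hF (det_heckeRep_pos p x))

variable {N p : ℕ} [NeZero N] [hp : Fact p.Prime]

/-- **Hecke-equivariance of the period map**, in coset form: if `α_x γ = γ'_x α_{σ x}` then
`periodMap (T_p f) γ = ∑ x, periodMap f (γ'_x)`. -/
theorem periodMap_heckeTLin_apply (hpN : ¬ p ∣ N) (f : CuspForm (Gamma0 N) 2) (γ : Gamma0 N)
    (g' : OnePoint (ZMod p) → Gamma0 N)
    (hg' : ∀ x : OnePoint (ZMod p),
      heckeRep p x * Matrix.SpecialLinearGroup.mapGL ℝ (γ : SL(2, ℤ))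
        = Matrix.SpecialLinearGroup.mapGL ℝ (g' x : SL(2, ℤ))
            * heckeRep p (redMatrix p (γ : SL(2, ℤ)) • x)) :
    periodMap N (CuspForm.heckeTLin 2 hp.out hpN f) (Additive.ofMul γ)
      = ∑ x : OnePoint (ZMod p), periodMap N f (Additive.ofMul (g' x)) := by
  haveI : NeZero p := ⟨hp.out.ne_zero⟩
  obtain ⟨F, hF⟩ := exists_hasEquivariantPrimitive N f
  obtain ⟨G₀, hG₀⟩ := exists_hasEquivariantPrimitive N (CuspForm.heckeTLin 2 hp.out hpN f)
  have hG : IsPrimitive (fun τ => ∑ x : OnePoint (ZMod p), F (heckeRep p x • τ))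
      (⇑(CuspForm.heckeTLin 2 hp.out hpN f)) := by
    have := isPrimitive_heckeSum (p := p) (F := F) (f := ⇑f) hF.1
    exact this
  have hsub := hG.sub_eq_sub (show IsPrimitive G₀ _ from hG₀.1) ((γ : SL(2, ℤ)) • UpperHalfPlane.I) UpperHalfPlane.I
  rw [periodMap_apply _ hG₀ γ]
  have hper : ∀ (δ : Gamma0 N) (z : ℍ),
      F ((δ : SL(2, ℤ)) • z) - F z = periodMap N f (Additive.ofMul δ) := by
    intro δ z
    rw [periodMap_eq f hF]
    exact hF.2.2.1.sub_eq_period δ z
  have hterm : ∀ x : OnePoint (ZMod p),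
      F (heckeRep p x • ((γ : SL(2, ℤ)) • UpperHalfPlane.I))
        = periodMap N f (Additive.ofMul (g' x))
          + F (heckeRep p (redMatrix p (γ : SL(2, ℤ)) • x) • UpperHalfPlane.I) := by
    intro x
    have h1 : heckeRep p x • ((γ : SL(2, ℤ)) • UpperHalfPlane.I)
        = ((g' x : SL(2, ℤ))) • (heckeRep p (redMatrix p (γ : SL(2, ℤ)) • x)
            • UpperHalfPlane.I) := by
      have e1 : (γ : SL(2, ℤ)) • UpperHalfPlane.I
          = (Matrix.SpecialLinearGroup.mapGL ℝ (γ : SL(2, ℤ))) • UpperHalfPlane.I := rfl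
      have e2 : ∀ z : ℍ, ((g' x : SL(2, ℤ))) • z
          = (Matrix.SpecialLinearGroup.mapGL ℝ (g' x : SL(2, ℤ))) • z := fun _ => rfl
      rw [e1, e2, ← mul_smul, ← mul_smul, hg' x]
    rw [h1]
    have := hper (g' x) (heckeRep p (redMatrix p (γ : SL(2, ℤ)) • x) • UpperHalfPlane.I)
    linear_combination this
  have hperm : ∑ x : OnePoint (ZMod p),
      F (heckeRep p (redMatrix p (γ : SL(2, ℤ)) • x) • UpperHalfPlane.I)
        = ∑ x : OnePoint (ZMod p), F (heckeRep p x • UpperHalfPlane.I) :=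
    Equiv.sum_comp (MulAction.toPerm (redMatrix p (γ : SL(2, ℤ))))
      (fun x => F (heckeRep p x • UpperHalfPlane.I))
  have hsum : (∑ x : OnePoint (ZMod p), F (heckeRep p x • ((γ : SL(2, ℤ)) • UpperHalfPlane.I)))
      = (∑ x : OnePoint (ZMod p), periodMap N f (Additive.ofMul (g' x)))
        + ∑ x : OnePoint (ZMod p), F (heckeRep p x • UpperHalfPlane.I) := by
    rw [← hperm, ← Finset.sum_add_distrib]
    exact Finset.sum_congr rfl (fun x _ => hterm x)
  linear_combination hsum - hsub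

omit [NeZero N] in
/-- Existence of the family `γ'` of the previous theorem. -/
theorem exists_heckeRep_mul (hpN : ¬ p ∣ N) (γ : Gamma0 N) :
    ∃ g' : OnePoint (ZMod p) → Gamma0 N, ∀ x : OnePoint (ZMod p),
      heckeRep p x * Matrix.SpecialLinearGroup.mapGL ℝ (γ : SL(2, ℤ))
        = Matrix.SpecialLinearGroup.mapGL ℝ (g' x : SL(2, ℤ))
            * heckeRep p (redMatrix p (γ : SL(2, ℤ)) • x) := by
  have hγ : (N : ℤ) ∣ (γ : SL(2, ℤ)) 1 0 :=
    (ZMod.intCast_zmod_eq_zero_iff_dvd _ _).mp (CongruenceSubgroup.Gamma0_mem.mp γ.2)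
  have h := fun x => heckeRep_mul (p := p) hpN (γ : SL(2, ℤ)) hγ x
  choose g hgN hg using h
  exact ⟨fun x => ⟨g x, CongruenceSubgroup.Gamma0_mem.mpr
    ((ZMod.intCast_zmod_eq_zero_iff_dvd _ _).mpr (hgN x))⟩, fun x => hg x⟩

/-- **Hecke-equivariance of the period map**, existential form. -/
theorem exists_periodMap_heckeTLin (hpN : ¬ p ∣ N) (f : CuspForm (Gamma0 N) 2) (γ : Gamma0 N) :
    ∃ g' : OnePoint (ZMod p) → Gamma0 N,
      (∀ x : OnePoint (ZMod p),
        heckeRep p x * Matrix.SpecialLinearGroup.mapGL ℝ (γ : SL(2, ℤ))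
          = Matrix.SpecialLinearGroup.mapGL ℝ (g' x : SL(2, ℤ))
              * heckeRep p (redMatrix p (γ : SL(2, ℤ)) • x)) ∧
      periodMap N (CuspForm.heckeTLin 2 hp.out hpN f) (Additive.ofMul γ)
        = ∑ x : OnePoint (ZMod p), periodMap N f (Additive.ofMul (g' x)) := by
  obtain ⟨g', hg'⟩ := exists_heckeRep_mul (p := p) hpN γ
  exact ⟨g', hg', periodMap_heckeTLin_apply hpN f γ g' hg'⟩

/-- Eigenvector form: if `T_p f = c • f` then the period class of `f` is an eigenvector of the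
group-theoretic Hecke operator with the same eigenvalue. -/
theorem sum_periodMap_eq_of_heckeTLin_eq_smul (hpN : ¬ p ∣ N) (f : CuspForm (Gamma0 N) 2)
    (c : ℂ) (hf : CuspForm.heckeTLin 2 hp.out hpN f = c • f) (γ : Gamma0 N)
    (g' : OnePoint (ZMod p) → Gamma0 N)
    (hg' : ∀ x : OnePoint (ZMod p),
      heckeRep p x * Matrix.SpecialLinearGroup.mapGL ℝ (γ : SL(2, ℤ))
        = Matrix.SpecialLinearGroup.mapGL ℝ (g' x : SL(2, ℤ))
            * heckeRep p (redMatrix p (γ : SL(2, ℤ)) • x)) :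
    ∑ x : OnePoint (ZMod p), periodMap N f (Additive.ofMul (g' x))
      = c * periodMap N f (Additive.ofMul γ) := by
  rw [← periodMap_heckeTLin_apply hpN f γ g' hg', hf, periodMap_smul]
  rfl

end Fermat.Agent.ES
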