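import Fermat.Agent.ES.PeriodEigen
import Fermat.Agent.ES.HeckeHomEq

/-!
# Hecke-equivariance of the period map, against `heckeHom` (helper35's general-`n` operator)

Same statements as `PeriodHeckeP.lean` / `PeriodEigen.lean`, transported along
`heckeHom_eq_heckeP`.
-/

set_option autoImplicit false

namespace Fermat.Agent.ES

open UpperHalfPlane ModularForm CongruenceSubgroup ModularCurve ModularCurve.Period
open ModularFormClass
open scoped MatrixGroups ModularForm

variable {N p : ℕ} [NeZero N] [hp : Fact p.Prime]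

/-- **Hecke-equivariance of the period map** (prime `p ∤ N`, `heckeHom`). -/
theorem periodMap_heckeTLin_eq_heckeHom (hpN : ¬ p ∣ N) (f : CuspForm (Gamma0 N) 2) :
    haveI : NeZero p := ⟨hp.out.ne_zero⟩
    periodMap N (CuspForm.heckeTLin 2 hp.out hpN f)
      = heckeHom (n := p) ((Nat.Prime.coprime_iff_not_dvd hp.out).mpr hpN) (periodMap N f) := by
  rw [heckeHom_eq_heckeP hpN, periodMap_heckeTLin_eq_heckeP]

/-- The period class of a normalized eigenform is an eigenvector of `heckeHom`. -/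
theorem heckeHom_periodMap_eigenform (g : CuspForm (Gamma0 N) 2) (hg : g.IsNormalizedEigenform)
    (hpN : ¬ p ∣ N) :
    haveI : NeZero p := ⟨hp.out.ne_zero⟩
    heckeHom (n := p) ((Nat.Prime.coprime_iff_not_dvd hp.out).mpr hpN) (periodMap N g)
      = qCoeff ⇑g p • periodMap N g := by
  rw [heckeHom_eq_heckeP hpN, heckeP_periodMap_eigenform g hg hpN]

/-- **Analytic input of A5**, `heckeHom` version. -/
theorem exists_eigen_parabolicHom' (g : CuspForm (Gamma0 N) 2) (hg : g.IsNormalizedEigenform) :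
    ∃ φ : Additive (Gamma0 N) →+ ℂ, φ ≠ 0 ∧ φ ∈ parabolicHoms ℂ (Gamma0 N) ℂ ∧
      ∀ (ℓ : ℕ) [NeZero ℓ] (hℓ : ℓ.Prime) (hℓN : Nat.Coprime ℓ N),
        heckeHom (n := ℓ) hℓN φ = qCoeff ⇑g ℓ • φ := by
  obtain ⟨φ, h0, hpar, hφ⟩ := exists_eigen_parabolicHom g hg
  refine ⟨φ, h0, hpar, fun ℓ _ hℓ hℓN => ?_⟩
  haveI : Fact ℓ.Prime := ⟨hℓ⟩
  have hℓN' : ¬ ℓ ∣ N := (Nat.Prime.coprime_iff_not_dvd hℓ).mp hℓN
  have h1 := heckeHom_eq_heckeP (p := ℓ) hℓN' φ
  have h2 := hφ ℓ hℓN'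
  rw [← h2, ← h1]

end Fermat.Agent.ES
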