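import Fermat.Agent.ES.PeriodHecke
import Fermat.Agent.ES.HeckeP

/-!
# The period map intertwines `T_p` on cusp forms with `HeckeP.heckeHom` on `Hom(Γ₀(N), ℂ)`

`periodMap N (T_p f) = HeckeP.heckeHom hpN (periodMap N f)` for a prime `p ∤ N`
(ESpkg-G1, bridge between S21 and pieces A4/A5).
-/

set_option autoImplicit false

namespace Fermat.Agent.ES

open UpperHalfPlane ModularForm CongruenceSubgroup ModularCurve ModularCurve.Period
open scoped MatrixGroups ModularForm

variable {N p : ℕ} [NeZero N] [hp : Fact p.Prime]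

/-- **Hecke-equivariance of the period map** (prime `p ∤ N`, helper94's `HeckeP.heckeHom`). -/
theorem periodMap_heckeTLin_eq_heckeP (hpN : ¬ p ∣ N) (f : CuspForm (Gamma0 N) 2) :
    periodMap N (CuspForm.heckeTLin 2 hp.out hpN f) = HeckeP.heckeHom hpN (periodMap N f) := by
  refine AddMonoidHom.ext fun γ => ?_
  obtain ⟨γ, rfl⟩ : ∃ γ' : Gamma0 N, Additive.ofMul γ' = γ := ⟨Additive.toMul γ, rfl⟩
  rw [HeckeP.heckeHom_apply]
  exact periodMap_heckeTLin_apply hpN f γ (fun x => HeckeP.kap hpN γ x)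
    (fun x => HeckeP.kap_spec hpN γ x)

/-- Eigenvector form: if `T_p f = c • f` then `HeckeP.heckeHom (periodMap f) = c • periodMap f`. -/
theorem heckeP_periodMap_eq_smul (hpN : ¬ p ∣ N) (f : CuspForm (Gamma0 N) 2) (c : ℂ)
    (hf : CuspForm.heckeTLin 2 hp.out hpN f = c • f) :
    HeckeP.heckeHom hpN (periodMap N f) = c • periodMap N f := by
  rw [← periodMap_heckeTLin_eq_heckeP, hf, Fermat.Agent.S21.periodMap_smul]

end Fermat.Agent.ES
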