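import Fermat.Agent.S28.NormPoly
import Fermat.Agent.S28.Bridge
import Fermat.Agent.S23.Esymm
import Fermat.Agent.S23.MFClosure
import Fermat.Agent.S24.Invariants
import Fermat.Agent.ES.RC.ModFunField

/-!
# ES shared input (R), piece R2a: the norm relation of a cusp form, with sharp degree bounds

For a cusp form `F` of weight `12 m` (`m ≥ 1`) on `Γ₀(N)` the function `f = F / Δ ^ m` satisfies

  `f ^ d + ∑_{j = 1}^{d} (∑_{i < m j} c_{j,i} J ^ i) f ^ (d - j) = 0`,   `d = [SL₂(ℤ) : Γ₀(N)]`,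

(`c_{j,i} ∈ ℂ`): the `j`-th elementary symmetric function of the translates of `F` is a level-one
CUSP form of weight `12 m j`, hence `Δ ^ (m j)` times a polynomial in `J` of degree `≤ m j - 1`.
The same relation holds for the Laurent expansions (`cusp_laurent_relation`).
-/

set_option autoImplicit false

noncomputable section

namespace Fermat.Agent.ES.R

open UpperHalfPlane ModularForm SlashInvariantForm Polynomial
open Fermat.Agent.S23 Fermat.Agent.S24 Fermat.Agent.S28 Fermat.Agent.ES.RC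
open scoped MatrixGroups ModularForm Manifold

local notation "Δ" => ModularForm.discriminant

variable {N : ℕ} [NeZero N]

omit [NeZero N] in
theorem quotientFunc_congr' {k : ℤ} (F₁ : CuspForm (G0 N) k) (F₂ : ModularForm (G0 N) k)
    (h : (⇑F₂ : ℍ → ℂ) = ⇑F₁) (q : Coset N) : quotientFunc F₂ q = quotientFunc F₁ q := by
  induction q using Quotient.inductionOn with
  | h g =>
    rw [SlashInvariantForm.quotientFunc_mk, SlashInvariantForm.quotientFunc_mk, h]

open scoped Classical in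
/-- The elementary symmetric functions of positive degree of the translates of a cusp form of
weight `12 m` are `Δ ^ (m j)` times a polynomial in `Jfun` of degree `< m j`. -/
theorem cusp_coeff_exists (m : ℕ) (hm : 1 ≤ m) (F : CuspForm (G0 N) (12 * (m : ℤ))) (j : ℕ)
    (hj : 1 ≤ j) :
    ∃ P : ℂ[X], P.natDegree + 1 ≤ m * j ∧ ∀ τ : ℍ,
      (∑ S ∈ Finset.powersetCard j (cosetFinset N), ∏ q ∈ S, quotientFunc F q τ) =
        Δ τ ^ (m * j) * P.eval (Jfun τ) := by
  obtain ⟨E, hE⟩ := isCF_esymm F j hj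
  have hmj : 1 ≤ m * j := Nat.one_le_iff_ne_zero.mpr (Nat.mul_ne_zero (by omega) (by omega))
  set E' : ModularForm 𝒮ℒ ((j : ℤ) * (12 * (m : ℤ)) - 12) := CuspForm.discriminantEquiv E with hE'
  have h1 : ∀ τ, Δ τ * E' τ = E τ := fun τ =>
    ModularForm.discriminant_mul_discriminantEquiv_apply E τ
  obtain ⟨p, hpdeg, hp⟩ := exists_poly_of_modularForm (m * j - 1)
    ((j : ℤ) * (12 * (m : ℤ)) - 12) (by push_cast [Nat.cast_sub hmj]; ring) E'
  refine ⟨p, by omega, fun τ => ?_⟩
  have h2 := congrFun hE τ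
  rw [← h2, ← h1 τ, hp τ, ← mul_assoc, ← pow_succ', Nat.sub_add_cancel hmj]

open scoped Classical in
/-- **R2a, function form.** -/
theorem cusp_norm_relation (m : ℕ) (hm : 1 ≤ m) (F : CuspForm (G0 N) (12 * (m : ℤ))) :
    ∃ P : ℕ → ℂ[X], P 0 = 1 ∧ (∀ j, 1 ≤ j → (P j).natDegree + 1 ≤ m * j) ∧
      ∀ τ : ℍ, ∑ j ∈ Finset.range (cosetCard N + 1),
        (-1 : ℂ) ^ j * (P j).eval (Jfun τ) * (F τ / Δ τ ^ m) ^ (cosetCard N - j) = 0 := by
  obtain ⟨F', hF'⟩ := IsCF.isMF (⟨F, rfl⟩ : IsCF (G0 N) (12 * (m : ℤ)) ⇑F)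
  have hq : ∀ q, quotientFunc F' q = quotientFunc F q := quotientFunc_congr' F F' hF'
  choose! P hPdeg hP using fun j (hj : 1 ≤ j) => cusp_coeff_exists m hm F j hj
  set P' : ℕ → ℂ[X] := fun j => if j = 0 then 1 else P j with hP'
  have hP'0 : P' 0 = 1 := by simp [hP']
  have hP'j : ∀ j, 1 ≤ j → P' j = P j := fun j hj => by
    simp [hP', Nat.one_le_iff_ne_zero.mp hj]
  refine ⟨P', hP'0, fun j hj => by rw [hP'j j hj]; exact hPdeg j hj, fun τ => ?_⟩
  have hrel := normPoly_relation m F' P' (fun j τ => ?_) τ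
  · rw [← congrFun hF' τ]
    exact hrel
  · rcases Nat.eq_zero_or_pos j with rfl | hj
    · simp [hP'0]
    · rw [hP'j j hj, ← hP j hj τ]
      exact Finset.sum_congr rfl fun S _ => Finset.prod_congr rfl fun q _ => by rw [hq]

/-- **R2a, Laurent form.**  The Laurent expansion `y` of `F / Δ ^ m` satisfies
`y ^ d + ∑_{j=1}^{d} (∑_{i < m j} C (c j i) * j(q) ^ i) * y ^ (d - j) = 0`. -/
theorem cusp_laurent_relation (m : ℕ) (hm : 1 ≤ m) (F : CuspForm (G0 N) (12 * (m : ℤ))) :
    ∃ c : ℕ → ℕ → ℂ,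
      laurentOf (fun τ => F τ / Δ τ ^ m) ^ cosetCard N +
        ∑ j ∈ Finset.Icc 1 (cosetCard N),
          (∑ i ∈ Finset.range (m * j), HahnSeries.C (c j i) * ModularCurve.jqModC ℂ ^ i) *
            laurentOf (fun τ => F τ / Δ τ ^ m) ^ (cosetCard N - j) = 0 := by
  obtain ⟨P, hP0, hPdeg, hrel⟩ := cusp_norm_relation m hm F
  set d := cosetCard N with hd
  set f : ℍ → ℂ := fun τ => F τ / Δ τ ^ m with hf
  have hfM : IsMerInf f := by
    have : IsModFun N f := isModFun_div (IsCF.isMF ⟨F, rfl⟩)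
    exact this.isMerInf
  -- the relation in the algebra `merInf`
  set fm : merInf := ⟨f, hfM⟩ with hfm
  set Jm : merInf := ⟨Jfun, isMerInf_Jfun⟩ with hJm
  have hrelM : ∑ j ∈ Finset.range (d + 1),
      algebraMap ℂ merInf ((-1 : ℂ) ^ j) * (Polynomial.aeval Jm (P j) * fm ^ (d - j)) = 0 := by
    apply Subtype.ext
    funext τ
    have h1 : ∀ x : merInf, ((x : ℍ → ℂ)) τ = rc_ev τ x := fun x => rfl
    rw [h1, map_sum]
    simp only [map_mul, map_pow, AlgHom.commutes]
    have h2 : ∀ j, rc_ev τ (Polynomial.aeval Jm (P j)) = (P j).eval (Jfun τ) := fun j => by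
      rw [rc_ev_apply, rc_aeval_coe]
    simp only [h2, rc_ev_apply]
    have h3 := hrel τ
    simp only [mul_assoc] at h3
    exact h3
  have hrelL := congrArg laurentExp hrelM
  rw [map_sum, map_zero] at hrelL
  have hJL : laurentExp Jm = ModularCurve.jqModC ℂ := by
    rw [laurentExp_apply]; exact laurentOf_Jfun
  have hfL : laurentExp fm = laurentOf f := laurentExp_apply fm
  have hterm : ∀ x, laurentExp (algebraMap ℂ merInf ((-1 : ℂ) ^ x) *
        ((aeval Jm) (P x) * fm ^ (d - x))) =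
      HahnSeries.C ((-1 : ℂ) ^ x) * ((aeval (ModularCurve.jqModC ℂ)) (P x) *
        laurentOf f ^ (d - x)) := fun x => by
    rw [map_mul, AlgHom.commutes, map_mul, map_pow laurentExp fm,
      ← Polynomial.aeval_algHom_apply, hJL, hfL, LaurentSeries.algebraMap_apply]
  rw [Finset.sum_congr rfl fun x _ => hterm x] at hrelL
  refine ⟨fun j i => (-1 : ℂ) ^ j * (P j).coeff i, ?_⟩
  rw [Finset.range_eq_Ico, Finset.sum_eq_sum_Ico_succ_bot (Nat.succ_pos d)] at hrelL
  simp only [pow_zero, hP0, map_one, one_mul, Nat.sub_zero] at hrelL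
  rw [← hrelL]
  congr 1
  have hIcc : Finset.Ico (0 + 1) (d + 1) = Finset.Icc 1 d := by
    ext x; simp [Finset.mem_Ico, Finset.mem_Icc]
  rw [hIcc]
  refine Finset.sum_congr rfl fun j hj => ?_
  have hj1 : 1 ≤ j := (Finset.mem_Icc.mp hj).1
  rw [← mul_assoc]
  congr 1
  rw [Polynomial.aeval_eq_sum_range' (show (P j).natDegree < m * j from hPdeg j hj1),
    Finset.mul_sum]
  refine Finset.sum_congr rfl fun i _ => ?_
  rw [Algebra.smul_def, LaurentSeries.algebraMap_apply, ← mul_assoc, ← map_mul]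

end Fermat.Agent.ES.R
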