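import Fermat.Agent.ES.Mu
import Fermat.Agent.ES.MuUnique
import Fermat.Agent.ES.MuCore
import Fermat.Agent.ES.MuHecke

/-!
# ESpkg-G1: the contract `TorsionUnif M p` from the single remaining piece `MuSurj M`

Five of the six pieces of `ES/Mu.lean` are proved:
`muExists`, `muInj` (`ES/MuCore.lean`), `muUnique`, `muAdd` (`ES/MuUnique.lean`),
`muHecke` (`ES/MuHecke.lean`).  Hence `TorsionUnif M p` follows from `MuSurj M` alone.
-/

set_option autoImplicit false

namespace Fermat.Agent.ES

/-- **G1 contract from surjectivity alone.** -/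
theorem torsionUnif_of_muSurj (M : ℕ) [NeZero M] (p : ℕ) (hp : 0 < p) (hS : MuSurj M) :
    TorsionUnif M p :=
  torsionUnif_of_muRel p hp (muExists M) muUnique muAdd (muInj M) (muHecke M) hS

end Fermat.Agent.ES
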