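import Fermat.Agent.ES.TorsionUnifFinal
import Fermat.Agent.ES.MuSurjGlue

/-!
# ESpkg-G1: the contract `TorsionUnif M p`, unconditionally

All six pieces of `ES/Mu.lean` are proved (`muExists`, `muInj`: helper34; `muUnique`, `muAdd`:
helper38; `muHecke`: helper92; `Sur.muSurj`: helper10, helper83, helper43), hence the G1 contract
of `ES/Top2.lean` holds for every level `M > 0` and every `p > 0`.
-/

set_option autoImplicit false

namespace Fermat.Agent.ES

/-- **The G1 contract**: the `p`-power torsion of `J₀(M)(ℚ̄)` is uniformised, Hecke-equivariantly,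
by the multiplier characters of `Γ₀(M)`. -/
theorem torsionUnif_proved (M : ℕ) [NeZero M] (p : ℕ) (hp : 0 < p) : TorsionUnif M p :=
  torsionUnif_of_muSurj M p hp (Sur.muSurj M)

end Fermat.Agent.ES
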