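/-
S30 glue (helper59), part 1: Wiles' pseudo-representations (Wiles 1988, Lemma 2.2.3).

A triple `(a, d, ξ)` of functions on a monoid `G` with values in a field `K` which satisfies the
identities of the entries `a = ρ₀₀`, `d = ρ₁₁`, `ξ (x, y) = ρ₀₁ x * ρ₁₀ y` of a `2 × 2` matrix
representation comes from an honest representation `G →* M₂(K)`:
`ρ x = !![a x, ξ x τ₀ / ξ₀; ξ σ₀ x, d x]`, `ξ₀ = ξ σ₀ τ₀`.
Pure Mathlib; no field extension is needed.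
-/
import Mathlib

set_option autoImplicit false

namespace Fermat.Agent.ES.Wiles

open Matrix

variable {G K : Type*} [Monoid G] [Field K]

/-- The identities satisfied by `a = ρ₀₀`, `d = ρ₁₁`, `ξ x y = ρ₀₁ x * ρ₁₀ y` for a
representation `ρ : G → M₂(K)`. -/
structure PseudoRep (a d : G → K) (ξ : G → G → K) : Prop where
  a_one : a 1 = 1
  d_one : d 1 = 1
  a_mul : ∀ x y, a (x * y) = a x * a y + ξ x y
  d_mul : ∀ x y, d (x * y) = d x * d y + ξ y x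
  ξ_swap : ∀ x y u v, ξ x y * ξ u v = ξ x v * ξ u y
  ξ_mul_left : ∀ x y v, ξ (x * y) v = a x * ξ y v + ξ x v * d y
  ξ_mul_right : ∀ u x y, ξ u (x * y) = ξ u x * a y + d x * ξ u y

namespace PseudoRep

variable {a d : G → K} {ξ : G → G → K}

lemma ξ_one_left (h : PseudoRep a d ξ) (v : G) : ξ 1 v = 0 := by
  have := h.a_mul 1 v
  rw [one_mul, h.a_one, one_mul] at this
  linear_combination -this

lemma ξ_one_right (h : PseudoRep a d ξ) (u : G) : ξ u 1 = 0 := by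
  have := h.a_mul u 1
  rw [mul_one, h.a_one, mul_one] at this
  linear_combination -this

/-- The matrix attached to a pseudo-representation and a base point `(σ₀, τ₀)`. -/
noncomputable def mat (a d : G → K) (ξ : G → G → K) (σ₀ τ₀ : G) (x : G) :
    Matrix (Fin 2) (Fin 2) K :=
  !![a x, ξ x τ₀ * (ξ σ₀ τ₀)⁻¹; ξ σ₀ x, d x]

/-- A base point is *good* if `ξ σ₀ τ₀ ≠ 0`, or if `ξ` vanishes identically. -/
def GoodBase (ξ : G → G → K) (σ₀ τ₀ : G) : Prop :=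
  ξ σ₀ τ₀ ≠ 0 ∨ ∀ x y, ξ x y = 0

omit [Monoid G] in
lemma exists_goodBase [Nonempty G] (ξ : G → G → K) : ∃ σ₀ τ₀, GoodBase ξ σ₀ τ₀ := by
  by_cases h : ∀ x y, ξ x y = 0
  · obtain ⟨g⟩ := ‹Nonempty G›
    exact ⟨g, g, Or.inr h⟩
  · simp only [not_forall] at h
    obtain ⟨x, y, hxy⟩ := h
    exact ⟨x, y, Or.inl hxy⟩

lemma mat_one (h : PseudoRep a d ξ) (σ₀ τ₀ : G) : mat a d ξ σ₀ τ₀ 1 = 1 := by
  rw [mat, h.a_one, h.d_one, h.ξ_one_left, h.ξ_one_right, zero_mul]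
  exact Matrix.one_fin_two.symm

lemma mat_mul (h : PseudoRep a d ξ) {σ₀ τ₀ : G} (hb : GoodBase ξ σ₀ τ₀) (x y : G) :
    mat a d ξ σ₀ τ₀ (x * y) = mat a d ξ σ₀ τ₀ x * mat a d ξ σ₀ τ₀ y := by
  rw [mat, mat, mat, Matrix.mul_fin_two]
  have e00 : a x * a y + ξ x τ₀ * (ξ σ₀ τ₀)⁻¹ * ξ σ₀ y = a (x * y) := by
    rw [h.a_mul]
    rcases hb with hb | hb
    · have := h.ξ_swap x τ₀ σ₀ y
      field_simp
      linear_combination this
    · rw [hb x τ₀, hb x y]; ring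
  have e01 : a x * (ξ y τ₀ * (ξ σ₀ τ₀)⁻¹) + ξ x τ₀ * (ξ σ₀ τ₀)⁻¹ * d y
      = ξ (x * y) τ₀ * (ξ σ₀ τ₀)⁻¹ := by
    rw [h.ξ_mul_left]; ring
  have e10 : ξ σ₀ x * a y + d x * ξ σ₀ y = ξ σ₀ (x * y) := by
    rw [h.ξ_mul_right]
  have e11 : ξ σ₀ x * (ξ y τ₀ * (ξ σ₀ τ₀)⁻¹) + d x * d y = d (x * y) := by
    rw [h.d_mul]
    rcases hb with hb | hb
    · have := h.ξ_swap y τ₀ σ₀ x
      field_simp
      linear_combination this
    · rw [hb σ₀ x, hb y x]; ring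
  rw [e00, e01, e10, e11]

/-- **Wiles' lemma**: the representation attached to a pseudo-representation. -/
noncomputable def rep (h : PseudoRep a d ξ) {σ₀ τ₀ : G} (hb : GoodBase ξ σ₀ τ₀) :
    G →* Matrix (Fin 2) (Fin 2) K where
  toFun := mat a d ξ σ₀ τ₀
  map_one' := mat_one h σ₀ τ₀
  map_mul' := mat_mul h hb

lemma rep_apply (h : PseudoRep a d ξ) {σ₀ τ₀ : G} (hb : GoodBase ξ σ₀ τ₀) (x : G) :
    rep h hb x = !![a x, ξ x τ₀ * (ξ σ₀ τ₀)⁻¹; ξ σ₀ x, d x] := rfl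

lemma rep_trace (h : PseudoRep a d ξ) {σ₀ τ₀ : G} (hb : GoodBase ξ σ₀ τ₀) (x : G) :
    (rep h hb x).trace = a x + d x := by
  rw [rep_apply, Matrix.trace_fin_two_of]

lemma rep_det (h : PseudoRep a d ξ) {σ₀ τ₀ : G} (hb : GoodBase ξ σ₀ τ₀) (x : G) :
    (rep h hb x).det = a x * d x - ξ x x := by
  rw [rep_apply, Matrix.det_fin_two_of]
  have e1 : ξ x τ₀ * (ξ σ₀ τ₀)⁻¹ * ξ σ₀ x = ξ x x := by
    rcases hb with hb | hb
    · have := h.ξ_swap x τ₀ σ₀ x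
      field_simp
      linear_combination this
    · rw [hb x τ₀, hb x x]; ring
  rw [e1]

end PseudoRep

end Fermat.Agent.ES.Wiles
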