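/-
S30 glue (helper59), part 2: from a Cayley–Hamilton relation to a representation.

`E` a nonzero algebra over a field `K` of characteristic `0`, `r : G →* E`, `ε : G →* K`,
`t : G → K` with `r σ + ε σ • r σ⁻¹ = t σ • 1` for all `σ`, and `c ∈ G` with `c² = 1`,
`ε c = -1` ("complex conjugation").  Then there is `ρ : G →* M₂(K)` with `tr ρ = t`,
`det ρ = ε` (`CHDatum.exists_rep`), with entries explicit in `t`:
`a = (t(x) + t(xc))/2`, `d = (t(x) - t(xc))/2`, `ξ(x,y) = a(xy) - a(x)a(y)`.
(Wiles 1988, Lemma 2.2.3.)  No field extension, no irreducibility hypothesis.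
-/
import Fermat.Agent.ES.WilesPseudo

set_option autoImplicit false
set_option linter.unusedSectionVars false
set_option linter.unusedSimpArgs false

namespace Fermat.Agent.ES.Wiles

variable {G K E : Type*} [Group G] [Field K] [CharZero K] [Ring E] [Algebra K E] [Nontrivial E]

/-- Cayley–Hamilton datum: a representation `r` of `G` on a nonzero `K`-algebra `E` whose
elements all satisfy `σ + ε(σ) σ⁻¹ = t(σ)`, together with a "complex conjugation" `c`. -/
structure CHDatum (r : G →* E) (ε : G →* K) (t : G → K) (c : G) : Prop where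
  ch : ∀ σ, r σ + ε σ • r σ⁻¹ = t σ • (1 : E)
  c_sq : c * c = 1
  ε_c : ε c = -1

/-- `a = (t(x) + t(xc))/2`. -/
noncomputable def chA (t : G → K) (c : G) (x : G) : K := (t x + t (x * c)) / 2
/-- `d = (t(x) - t(xc))/2`. -/
noncomputable def chD (t : G → K) (c : G) (x : G) : K := (t x - t (x * c)) / 2
/-- `ξ(x,y) = a(xy) - a(x)a(y)`. -/
noncomputable def chXi (t : G → K) (c : G) (x y : G) : K :=
  chA t c (x * y) - chA t c x * chA t c y

omit [CharZero K] in
lemma smul_one_inj_aux {k k' : K} (h : k • (1 : E) = k' • (1 : E)) : k = k' := by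
  rw [← Algebra.algebraMap_eq_smul_one, ← Algebra.algebraMap_eq_smul_one] at h
  exact (algebraMap K E).injective h

namespace CHDatum

variable {r : G →* E} {ε : G →* K} {t : G → K} {c : G}

omit [CharZero K] in
lemma t_one (h : CHDatum r ε t c) : t 1 = 2 := by
  have := h.ch 1
  rw [inv_one, map_one, map_one, one_smul] at this
  apply smul_one_inj_aux (E := E)
  rw [← this]; module

omit [CharZero K] [Nontrivial E] in
lemma polar (h : CHDatum r ε t c) (x y : G) :
    r x * r y + r y * r x - t x • r y - t y • r x + (t x * t y) • (1 : E) = t (x * y) • 1 := by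
  have hx : ε x • r x⁻¹ = t x • (1 : E) - r x := eq_sub_of_add_eq' (h.ch x)
  have hy : ε y • r y⁻¹ = t y • (1 : E) - r y := eq_sub_of_add_eq' (h.ch y)
  have hxy := h.ch (x * y)
  rw [mul_inv_rev, map_mul, map_mul, map_mul, mul_comm (ε x) (ε y), ← smul_mul_smul_comm,
    hx, hy] at hxy
  rw [← hxy]
  simp only [sub_mul, mul_sub, smul_mul_assoc, mul_smul_comm, one_mul, mul_one, smul_smul]
  module

omit [CharZero K] in
lemma t_comm (h : CHDatum r ε t c) (x y : G) : t (x * y) = t (y * x) := by
  apply smul_one_inj_aux (E := E)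
  rw [← h.polar x y, ← h.polar y x]
  module

omit [CharZero K] in
lemma c_inv (h : CHDatum r ε t c) : c⁻¹ = c := inv_eq_of_mul_eq_one_left h.c_sq

omit [CharZero K] in
lemma t_c (h : CHDatum r ε t c) : t c = 0 := by
  have := h.ch c
  rw [h.c_inv, h.ε_c] at this
  apply smul_one_inj_aux (E := E)
  rw [← this]; module

omit [CharZero K] [Nontrivial E] in
lemma rc_sq (h : CHDatum r ε t c) : r c * r c = 1 := by
  rw [← map_mul, h.c_sq, map_one]

/-- relation with the complex conjugation -/
lemma mul_c (h : CHDatum r ε t c) (x : G) :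
    r x * r c + r c * r x = t x • r c + t (x * c) • (1 : E) := by
  have := h.polar x c
  rw [h.t_c] at this
  linear_combination (norm := module) this

lemma c_mul_c (h : CHDatum r ε t c) (x : G) :
    r c * r x * r c = t x • (1 : E) + t (x * c) • r c - r x := by
  have h1 : r c * r x = t x • r c + t (x * c) • (1 : E) - r x * r c :=
    eq_sub_of_add_eq' (h.mul_c x)
  rw [h1, sub_mul, add_mul, smul_mul_assoc, smul_mul_assoc, one_mul, mul_assoc, h.rc_sq, mul_one]

/-- The idempotent `(1 + c)/2`. -/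
noncomputable def eP (r : G →* E) (c : G) : E := (2⁻¹ : K) • (1 + r c)
/-- The idempotent `(1 - c)/2`. -/
noncomputable def eQ (r : G →* E) (c : G) : E := (2⁻¹ : K) • (1 - r c)

lemma eP_add_eQ (r : G →* E) (c : G) : eP (K := K) r c + eQ (K := K) r c = 1 := by
  rw [eP, eQ]; module

lemma eP_mul_eP (h : CHDatum r ε t c) : eP (K := K) r c * eP (K := K) r c = eP (K := K) r c := by
  have : (1 + r c) * (1 + r c) = (2 : K) • (1 + r c) := by
    rw [mul_add, add_mul, add_mul, h.rc_sq]; simp only [one_mul, mul_one]; module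
  rw [eP, smul_mul_smul_comm, this]; module

lemma eQ_mul_eQ (h : CHDatum r ε t c) : eQ (K := K) r c * eQ (K := K) r c = eQ (K := K) r c := by
  have : (1 - r c) * (1 - r c) = (2 : K) • (1 - r c) := by
    rw [mul_sub, sub_mul, sub_mul, h.rc_sq]; simp only [one_mul, mul_one]; module
  rw [eQ, smul_mul_smul_comm, this]; module

lemma eP_mul_eQ (h : CHDatum r ε t c) : eP (K := K) r c * eQ (K := K) r c = 0 := by
  have : (1 + r c) * (1 - r c) = 0 := by
    rw [mul_sub, add_mul, add_mul, h.rc_sq]; simp only [one_mul, mul_one]; abel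
  rw [eP, eQ, smul_mul_smul_comm, this, smul_zero]

lemma eQ_mul_eP (h : CHDatum r ε t c) : eQ (K := K) r c * eP (K := K) r c = 0 := by
  have : (1 - r c) * (1 + r c) = 0 := by
    rw [mul_add, sub_mul, sub_mul, h.rc_sq]; simp only [one_mul, mul_one]; abel
  rw [eP, eQ, smul_mul_smul_comm, this, smul_zero]

lemma eP_mul_eP_assoc (h : CHDatum r ε t c) (z : E) :
    eP (K := K) r c * (eP (K := K) r c * z) = eP (K := K) r c * z := by
  rw [← mul_assoc, h.eP_mul_eP]

lemma eQ_mul_eQ_assoc (h : CHDatum r ε t c) (z : E) :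
    eQ (K := K) r c * (eQ (K := K) r c * z) = eQ (K := K) r c * z := by
  rw [← mul_assoc, h.eQ_mul_eQ]

lemma eP_mul_eQ_assoc (h : CHDatum r ε t c) (z : E) :
    eP (K := K) r c * (eQ (K := K) r c * z) = 0 := by
  rw [← mul_assoc, h.eP_mul_eQ, zero_mul]

lemma eQ_mul_eP_assoc (h : CHDatum r ε t c) (z : E) :
    eQ (K := K) r c * (eP (K := K) r c * z) = 0 := by
  rw [← mul_assoc, h.eQ_mul_eP, zero_mul]

/-- `P X P = a(x) P`. -/
lemma eP_mul_eP' (h : CHDatum r ε t c) (x : G) :
    eP (K := K) r c * r x * eP (K := K) r c = chA t c x • eP (K := K) r c := by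
  have h1 := h.mul_c x
  have h2 := h.c_mul_c x
  have : (1 + r c) * r x * (1 + r c) = (t x + t (x * c)) • (1 + r c) := by
    simp only [mul_add, add_mul, one_mul, mul_one]
    linear_combination (norm := module) h1 + h2
  rw [eP, smul_mul_assoc, smul_mul_assoc, mul_smul_comm, this, chA]
  module

/-- `Q X Q = d(x) Q`. -/
lemma eQ_mul_eQ' (h : CHDatum r ε t c) (x : G) :
    eQ (K := K) r c * r x * eQ (K := K) r c = chD t c x • eQ (K := K) r c := by
  have h1 := h.mul_c x
  have h2 := h.c_mul_c x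
  have : (1 - r c) * r x * (1 - r c) = (t x - t (x * c)) • (1 - r c) := by
    simp only [mul_sub, sub_mul, one_mul, mul_one]
    linear_combination (norm := module) - h1 + h2
  rw [eQ, smul_mul_assoc, smul_mul_assoc, mul_smul_comm, this, chD]
  module

lemma chA_add_chD (t : G → K) (c : G) (x : G) : chA t c x + chD t c x = t x := by
  rw [chA, chD]; ring

lemma chA_one (h : CHDatum r ε t c) : chA t c 1 = 1 := by
  rw [chA, one_mul, h.t_one, h.t_c]; norm_num

lemma chD_one (h : CHDatum r ε t c) : chD t c 1 = 1 := by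
  rw [chD, one_mul, h.t_one, h.t_c]; norm_num

local notation "P" => eP (K := K) r c
local notation "Q" => eQ (K := K) r c

/-- `P X Q Y P = ξ(x,y) P`. -/
lemma eP_eQ_eP (h : CHDatum r ε t c) (x y : G) :
    P * r x * Q * r y * P = chXi t c x y • P := by
  have e1 := h.eP_mul_eP' (x * y)
  have ex := h.eP_mul_eP' x
  have ey := h.eP_mul_eP' y
  have split : P * r (x * y) * P = (P * r x * P) * (P * r y * P) + P * r x * Q * r y * P := by
    rw [map_mul]
    have : P * (r x * r y) * P = P * r x * (P + Q) * (r y * P) := by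
      rw [eP_add_eQ, mul_one]; simp only [mul_assoc]
    rw [this, mul_add, add_mul]
    simp only [mul_assoc, h.eP_mul_eP_assoc]
  rw [e1, ex, ey, smul_mul_smul_comm, h.eP_mul_eP] at split
  rw [chXi]
  linear_combination (norm := module) -split

/-- `Q X P Y Q = ξ'(x,y) Q`. -/
lemma eQ_eP_eQ (h : CHDatum r ε t c) (x y : G) :
    Q * r x * P * r y * Q = (chD t c (x * y) - chD t c x * chD t c y) • Q := by
  have e1 := h.eQ_mul_eQ' (x * y)
  have ex := h.eQ_mul_eQ' x
  have ey := h.eQ_mul_eQ' y
  have split : Q * r (x * y) * Q = (Q * r x * Q) * (Q * r y * Q) + Q * r x * P * r y * Q := by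
    rw [map_mul]
    have : Q * (r x * r y) * Q = Q * r x * (Q + P) * (r y * Q) := by
      rw [add_comm, eP_add_eQ, mul_one]; simp only [mul_assoc]
    rw [this, mul_add, add_mul]
    simp only [mul_assoc, h.eQ_mul_eQ_assoc]
  rw [e1, ex, ey, smul_mul_smul_comm, h.eQ_mul_eQ] at split
  linear_combination (norm := module) -split

/-- In the generic case `ξ'(x,y) = ξ(y,x)`. -/
lemma chD_mul_of_ne (h : CHDatum r ε t c) (hP : P ≠ 0) (hQ : Q ≠ 0) (x y : G) :
    chD t c (x * y) - chD t c x * chD t c y = chXi t c y x := by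
  set u : E := P * r y * Q with hu
  set v : E := Q * r x * P with hv
  have huv : u * v = chXi t c y x • P := by
    rw [← h.eP_eQ_eP y x, hu, hv]; simp only [mul_assoc, h.eQ_mul_eQ_assoc]
  have hvu : v * u = (chD t c (x * y) - chD t c x * chD t c y) • Q := by
    rw [← h.eQ_eP_eQ x y, hu, hv]; simp only [mul_assoc, h.eP_mul_eP_assoc]
  have hPu : P * u = u := by rw [hu]; simp only [mul_assoc, h.eP_mul_eP_assoc]
  have huQ : u * Q = u := by rw [hu]; simp only [mul_assoc, h.eQ_mul_eQ]
  have e1 : u * v * u = chXi t c y x • u := by rw [huv, smul_mul_assoc, hPu]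
  have e2 : u * v * u = (chD t c (x * y) - chD t c x * chD t c y) • u := by
    rw [mul_assoc, hvu, mul_smul_comm, huQ]
  by_contra hne
  have hu0 : u = 0 := by
    have : (chD t c (x * y) - chD t c x * chD t c y - chXi t c y x) • u = 0 := by
      rw [sub_smul, ← e1, ← e2, sub_self]
    rcases smul_eq_zero.mp this with h0 | h0
    · exact absurd (sub_eq_zero.mp h0) hne
    · exact h0
  rw [hu0, zero_mul] at huv
  rw [hu0, mul_zero] at hvu
  have h1 : chXi t c y x = 0 := (smul_eq_zero.mp huv.symm).resolve_right hP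
  have h2 : chD t c (x * y) - chD t c x * chD t c y = 0 :=
    (smul_eq_zero.mp hvu.symm).resolve_right hQ
  exact hne (by rw [h1, h2])

lemma chXi_swap_of_ne (h : CHDatum r ε t c) (hP : P ≠ 0) (hQ : Q ≠ 0) (x y u v : G) :
    chXi t c x y * chXi t c u v = chXi t c x v * chXi t c u y := by
  have e1 : (P * r x * Q * r y * P) * (P * r u * Q * r v * P)
      = (P * r x * Q) * (Q * r y * P * r u * Q) * (Q * r v * P) := by
    simp only [mul_assoc, h.eP_mul_eP_assoc, h.eQ_mul_eQ_assoc]
  rw [h.eP_eQ_eP, h.eP_eQ_eP, h.eQ_eP_eQ, h.chD_mul_of_ne hP hQ, smul_mul_smul_comm,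
    h.eP_mul_eP, mul_smul_comm, smul_mul_assoc] at e1
  have e2 : P * r x * Q * Q * (Q * r v * P) = P * r x * Q * r v * P := by
    simp only [mul_assoc, h.eQ_mul_eQ_assoc]
  rw [e2, h.eP_eQ_eP, smul_smul] at e1
  have := sub_eq_zero.mpr e1
  rw [← sub_smul] at this
  have := (smul_eq_zero.mp this).resolve_right hP
  linear_combination this

lemma chXi_mul_left_of_ne (h : CHDatum r ε t c) (hP : P ≠ 0) (x y v : G) :
    chXi t c (x * y) v = chA t c x * chXi t c y v + chXi t c x v * chD t c y := by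
  have e1 : P * r (x * y) * Q * r v * P
      = (P * r x * P) * (P * r y * Q * r v * P) + P * r x * (Q * r y * Q) * r v * P := by
    rw [map_mul]
    have : P * (r x * r y) * Q * r v * P = P * r x * (P + Q) * (r y * Q * r v * P) := by
      rw [eP_add_eQ, mul_one]; simp only [mul_assoc]
    rw [this, mul_add, add_mul]
    simp only [mul_assoc, h.eP_mul_eP_assoc]
  rw [h.eP_eQ_eP, h.eP_mul_eP', h.eP_eQ_eP, h.eQ_mul_eQ', smul_mul_smul_comm, h.eP_mul_eP,
    mul_smul_comm, smul_mul_assoc, smul_mul_assoc, h.eP_eQ_eP, smul_smul] at e1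
  have := sub_eq_zero.mpr e1
  rw [← add_smul, ← sub_smul] at this
  have := (smul_eq_zero.mp this).resolve_right hP
  linear_combination this

lemma chXi_mul_right_of_ne (h : CHDatum r ε t c) (hP : P ≠ 0) (u x y : G) :
    chXi t c u (x * y) = chXi t c u x * chA t c y + chD t c x * chXi t c u y := by
  have e1 : P * r u * Q * r (x * y) * P
      = (P * r u * Q * r x * P) * (P * r y * P) + P * r u * (Q * r x * Q) * r y * P := by
    rw [map_mul]
    have : P * r u * Q * (r x * r y) * P = P * r u * Q * r x * (P + Q) * (r y * P) := by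
      rw [eP_add_eQ, mul_one]; simp only [mul_assoc]
    rw [this, mul_add, add_mul]
    simp only [mul_assoc, h.eP_mul_eP_assoc]
  rw [h.eP_eQ_eP, h.eP_mul_eP', h.eP_eQ_eP, h.eQ_mul_eQ', smul_mul_smul_comm, h.eP_mul_eP,
    mul_smul_comm, smul_mul_assoc, smul_mul_assoc, h.eP_eQ_eP, smul_smul] at e1
  have := sub_eq_zero.mpr e1
  rw [← add_smul, ← sub_smul] at this
  have := (smul_eq_zero.mp this).resolve_right hP
  linear_combination this

/-- The quadratic relation `X² - t X + ε = 0`. -/
lemma quad (h : CHDatum r ε t c) (x : G) :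
    r x * r x - t x • r x + ε x • (1 : E) = 0 := by
  have := congrArg (fun z => r x * z) (h.ch x)
  simp only [mul_add, mul_smul_comm, mul_one, ← map_mul, mul_inv_cancel, map_one] at this
  rw [map_mul] at this
  linear_combination (norm := module) this

lemma chA_sq_of_ne (h : CHDatum r ε t c) (hP : P ≠ 0) (x : G) :
    chA t c (x * x) = t x * chA t c x - ε x := by
  have e1 : P * (r x * r x - t x • r x + ε x • (1 : E)) * P = 0 := by
    rw [h.quad, mul_zero, zero_mul]
  rw [mul_add, mul_sub, add_mul, sub_mul, mul_smul_comm, mul_smul_comm, smul_mul_assoc,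
    smul_mul_assoc, mul_one, h.eP_mul_eP, ← map_mul, h.eP_mul_eP', h.eP_mul_eP', smul_smul,
    ← sub_smul, ← add_smul] at e1
  have := (smul_eq_zero.mp e1).resolve_right hP
  linear_combination this

lemma det_of_ne (h : CHDatum r ε t c) (hP : P ≠ 0) (x : G) :
    chA t c x * chD t c x - chXi t c x x = ε x := by
  have h1 := h.chA_sq_of_ne hP x
  have h2 := chA_add_chD t c x
  rw [chXi, h1, ← h2]; ring

/-! ### The degenerate cases `P = 0` or `Q = 0`: `G` acts through scalars -/

lemma scalar_case (h : CHDatum r ε t c) (f g' : G → K) (hfg : ∀ x, f x + g' x = t x)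
    (hf1 : f 1 = 1) (hr : ∀ x, r x = f x • (1 : E)) :
    (∀ x y, f (x * y) = f x * f y) ∧ (∀ x y, g' (x * y) = g' x * g' y) ∧
      (∀ x, f x * g' x = ε x) := by
  have hmul : ∀ x y, f (x * y) = f x * f y := by
    intro x y
    apply smul_one_inj_aux (E := E)
    rw [← hr, map_mul, hr x, hr y, smul_mul_smul_comm, mul_one]
  have hne : ∀ x, f x ≠ 0 := by
    intro x hx
    have := hmul x x⁻¹
    rw [mul_inv_cancel, hf1, hx, zero_mul] at this
    exact one_ne_zero this
  have hdet : ∀ x, f x * g' x = ε x := by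
    intro x
    have := h.quad x
    rw [hr x, smul_mul_smul_comm, mul_one, smul_smul, ← sub_smul, ← add_smul] at this
    have h0 : f x * f x - t x * f x + ε x = 0 := by
      apply smul_one_inj_aux (E := E)
      rw [this, zero_smul]
    rw [← hfg x] at h0
    linear_combination -h0
  refine ⟨hmul, fun x y => ?_, hdet⟩
  have e1 := hdet (x * y)
  rw [hmul, map_mul, ← hdet x, ← hdet y] at e1
  have := mul_left_cancel₀ (mul_ne_zero (hne x) (hne y)) (e1.trans (by ring :
    f x * g' x * (f y * g' y) = f x * f y * (g' x * g' y)))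
  exact this

lemma of_eQ_eq_zero (h : CHDatum r ε t c) (hQ : Q = 0) :
    (∀ x y, chA t c (x * y) = chA t c x * chA t c y) ∧
      (∀ x y, chD t c (x * y) = chD t c x * chD t c y) ∧
      (∀ x, chA t c x * chD t c x = ε x) := by
  have hP1 : P = 1 := by
    have := eP_add_eQ (K := K) r c
    rwa [hQ, add_zero] at this
  refine h.scalar_case _ _ (chA_add_chD t c) h.chA_one fun x => ?_
  have := h.eP_mul_eP' x
  rwa [hP1, one_mul, mul_one] at this

lemma of_eP_eq_zero (h : CHDatum r ε t c) (hP : P = 0) :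
    (∀ x y, chA t c (x * y) = chA t c x * chA t c y) ∧
      (∀ x y, chD t c (x * y) = chD t c x * chD t c y) ∧
      (∀ x, chA t c x * chD t c x = ε x) := by
  have hQ1 : Q = 1 := by
    have := eP_add_eQ (K := K) r c
    rwa [hP, zero_add] at this
  have := h.scalar_case (chD t c) (chA t c)
    (fun x => by rw [add_comm]; exact chA_add_chD t c x) h.chD_one fun x => by
      have := h.eQ_mul_eQ' x
      rwa [hQ1, one_mul, mul_one] at this
  exact ⟨this.2.1, this.1, fun x => by rw [mul_comm]; exact this.2.2 x⟩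

/-- In the degenerate case everything is diagonal. -/
lemma pseudoRep_of_mul (h : CHDatum r ε t c)
    (hA : ∀ x y, chA t c (x * y) = chA t c x * chA t c y)
    (hD : ∀ x y, chD t c (x * y) = chD t c x * chD t c y) :
    PseudoRep (chA t c) (chD t c) (chXi t c) := by
  have hξ : ∀ x y, chXi t c x y = 0 := fun x y => by rw [chXi, hA, sub_self]
  refine ⟨h.chA_one, h.chD_one, fun x y => ?_, fun x y => ?_, fun x y u v => ?_,
    fun x y v => ?_, fun u x y => ?_⟩
  · rw [hξ, add_zero, hA]
  · rw [hξ, add_zero, hD]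
  · rw [hξ x y, hξ x v, zero_mul, zero_mul]
  · rw [hξ (x * y) v, hξ y v, hξ x v, mul_zero, zero_mul, add_zero]
  · rw [hξ u (x * y), hξ u x, hξ u y, mul_zero, zero_mul, add_zero]

/-- **Wiles' lemma, part 1**: a Cayley–Hamilton datum with a complex conjugation gives a
pseudo-representation. -/
theorem pseudoRep (h : CHDatum r ε t c) : PseudoRep (chA t c) (chD t c) (chXi t c) := by
  by_cases hP : P = 0
  · obtain ⟨hA, hD, -⟩ := h.of_eP_eq_zero hP
    exact h.pseudoRep_of_mul hA hD
  by_cases hQ : Q = 0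
  · obtain ⟨hA, hD, -⟩ := h.of_eQ_eq_zero hQ
    exact h.pseudoRep_of_mul hA hD
  refine ⟨h.chA_one, h.chD_one, fun x y => ?_, fun x y => ?_, h.chXi_swap_of_ne hP hQ,
    h.chXi_mul_left_of_ne hP, h.chXi_mul_right_of_ne hP⟩
  · rw [chXi]; ring
  · rw [← h.chD_mul_of_ne hP hQ x y]; ring

/-- The determinant of the pseudo-representation is `ε`. -/
theorem det_eq (h : CHDatum r ε t c) (x : G) :
    chA t c x * chD t c x - chXi t c x x = ε x := by
  by_cases hP : P = 0
  · obtain ⟨hA, -, hdet⟩ := h.of_eP_eq_zero hP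
    rw [chXi, hA, sub_self, sub_zero, hdet]
  · exact h.det_of_ne hP x

/-- **Wiles' lemma** over the field `K` itself: a Cayley–Hamilton datum with a complex
conjugation comes from a representation `G → GL₂(K)` with trace `t` and determinant `ε`,
whose entries are explicit in terms of `t`. -/
theorem exists_rep (h : CHDatum r ε t c) :
    ∃ (ρ : G →* Matrix (Fin 2) (Fin 2) K) (σ₀ τ₀ : G),
      (∀ x, ρ x = !![chA t c x, chXi t c x τ₀ * (chXi t c σ₀ τ₀)⁻¹;
                      chXi t c σ₀ x, chD t c x]) ∧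
      (∀ x, (ρ x).trace = t x) ∧ (∀ x, (ρ x).det = ε x) := by
  obtain ⟨σ₀, τ₀, hb⟩ := PseudoRep.exists_goodBase (chXi t c)
  refine ⟨h.pseudoRep.rep hb, σ₀, τ₀, fun x => rfl, fun x => ?_, fun x => ?_⟩
  · rw [PseudoRep.rep_trace, chA_add_chD]
  · rw [PseudoRep.rep_det, h.det_eq]

/-! ### Invariance of `t` under translation by `σ` -/

lemma t_mul_right_of_inv (h : CHDatum r ε t c) {σ : G} (hσ : ∀ g, t (σ * g) = t g) (g : G) :
    t (g * σ) = t g := by
  rw [h.t_comm, hσ]

lemma chA_mul_left_of_inv {σ : G} (hσ : ∀ g, t (σ * g) = t g) (g : G) :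
    chA t c (σ * g) = chA t c g := by
  rw [chA, chA, mul_assoc, hσ, hσ]

lemma chA_mul_right_of_inv (h : CHDatum r ε t c) {σ : G} (hσ : ∀ g, t (σ * g) = t g) (g : G) :
    chA t c (g * σ) = chA t c g := by
  have e1 : t (g * σ * c) = t (g * c) := by
    rw [mul_assoc, h.t_comm, mul_assoc, hσ, h.t_comm]
  rw [chA, chA, h.t_mul_right_of_inv hσ, e1]

lemma chA_of_inv (h : CHDatum r ε t c) {σ : G} (hσ : ∀ g, t (σ * g) = t g) :
    chA t c σ = 1 := by
  have := chA_mul_left_of_inv (c := c) hσ 1
  rwa [mul_one, h.chA_one] at this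

lemma chD_of_inv (h : CHDatum r ε t c) {σ : G} (hσ : ∀ g, t (σ * g) = t g) :
    chD t c σ = 1 := by
  have h1 := hσ 1
  have h2 := hσ c
  rw [mul_one] at h1
  rw [chD, h2, h1, h.t_one, h.t_c]; norm_num

lemma chXi_left_of_inv (h : CHDatum r ε t c) {σ : G} (hσ : ∀ g, t (σ * g) = t g) (y : G) :
    chXi t c σ y = 0 := by
  rw [chXi, chA_mul_left_of_inv hσ, h.chA_of_inv hσ, one_mul, sub_self]

lemma chXi_right_of_inv (h : CHDatum r ε t c) {σ : G} (hσ : ∀ g, t (σ * g) = t g) (x : G) :
    chXi t c x σ = 0 := by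
  rw [chXi, h.chA_mul_right_of_inv hσ, h.chA_of_inv hσ, mul_one, sub_self]

/-- If `r σ = 1` and `ε σ = 1` then `t` is invariant under translation by `σ`. -/
lemma t_inv_of_trivial (h : CHDatum r ε t c) {σ : G} (h1 : r σ = 1) (h2 : ε σ = 1) (g : G) :
    t (σ * g) = t g := by
  have h3 : r σ⁻¹ = 1 := by
    have := map_mul r σ σ⁻¹
    rwa [mul_inv_cancel, map_one, h1, one_mul, eq_comm] at this
  apply smul_one_inj_aux (E := E)
  rw [← h.ch, ← h.ch g, map_mul r σ g, map_mul ε σ g, h1, h2, one_mul, one_mul, mul_inv_rev,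
    map_mul r, h3, mul_one]

end CHDatum

end Fermat.Agent.ES.Wiles
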