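/-
S30 glue (helper59), part 3: stable lattices.

A representation `ρ : G →* M_k(K)` over the fraction field `K` of a PID `𝒪` with bounded
denominators (`δ • ρ g` integral for all `g`, `δ ≠ 0`) is conjugate to an integral one:
there are `B ∈ M_k(𝒪)` with `det B ≠ 0` and `M : G →* M_k(𝒪)` with `B * M g = ρ g * B`.
(The lattice is `Λ = ∑_g ρ(g) 𝒪ᵏ`, free of rank `k` over the PID `𝒪`.)  Pure Mathlib.
-/
import Mathlib

set_option autoImplicit false
set_option linter.unusedSectionVars false
set_option linter.unusedSimpArgs false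

namespace Fermat.Agent.ES.Wiles

open Matrix

section Lattice

variable {𝒪 K G : Type*} [CommRing 𝒪] [IsDomain 𝒪] [IsPrincipalIdealRing 𝒪]
  [Field K] [Algebra 𝒪 K] [IsFractionRing 𝒪 K] [Monoid G] {k : ℕ}

/-- **Stable lattice**: a representation over the fraction field of a PID with bounded
denominators is conjugate, by an integral matrix `B` with `det B ≠ 0`, to an integral
representation. -/
theorem exists_stable_lattice (ρ : G →* Matrix (Fin k) (Fin k) K) (δ : 𝒪) (hδ : δ ≠ 0)
    (hb : ∀ g i j, ∃ y : 𝒪, algebraMap 𝒪 K y = algebraMap 𝒪 K δ * ρ g i j) :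
    ∃ (B : Matrix (Fin k) (Fin k) 𝒪) (M : G →* Matrix (Fin k) (Fin k) 𝒪),
      B.det ≠ 0 ∧ ∀ g, B.map (algebraMap 𝒪 K) * (M g).map (algebraMap 𝒪 K)
        = ρ g * B.map (algebraMap 𝒪 K) := by
  classical
  have hinj : Function.Injective (algebraMap 𝒪 K) := IsFractionRing.injective 𝒪 K
  let ι : (Fin k → 𝒪) →ₗ[𝒪] (Fin k → K) := (Algebra.linearMap 𝒪 K).compLeft (Fin k)
  have hι_apply : ∀ (x : Fin k → 𝒪) (i : Fin k), ι x i = algebraMap 𝒪 K (x i) := fun x i => rfl
  have hι : Function.Injective ι := by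
    intro x y hxy
    funext i
    exact hinj (by rw [← hι_apply, ← hι_apply, hxy])
  choose w hw using hb
  let N : Submodule 𝒪 (Fin k → 𝒪) :=
    Submodule.span 𝒪 (Set.range fun p : G × Fin k => fun i => w p.1 i p.2)
  -- stability of the lattice
  have hstab : ∀ g, ∀ x ∈ N, ∃ x' ∈ N, ι x' = (ρ g).mulVec (ι x) := by
    intro g x hx
    induction hx using Submodule.span_induction with
    | mem x hx =>
      obtain ⟨⟨h, j⟩, rfl⟩ := hx
      refine ⟨fun i => w (g * h) i j, Submodule.subset_span ⟨(g * h, j), rfl⟩, ?_⟩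
      funext i
      rw [hι_apply, hw, map_mul, Matrix.mul_apply, Matrix.mulVec, dotProduct, Finset.mul_sum]
      refine Finset.sum_congr rfl fun l _ => ?_
      rw [hι_apply, hw]; ring
    | zero => exact ⟨0, N.zero_mem, by rw [map_zero, Matrix.mulVec_zero]⟩
    | add x y _ _ hx hy =>
      obtain ⟨x', hx', ex⟩ := hx
      obtain ⟨y', hy', ey⟩ := hy
      exact ⟨x' + y', N.add_mem hx' hy', by rw [map_add, map_add, Matrix.mulVec_add, ex, ey]⟩
    | smul a x _ hx =>
      obtain ⟨x', hx', ex⟩ := hx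
      exact ⟨a • x', N.smul_mem a hx', by rw [map_smul, map_smul, Matrix.mulVec_smul, ex]⟩
  -- a basis of the lattice
  obtain ⟨m, β⟩ := Submodule.basisOfPid (Pi.basisFun 𝒪 (Fin k)) N
  have h1 : LinearIndependent 𝒪 (fun j => (β j : Fin k → 𝒪)) :=
    β.linearIndependent.map' N.subtype N.ker_subtype
  let v : Fin m → (Fin k → K) := fun j => ι (β j)
  have hli𝒪 : LinearIndependent 𝒪 v := h1.map' ι (LinearMap.ker_eq_bot.mpr hι)
  have hliK : LinearIndependent K v := (LinearIndependent.iff_fractionRing 𝒪 K).mp hli𝒪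
  have hNspan : ∀ x ∈ N, ι x ∈ Submodule.span K (Set.range v) := by
    intro x hx
    have e1 : x = ∑ j, (β.repr ⟨x, hx⟩ j) • (β j : Fin k → 𝒪) := by
      have := congrArg N.subtype (β.sum_repr ⟨x, hx⟩)
      rw [map_sum] at this
      simpa using this.symm
    rw [e1, map_sum]
    refine Submodule.sum_mem _ fun j _ => ?_
    rw [map_smul, ← algebraMap_smul K]
    exact Submodule.smul_mem _ _ (Submodule.subset_span ⟨j, rfl⟩)
  have hsp : ⊤ ≤ Submodule.span K (Set.range v) := by
    intro x _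
    have hx : x = ∑ i, x i • (Pi.single i (1 : K) : Fin k → K) := by
      funext l
      simp [Finset.sum_apply, Pi.single_apply]
    rw [hx]
    refine Submodule.sum_mem _ fun i _ => Submodule.smul_mem _ _ ?_
    have hcol : (fun l => w 1 l i) ∈ N := Submodule.subset_span ⟨(1, i), rfl⟩
    have e2 : ι (fun l => w 1 l i) = algebraMap 𝒪 K δ • (Pi.single i (1 : K) : Fin k → K) := by
      funext l
      rw [hι_apply, hw, map_one, Matrix.one_apply, Pi.smul_apply, Pi.single_apply, smul_eq_mul]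
    have hδK : algebraMap 𝒪 K δ ≠ 0 := fun h0 => hδ (hinj (by rw [h0, map_zero]))
    have := Submodule.smul_mem _ (algebraMap 𝒪 K δ)⁻¹ (hNspan _ hcol)
    rwa [e2, smul_smul, inv_mul_cancel₀ hδK, one_smul] at this
  have hm : m = k := by
    have := Module.finrank_eq_card_basis (Module.Basis.mk hliK hsp)
    simpa using this.symm
  subst hm
  -- the matrices
  choose x' hx'N hx' using fun (g : G) (j : Fin m) => hstab g (β j) (β j).2
  let Mf : G → Matrix (Fin m) (Fin m) 𝒪 := fun g => Matrix.of fun i j => β.repr ⟨x' g j, hx'N g j⟩ i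
  let B : Matrix (Fin m) (Fin m) 𝒪 := Matrix.of fun i j => (β j : Fin m → 𝒪) i
  have hBM : ∀ g, B.map (algebraMap 𝒪 K) * (Mf g).map (algebraMap 𝒪 K)
      = ρ g * B.map (algebraMap 𝒪 K) := by
    intro g
    ext i j
    have e1 : x' g j = ∑ l, (β.repr ⟨x' g j, hx'N g j⟩ l) • (β l : Fin m → 𝒪) := by
      have := congrArg N.subtype (β.sum_repr ⟨x' g j, hx'N g j⟩)
      rw [map_sum] at this
      simpa using this.symm
    have e2 := congrFun (hx' g j) i
    rw [hι_apply, Matrix.mulVec, dotProduct] at e2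
    rw [Matrix.mul_apply, Matrix.mul_apply]
    simp only [Matrix.map_apply, B, Mf, Matrix.of_apply]
    rw [show (∑ l, ρ g i l * algebraMap 𝒪 K ((β j : Fin m → 𝒪) l)) = _ from e2.symm]
    conv_rhs => rw [e1]
    rw [Finset.sum_apply, map_sum]
    refine Finset.sum_congr rfl fun l _ => ?_
    rw [Pi.smul_apply, smul_eq_mul, map_mul, mul_comm]
  have hBdet : B.det ≠ 0 := by
    intro h0
    obtain ⟨u, hu, hBu⟩ := Matrix.exists_mulVec_eq_zero_iff.mpr h0
    apply hu
    have := Fintype.linearIndependent_iff.mp h1 u (by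
      funext i
      have := congrFun hBu i
      rw [Matrix.mulVec, dotProduct] at this
      rw [Pi.zero_apply] at this
      rw [Finset.sum_apply, Pi.zero_apply, ← this]
      refine Finset.sum_congr rfl fun l _ => ?_
      simp only [B, Matrix.of_apply, Pi.smul_apply, smul_eq_mul, mul_comm])
    funext i
    exact this i
  have hBu : IsUnit (B.map (algebraMap 𝒪 K)) := by
    rw [Matrix.isUnit_iff_isUnit_det]
    have : (B.map (algebraMap 𝒪 K)).det = algebraMap 𝒪 K B.det := by
      rw [RingHom.map_det]; rfl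
    rw [this, isUnit_iff_ne_zero]
    exact fun h0 => hBdet (hinj (by rw [h0, map_zero]))
  have hmapinj : Function.Injective
      (fun A : Matrix (Fin m) (Fin m) 𝒪 => A.map (algebraMap 𝒪 K)) :=
    Matrix.map_injective hinj
  refine ⟨B, ⟨⟨Mf, ?_⟩, ?_⟩, hBdet, hBM⟩
  · apply hmapinj
    apply hBu.mul_left_cancel
    show B.map (algebraMap 𝒪 K) * (Mf 1).map (algebraMap 𝒪 K)
      = B.map (algebraMap 𝒪 K) * (1 : Matrix (Fin m) (Fin m) 𝒪).map (algebraMap 𝒪 K)
    rw [hBM, map_one, one_mul, Matrix.map_one _ (map_zero _) (map_one _), mul_one]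
  · intro g h
    apply hmapinj
    apply hBu.mul_left_cancel
    show B.map (algebraMap 𝒪 K) * (Mf (g * h)).map (algebraMap 𝒪 K)
      = B.map (algebraMap 𝒪 K) * (Mf g * Mf h).map (algebraMap 𝒪 K)
    rw [hBM, Matrix.map_mul, ← mul_assoc, hBM, map_mul, mul_assoc, mul_assoc, hBM]

end Lattice

end Fermat.Agent.ES.Wiles
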