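/-
S30 glue (helper59), part 4: Wiles' lemma, integral form (`exists_integral_rep`).
-/
import Fermat.Agent.ES.WilesCH
import Fermat.Agent.ES.WilesLattice

set_option autoImplicit false
set_option linter.unusedSectionVars false
set_option linter.unusedSimpArgs false

namespace Fermat.Agent.ES.Wiles

open Matrix

section Integral

variable {𝒪 K G E : Type*} [CommRing 𝒪] [IsDomain 𝒪] [IsPrincipalIdealRing 𝒪]
  [Field K] [CharZero K] [Algebra 𝒪 K] [IsFractionRing 𝒪 K] [Group G]
  [Ring E] [Algebra K E] [Nontrivial E]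

/-- **Wiles' lemma, integral form.**  Let `𝒪` be a PID with fraction field `K` of
characteristic `0`, `G` a group acting on a nonzero `K`-algebra `E` (e.g. `End_K W`, `W ≠ 0`)
such that `σ + ε(σ) σ⁻¹ = t(σ)` for all `σ`, with `t`, `ε` integral, and `c ∈ G` with `c² = 1`,
`ε(c) = -1`.  Then there is a representation `M : G → M₂(𝒪)` with `tr M = t`, `det M = ε`,
which is as continuous as `t`: there is `δ ≠ 0` such that, whenever `t(σ g) ≡ t(g)` modulo
an ideal `I` for all `g`, we have `δ (M σ - 1) ≡ 0` modulo `I`. -/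
theorem exists_integral_rep (r : G →* E) (ε₀ : G →* 𝒪) (t₀ : G → 𝒪) (c : G)
    (h : CHDatum r ((algebraMap 𝒪 K : 𝒪 →* K).comp ε₀) (fun g => algebraMap 𝒪 K (t₀ g)) c) :
    ∃ (M : G →* Matrix (Fin 2) (Fin 2) 𝒪) (δ : 𝒪), δ ≠ 0 ∧
      (∀ g, (M g).trace = t₀ g) ∧ (∀ g, (M g).det = ε₀ g) ∧
      ∀ (σ : G) (I : Ideal 𝒪), (∀ g, t₀ (σ * g) - t₀ g ∈ I) →
        ∀ i j, δ * (M σ - 1) i j ∈ I := by
  classical
  have hinj : Function.Injective (algebraMap 𝒪 K) := IsFractionRing.injective 𝒪 K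
  obtain ⟨ρ, σ₀, τ₀, hρ, htr, hdet⟩ := h.exists_rep
  -- facts about `t₀`
  have ht1 : t₀ 1 = 2 := hinj (by rw [map_ofNat]; exact h.t_one)
  have htc : t₀ c = 0 := hinj (by rw [map_zero]; exact h.t_c)
  have htcomm : ∀ x y, t₀ (x * y) = t₀ (y * x) := fun x y => hinj (h.t_comm x y)
  -- integral numerators
  set A₂ : G → 𝒪 := fun x => t₀ x + t₀ (x * c) with hA₂
  set D₂ : G → 𝒪 := fun x => t₀ x - t₀ (x * c) with hD₂
  set X₄ : G → G → 𝒪 := fun x y => 2 * A₂ (x * y) - A₂ x * A₂ y with hX₄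
  have hA : ∀ x, chA (fun g => algebraMap 𝒪 K (t₀ g)) c x = algebraMap 𝒪 K (A₂ x) / 2 := by
    intro x; rw [chA, hA₂]; simp only [map_add]
  have hD : ∀ x, chD (fun g => algebraMap 𝒪 K (t₀ g)) c x = algebraMap 𝒪 K (D₂ x) / 2 := by
    intro x; rw [chD, hD₂]; simp only [map_sub]
  have hX : ∀ x y, chXi (fun g => algebraMap 𝒪 K (t₀ g)) c x y
      = algebraMap 𝒪 K (X₄ x y) / 4 := by
    intro x y
    rw [chXi, hA, hA, hA, hX₄]
    simp only [map_sub, map_mul, map_ofNat]
    ring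
  have hA₂1 : A₂ 1 = 2 := by simp only [hA₂, one_mul, ht1, htc, add_zero]
  -- the denominator
  set n : 𝒪 := if X₄ σ₀ τ₀ = 0 then 1 else X₄ σ₀ τ₀ with hn
  have hn0 : n ≠ 0 := by
    rw [hn]; split_ifs with h0
    · exact one_ne_zero
    · exact h0
  have h4 : (4 : 𝒪) ≠ 0 := by
    intro h0
    have := congrArg (algebraMap 𝒪 K) h0
    rw [map_ofNat, map_zero] at this
    exact (by norm_num : (4 : K) ≠ 0) this
  set δ₂ : 𝒪 := 4 * n with hδ₂def
  have hδ₂ : δ₂ ≠ 0 := mul_ne_zero h4 hn0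
  set b₀ : G → 𝒪 := fun x => if X₄ σ₀ τ₀ = 0 then 0 else 4 * X₄ x τ₀ with hb₀
  set Z : G → Matrix (Fin 2) (Fin 2) 𝒪 :=
    fun g => !![2 * n * A₂ g, b₀ g; n * X₄ σ₀ g, 2 * n * D₂ g] with hZdef
  have hZ : ∀ g, (Z g).map (algebraMap 𝒪 K) = algebraMap 𝒪 K δ₂ • ρ g := by
    intro g
    rw [hρ, hA, hD, hX, hX, hX]
    ext i j
    fin_cases i <;> fin_cases j
    · simp only [hZdef, hδ₂def, Matrix.map_apply, Matrix.smul_apply, smul_eq_mul, map_mul,
        map_ofNat, Fin.zero_eta, Fin.isValue, Matrix.of_apply, Matrix.cons_val', Matrix.cons_val_zero,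
        Matrix.cons_val_fin_one]
      ring
    · simp only [hZdef, hδ₂def, hb₀, hn, Matrix.map_apply, Matrix.smul_apply, smul_eq_mul, map_mul,
        map_ofNat, Fin.zero_eta, Fin.mk_one, Fin.isValue, Matrix.of_apply, Matrix.cons_val',
        Matrix.cons_val_zero, Matrix.cons_val_one, Matrix.cons_val_fin_one]
      split_ifs with h0
      · rw [h0]; simp
      · have h0' : algebraMap 𝒪 K (X₄ σ₀ τ₀) ≠ 0 := fun hh => h0 (hinj (by rw [hh, map_zero]))
        rw [map_mul, map_ofNat]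
        field_simp
    · simp only [hZdef, hδ₂def, Matrix.map_apply, Matrix.smul_apply, smul_eq_mul, map_mul,
        map_ofNat, Fin.zero_eta, Fin.mk_one, Fin.isValue, Matrix.of_apply, Matrix.cons_val',
        Matrix.cons_val_zero, Matrix.cons_val_one, Matrix.cons_val_fin_one]
      ring
    · simp only [hZdef, hδ₂def, Matrix.map_apply, Matrix.smul_apply, smul_eq_mul, map_mul,
        map_ofNat, Fin.mk_one, Fin.isValue, Matrix.of_apply, Matrix.cons_val',
        Matrix.cons_val_one, Matrix.cons_val_fin_one]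
      ring
  -- the stable lattice
  obtain ⟨B, M, hBdet, hBM⟩ := exists_stable_lattice ρ δ₂ hδ₂ (fun g i j =>
    ⟨Z g i j, by
      have := congrFun (congrFun (hZ g) i) j
      rwa [Matrix.map_apply, Matrix.smul_apply, smul_eq_mul] at this⟩)
  have hdetB' : (B.map (algebraMap 𝒪 K)).det = algebraMap 𝒪 K B.det := by
    rw [RingHom.map_det]; rfl
  have hdetB'0 : (B.map (algebraMap 𝒪 K)).det ≠ 0 := by
    rw [hdetB']
    exact fun h0 => hBdet (hinj (by rw [h0, map_zero]))
  refine ⟨M, δ₂ * B.det, mul_ne_zero hδ₂ hBdet, fun g => ?_, fun g => ?_, fun σ I hσ => ?_⟩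
  · -- trace
    apply hinj
    have e1 : algebraMap 𝒪 K (M g).trace = ((M g).map (algebraMap 𝒪 K)).trace := by
      rw [Matrix.trace_fin_two, Matrix.trace_fin_two, map_add]; rfl
    have e2 : (B.map (algebraMap 𝒪 K) * (M g).map (algebraMap 𝒪 K)
        * Matrix.adjugate (B.map (algebraMap 𝒪 K))).trace
        = (ρ g * B.map (algebraMap 𝒪 K) * Matrix.adjugate (B.map (algebraMap 𝒪 K))).trace := by
      rw [hBM]
    rw [Matrix.trace_mul_cycle, Matrix.adjugate_mul, mul_assoc, Matrix.mul_adjugate,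
      Matrix.smul_mul, one_mul, Matrix.mul_smul, mul_one, Matrix.trace_smul, Matrix.trace_smul,
      smul_eq_mul, smul_eq_mul] at e2
    rw [e1, mul_left_cancel₀ hdetB'0 e2, htr]
  · -- determinant
    apply hinj
    have e1 : algebraMap 𝒪 K (M g).det = ((M g).map (algebraMap 𝒪 K)).det := by
      rw [RingHom.map_det]; rfl
    have e2 := congrArg Matrix.det (hBM g)
    rw [Matrix.det_mul, Matrix.det_mul, mul_comm] at e2
    rw [e1, mul_right_cancel₀ hdetB'0 e2, hdet]
    rfl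
  · -- continuity
    have hA₂l : ∀ g, A₂ (σ * g) - A₂ g ∈ I := by
      intro g
      have e : A₂ (σ * g) - A₂ g = (t₀ (σ * g) - t₀ g) + (t₀ (σ * (g * c)) - t₀ (g * c)) := by
        simp only [hA₂, mul_assoc]; ring
      rw [e]
      exact I.add_mem (hσ g) (hσ (g * c))
    have hA₂r : ∀ g, A₂ (g * σ) - A₂ g ∈ I := by
      intro g
      have e : A₂ (g * σ) - A₂ g = (t₀ (σ * g) - t₀ g) + (t₀ (σ * (c * g)) - t₀ (c * g)) := by
        simp only [hA₂]
        rw [htcomm g σ, htcomm (g * σ) c, ← mul_assoc, htcomm (c * g) σ, htcomm g c]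
        ring
      rw [e]
      exact I.add_mem (hσ g) (hσ (c * g))
    have hA₂σ : A₂ σ - 2 ∈ I := by
      have := hA₂l 1
      rwa [mul_one, hA₂1] at this
    have hD₂σ : D₂ σ - 2 ∈ I := by
      have e : D₂ σ - 2 = (t₀ (σ * 1) - t₀ 1) - (t₀ (σ * c) - t₀ c) := by
        simp only [hD₂, mul_one, ht1, htc]; ring
      rw [e]
      exact I.sub_mem (hσ 1) (hσ c)
    have hXl : ∀ y, X₄ σ y ∈ I := by
      intro y
      have e : X₄ σ y = 2 * (A₂ (σ * y) - A₂ y) - (A₂ σ - 2) * A₂ y := by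
        simp only [hX₄]; ring
      rw [e]
      exact I.sub_mem (I.mul_mem_left _ (hA₂l y)) (I.mul_mem_right _ hA₂σ)
    have hXr : ∀ x, X₄ x σ ∈ I := by
      intro x
      have e : X₄ x σ = 2 * (A₂ (x * σ) - A₂ x) - A₂ x * (A₂ σ - 2) := by
        simp only [hX₄]; ring
      rw [e]
      exact I.sub_mem (I.mul_mem_left _ (hA₂r x)) (I.mul_mem_left _ hA₂σ)
    -- the numerator matrix of `δ₂ (ρ σ - 1)`
    set Y : Matrix (Fin 2) (Fin 2) 𝒪 := Z σ - δ₂ • 1 with hY
    have hYmem : ∀ i j, Y i j ∈ I := by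
      intro i j
      fin_cases i <;> fin_cases j
      · have e : Y 0 0 = 2 * n * (A₂ σ - 2) := by
          simp [hY, hZdef, hδ₂def]; ring
        show Y 0 0 ∈ I
        rw [e]; exact I.mul_mem_left _ hA₂σ
      · have e : Y 0 1 = b₀ σ := by
          simp [hY, hZdef, hδ₂def]
        show Y 0 1 ∈ I
        rw [e, hb₀]
        simp only
        split_ifs
        · exact I.zero_mem
        · exact I.mul_mem_left _ (hXl τ₀)
      · have e : Y 1 0 = n * X₄ σ₀ σ := by
          simp [hY, hZdef, hδ₂def]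
        show Y 1 0 ∈ I
        rw [e]; exact I.mul_mem_left _ (hXr σ₀)
      · have e : Y 1 1 = 2 * n * (D₂ σ - 2) := by
          simp [hY, hZdef, hδ₂def]; ring
        show Y 1 1 ∈ I
        rw [e]; exact I.mul_mem_left _ hD₂σ
    have hYmap : Y.map (algebraMap 𝒪 K) = algebraMap 𝒪 K δ₂ • (ρ σ - 1) := by
      rw [hY, Matrix.map_sub (f := algebraMap 𝒪 K) (fun a b => map_sub _ a b), hZ, smul_sub]
      congr 1
      ext i j
      simp only [Matrix.map_apply, Matrix.smul_apply, Matrix.one_apply, smul_eq_mul]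
      split_ifs <;> simp
    have hkey : Matrix.adjugate B * Y * B = (δ₂ * B.det) • (M σ - 1) := by
      apply Matrix.map_injective hinj
      show (Matrix.adjugate B * Y * B).map (algebraMap 𝒪 K)
        = ((δ₂ * B.det) • (M σ - 1)).map (algebraMap 𝒪 K)
      have e1 : (Matrix.adjugate B).map (algebraMap 𝒪 K)
          = Matrix.adjugate (B.map (algebraMap 𝒪 K)) := by
        have := RingHom.map_adjugate (algebraMap 𝒪 K) B
        exact this
      have e2 : ((δ₂ * B.det) • (M σ - 1)).map (algebraMap 𝒪 K)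
          = (algebraMap 𝒪 K δ₂ * algebraMap 𝒪 K B.det) •
            ((M σ).map (algebraMap 𝒪 K) - 1) := by
        ext i j
        simp only [Matrix.map_apply, Matrix.smul_apply, Matrix.sub_apply, Matrix.one_apply,
          smul_eq_mul, map_mul, map_sub]
        split_ifs <;> simp
      have e3 : Matrix.adjugate (B.map (algebraMap 𝒪 K)) * (ρ σ - 1) * B.map (algebraMap 𝒪 K)
          = algebraMap 𝒪 K B.det • ((M σ).map (algebraMap 𝒪 K) - 1) := by
        rw [mul_assoc, sub_mul, one_mul, ← hBM, ← mul_sub_one, ← mul_assoc,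
          Matrix.adjugate_mul, hdetB', Matrix.smul_mul, one_mul]
      rw [Matrix.map_mul, Matrix.map_mul, e1, hYmap, e2, Matrix.mul_smul, Matrix.smul_mul,
        e3, smul_smul]
    intro i j
    have := congrFun (congrFun hkey i) j
    rw [Matrix.smul_apply, smul_eq_mul] at this
    rw [← this, Matrix.mul_apply]
    refine Ideal.sum_mem _ fun l _ => I.mul_mem_right _ ?_
    rw [Matrix.mul_apply]
    exact Ideal.sum_mem _ fun l' _ => I.mul_mem_left _ (hYmem l' l)

end Integral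

end Fermat.Agent.ES.Wiles
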