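/-
S30 glue (helper59), part 5: from a pseudo-character to a representation.

`exists_integral_rep_of_pseudoChar`: over a PID `𝒪` of characteristic `0`, a function
`t : G → 𝒪` with `t 1 = 2`, `t(xy) = t(yx)`, `t(xy) + ε(y) t(xy⁻¹) = t(x) t(y)` and a
"complex conjugation" `c` (`c² = 1`, `ε c = -1`) is the trace of `M : G →* M₂(𝒪)`, `det M = ε`.
The Cayley–Hamilton datum lives on the space of functions `f` on `G` with
`f(xσy) + ε(σ) f(xσ⁻¹y) = t(σ) f(xy)` (it contains `t`), `G` acting by right translation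
(the idea of the translate space is helper92's).
-/
import Fermat.Agent.ES.WilesIntegral

set_option autoImplicit false
set_option linter.unusedSectionVars false
set_option linter.unusedSimpArgs false

namespace Fermat.Agent.ES.Wiles

section Bridge

variable {G K : Type*} [Group G] [Field K]

/-- A two-dimensional pseudo-character with determinant `ε` (in the form
`t(xy) + ε(y) t(xy⁻¹) = t(x) t(y)`). -/
structure PseudoChar (ε : G →* K) (t : G → K) : Prop where
  t_one : t 1 = 2
  t_comm : ∀ x y, t (x * y) = t (y * x)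
  t_mul : ∀ x y, t (x * y) + ε y * t (x * y⁻¹) = t x * t y

/-- The space of functions `f` on `G` with `f(xσy) + ε(σ) f(xσ⁻¹y) = t(σ) f(xy)`. -/
def chSpace (ε : G →* K) (t : G → K) : Submodule K (G → K) where
  carrier := {f | ∀ σ x y, f (x * σ * y) + ε σ * f (x * σ⁻¹ * y) = t σ * f (x * y)}
  add_mem' := by
    intro f g hf hg σ x y
    simp only [Pi.add_apply]
    linear_combination hf σ x y + hg σ x y
  zero_mem' := by
    intro σ x y
    simp
  smul_mem' := by
    intro a f hf σ x y
    simp only [Pi.smul_apply, smul_eq_mul]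
    linear_combination a * hf σ x y

lemma mem_chSpace {ε : G →* K} {t : G → K} {f : G → K} :
    f ∈ chSpace ε t ↔ ∀ σ x y, f (x * σ * y) + ε σ * f (x * σ⁻¹ * y) = t σ * f (x * y) :=
  Iff.rfl

lemma PseudoChar.self_mem {ε : G →* K} {t : G → K} (h : PseudoChar ε t) : t ∈ chSpace ε t := by
  intro σ x y
  have e1 : t (x * σ * y) = t (y * x * σ) := by rw [h.t_comm, mul_assoc]
  have e2 : t (x * σ⁻¹ * y) = t (y * x * σ⁻¹) := by rw [h.t_comm, mul_assoc]
  rw [e1, e2, h.t_mul, h.t_comm y x, mul_comm]

/-- right translation on the space `chSpace` -/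
def chTransl (ε : G →* K) (t : G → K) (σ : G) : chSpace ε t →ₗ[K] chSpace ε t where
  toFun f := ⟨fun x => f.1 (x * σ), by
    intro τ x y
    have := f.2 τ x (y * σ)
    simpa only [mul_assoc] using this⟩
  map_add' f g := by
    apply Subtype.ext; funext x; rfl
  map_smul' a f := by
    apply Subtype.ext; funext x; rfl

@[simp] lemma chTransl_apply (ε : G →* K) (t : G → K) (σ : G) (f : chSpace ε t) (x : G) :
    (chTransl ε t σ f).1 x = f.1 (x * σ) := rfl

/-- the action of `G` on `chSpace` by right translation -/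
def chRep (ε : G →* K) (t : G → K) : G →* Module.End K (chSpace ε t) where
  toFun := chTransl ε t
  map_one' := by
    apply LinearMap.ext; intro f; apply Subtype.ext; funext x
    simp only [chTransl_apply, mul_one, Module.End.one_apply]
  map_mul' σ τ := by
    apply LinearMap.ext; intro f; apply Subtype.ext; funext x
    simp only [chTransl_apply, Module.End.mul_apply, mul_assoc]

lemma chRep_apply (ε : G →* K) (t : G → K) (σ : G) (f : chSpace ε t) (x : G) :
    (chRep ε t σ f).1 x = f.1 (x * σ) := rfl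

/-- For a pseudo-character `t`, the space `chSpace` contains `t ≠ 0`. -/
theorem PseudoChar.nontrivial_end [CharZero K] {ε : G →* K} {t : G → K} (h : PseudoChar ε t) :
    Nontrivial (Module.End K (chSpace ε t)) := by
  refine ⟨⟨1, 0, fun h10 => ?_⟩⟩
  have := congrArg (fun φ : Module.End K (chSpace ε t) => (φ ⟨t, h.self_mem⟩).1 1) h10
  simp only [Module.End.one_apply, LinearMap.zero_apply] at this
  rw [h.t_one] at this
  exact two_ne_zero this

/-- **Bridge**: the Cayley–Hamilton relation holds on `chSpace` (by its definition). -/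
theorem chDatum_chSpace (ε : G →* K) (t : G → K) (c : G)
    (hc : c * c = 1) (hεc : ε c = -1) :
    CHDatum (E := Module.End K (chSpace ε t)) (chRep ε t) ε t c where
  ch σ := by
    apply LinearMap.ext; intro f; apply Subtype.ext; funext x
    have := f.2 σ x 1
    simp only [mul_one] at this
    simpa [chRep_apply] using this
  c_sq := hc
  ε_c := hεc

end Bridge

section Final

variable {𝒪 G : Type*} [CommRing 𝒪] [IsDomain 𝒪] [IsPrincipalIdealRing 𝒪] [CharZero 𝒪] [Group G]

/-- **Wiles' lemma for integral pseudo-characters.**  Let `𝒪` be a PID of characteristic `0`,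
`t : G → 𝒪` a two-dimensional pseudo-character with determinant `ε : G →* 𝒪`
(`t 1 = 2`, `t(xy) = t(yx)`, `t(xy) + ε(y) t(xy⁻¹) = t(x) t(y)`), and `c ∈ G` with `c² = 1`,
`ε(c) = -1`.  Then `t` is the trace of a representation `M : G → M₂(𝒪)` with determinant `ε`,
which is as continuous as `t`. -/
theorem exists_integral_rep_of_pseudoChar (ε₀ : G →* 𝒪) (t₀ : G → 𝒪) (c : G)
    (h1 : t₀ 1 = 2) (h2 : ∀ x y, t₀ (x * y) = t₀ (y * x))
    (h3 : ∀ x y, t₀ (x * y) + ε₀ y * t₀ (x * y⁻¹) = t₀ x * t₀ y)
    (hc : c * c = 1) (hεc : ε₀ c = -1) :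
    ∃ (M : G →* Matrix (Fin 2) (Fin 2) 𝒪) (δ : 𝒪), δ ≠ 0 ∧
      (∀ g, (M g).trace = t₀ g) ∧ (∀ g, (M g).det = ε₀ g) ∧
      ∀ (σ : G) (I : Ideal 𝒪), (∀ g, t₀ (σ * g) - t₀ g ∈ I) →
        ∀ i j, δ * (M σ - 1) i j ∈ I := by
  set K := FractionRing 𝒪
  have hP : PseudoChar ((algebraMap 𝒪 K : 𝒪 →* K).comp ε₀) (fun g => algebraMap 𝒪 K (t₀ g)) := by
    refine ⟨?_, fun x y => ?_, fun x y => ?_⟩
    · rw [h1, map_ofNat]
    · rw [h2]
    · have := congrArg (algebraMap 𝒪 K) (h3 x y)
      rw [map_add, map_mul, map_mul] at this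
      exact this
  have := hP.nontrivial_end
  exact exists_integral_rep (K := K) (E := Module.End K (chSpace _ _)) _ ε₀ t₀ c
    (chDatum_chSpace _ _ c hc (by
      show algebraMap 𝒪 K (ε₀ c) = -1
      rw [hεc, map_neg, map_one]))

end Final

end Fermat.Agent.ES.Wiles
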